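import Fermat.Agent.S14.BridgeDefs

/-! # S14/BRIDGE-P2 : Kummer generator (B3) -/

set_option autoImplicit false
set_option linter.unusedSectionVars false

namespace Fermat.Agent.S14.Br

namespace KummerAux

open Finset

variable {p : ℕ} [Fact p.Prime] {z : Qb} {b : GQ → ZMod p}

theorem b_one (hb : Cocycle p z b) : b 1 = 0 := by
  have h := hb.add 1 1 rfl rfl
  rw [mul_one] at h
  exact (left_eq_add.1 h)

theorem inv_fix {τ : GQ} (hτ : τ z = z) : τ⁻¹ z = z := by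
  conv_lhs => rw [← hτ]
  show (τ⁻¹ * τ) z = z
  rw [inv_mul_cancel]; rfl

theorem mul_fix {σ τ : GQ} (hσ : σ z = z) (hτ : τ z = z) : (σ * τ) z = z := by
  show σ (τ z) = z
  rw [hτ, hσ]

theorem pow_fix {τ : GQ} (hτ : τ z = z) (n : ℕ) : (τ ^ n) z = z := by
  induction n with
  | zero => rfl
  | succ n ih => rw [pow_succ]; exact mul_fix ih hτ

theorem b_inv (hb : Cocycle p z b) {τ : GQ} (hτ : τ z = z) : b τ⁻¹ = - b τ := by
  have h := hb.add τ⁻¹ τ (inv_fix hτ) hτ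
  rw [inv_mul_cancel, b_one hb] at h
  exact eq_neg_of_add_eq_zero_left h.symm

theorem b_pow (hb : Cocycle p z b) {τ : GQ} (hτ : τ z = z) (n : ℕ) : b (τ ^ n) = n * b τ := by
  induction n with
  | zero => simp [b_one hb]
  | succ n ih =>
    rw [pow_succ, hb.add _ _ (pow_fix hτ n) hτ, ih]
    push_cast; ring

/-- the kernel of the cocycle on `G_K` -/
def N0 (hb : Cocycle p z b) : Subgroup GQ where
  carrier := {τ | τ z = z ∧ b τ = 0}
  one_mem' := ⟨rfl, b_one hb⟩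
  mul_mem' := by
    rintro σ τ ⟨h1, h2⟩ ⟨h3, h4⟩
    exact ⟨mul_fix h1 h3, by rw [hb.add _ _ h1 h3, h2, h4, add_zero]⟩
  inv_mem' := by
    rintro σ ⟨h1, h2⟩
    exact ⟨inv_fix h1, by rw [b_inv hb h1, h2, neg_zero]⟩

theorem mem_N0 (hb : Cocycle p z b) (τ : GQ) : τ ∈ N0 hb ↔ τ z = z ∧ b τ = 0 := Iff.rfl

/-- the closed subgroup -/
def N0c (hb : Cocycle p z b) : ClosedSubgroup GQ where
  toSubgroup := N0 hb
  isClosed' := (N0 hb).isClosed_of_isOpen hb.isOpen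

theorem mem_N0_of_fixes (hb : Cocycle p z b) (τ : GQ)
    (h : ∀ x ∈ IntermediateField.fixedField (N0 hb), τ x = x) : τ ∈ N0 hb := by
  have := Fermat.Agent.Frob.isGaloisQbar
  have h1 := InfiniteGalois.fixingSubgroup_fixedField (N0c hb)
  have h2 : τ ∈ (IntermediateField.fixedField (N0c hb).toSubgroup).fixingSubgroup := by
    rw [IntermediateField.mem_fixingSubgroup_iff]
    exact h
  rw [h1] at h2
  exact h2

/-- `z ^ c` for `c : ZMod p` -/
noncomputable def zp (z : Qb) (c : ZMod p) : Qb := z ^ c.val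

theorem zp_zero : zp z (0 : ZMod p) = 1 := by simp [zp]

theorem zp_add (hz : IsPrimitiveRoot z p) (c d : ZMod p) : zp z (c + d) = zp z c * zp z d := by
  simp only [zp, ZMod.val_add, ← pow_eq_pow_mod _ hz.pow_eq_one, ← pow_add]

theorem zp_natCast (hz : IsPrimitiveRoot z p) (n : ℕ) : zp z (n : ZMod p) = z ^ n := by
  rw [zp, ZMod.val_natCast, ← pow_eq_pow_mod _ hz.pow_eq_one]

theorem zp_one (hz : IsPrimitiveRoot z p) : zp z (1 : ZMod p) = z := by
  have := zp_natCast hz 1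
  simpa using this

theorem zp_ne_zero (hz : IsPrimitiveRoot z p) (c : ZMod p) : zp z c ≠ 0 :=
  pow_ne_zero _ (hz.ne_zero (Fact.out : p.Prime).ne_zero)

theorem map_zp {τ : GQ} (hτ : τ z = z) (c : ZMod p) : τ (zp z c) = zp z c := by
  rw [zp, map_pow, hτ]

theorem zp_pow (hz : IsPrimitiveRoot z p) (c : ZMod p) (n : ℕ) :
    zp z c ^ n = zp z ((n : ZMod p) * c) := by
  induction n with
  | zero => simp [zp_zero]
  | succ n ih =>
    rw [pow_succ, ih, ← zp_add hz]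
    congr 1
    push_cast; ring

/-- the main construction -/
theorem exists_resolvent (hz : IsPrimitiveRoot z p) (hb : Cocycle p z b) :
    ∃ a : Qb, a ≠ 0 ∧ ∀ τ : GQ, τ z = z → τ a = zp z (b τ) * a := by
  classical
  have hpp : p.Prime := Fact.out
  obtain ⟨τ₀, hτ₀, hbτ₀⟩ := hb.nontriv
  set E := IntermediateField.fixedField (N0 hb) with hE
  have hfixE : ∀ n ∈ N0 hb, ∀ x ∈ E, n x = x := by
    intro n hn x hx
    exact (IntermediateField.mem_fixedField_iff _ x).1 hx n hn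
  -- the translates
  have key : ∀ (τ : GQ), τ z = z → ∀ (i j : ZMod p), j = i + b τ → ∀ θ ∈ E,
      τ ((τ₀ ^ i.val) θ) = (τ₀ ^ j.val) θ := by
    intro τ hτ i j hj θ hθ
    have hn : (τ₀ ^ j.val)⁻¹ * (τ * τ₀ ^ i.val) ∈ N0 hb := by
      refine ⟨mul_fix (inv_fix (pow_fix hτ₀ _)) (mul_fix hτ (pow_fix hτ₀ _)), ?_⟩
      rw [hb.add _ _ (inv_fix (pow_fix hτ₀ _)) (mul_fix hτ (pow_fix hτ₀ _)),
        b_inv hb (pow_fix hτ₀ _), hb.add _ _ hτ (pow_fix hτ₀ _), b_pow hb hτ₀, b_pow hb hτ₀, hbτ₀]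
      simp only [ZMod.natCast_val, ZMod.cast_id', id_eq, mul_one, hj]
      ring
    have h1 := hfixE _ hn θ hθ
    have h2 : (τ₀ ^ j.val) (((τ₀ ^ j.val)⁻¹ * (τ * τ₀ ^ i.val)) θ) = τ ((τ₀ ^ i.val) θ) := by
      show ((τ₀ ^ j.val) * ((τ₀ ^ j.val)⁻¹ * (τ * τ₀ ^ i.val))) θ = _
      rw [mul_inv_cancel_left]
      rfl
    rw [← h2, h1]
  -- independence of characters
  have hli : LinearIndependent Qb (fun i : ZMod p =>
      ((((τ₀ ^ i.val : GQ) : Qb →* Qb).comp (E.val : E →* Qb) : E →* Qb) : E → Qb)) := by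
    apply LinearIndependent.comp (linearIndependent_monoidHom E Qb)
      (fun i : ZMod p => (((τ₀ ^ i.val : GQ) : Qb →* Qb).comp (E.val : E →* Qb) : E →* Qb))
    intro i j hij
    have h1 : ∀ x ∈ E, (τ₀ ^ i.val) x = (τ₀ ^ j.val) x := by
      intro x hx
      exact DFunLike.congr_fun hij ⟨x, hx⟩
    have h2 : (τ₀ ^ j.val)⁻¹ * τ₀ ^ i.val ∈ N0 hb := by
      apply mem_N0_of_fixes
      intro x hx
      show (τ₀ ^ j.val)⁻¹ ((τ₀ ^ i.val) x) = x
      rw [h1 x hx]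
      show ((τ₀ ^ j.val)⁻¹ * (τ₀ ^ j.val)) x = x
      rw [inv_mul_cancel]; rfl
    have h3 := h2.2
    rw [hb.add _ _ (inv_fix (pow_fix hτ₀ _)) (pow_fix hτ₀ _), b_inv hb (pow_fix hτ₀ _),
      b_pow hb hτ₀, b_pow hb hτ₀, hbτ₀] at h3
    simp only [ZMod.natCast_val, ZMod.cast_id', id_eq, mul_one] at h3
    exact (neg_add_eq_zero.1 h3).symm
  have hex : ∃ θ ∈ E, ∑ i : ZMod p, zp z (-i) * (τ₀ ^ i.val) θ ≠ 0 := by
    by_contra hcon
    have h0 := Fintype.linearIndependent_iff.1 hli (fun i => zp z (-i)) (by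
      funext θ
      by_contra h
      apply hcon
      refine ⟨θ.1, θ.2, ?_⟩
      intro h'
      apply h
      simpa using h') 0
    simp only [neg_zero, zp_zero] at h0
    exact one_ne_zero h0
  obtain ⟨θ, hθ, ha⟩ := hex
  refine ⟨_, ha, ?_⟩
  intro τ hτ
  rw [map_sum, Finset.mul_sum]
  rw [← Equiv.sum_comp (Equiv.addRight (b τ))
    (fun i => zp z (b τ) * (zp z (-i) * (τ₀ ^ i.val) θ))]
  apply Finset.sum_congr rfl
  intro i _
  rw [map_mul, map_zp hτ, key τ hτ i (i + b τ) rfl θ hθ, Equiv.coe_addRight, ← mul_assoc,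
    ← zp_add hz]
  congr 2
  ring

end KummerAux

open KummerAux in
theorem exists_kummerData {p : ℕ} [Fact p.Prime] (z : Qb) (hz : IsPrimitiveRoot z p)
    (b : GQ → ZMod p) (hb : Cocycle p z b) : ∃ a : Qb, KummerData p z a := by
  have hpp : p.Prime := Fact.out
  obtain ⟨a, ha0, ha⟩ := exists_resolvent hz hb
  refine ⟨a, ⟨hz, ha0, ?_, ?_, ?_, ?_, ?_⟩⟩
  · intro τ hτ
    exact ⟨(b τ).val, ha τ hτ⟩
  · obtain ⟨τ₀, h1, h2⟩ := hb.nontriv
    refine ⟨τ₀, h1, ?_⟩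
    rw [ha τ₀ h1, h2, zp_one hz]
    intro h
    exact hz.ne_one hpp.one_lt (mul_right_cancel₀ ha0 (h.trans (one_mul a).symm))
  · intro σ k hσ τ hτ
    have hconj : (σ⁻¹ * τ * σ) z = z := by
      show σ⁻¹ (τ (σ z)) = z
      rw [hσ, map_pow, hτ, ← hσ]
      show (σ⁻¹ * σ) z = z
      rw [inv_mul_cancel]; rfl
    have h1 : τ (σ a) = σ ((σ⁻¹ * τ * σ) a) := by
      show τ (σ a) = (σ * (σ⁻¹ * τ * σ)) a
      rw [mul_assoc, mul_inv_cancel_left]
      rfl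
    have h2 : ∀ c : ZMod p, σ (zp z c) = zp z ((k : ZMod p) * c) := by
      intro c
      rw [← zp_pow hz, zp, map_pow, hσ, ← pow_mul, ← pow_mul, mul_comm]
    have h3 : τ (σ a) = zp z ((k : ZMod p) * ((k : ZMod p) * b τ)) * σ a := by
      rw [h1, ha _ hconj, hb.conj σ k hσ τ hτ, map_mul, h2]
    have h4 : τ (a ^ (k ^ 2)) = zp z ((k : ZMod p) * ((k : ZMod p) * b τ)) * a ^ (k ^ 2) := by
      rw [map_pow, ha τ hτ, mul_pow, zp_pow hz]
      congr 2
      push_cast; ring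
    rw [map_div₀, h3, h4, mul_div_mul_left _ _ (zp_ne_zero hz _)]
  · intro l hl hlp A hA σ hσ
    obtain ⟨h1, h2⟩ := hb.unram l hl hlp A hA σ hσ
    exact ⟨h1, by rw [ha σ h1, h2, zp_zero, one_mul]⟩
  · intro A hA σ hσ h1
    rw [ha σ h1, hb.split A hA σ hσ h1, zp_zero, one_mul]

end Fermat.Agent.S14.Br
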