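import Fermat.Agent.S14.BridgeDefs

/-! # S14/BRIDGE-P6 : places of a number field versus valuation subrings of `Qb` -/

set_option autoImplicit false

namespace Fermat.Agent.S14.Br

open IsDedekindDomain NumberField

variable {K : Type*} [Field K] [NumberField K] (ι : K →ₐ[ℚ] Qb)

/-- `A` lies over the place `v` -/
def Over (A : ValuationSubring Qb) (v : Pl K) : Prop :=
  ∀ x : 𝓞 K, x ∈ v.asIdeal ↔ ι (x : K) ∈ A.nonunits

theorem exists_over (v : Pl K) : ∃ A : ValuationSubring Qb, Over ι A v := by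
  let R := Localization.AtPrime v.asIdeal
  let g : 𝓞 K →+* Qb := (ι : K →+* Qb).comp (algebraMap (𝓞 K) K)
  have hg : Function.Injective g :=
    (ι : K →+* Qb).injective.comp (IsFractionRing.injective (𝓞 K) K)
  let f : R →+* Qb := IsLocalization.lift (M := v.asIdeal.primeCompl) (g := g) (by
    intro y
    apply IsUnit.mk0
    intro h0
    have : (y : 𝓞 K) = 0 := hg (h0.trans (map_zero _).symm)
    exact y.2 (this ▸ Ideal.zero_mem _))
  obtain ⟨A, h, hloc⟩ := IsLocalRing.exists_factor_valuationRing f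
  refine ⟨A, fun x => ?_⟩
  have hfx : f (algebraMap (𝓞 K) R x) = ι (x : K) := by
    simp [f, g]
  have hmem : ι (x : K) ∈ A := by rw [← hfx]; exact h _
  have hcod : f.codRestrict A.toSubring h (algebraMap (𝓞 K) R x) = (⟨ι (x : K), hmem⟩ : A) :=
    Subtype.ext hfx
  have hunit : IsUnit (algebraMap (𝓞 K) R x) ↔ x ∉ v.asIdeal :=
    IsLocalization.AtPrime.isUnit_to_map_iff R v.asIdeal x
  have hunit2 : IsUnit (⟨ι (x : K), hmem⟩ : A) ↔ IsUnit (algebraMap (𝓞 K) R x) := by
    rw [← hcod]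
    constructor
    · intro hu; exact hloc.map_nonunit _ hu
    · intro hu; exact hu.map _
  rw [ValuationSubring.mem_nonunits_iff_exists_mem_maximalIdeal]
  constructor
  · intro hx
    refine ⟨hmem, ?_⟩
    rw [IsLocalRing.mem_maximalIdeal, mem_nonunits_iff, hunit2, hunit]
    exact not_not.mpr hx
  · rintro ⟨_, hx⟩
    rw [IsLocalRing.mem_maximalIdeal, mem_nonunits_iff, hunit2, hunit] at hx
    exact not_not.mp hx

variable {ι}

theorem Over.exists_prime {A : ValuationSubring Qb} {v : Pl K} (h : Over ι A v) :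
    ∃ l : ℕ, l.Prime ∧ A.LiesOverPrime l ∧ (l : 𝓞 K) ∈ v.asIdeal := by
  have key : ∀ n : ℕ, n ≠ 0 → (n : 𝓞 K) ∈ v.asIdeal → ∃ l : ℕ, l.Prime ∧ (l : 𝓞 K) ∈ v.asIdeal := by
    intro n
    induction n using Nat.recOnMul with
    | zero => intro h0; exact absurd rfl h0
    | one =>
      intro _ h1
      rw [Nat.cast_one] at h1
      exact absurd ((Ideal.eq_top_iff_one _).mpr h1) v.isPrime.ne_top
    | prime l hl => intro _ h1; exact ⟨l, hl, h1⟩
    | mul a b iha ihb =>
      intro h0 h1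
      rw [Nat.cast_mul] at h1
      rcases v.isPrime.mem_or_mem h1 with h2 | h2
      · exact iha (left_ne_zero_of_mul h0) h2
      · exact ihb (right_ne_zero_of_mul h0) h2
  have hN0 : Ideal.absNorm v.asIdeal ≠ 0 := by
    rw [Ne, Ideal.absNorm_eq_zero_iff]; exact v.ne_bot
  obtain ⟨l, hl, hlv⟩ := key _ hN0 (Ideal.absNorm_mem v.asIdeal)
  refine ⟨l, hl, ?_, hlv⟩
  have := (h (l : 𝓞 K)).mp hlv
  simpa [ValuationSubring.LiesOverPrime] using this

/-- integers of `K` land in `A` -/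
theorem map_integer_mem (A : ValuationSubring Qb) (a : 𝓞 K) : ι (a : K) ∈ A := by
  apply Frob.mem_of_isIntegral
  exact (RingOfIntegers.isIntegral_coe a).map ι.toRingHom.toIntAlgHom

theorem Over.valuation_integer_eq_one {A : ValuationSubring Qb} {v : Pl K} (h : Over ι A v)
    (a : 𝓞 K) (ha : a ∉ v.asIdeal) : A.valuation (ι (a : K)) = 1 := by
  have h1 : A.valuation (ι (a : K)) ≤ 1 := (A.valuation_le_one_iff _).mpr (map_integer_mem A a)
  have h2 : ¬ A.valuation (ι (a : K)) < 1 := by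
    rw [← ValuationSubring.mem_nonunits_iff, ← h a]; exact ha
  exact le_antisymm h1 (not_lt.mp h2)

theorem Over.valuation_eq_one {A : ValuationSubring Qb} {v : Pl K} (h : Over ι A v) (x : Kˣ)
    (hx : ord v x = 0) : A.valuation (ι (x : K)) = 1 := by
  obtain ⟨a, b, ha, hb, hab⟩ := exists_frac v x hx
  rw [hab, map_div₀, map_div₀, h.valuation_integer_eq_one a ha, h.valuation_integer_eq_one b hb,
    div_one]

theorem Over.valuation_eq {A : ValuationSubring Qb} {v : Pl K} (h : Over ι A v) (π x : Kˣ)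
    (hπ : ord v π = 1) : A.valuation (ι (x : K)) = A.valuation (ι (π : K)) ^ (ord v x) := by
  have h0 : ord v (x * (π ^ (ord v x))⁻¹) = 0 := by
    rw [ord_mul, ord_inv, ord_zpow, hπ]; ring
  have h1 := h.valuation_eq_one _ h0
  have hπ0 : A.valuation (ι (π : K)) ≠ 0 := by
    rw [Ne, map_eq_zero, map_eq_zero]; exact π.ne_zero
  push_cast at h1
  rw [map_mul, map_mul, map_inv₀, map_inv₀, map_zpow₀, map_zpow₀] at h1
  exact (mul_inv_eq_one₀ (zpow_ne_zero _ hπ0)).mp h1

theorem Over.valuation_lt_one {A : ValuationSubring Qb} {v : Pl K} (h : Over ι A v) (π : Kˣ)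
    (hπ : ord v π = 1) : A.valuation (ι (π : K)) < 1 := by
  obtain ⟨a, ⟨b, hb⟩, hab⟩ := HeightOneSpectrum.exists_primeCompl_mul_eq_of_integer v (π : K)
    ((valuation_le_one_iff v π).mpr (by omega))
  have hb' : b ∉ v.asIdeal := hb
  have hb0 : (algebraMap (𝓞 K) K b) ≠ 0 := by
    rw [Ne, map_eq_zero_iff _ (IsFractionRing.injective (𝓞 K) K)]
    rintro rfl
    exact hb' (zero_mem _)
  have e : ((π * Units.mk0 _ hb0 : Kˣ) : K) = a := hab
  have hordb : ord v (Units.mk0 _ hb0) = 0 := (ord_eq_zero_iff v _ b rfl).mpr hb'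
  have ha : a ∈ v.asIdeal := by
    have := (le_ord_iff v _ a e 1).mp (by rw [ord_mul, hπ, hordb]; simp)
    rwa [pow_one] at this
  have h1 : A.valuation (ι (a : K)) < 1 := (ValuationSubring.mem_nonunits_iff A).mp ((h a).mp ha)
  have h2 : A.valuation (ι ((b : 𝓞 K) : K)) = 1 := h.valuation_integer_eq_one b hb'
  have hab' : (π : K) * ((b : 𝓞 K) : K) = (a : K) := hab
  rw [← hab', map_mul, map_mul, h2, mul_one] at h1
  exact h1

theorem Over.ord_nonneg_iff {A : ValuationSubring Qb} {v : Pl K} (h : Over ι A v) (x : Kˣ) :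
    0 ≤ ord v x ↔ ι (x : K) ∈ A := by
  obtain ⟨π, hπ⟩ := exists_ord_eq ({v} : Finset (Pl K)) (fun _ => 1)
  have hπ1 : ord v π = 1 := hπ v (Finset.mem_singleton_self v)
  have hlt := h.valuation_lt_one π hπ1
  have hpos : 0 < A.valuation (ι (π : K)) := by
    rw [zero_lt_iff, Ne, map_eq_zero, map_eq_zero]; exact π.ne_zero
  rw [← A.valuation_le_one_iff, h.valuation_eq π x hπ1,
    zpow_le_one_iff_right_of_lt_one₀ hpos hlt]

/-- membership in the higher unit groups -/
theorem Over.mem_Ulev {A : ValuationSubring Qb} {v : Pl K} (h : Over ι A v) (π : 𝓞 K)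
    (hπ : π ∈ v.asIdeal) (n : ℕ) (hn : 0 < n) (x : Kˣ)
    (hx : A.valuation (ι (x : K) - 1) ≤ A.valuation (ι (π : K)) ^ n) : x ∈ Ulev v n := by
  by_cases hx1 : (x : K) - 1 = 0
  · have : x = 1 := Units.ext (by simpa using sub_eq_zero.mp hx1)
    rw [this]; exact Subgroup.one_mem _
  obtain ⟨ϖ, hϖ⟩ := exists_ord_eq ({v} : Finset (Pl K)) (fun _ => 1)
  have hϖ1 : ord v ϖ = 1 := hϖ v (Finset.mem_singleton_self v)
  have hlt := h.valuation_lt_one ϖ hϖ1
  have hpos : 0 < A.valuation (ι (ϖ : K)) := by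
    rw [zero_lt_iff, Ne, map_eq_zero, map_eq_zero]; exact ϖ.ne_zero
  set Y : Kˣ := Units.mk0 _ hx1 with hY
  have hYv : A.valuation (ι (x : K) - 1) = A.valuation (ι (ϖ : K)) ^ (ord v Y) := by
    rw [← h.valuation_eq ϖ Y hϖ1, hY, Units.val_mk0, map_sub ι, map_one ι]
  have hπ0 : (π : K) ≠ 0 := by
    intro h0
    rw [h0, map_zero, map_zero, zero_pow hn.ne', hYv] at hx
    exact (zpow_pos hpos _).not_ge hx
  set P : Kˣ := Units.mk0 _ hπ0 with hP
  have hPv : A.valuation (ι (π : K)) = A.valuation (ι (ϖ : K)) ^ (ord v P) := by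
    rw [← h.valuation_eq ϖ P hϖ1, hP, Units.val_mk0]
  have hordP : 1 ≤ ord v P := by
    have := (le_ord_iff v P π rfl 1).mpr (by rwa [pow_one])
    simpa using this
  rw [hYv, hPv, ← zpow_natCast, ← zpow_mul, zpow_le_zpow_iff_right_of_lt_one₀ hpos hlt] at hx
  have hordY : (n : ℤ) ≤ ord v Y := by
    have hn' : (0 : ℤ) ≤ n := by positivity
    nlinarith
  have hval : v.valuation K ((x : K) - 1) ≤ WithZero.exp (-(n : ℤ)) := by
    have := valuation_eq_exp v Y
    rw [hY, Units.val_mk0] at this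
    rw [this, WithZero.exp_le_exp]
    rw [hY] at hordY
    omega
  refine ⟨?_, hval⟩
  have hlt1 : v.valuation K ((x : K) - 1) < 1 := by
    refine hval.trans_lt ?_
    rw [← WithZero.exp_zero, WithZero.exp_lt_exp]
    have : (0 : ℤ) < n := by exact_mod_cast hn
    omega
  have := Valuation.map_one_add_of_lt _ hlt1
  rwa [add_sub_cancel] at this

/-- the fixed field of `{τ | τ z = z}` is `ι K` if `K = ℚ(ζ)`, `z = ι ζ`. -/
theorem mem_range_of_fixed (ζ : K) (_hζ : IntermediateField.adjoin ℚ {ζ} = ⊤) (x : Qb)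
    (hx : ∀ τ : GQ, τ (ι ζ) = ι ζ → τ x = x) : ∃ y : K, ι y = x := by
  have := Frob.isGaloisQbar
  have h1 : x ∈ IntermediateField.fixedField (ι.fieldRange).fixingSubgroup := by
    rw [IntermediateField.mem_fixedField_iff]
    intro τ hτ
    apply hx
    exact (IntermediateField.mem_fixingSubgroup_iff _ _).mp hτ _ (AlgHom.mem_fieldRange.mpr ⟨ζ, rfl⟩)
  rw [InfiniteGalois.fixedField_fixingSubgroup] at h1
  exact AlgHom.mem_fieldRange.mp h1

/-- every automorphism of `K` extends to `Qb`. -/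
theorem exists_extension (σ : K ≃ₐ[ℚ] K) : ∃ σ' : GQ, ∀ x : K, σ' (ι x) = ι (σ x) := by
  let _ : Algebra K Qb := ι.toRingHom.toAlgebra
  have : IsScalarTower ℚ K Qb := IsScalarTower.of_algebraMap_eq (fun x => (ι.commutes x).symm)
  have : Normal ℚ Qb := Frob.isGaloisQbar.to_normal
  exact ⟨σ.liftNormal Qb, fun x => σ.liftNormal_commutes Qb x⟩

end Fermat.Agent.S14.Br
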