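import Fermat.Agent.S14.BridgeLift

/-! # S14/BRIDGE-P4 : tame places (B4) -/

set_option autoImplicit false

namespace Fermat.Agent.S14.Br

namespace Tame

open Finset


/-- Lagrange resolvents -/
noncomputable def resolv (p : ℕ) (w : Qb) (τ : GQ) (x : Qb) (i : ℕ) : Qb :=
  (p : Qb)⁻¹ * ∑ j ∈ range p, (w⁻¹) ^ (i * j) * (τ ^ j) x

theorem sum_resolv {p : ℕ} [Fact p.Prime] {w : Qb} (hw : IsPrimitiveRoot w p) (τ : GQ) (x : Qb) :
    ∑ i ∈ range p, resolv p w τ x i = x := by
  have hp : p.Prime := Fact.out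
  have hp0 : (p : Qb) ≠ 0 := by exact_mod_cast hp.ne_zero
  unfold resolv
  rw [← mul_sum, sum_comm]
  have h1 : ∀ j ∈ range p, ∑ i ∈ range p, (w⁻¹) ^ (i * j) * (τ ^ j) x =
      if j = 0 then (p : Qb) * x else 0 := by
    intro j hj
    rw [← sum_mul]
    split_ifs with h0
    · subst h0
      simp
    · have hj' : j < p := mem_range.mp hj
      have hcop : Nat.Coprime j p := (Nat.coprime_comm.mp
        ((Nat.Prime.coprime_iff_not_dvd hp).mpr (fun h => h0 (Nat.eq_zero_of_dvd_of_lt h hj'))))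
      have hprim : IsPrimitiveRoot ((w⁻¹) ^ j) p := (hw.inv).pow_of_coprime j hcop
      have := hprim.geom_sum_eq_zero hp.one_lt
      have e : ∑ i ∈ range p, (w⁻¹) ^ (i * j) = ∑ i ∈ range p, ((w⁻¹) ^ j) ^ i :=
        sum_congr rfl (fun i _ => by rw [← pow_mul, mul_comm])
      rw [e, this, zero_mul]
  rw [sum_congr rfl h1, sum_ite_eq' (range p) 0 (fun _ => (p : Qb) * x),
    if_pos (mem_range.mpr hp.pos), ← mul_assoc, inv_mul_cancel₀ hp0, one_mul]

theorem map_resolv {p : ℕ} [Fact p.Prime] {w : Qb} (hw : w ^ p = 1) (τ : GQ) (hτw : τ w = w)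
    (x : Qb) (hx : (τ ^ p) x = x) (i : ℕ) :
    τ (resolv p w τ x i) = w ^ i * resolv p w τ x i := by
  have hw0 : w ≠ 0 := by
    rintro rfl
    have hp : p.Prime := Fact.out
    rw [zero_pow hp.ne_zero] at hw
    exact zero_ne_one hw
  unfold resolv
  rw [map_mul, map_inv₀, map_natCast, map_sum, mul_left_comm]
  congr 1
  set f : ℕ → Qb := fun j => (w⁻¹) ^ (i * j) * (τ ^ j) x with hf
  have h1 : ∀ j, τ (f j) = w ^ i * f (j + 1) := by
    intro j
    simp only [hf]
    rw [map_mul, map_pow, map_inv₀, hτw, pow_succ' τ j, AlgEquiv.mul_apply, ← mul_assoc]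
    congr 1
    rw [mul_add, mul_one, pow_add, mul_comm (w ^ i), mul_assoc, inv_pow w i,
      inv_mul_cancel₀ (pow_ne_zero _ hw0), mul_one]
  have h2 : f p = f 0 := by
    simp only [hf]
    rw [hx, mul_zero, pow_zero, pow_zero, AlgEquiv.one_apply, mul_comm i p, pow_mul, inv_pow, hw,
      inv_one, one_pow]
  rw [sum_congr rfl (fun j _ => h1 j), ← mul_sum]
  congr 1
  have h3 := sum_range_succ' f p
  rw [sum_range_succ, h2] at h3
  exact (add_right_cancel h3).symm


/-- the closed subgroup fixing `z` and `a` -/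
noncomputable def HH (z a : Qb) : Subgroup GQ :=
  (IntermediateField.adjoin ℚ {z, a}).fixingSubgroup

theorem mem_HH {z a : Qb} {τ : GQ} : τ ∈ HH z a ↔ τ z = z ∧ τ a = a := by
  unfold HH
  rw [IntermediateField.mem_fixingSubgroup_iff]
  constructor
  · intro h
    exact ⟨h z (IntermediateField.subset_adjoin _ _ (by simp)),
      h a (IntermediateField.subset_adjoin _ _ (by simp))⟩
  · rintro ⟨hz, ha⟩ x hx
    induction hx using IntermediateField.adjoin_induction with
    | mem x hx =>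
      rcases hx with rfl | rfl
      · exact hz
      · exact ha
    | algebraMap x => exact τ.commutes x
    | add x y _ _ hx hy => rw [map_add, hx, hy]
    | inv x _ hx => rw [map_inv₀, hx]
    | mul x y _ _ hx hy => rw [map_mul, hx, hy]

theorem isClosed_HH (z a : Qb) : IsClosed (HH z a : Set GQ) := by
  haveI : FiniteDimensional ℚ (IntermediateField.adjoin ℚ ({z, a} : Set Qb)) :=
    IntermediateField.finiteDimensional_adjoin
      (fun x _ => (AlgebraicClosure.isAlgebraic ℚ).isIntegral.isIntegral x)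
  exact IntermediateField.fixingSubgroup_isClosed _

theorem inv_fix {σ : GQ} {u : Qb} (h : σ u = u) : σ⁻¹ u = u := by
  conv_lhs => rw [← h]
  exact σ.symm_apply_apply u

variable {p : ℕ} [Fact p.Prime] {z a : Qb}

omit [Fact p.Prime] in
theorem fixed_map (kd : KummerData p z a) {σ : GQ} (hσ : σ z = z) {u : Qb}
    (hu : ∀ h ∈ HH z a, h u = u) : ∀ h ∈ HH z a, h (σ u) = σ u := by
  intro h hh
  obtain ⟨hz, ha⟩ := mem_HH.mp hh
  obtain ⟨c, hc⟩ := kd.kummer σ hσ
  have h1 : σ⁻¹ * h * σ ∈ HH z a := by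
    rw [mem_HH]
    constructor
    · rw [AlgEquiv.mul_apply, AlgEquiv.mul_apply, hσ, hz, inv_fix hσ]
    · rw [AlgEquiv.mul_apply, AlgEquiv.mul_apply, hc, map_mul, map_pow, hz, ha, ← hc]
      exact σ.symm_apply_apply a
  have h2 := hu _ h1
  rw [AlgEquiv.mul_apply, AlgEquiv.mul_apply] at h2
  have h3 := congrArg σ h2
  rwa [show σ (σ⁻¹ (h (σ u))) = h (σ u) from σ.apply_symm_apply _] at h3

theorem eq_of_fixed {τ σ : GQ} (hτ : τ z = z) (hσ : σ z = z) (h : τ a = σ a) {u : Qb}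
    (hu : ∀ h ∈ HH z a, h u = u) : τ u = σ u := by
  have h1 : σ⁻¹ * τ ∈ HH z a := by
    rw [mem_HH]
    constructor
    · rw [AlgEquiv.mul_apply, hτ, inv_fix hσ]
    · rw [AlgEquiv.mul_apply, h]
      exact σ.symm_apply_apply a
  have h2 := hu _ h1
  rw [AlgEquiv.mul_apply] at h2
  have h3 := congrArg σ h2
  rwa [show σ (σ⁻¹ (τ u)) = τ u from σ.apply_symm_apply _] at h3

theorem pow_fix {σ : GQ} {u : Qb} (h : σ u = u) (n : ℕ) : (σ ^ n) u = u := by
  induction n with
  | zero => simp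
  | succ n ih => rw [pow_succ, AlgEquiv.mul_apply, h, ih]

theorem pow_eigen {σ : GQ} {u w : Qb} (hw : σ w = w) (h : σ u = w * u) (n : ℕ) :
    (σ ^ n) u = w ^ n * u := by
  induction n with
  | zero => simp
  | succ n ih => rw [pow_succ', AlgEquiv.mul_apply, ih, map_mul, map_pow, hw, h]; ring

end Tame

open Tame in
theorem tame_core {p : ℕ} [Fact p.Prime] {z a : Qb} (kd : KummerData p z a)
    {l : ℕ} (hl : l.Prime) (hlp : l ≠ p) (A : ValuationSubring Qb) (hA : A.LiesOverPrime l)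
    (ϖ : Qb) (hϖ0 : ϖ ≠ 0) (hϖ : A.valuation ϖ < 1) (hϖz : ∀ τ : GQ, τ z = z → τ ϖ = ϖ)
    (hdisc : ∀ x : Qb, x ≠ 0 → (∀ τ : GQ, τ z = z → τ x = x) →
      ∃ m : ℤ, A.valuation x = A.valuation ϖ ^ m) :
    ∃ m : ℤ, A.valuation a = A.valuation ϖ ^ m := by
  have hp : p.Prime := Fact.out
  have hzp : z ^ p = 1 := kd.prim.pow_eq_one
  have hap : ∀ τ : GQ, τ z = z → τ (a ^ p) = a ^ p := by
    intro τ hτ
    obtain ⟨i, hi⟩ := kd.kummer τ hτ
    rw [map_pow, hi, mul_pow, ← pow_mul, mul_comm i p, pow_mul, hzp, one_pow, one_mul]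
  obtain ⟨n, hn⟩ := hdisc (a ^ p) (pow_ne_zero _ kd.ne_zero) hap
  rw [map_pow] at hn
  by_cases hpn : (p : ℤ) ∣ n
  · obtain ⟨m, rfl⟩ := hpn
    refine ⟨m, ?_⟩
    rw [mul_comm, zpow_mul, zpow_natCast] at hn
    exact (pow_left_inj₀ zero_le zero_le hp.ne_zero).mp hn
  exfalso
  obtain ⟨τ₀, hτ₀z, hτ₀a⟩ := kd.moved
  obtain ⟨k, hk⟩ := kd.kummer τ₀ hτ₀z
  set w := z ^ k with hw
  have hw1 : w ≠ 1 := fun h => hτ₀a (by rw [hk, h, one_mul])
  have hwp : w ^ p = 1 := by rw [hw, ← pow_mul, mul_comm, pow_mul, hzp, one_pow]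
  have hw0 : w ≠ 0 := by
    intro h
    rw [h, zero_pow hp.ne_zero] at hwp
    exact zero_ne_one hwp
  have hwprim : IsPrimitiveRoot w p := by
    rw [← orderOf_eq_prime hwp hw1]; exact IsPrimitiveRoot.orderOf w
  have hτ₀w : τ₀ w = w := by rw [hw, map_pow, hτ₀z]
  have hwint : IsIntegral ℤ w := IsIntegral.of_pow hp.pos (by rw [hwp]; exact isIntegral_one)
  have hwiint : IsIntegral ℤ w⁻¹ :=
    IsIntegral.of_pow hp.pos (by rw [inv_pow, hwp, inv_one]; exact isIntegral_one)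
  have hvp : A.valuation (p : Qb) = 1 := by
    have h1 : (p : Qb) ∈ A := Frob.mem_of_isIntegral A (by
      simpa using (isIntegral_algebraMap (R := ℤ) (A := Qb) (x := (p : ℤ))))
    have h2 : ((p : ℤ) : Qb) ∉ A.nonunits := Frob.int_not_mem_nonunits A hl hA (by
      intro h
      exact hlp ((Nat.prime_dvd_prime_iff_eq hl hp).mp (by exact_mod_cast h)))
    rw [ValuationSubring.mem_nonunits_iff, not_lt] at h2
    exact le_antisymm ((A.valuation_le_one_iff _).mpr h1) (by simpa using h2)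
  have hϖpos : 0 < A.valuation ϖ := by
    rw [zero_lt_iff]
    exact (A.valuation.ne_zero_iff).mpr hϖ0
  have key : ∀ x : Qb, IsIntegral ℤ x → (∀ h ∈ HH z a, h x = x) → τ₀ x - x ∈ A.nonunits := by
    intro x hxi hxH
    have hτp : (τ₀ ^ p) x = x := hxH _ (mem_HH.mpr ⟨pow_fix hτ₀z p, by
      rw [pow_eigen hτ₀w hk, hwp, one_mul]⟩)
    have hsum := sum_resolv hwprim τ₀ x
    have hmap := map_resolv hwp τ₀ hτ₀w x hτp
    set y := resolv p w τ₀ x with hy
    have hyH : ∀ i, ∀ h ∈ HH z a, h (y i) = y i := by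
      intro i h hh
      have hhw : h w = w := by rw [hw, map_pow, (mem_HH.mp hh).1]
      simp only [hy, resolv]
      rw [map_mul, map_inv₀, map_natCast, map_sum]
      congr 1
      refine Finset.sum_congr rfl fun j _ => ?_
      rw [map_mul, map_pow, map_inv₀, hhw, fixed_map kd (pow_fix hτ₀z j) hxH h hh]
    have hyA : ∀ i, A.valuation (y i) ≤ 1 := by
      intro i
      simp only [hy, resolv]
      rw [map_mul, map_inv₀, hvp, inv_one, one_mul]
      refine Valuation.map_sum_le _ fun j _ => ?_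
      rw [A.valuation_le_one_iff]
      exact Frob.mem_of_isIntegral A ((hwiint.pow _).mul (map_isIntegral_int (τ₀ ^ j) hxi))
    have hfix : ∀ i, ∀ τ : GQ, τ z = z → τ (y i / a ^ i) = y i / a ^ i := by
      intro i τ hτ
      obtain ⟨c, hc⟩ := kd.kummer τ hτ
      obtain ⟨m, _, hm⟩ := hwprim.eq_pow_of_pow_eq_one (ξ := z ^ c)
        (by rw [← pow_mul, mul_comm, pow_mul, hzp, one_pow])
      have e1 : τ a = (τ₀ ^ m) a := by rw [pow_eigen hτ₀w hk, hm, hc]
      have e2 : τ (y i) = (τ₀ ^ m) (y i) := eq_of_fixed hτ (pow_fix hτ₀z m) e1 (hyH i)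
      have e3 : (τ₀ ^ m) (y i) = (w ^ i) ^ m * y i :=
        pow_eigen (by rw [map_pow, hτ₀w]) (hmap i) m
      have e4 : (w ^ i) ^ m = (w ^ m) ^ i := pow_right_comm w i m
      rw [map_div₀, map_pow, e2, e3, e1, pow_eigen hτ₀w hk, mul_pow, e4,
        mul_div_mul_left _ _ (pow_ne_zero _ (pow_ne_zero _ hw0))]
    have hlt : ∀ i, 0 < i → i < p → A.valuation (y i) < 1 := by
      intro i hi0 hip
      by_cases hy0 : y i = 0
      · rw [hy0, map_zero]; exact zero_lt_one
      obtain ⟨m, hm⟩ := hdisc (y i / a ^ i) (div_ne_zero hy0 (pow_ne_zero _ kd.ne_zero)) (hfix i)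
      refine lt_of_le_of_ne (hyA i) fun h1 => ?_
      rw [map_div₀, h1, map_pow] at hm
      have h2 : (1 : A.ValueGroup) = A.valuation ϖ ^ (m * p + n * i) := by
        rw [zpow_add₀ hϖpos.ne', zpow_mul, zpow_mul, ← hm, ← hn, zpow_natCast, zpow_natCast,
          div_pow, one_pow, ← pow_mul, ← pow_mul, mul_comm i p]
        exact (div_mul_cancel₀ _ (pow_ne_zero _ ((A.valuation.ne_zero_iff).mpr kd.ne_zero))).symm
      have h3 := (zpow_eq_one_iff_right₀ hϖpos.le hϖ.ne).mp h2.symm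
      have h4 : (p : ℤ) ∣ n * i := by
        have : n * i = - m * p := by linarith
        rw [this]; exact dvd_mul_left _ _
      rcases (Nat.prime_iff_prime_int.mp hp).dvd_or_dvd h4 with h5 | h5
      · exact hpn h5
      · have h6 : p ∣ i := by exact_mod_cast h5
        exact absurd (Nat.le_of_dvd hi0 h6) (not_le.mpr hip)
    have hdiff : τ₀ x - x = ∑ i ∈ Finset.range p, (w ^ i - 1) * y i := by
      conv_lhs => rw [← hsum]
      rw [map_sum, ← Finset.sum_sub_distrib]
      refine Finset.sum_congr rfl fun i _ => ?_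
      rw [hmap i]; ring
    rw [ValuationSubring.mem_nonunits_iff, hdiff]
    refine Valuation.map_sum_lt _ one_ne_zero fun i hi => ?_
    rcases Nat.eq_zero_or_pos i with rfl | hi0
    · simp
    · rw [map_mul]
      rw [mul_comm]
      refine mul_lt_one_of_lt_of_le (hlt i hi0 (Finset.mem_range.mp hi)) ?_
      rw [A.valuation_le_one_iff]
      exact Frob.mem_of_isIntegral A ((hwint.pow _).sub isIntegral_one)
  obtain ⟨h, hh, hI⟩ := exists_mul_mem_inertia (HH z a) (isClosed_HH z a) A hl hA τ₀ key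
  have := (kd.unram l hl hlp A hA _ hI).2
  rw [AlgEquiv.mul_apply, (mem_HH.mp hh).2] at this
  exact hτ₀a this

end Fermat.Agent.S14.Br
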