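import Fermat.Agent.S14.BridgeLift
import Fermat.Agent.S05.Valuation

/-! # S14/BRIDGE-P5 : the wild place (B5) -/

set_option autoImplicit false

open scoped Pointwise

namespace Fermat.Agent.S14.Br

local notation "Zbar" => integralClosure ℤ (AlgebraicClosure ℚ)

open Fermat.Agent.Frob

/-- the value group of a valuation subring of `Qb` over a prime is archimedean. -/
theorem exists_pow_valuation_le (A : ValuationSubring Qb) {l : ℕ} (hl : l.Prime)
    (hA : A.LiesOverPrime l) {x t : Qb} (hx : A.valuation x < 1) (ht : t ≠ 0) :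
    ∃ M : ℕ, A.valuation x ^ M ≤ A.valuation t := by
  by_cases hx0 : x = 0
  · exact ⟨1, by simp [hx0]⟩
  obtain ⟨n, k, hn, hxk⟩ := Fermat.Agent.S05.Valuation.exists_pow_eq A hl hA hx0
  obtain ⟨m, k', hm, htk⟩ := Fermat.Agent.S05.Valuation.exists_pow_eq A hl hA ht
  set v := A.valuation (l : Qb) with hv
  have hv0 : 0 < v := zero_lt_iff.mpr (Fermat.Agent.S05.Valuation.val_q_ne_zero A hl)
  have hv1 : v < 1 := (ValuationSubring.mem_nonunits_iff A).mp hA
  have hk : 0 < k := by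
    have h1 : v ^ k < v ^ (0 : ℤ) := by
      rw [← hxk, zpow_zero]
      exact pow_lt_one₀ zero_le' hx hn.ne'
    exact (zpow_lt_zpow_iff_right_of_lt_one₀ hv0 hv1).mp h1
  refine ⟨n * k'.toNat, ?_⟩
  rw [← pow_le_pow_iff_left₀ zero_le' zero_le' hm.ne', htk, pow_mul, hxk, ← zpow_natCast,
    ← zpow_natCast, ← zpow_mul, ← zpow_mul, zpow_le_zpow_iff_right_of_lt_one₀ hv0 hv1]
  have h1 : k' ≤ (k'.toNat : ℤ) := Int.self_le_toNat k'
  have h2 : (0 : ℤ) ≤ (k'.toNat : ℤ) := Int.natCast_nonneg _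
  have h3 : (1 : ℤ) ≤ (m : ℤ) := by exact_mod_cast hm
  nlinarith [mul_nonneg h2 (sub_nonneg.mpr h3), mul_nonneg (mul_nonneg h2 (by linarith : (0:ℤ) ≤ (m:ℤ))) (sub_nonneg.mpr (Int.add_one_le_iff.mpr hk))]

theorem isIntegral_apply (g : GQ) {y : Qb} (hy : IsIntegral ℤ y) : IsIntegral ℤ (g y) :=
  hy.map g.toAlgHom.toRingHom.toIntAlgHom

/-- contraction of a prime of `Zbar` over `l` to any subalgebra is maximal. -/
theorem isMaximal_under (S : Subalgebra ℤ Zbar) (Q' : Ideal Zbar) [Q'.IsPrime] {l : ℕ}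
    (hl : l.Prime) (hlQ : ((l : ℤ) : Zbar) ∈ Q') : (Q'.under S).IsMaximal := by
  have hint : Algebra.IsIntegral ℤ S := ⟨fun a =>
    (isIntegral_algHom_iff S.val Subtype.val_injective).mp (Algebra.IsIntegral.isIntegral _)⟩
  have hP0 : (Q'.under S).IsPrime := inferInstance
  have hmaxZ : ((Q'.under S).comap (algebraMap ℤ S)).IsMaximal := by
    have hp : ((Q'.under S).comap (algebraMap ℤ S)).IsPrime := inferInstance
    apply hp.isMaximal
    intro hbot
    have hmem : (l : ℤ) ∈ (Q'.under S).comap (algebraMap ℤ S) := by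
      rw [Ideal.mem_comap, Ideal.under, Ideal.mem_comap, ← IsScalarTower.algebraMap_apply]
      simpa using hlQ
    rw [hbot, Ideal.mem_bot] at hmem
    exact hl.ne_zero (by exact_mod_cast hmem)
  exact Ideal.isMaximal_of_isIntegral_of_isMaximal_comap (R := ℤ) (Q'.under S) hmaxZ

/-- the ideal `{x | |g x| ≤ s}` of a subalgebra of `Zbar`. -/
def ballIdeal (A : ValuationSubring Qb) (S : Subalgebra ℤ Zbar) (g : GQ) (s : A.ValueGroup) :
    Ideal S where
  carrier := {x | A.valuation (g ((x : Zbar) : Qb)) ≤ s}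
  add_mem' := fun {x y} hx hy => by
    simp only [Set.mem_setOf_eq] at hx hy ⊢
    have : (((x + y : S) : Zbar) : Qb) = ((x : Zbar) : Qb) + ((y : Zbar) : Qb) := rfl
    rw [this, map_add]
    exact A.valuation.map_add_le hx hy
  zero_mem' := by
    simp only [Set.mem_setOf_eq]
    have : (((0 : S) : Zbar) : Qb) = 0 := rfl
    rw [this, map_zero, map_zero]
    exact zero_le'
  smul_mem' := fun c x hx => by
    simp only [Set.mem_setOf_eq] at hx ⊢
    have : (((c • x : S) : Zbar) : Qb) = ((c : Zbar) : Qb) * ((x : Zbar) : Qb) := rfl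
    rw [this, map_mul, map_mul]
    have h1 : A.valuation (g ((c : Zbar) : Qb)) ≤ 1 :=
      (A.valuation_le_one_iff _).mpr (mem_of_isIntegral A (isIntegral_apply g (c : Zbar).2))
    calc _ ≤ 1 * s := mul_le_mul' h1 hx
      _ = s := one_mul s

theorem mem_ballIdeal (A : ValuationSubring Qb) (S : Subalgebra ℤ Zbar) (g : GQ)
    (s : A.ValueGroup) (x : S) :
    x ∈ ballIdeal A S g s ↔ A.valuation (g ((x : Zbar) : Qb)) ≤ s := Iff.rfl

/-- `a` can be approximated arbitrarily well (for `A` over `p`) by elements of `ℚ(z)`. -/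
theorem wild_core {p : ℕ} [Fact p.Prime] {z a : Qb} (kd : KummerData p z a)
    (A : ValuationSubring Qb) (hA : A.LiesOverPrime p) (t : Qb) (ht : t ≠ 0) :
    ∃ c : Qb, (∀ τ : GQ, τ z = z → τ c = c) ∧ A.valuation (c - a) ≤ A.valuation t := by
  classical
  have hp : p.Prime := Fact.out
  have ha0 := kd.ne_zero
  obtain ⟨τ₀, hτ₀z, hτ₀a⟩ := kd.moved
  obtain ⟨i, hi⟩ := kd.kummer τ₀ hτ₀z
  set ζ : Qb := z ^ i with hζ
  have hζ1 : ζ ≠ 1 := by
    intro h; apply hτ₀a; rw [hi, h, one_mul]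
  have hζp : ζ ^ p = 1 := by
    rw [hζ, ← pow_mul, mul_comm, pow_mul, kd.prim.pow_eq_one, one_pow]
  have hζprim : IsPrimitiveRoot ζ p := by
    have := IsPrimitiveRoot.orderOf ζ
    rwa [orderOf_eq_prime hζp hζ1] at this
  have hfixζ : ∀ τ : GQ, τ z = z → τ ζ = ζ := fun τ h => by rw [hζ, map_pow, h]
  have hpowz : ∀ n : ℕ, (τ₀ ^ n) z = z := by
    intro n
    induction n with
    | zero => simp
    | succ n ih => rw [pow_succ', AlgEquiv.mul_apply, ih, hτ₀z]
  have hpow : ∀ n : ℕ, (τ₀ ^ n) a = ζ ^ n * a := by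
    intro n
    induction n with
    | zero => simp
    | succ n ih =>
      rw [pow_succ', AlgEquiv.mul_apply, ih, map_mul, map_pow, hfixζ τ₀ hτ₀z, hi]
      ring
  -- the subgroup `H`
  let H : Subgroup GQ := MulAction.stabilizer GQ z ⊓ MulAction.stabilizer GQ a
  have hHmem : ∀ h : GQ, h ∈ H ↔ h z = z ∧ h a = a := by
    intro h
    simp only [H, Subgroup.mem_inf, MulAction.mem_stabilizer_iff, AlgEquiv.smul_def]
  have hHclosed : IsClosed (H : Set GQ) := by
    have := isAlgebraicQbar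
    apply Subgroup.isClosed_of_isOpen
    exact (stabilizer_isOpen_of_isIntegral (K := ℚ) (L := Qb) z).inter
      (stabilizer_isOpen_of_isIntegral (K := ℚ) (L := Qb) a)
  have hinv : ∀ (g : GQ) (u v : Qb), g u = v → g⁻¹ v = u := by
    intro g u v h
    rw [← h]
    exact g.symm_apply_apply u
  have hnorm : ∀ g : GQ, g z = z → ∀ y : Qb, (∀ h ∈ H, h y = y) → ∀ h ∈ H, h (g y) = g y := by
    intro g hgz y hy h hh
    obtain ⟨m, hm⟩ := kd.kummer g hgz
    obtain ⟨hhz, hha⟩ := (hHmem h).mp hh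
    have hmem : g⁻¹ * h * g ∈ H := by
      rw [hHmem]
      constructor
      · rw [AlgEquiv.mul_apply, AlgEquiv.mul_apply, hgz, hhz]
        exact hinv g z z hgz
      · rw [AlgEquiv.mul_apply, AlgEquiv.mul_apply, hm, map_mul, map_pow, hhz, hha, ← hm]
        exact hinv g a _ rfl
    have h2 := hy _ hmem
    rw [AlgEquiv.mul_apply, AlgEquiv.mul_apply] at h2
    have h3 := congrArg g h2
    have h4 : g (g⁻¹ (h (g y))) = h (g y) := g.apply_symm_apply _
    rw [h4] at h3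
    exact h3
  -- the ring of `H`-invariant integers
  let A₀ : Subalgebra ℤ Zbar := FixedPoints.subalgebra ℤ Zbar H
  have hfixA₀ : ∀ x : A₀, ∀ h ∈ H, h ((x : Zbar) : Qb) = ((x : Zbar) : Qb) := fun x h hh =>
    congrArg Subtype.val (x.2 ⟨h, hh⟩)
  have hQ := primeOf_isPrime A
  set Q := primeOf A with hQdef
  let P : GQ → Ideal A₀ := fun g => (g⁻¹ • Q).under A₀
  have hPmem : ∀ (g : GQ) (x : A₀), x ∈ P g ↔ g ((x : Zbar) : Qb) ∈ A.nonunits := by
    intro g x
    simp only [P, Ideal.under, Ideal.mem_comap]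
    change (x : Zbar) ∈ g⁻¹ • Q ↔ _
    rw [Ideal.mem_pointwise_smul_iff_inv_smul_mem, inv_inv, hQdef, mem_primeOf]
    rfl
  have hPmax : ∀ g : GQ, (P g).IsMaximal := by
    intro g
    apply isMaximal_under A₀ (g⁻¹ • Q) hp
    rw [Ideal.mem_pointwise_smul_iff_inv_smul_mem, inv_inv, hQdef, mem_primeOf]
    have h2 : ((g • (((p : ℕ) : ℤ) : Zbar) : Zbar) : Qb) = (p : Qb) := by
      change g ((((p : ℕ) : ℤ) : Zbar) : Qb) = (p : Qb)
      simp
    rw [h2]
    exact hA
  have hPne_lt : ∀ j k : ℕ, j < k → k < p → P (τ₀ ^ j) ≠ P (τ₀ ^ k) := by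
    intro j k hjk hkp heq
    obtain ⟨h, hh, hdec⟩ := exists_mul_mem_decomposition H hHclosed A hp hA (τ₀ ^ (k - j)) (by
      intro y hy hyH hym
      have hgz : (τ₀ ^ j)⁻¹ z = z := hinv _ _ _ (hpowz j)
      let x : A₀ := ⟨⟨(τ₀ ^ j)⁻¹ y, isIntegral_apply _ hy⟩, fun h =>
        Subtype.ext (hnorm _ hgz y hyH h h.2)⟩
      have hx1 : (τ₀ ^ j) ((x : Zbar) : Qb) = y := (τ₀ ^ j).apply_symm_apply y
      have hxP : x ∈ P (τ₀ ^ j) := by rw [hPmem, hx1]; exact hym
      rw [heq, hPmem] at hxP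
      have : τ₀ ^ k = τ₀ ^ (k - j) * τ₀ ^ j := (pow_sub_mul_pow τ₀ hjk.le).symm
      rw [this, AlgEquiv.mul_apply, hx1] at hxP
      exact hxP)
    obtain ⟨hhz, hha⟩ := (hHmem h).mp hh
    have h1 := kd.split A hA _ hdec (by rw [AlgEquiv.mul_apply, hhz, hpowz])
    rw [AlgEquiv.mul_apply, hha, hpow] at h1
    have h2 : ζ ^ (k - j) = 1 := by
      have : ζ ^ (k - j) * a = 1 * a := by rw [h1, one_mul]
      exact mul_right_cancel₀ ha0 this
    have h3 := hζprim.dvd_of_pow_eq_one _ h2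
    have := Nat.le_of_dvd (by omega) h3
    omega
  have hPne : ∀ j k : ℕ, j < p → k < p → j ≠ k → P (τ₀ ^ j) ≠ P (τ₀ ^ k) := by
    intro j k hj hk hjk
    rcases lt_or_gt_of_ne hjk with h | h
    · exact hPne_lt j k h hk
    · exact (hPne_lt k j h hj).symm
  -- the ideals `J j`
  set t' : Qb := t / a with ht'
  have ht'0 : t' ≠ 0 := div_ne_zero ht ha0
  let J : Fin p → Ideal A₀ := fun j => ballIdeal A A₀ (τ₀ ^ (j : ℕ)) (A.valuation t')
  have hcop : Pairwise (Function.onFun IsCoprime J) := by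
    intro j k hjk
    have hne : P (τ₀ ^ (j : ℕ)) ≠ P (τ₀ ^ (k : ℕ)) :=
      hPne j k j.2 k.2 (fun h => hjk (Fin.ext h))
    have hsup := (hPmax (τ₀ ^ (j : ℕ))).coprime_of_ne (hPmax (τ₀ ^ (k : ℕ))) hne
    obtain ⟨x, hx, y, hy, hxy⟩ := Ideal.isCoprime_iff_exists.mp (Ideal.isCoprime_iff_sup_eq.mpr hsup)
    rw [hPmem, ValuationSubring.mem_nonunits_iff] at hx hy
    obtain ⟨M₁, hM₁⟩ := exists_pow_valuation_le A hp hA hx ht'0
    obtain ⟨M₂, hM₂⟩ := exists_pow_valuation_le A hp hA hy ht'0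
    have hc : IsCoprime x y := ⟨1, 1, by simpa using hxy⟩
    obtain ⟨u, v, huv⟩ := (hc.pow (m := M₁) (n := M₂))
    refine Ideal.isCoprime_iff_exists.mpr ⟨u * x ^ M₁, ?_, v * y ^ M₂, ?_, huv⟩
    · apply Ideal.mul_mem_left
      rw [mem_ballIdeal]
      have : (((x ^ M₁ : A₀) : Zbar) : Qb) = ((x : Zbar) : Qb) ^ M₁ := rfl
      rw [this, map_pow, map_pow]
      exact hM₁
    · apply Ideal.mul_mem_left
      rw [mem_ballIdeal]
      have : (((y ^ M₂ : A₀) : Zbar) : Qb) = ((y : Zbar) : Qb) ^ M₂ := rfl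
      rw [this, map_pow, map_pow]
      exact hM₂
  obtain ⟨ε, hε⟩ := Ideal.exists_forall_sub_mem_ideal hcop
    (fun j : Fin p => if (j : ℕ) = 0 then (1 : A₀) else 0)
  set e : Qb := ((ε : Zbar) : Qb) with he
  set w : Qb := e * a with hw
  have hwH : ∀ h ∈ H, h w = w := by
    intro h hh
    rw [hw, map_mul, ((hHmem h).mp hh).2, he, hfixA₀ ε h hh]
  have hperiod : (τ₀ ^ p) w = w := by
    apply hwH
    rw [hHmem]
    exact ⟨hpowz p, by rw [hpow, hζp, one_mul]⟩
  refine ⟨∑ j ∈ Finset.range p, (τ₀ ^ j) w, ?_, ?_⟩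
  · -- invariance
    set c : Qb := ∑ j ∈ Finset.range p, (τ₀ ^ j) w with hc
    have hcH : ∀ h ∈ H, h c = c := by
      intro h hh
      rw [hc, map_sum]
      exact Finset.sum_congr rfl (fun j _ => hnorm _ (hpowz j) w hwH h hh)
    have hcτ₀ : τ₀ c = c := by
      have h1 : τ₀ c = ∑ j ∈ Finset.range p, (τ₀ ^ (j + 1)) w := by
        rw [hc, map_sum]
        exact Finset.sum_congr rfl (fun j _ => by rw [pow_succ', AlgEquiv.mul_apply])
      have h2 := Finset.sum_range_succ (fun j => (τ₀ ^ j) w) p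
      have h3 := Finset.sum_range_succ' (fun j => (τ₀ ^ j) w) p
      rw [h2] at h3
      simp only [pow_zero, AlgEquiv.one_apply, hperiod] at h3
      rw [h1]
      exact (add_right_cancel h3).symm
    have hcpow : ∀ n : ℕ, (τ₀ ^ n) c = c := by
      intro n
      induction n with
      | zero => simp
      | succ n ih => rw [pow_succ', AlgEquiv.mul_apply, ih, hcτ₀]
    intro τ hτz
    obtain ⟨m, hm⟩ := kd.kummer τ hτz
    -- `z ^ m = ζ ^ n`
    obtain ⟨n, -, hn⟩ := hζprim.eq_pow_of_pow_eq_one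
      (ξ := z ^ m) (by rw [← pow_mul, mul_comm, pow_mul, kd.prim.pow_eq_one, one_pow])
    have hmem : (τ₀ ^ n)⁻¹ * τ ∈ H := by
      rw [hHmem]
      constructor
      · rw [AlgEquiv.mul_apply, hτz]
        exact hinv _ _ _ (hpowz n)
      · rw [AlgEquiv.mul_apply, hm, ← hn]
        exact hinv _ _ _ (hpow n)
    have h1 := hcH _ hmem
    rw [AlgEquiv.mul_apply] at h1
    have h2 := congrArg (τ₀ ^ n) h1
    have h3 : (τ₀ ^ n) ((τ₀ ^ n)⁻¹ (τ c)) = τ c := (τ₀ ^ n).apply_symm_apply _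
    rw [h3, hcpow] at h2
    exact h2
  · -- the estimate
    have hsum : (∑ j ∈ Finset.range p, (τ₀ ^ j) w) - a
        = ∑ j ∈ Finset.range p, ((τ₀ ^ j) w - if j = 0 then a else 0) := by
      rw [Finset.sum_sub_distrib, Finset.sum_ite_eq' (Finset.range p) 0 (fun _ => a)]
      simp [hp.pos]
    rw [hsum]
    have hval : A.valuation t' * A.valuation a = A.valuation t := by
      rw [← map_mul, ht', div_mul_cancel₀ _ ha0]
    apply A.valuation.map_sum_le
    intro j hj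
    have hjp : j < p := Finset.mem_range.mp hj
    have hεj := hε ⟨j, hjp⟩
    rw [mem_ballIdeal] at hεj
    by_cases hj0 : j = 0
    · subst hj0
      simp only [if_true, pow_zero, AlgEquiv.one_apply] at hεj ⊢
      have h1 : (((ε - 1 : A₀) : Zbar) : Qb) = e - 1 := rfl
      rw [h1] at hεj
      have h2 : w - a = (e - 1) * a := by rw [hw]; ring
      rw [h2, map_mul, ← hval]
      exact mul_le_mul' hεj le_rfl
    · simp only [hj0, if_false, sub_zero] at hεj ⊢
      rw [hw, map_mul, hpow, map_mul, map_mul, ← hval]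
      have hζint : IsIntegral ℤ (ζ ^ j) :=
        (IsIntegral.of_pow hp.pos (by rw [hζp]; exact isIntegral_one)).pow j
      have h1 : A.valuation (ζ ^ j) ≤ 1 :=
        (A.valuation_le_one_iff _).mpr (mem_of_isIntegral A hζint)
      refine mul_le_mul' hεj ?_
      calc A.valuation (ζ ^ j) * A.valuation a ≤ 1 * A.valuation a := mul_le_mul' h1 le_rfl
        _ = A.valuation a := one_mul _

end Fermat.Agent.S14.Br
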