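import Fermat.Agent.S14.BridgeCocycle
import Fermat.Agent.S14.BridgeKummer
import Fermat.Agent.S14.BridgeTame
import Fermat.Agent.S14.BridgeWild
import Fermat.Agent.S14.BridgePlaces

/-!
# S14: from a non-split admissible extension to a bad element of `ℚ(ζ_p)`.
-/

set_option autoImplicit false

namespace Fermat.Agent.S14

open IsDedekindDomain NumberField

namespace Br

/-- `(1 + y)^p ≡ 1 mod π^(p+1)` if `y ≡ 0 mod π^2` and `π^(p-1) ∣ p`. -/
theorem wild_estimate {p : ℕ} (hp : p.Prime) (A : ValuationSubring Qb) (π y : Qb)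
    (hpπ : A.valuation (p : Qb) ≤ A.valuation π ^ (p - 1)) (hπ : A.valuation π ≤ 1)
    (hy : A.valuation y ≤ A.valuation π ^ 2) :
    A.valuation ((1 + y) ^ p - 1) ≤ A.valuation π ^ (p + 1) := by
  have hy1 : A.valuation y ≤ 1 := hy.trans (pow_le_one' hπ 2)
  have hyA : y ∈ A := (A.valuation_le_one_iff y).mp hy1
  obtain ⟨r, hr⟩ := exists_add_pow_prime_eq hp (1 : A) ⟨y, hyA⟩
  have hr' : (1 + y) ^ p - 1 = y ^ p + p * y * (r : Qb) := by
    have := congrArg (fun x : A => (x : Qb)) hr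
    push_cast at this
    rw [this]; ring
  rw [hr']
  refine (A.valuation.map_add _ _).trans (max_le ?_ ?_)
  · rw [map_pow]
    calc A.valuation y ^ p ≤ (A.valuation π ^ 2) ^ p := pow_le_pow_left' hy p
      _ = A.valuation π ^ (2 * p) := by rw [← pow_mul]
      _ ≤ A.valuation π ^ (p + 1) := pow_le_pow_right_of_le_one' hπ (by have := hp.one_lt; omega)
  · rw [map_mul, map_mul]
    have hrA : A.valuation (r : Qb) ≤ 1 := (A.valuation_le_one_iff _).mpr r.2
    calc A.valuation (p : Qb) * A.valuation y * A.valuation (r : Qb)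
        ≤ A.valuation π ^ (p - 1) * A.valuation π ^ 2 * 1 :=
          mul_le_mul' (mul_le_mul' hpπ hy) hrA
      _ = A.valuation π ^ (p + 1) := by
          rw [mul_one, ← pow_add]; congr 1; have := hp.one_lt; omega

section Asm

variable {p : ℕ} [Fact p.Prime] {K : Type*} [Field K] [NumberField K]
  [IsCyclotomicExtension {p} ℚ K] (ι : K →ₐ[ℚ] Qb) {ζ : K} (hζ : IsPrimitiveRoot ζ p)

include hζ

theorem adjoin_top : IntermediateField.adjoin ℚ {ζ} = ⊤ :=
  IntermediateField.adjoin_eq_top_of_algebra ℚ _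
    (IsCyclotomicExtension.adjoin_primitive_root_eq_top hζ)

theorem fix_range (τ : GQ) (hτ : τ (ι ζ) = ι ζ) (x : K) : τ (ι x) = ι x := by
  have h : (τ : Qb →ₐ[ℚ] Qb).comp ι = ι := by
    apply AlgHom.ext_of_adjoin_eq_top (IsCyclotomicExtension.adjoin_primitive_root_eq_top hζ)
    intro y hy
    rw [Set.mem_singleton_iff] at hy
    subst hy
    exact hτ
  exact congrArg (fun f => f x) h

variable {a : Qb} (kd : KummerData p (ι ζ) a) {α : Kˣ} (hα : ι (α : K) = a ^ p)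

include kd hα

theorem asm_not_pow : α ∉ pows K p := by
  rintro ⟨c, hc⟩
  obtain ⟨τ₀, hτ₀, hmove⟩ := kd.moved
  apply hmove
  have hc' : (c : K) ^ p = α := by
    have := congrArg (fun u : Kˣ => (u : K)) hc
    simpa using this
  have hc0 : ι (c : K) ≠ 0 := (map_ne_zero ι).mpr c.ne_zero
  have h1 : (a / ι (c : K)) ^ p = 1 := by
    rw [div_pow, ← hα, ← hc', map_pow, div_self (pow_ne_zero _ hc0)]
  have : NeZero p := ⟨(Fact.out : p.Prime).ne_zero⟩
  obtain ⟨i, -, hi⟩ := kd.prim.eq_pow_of_pow_eq_one h1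
  have h2 : a = ι ζ ^ i * ι (c : K) := by
    rw [hi]; field_simp
  rw [h2, map_mul, map_pow, hτ₀, fix_range ι hζ τ₀ hτ₀]

theorem asm_tame (v : Pl K) (hv : Tame p v) : (p : ℤ) ∣ ord v α := by
  obtain ⟨A, hA⟩ := exists_over ι v
  obtain ⟨l, hl, hAl, hlv⟩ := hA.exists_prime
  have hlp : l ≠ p := by
    rintro rfl
    exact hv hlv
  obtain ⟨π, hπ⟩ := exists_ord_eq {v} (fun _ => (1 : ℤ))
  have hπ1 : ord v π = 1 := hπ v (Finset.mem_singleton_self v)
  have hπ0 : ι (π : K) ≠ 0 := (map_ne_zero ι).mpr π.ne_zero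
  have hlt := hA.valuation_lt_one π hπ1
  obtain ⟨m, hm⟩ := tame_core kd hl hlp A hAl (ι (π : K)) hπ0 hlt
    (fun τ hτ => fix_range ι hζ τ hτ _) (by
      intro x hx0 hx
      obtain ⟨y, rfl⟩ := mem_range_of_fixed (ι := ι) ζ (adjoin_top hζ) x hx
      have hy0 : y ≠ 0 := fun h => hx0 (by rw [h, map_zero])
      exact ⟨ord v (Units.mk0 y hy0), hA.valuation_eq π (Units.mk0 y hy0) hπ1⟩)
  have h1 := hA.valuation_eq π α hπ1
  rw [hα, map_pow, hm, ← zpow_natCast, ← zpow_mul] at h1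
  have h0 : 0 < A.valuation (ι (π : K)) := zero_lt_iff.mpr ((Valuation.ne_zero_iff _).mpr hπ0)
  have h2 := zpow_right_injective₀ h0 hlt.ne h1
  exact ⟨m, by rw [← h2]; ring⟩

theorem asm_eigen (σ : K ≃ₐ[ℚ] K) (k : ℕ) (hσ : σ ζ = ζ ^ k) :
    ∃ c : Kˣ, gU σ α = α ^ (k ^ 2) * c ^ p := by
  obtain ⟨σ', hσ'⟩ := exists_extension (ι := ι) σ
  have h1 : σ' (ι ζ) = ι ζ ^ k := by rw [hσ', hσ, map_pow]
  obtain ⟨c, hc⟩ := mem_range_of_fixed (ι := ι) ζ (adjoin_top hζ) _ (kd.eigen σ' k h1)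
  have ha0 := kd.ne_zero
  have hσa : σ' a ≠ 0 := (map_ne_zero σ').mpr ha0
  have hc0 : c ≠ 0 := by
    intro h
    rw [h, map_zero] at hc
    exact div_ne_zero hσa (pow_ne_zero _ ha0) hc.symm
  refine ⟨Units.mk0 c hc0, Units.ext (ι.injective ?_)⟩
  show ι (σ (α : K)) = ι ((α : K) ^ (k ^ 2) * c ^ p)
  rw [map_mul, map_pow, map_pow, ← hσ', hα, hc, map_pow, div_pow, ← pow_mul, ← pow_mul,
    mul_comm p (k ^ 2), mul_div_cancel₀ _ (pow_ne_zero _ ha0)]

theorem asm_wild (v : Pl K) (hv : ¬ Tame p v) : α ∈ wildPow p v := by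
  have hp : p.Prime := Fact.out
  obtain ⟨A, hA⟩ := exists_over ι v
  have hpv : (p : 𝓞 K) ∈ v.asIdeal := not_not.mp hv
  have hAp : A.LiesOverPrime p := by
    have := (hA (p : 𝓞 K)).mp hpv
    show (p : Qb) ∈ A.nonunits
    simpa using this
  set π : 𝓞 K := hζ.toInteger - 1 with hπdef
  have hass : Associated (π ^ (p - 1)) (p : 𝓞 K) :=
    IsCyclotomicExtension.Rat.associated_zeta_sub_one_pow_prime p hζ
  have hπv : π ∈ v.asIdeal := by
    obtain ⟨u, hu⟩ := hass.symm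
    have : π ^ (p - 1) ∈ v.asIdeal := hu ▸ Ideal.mul_mem_right _ _ hpv
    exact v.isPrime.mem_of_pow_mem _ this
  set P : Qb := ι (π : K) with hPdef
  have hP1 : A.valuation P < 1 := (ValuationSubring.mem_nonunits_iff A).mp ((hA π).mp hπv)
  have hP0 : P ≠ 0 := by
    intro h0
    have h1 : (π : K) = 0 := (map_eq_zero ι).mp h0
    have h2 : π = 0 := RingOfIntegers.coe_injective (by simpa using h1)
    have h3 : (p : 𝓞 K) = 0 := by
      obtain ⟨u, hu⟩ := hass
      rw [← hu, h2, zero_pow (by have := hp.one_lt; omega), zero_mul]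
    exact hp.ne_zero (by exact_mod_cast h3)
  have hpP : A.valuation (p : Qb) ≤ A.valuation P ^ (p - 1) := by
    obtain ⟨u, hu⟩ := hass
    have h1 : (p : Qb) = P ^ (p - 1) * ι ((u : 𝓞 K) : K) := by
      have := congrArg (fun x : 𝓞 K => ι (x : K)) hu
      simp only [map_mul, map_pow, map_natCast] at this
      rw [hPdef, ← this]
    have h2 : A.valuation (ι ((u : 𝓞 K) : K)) ≤ 1 := by
      rw [ValuationSubring.valuation_le_one_iff]
      apply Frob.mem_of_isIntegral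
      exact ((u : 𝓞 K).isIntegral_coe).map ι.toRingHom.toIntAlgHom
    rw [h1, map_mul, map_pow]
    exact mul_le_of_le_one_right' h2
  have ha0 := kd.ne_zero
  obtain ⟨c, hcfix, hc⟩ := wild_core kd A hAp (a * P ^ 2) (mul_ne_zero ha0 (pow_ne_zero _ hP0))
  obtain ⟨cK, rfl⟩ := mem_range_of_fixed (ι := ι) ζ (adjoin_top hζ) c hcfix
  have hva : 0 < A.valuation a := zero_lt_iff.mpr ((Valuation.ne_zero_iff _).mpr ha0)
  rw [map_mul, map_pow] at hc
  have hlt : A.valuation (ι cK - a) < A.valuation a := by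
    refine hc.trans_lt ?_
    have : A.valuation P ^ 2 < 1 := pow_lt_one₀ zero_le hP1 two_ne_zero
    calc A.valuation a * A.valuation P ^ 2 < A.valuation a * 1 := by
          exact mul_lt_mul_of_pos_left this hva
      _ = A.valuation a := mul_one _
  have hca : A.valuation (ι cK) = A.valuation a := by
    have : ι cK = (ι cK - a) + a := by ring
    rw [this]; exact Valuation.map_add_eq_of_lt_right _ hlt
  have hιc0 : ι cK ≠ 0 := by
    rw [← Valuation.ne_zero_iff A.valuation, hca]; exact hva.ne'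
  have hc0 : cK ≠ 0 := fun h => hιc0 (by rw [h, map_zero])
  set y : Qb := a / ι cK - 1 with hy
  have hyv : A.valuation y ≤ A.valuation P ^ 2 := by
    have h1 : y = -(ι cK - a) / ι cK := by rw [hy]; field_simp; ring
    rw [h1, map_div₀, Valuation.map_neg, hca, div_le_iff₀ hva, mul_comm]
    exact hc
  have hest := wild_estimate hp A P y hpP hP1.le hyv
  have hmem : α / (Units.mk0 cK hc0) ^ p ∈ Ulev v (p + 1) := by
    refine hA.mem_Ulev π hπv (p + 1) (Nat.succ_pos _) _ ?_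
    have h1 : ι ((α / (Units.mk0 cK hc0) ^ p : Kˣ) : K) = (1 + y) ^ p := by
      rw [Units.val_div_eq_div_val, Units.val_pow_eq_pow_val, Units.val_mk0, map_div₀, map_pow, hα,
        hy, ← div_pow]
      congr 1; ring
    rw [h1]; exact hest
  have h2 : α = (Units.mk0 cK hc0) ^ p * (α / (Units.mk0 cK hc0) ^ p) := by
    rw [mul_div_cancel]
  rw [h2, wildPow]
  exact Subgroup.mul_mem_sup ⟨Units.mk0 cK hc0, rfl⟩ hmem

end Asm

end Br

open Br in
theorem bridge {p : ℕ} [Fact p.Prime] (h3 : 3 ≤ p) (V : Type) [AddCommGroup V] [Module (ZMod p) V]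
    [DistribMulAction (AlgebraicClosure ℚ ≃ₐ[ℚ] AlgebraicClosure ℚ) V]
    [SMulCommClass (AlgebraicClosure ℚ ≃ₐ[ℚ] AlgebraicClosure ℚ) (ZMod p) V]
    (C : Submodule (ZMod p) V) (h : ExtCitation.IsAdmissibleExtensionCts p V C)
    (hns : ¬ ExtCitation.SplitsGlobally C) :
    ∃ (ζ : 𝓞 (CyclotomicField p ℚ)) (α : (CyclotomicField p ℚ)ˣ),
      IsPrimitiveRoot ζ p ∧ Bad p ζ α := by
  have : NeZero p := ⟨(Fact.out : p.Prime).ne_zero⟩
  have hcyc : IsCyclotomicExtension {p} ℚ (CyclotomicField p ℚ) :=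
    CyclotomicField.isCyclotomicExtension p ℚ
  have hζ : IsPrimitiveRoot (IsCyclotomicExtension.zeta p ℚ (CyclotomicField p ℚ)) p :=
    IsCyclotomicExtension.zeta_spec p ℚ (CyclotomicField p ℚ)
  set ζ := IsCyclotomicExtension.zeta p ℚ (CyclotomicField p ℚ) with hζdef
  let ι : CyclotomicField p ℚ →ₐ[ℚ] Qb := IsAlgClosed.lift
  have hz : IsPrimitiveRoot (ι ζ) p := hζ.map_of_injective ι.injective
  obtain ⟨b, hb⟩ := exists_cocycle h3 V C h hns (ι ζ) hz
  obtain ⟨a, kd⟩ := exists_kummerData (ι ζ) hz b hb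
  have hfix : ∀ τ : GQ, τ (ι ζ) = ι ζ → τ (a ^ p) = a ^ p := by
    intro τ hτ
    obtain ⟨i, hi⟩ := kd.kummer τ hτ
    rw [map_pow, hi, mul_pow, ← pow_mul, mul_comm i p, pow_mul, hz.pow_eq_one, one_pow, one_mul]
  obtain ⟨αK, hαK⟩ := mem_range_of_fixed (ι := ι) ζ (adjoin_top hζ) (a ^ p) hfix
  have hα0 : αK ≠ 0 := by
    intro h0
    rw [h0, map_zero] at hαK
    exact pow_ne_zero _ kd.ne_zero hαK.symm
  have hα : ι ((Units.mk0 αK hα0 : (CyclotomicField p ℚ)ˣ) : CyclotomicField p ℚ) = a ^ p := hαK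
  have hwild := asm_wild ι hζ kd hα
  refine ⟨hζ.toInteger, Units.mk0 αK hα0, hζ.toInteger_isPrimitiveRoot,
    asm_not_pow ι hζ kd hα, fun v => ?_, hwild, fun σ k hσ => asm_eigen ι hζ kd hα σ k hσ⟩
  by_cases hv : Tame p v
  · exact asm_tame ι hζ kd hα v hv
  · exact dvd_ord_of_mem_pows_sup_Ulev v (p + 1) _ (hwild v hv)

end Fermat.Agent.S14
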