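import Fermat.Agent.S14.Cross

/-!
# S14: there is no bad element.
-/

set_option autoImplicit false

namespace Fermat.Agent.S14

open IsDedekindDomain NumberField

variable {K : Type*} [Field K] [NumberField K] {p : ℕ} [Fact p.Prime]
  [IsCyclotomicExtension {p} ℚ K] {ζ : 𝓞 K}

namespace Main

/-- transformation of the Kummer character of a bad element under the Galois group -/
theorem res_gal (hζ : IsPrimitiveRoot ζ p) {α : Kˣ} (hα : Bad p ζ α) (σ : K ≃ₐ[ℚ] K) (k : ℕ)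
    (hk : σ (ζ : K) = (ζ : K) ^ k) {v : Pl K} (hv : Tame p v) :
    (k : ZMod p) ^ 2 * res p ζ (galPl σ v) α = k * res p ζ v α := by
  obtain ⟨c, hc⟩ := hα.eigen σ k hk
  have h1 := res_galPl hζ σ k hk hv α (hα.ord_dvd v)
  rw [hc, res_mul, res_pow, res_pow_p, add_zero] at h1
  rw [← h1]; push_cast; ring

theorem natCast_ne_zero_of_prime {ℓ : ℕ} (hℓ : ℓ.Prime) (hne : ℓ ≠ p) : (ℓ : ZMod p) ≠ 0 := by
  intro h
  rw [ZMod.natCast_eq_zero_iff] at h
  exact hne ((Nat.prime_dvd_prime_iff_eq (Fact.out : p.Prime) hℓ).mp h).symm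

/-- places where the Kummer character of a bad element does not vanish have degree one -/
theorem degree_one (hζ : IsPrimitiveRoot ζ p) {α : Kˣ} (hα : Bad p ζ α) {v : Pl K}
    (hv : Tame p v) (hr : res p ζ v α ≠ 0) :
    ∃ ℓ : ℕ, ℓ.Prime ∧ ℓ ≠ p ∧ (ℓ : 𝓞 K) ∈ v.asIdeal ∧ Ideal.absNorm v.asIdeal = ℓ := by
  obtain ⟨ℓ, σ, hℓ, hℓp, hmem, hσ, hfix, hdeg⟩ := exists_frob hζ v hv
  refine ⟨ℓ, hℓ, hℓp, hmem, hdeg ?_⟩
  have h := res_gal hζ hα σ ℓ hσ hv
  rw [hfix] at h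
  have h0 : (ℓ : ZMod p) ≠ 0 := natCast_ne_zero_of_prime hℓ hℓp
  have h2 : (ℓ : ZMod p) * (((ℓ : ZMod p) - 1) * res p ζ v α) = 0 := by linear_combination h
  have h3 := (mul_eq_zero.mp h2).resolve_left h0
  have h4 := (mul_eq_zero.mp h3).resolve_right hr
  exact sub_eq_zero.mp h4

/-- the finite set of places above a rational prime -/
theorem exists_finset_above (ℓ : ℕ) (hℓ : ℓ ≠ 0) :
    ∃ B : Finset (Pl K), ∀ v : Pl K, v ∈ B ↔ (ℓ : 𝓞 K) ∈ v.asIdeal := by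
  have hne : (ℓ : K) ≠ 0 := Nat.cast_ne_zero.mpr hℓ
  have hfin := ord_support_finite (Units.mk0 (ℓ : K) hne)
  refine ⟨hfin.toFinset, fun v => ?_⟩
  rw [Set.Finite.mem_toFinset, Set.mem_ofPred_eq, ne_eq,
    ord_eq_zero_iff v (Units.mk0 (ℓ : K) hne) (ℓ : 𝓞 K) (by simp), not_not]

theorem tame_and_res_ne_zero {α : Kˣ} (hα : Bad p ζ α) {φ : Pl K → ZMod p}
    (hφ2 : ∀ v, α ∈ locPow p ζ v → φ v = 0) {v : Pl K} (hv : φ v ≠ 0) :
    Tame p v ∧ res p ζ v α ≠ 0 := by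
  have h1 : Tame p v := by
    by_contra hw
    exact hv (hφ2 v ((mem_locPow_wild hw α).mpr (hα.wild v hw)))
  refine ⟨h1, fun h0 => hv (hφ2 v ((mem_locPow_tame h1 α).mpr ⟨hα.ord_dvd v, h0⟩))⟩

theorem sum_Icc_ne_zero (hp : p ≠ 2) :
    (∑ c ∈ Finset.Icc 1 ((p - 1) / 2), (c : ZMod p)) ≠ 0 := by
  have hpp : p.Prime := Fact.out
  have h3 : 3 ≤ p := by
    have := hpp.two_le
    omega
  set m := (p - 1) / 2 with hm
  have hsum : (∑ c ∈ Finset.Icc 1 m, c) * 2 = m * (m + 1) := by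
    have h1 : ∑ c ∈ Finset.Icc 1 m, c = ∑ c ∈ Finset.range (m + 1), c := by
      rw [Finset.range_eq_Ico, Finset.sum_eq_sum_Ico_succ_bot (by omega)]
      simp
      rfl
    rw [h1, Finset.sum_range_id_mul_two]
    simp [mul_comm]
  intro h0
  have h1 : ((∑ c ∈ Finset.Icc 1 m, c : ℕ) : ZMod p) = 0 := by
    rw [Nat.cast_sum]; exact h0
  have h2 : ((m * (m + 1) : ℕ) : ZMod p) = 0 := by
    rw [← hsum, Nat.cast_mul, h1, zero_mul]
  rw [ZMod.natCast_eq_zero_iff] at h2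
  rcases (Nat.Prime.dvd_mul hpp).mp h2 with h | h
  · have := Nat.le_of_dvd (by omega) h
    omega
  · have := Nat.le_of_dvd (by omega) h
    omega

end Main

open Main in
theorem no_bad (hp : p ≠ 2) (hζ : IsPrimitiveRoot ζ p) (α : Kˣ) (hα : Bad p ζ α) : False := by
  classical
  have hpp : p.Prime := Fact.out
  -- the class character
  obtain ⟨c, φ, hc, -, hφ2, hne, hrel⟩ := KT1 hp hζ α hα.not_pow
    (fun v hv => wildPow_le_primaryAt v (hα.wild v hv))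
  have hc0 : c = 0 := funext fun v => hc v (hα.ord_dvd v)
  have hφne : φ ≠ 0 := by
    rcases hne with h | h
    · exact absurd hc0 h
    · exact h
  have hφ1 : ∀ x : Kˣ, pair p φ x = 0 := by
    intro x
    have := hrel x (fun v hv => absurd (hα.ord_dvd v) hv)
    rw [hc0] at this
    simpa [rpair] using this
  -- a first place
  obtain ⟨s₀, hs₀⟩ : ∃ v, φ v ≠ 0 := by
    by_contra h
    push Not at h
    exact hφne (funext h)
  obtain ⟨ht₀, hr₀⟩ := tame_and_res_ne_zero hα hφ2 hs₀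
  obtain ⟨ℓ₁, hℓ₁, hℓ₁p, hmem₁, hN₁⟩ := degree_one hζ hα ht₀ hr₀
  -- a second place of different residue characteristic
  obtain ⟨B, hB⟩ := exists_finset_above (K := K) ℓ₁ hℓ₁.ne_zero
  obtain ⟨𝔮, h𝔮B, h𝔮⟩ : ∃ v, v ∉ B ∧ φ v ≠ 0 := by
    by_contra h
    push Not at h
    obtain ⟨x, hx⟩ := exists_ord_eq B (fun v => if v = s₀ then 1 else 0)
    have h1 := pair_eq_sum φ x B (fun v hv => Or.inl (h v hv))
    rw [hφ1 x, Finset.sum_eq_single s₀] at h1
    · rw [hx s₀ ((hB s₀).mpr hmem₁)] at h1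
      simp at h1
      exact hs₀ h1.symm
    · intro v hv hvs
      rw [hx v hv]; simp [hvs]
    · intro h2
      exact absurd ((hB s₀).mpr hmem₁) h2
  obtain ⟨ht𝔮, hr𝔮⟩ := tame_and_res_ne_zero hα hφ2 h𝔮
  obtain ⟨q, hq, hqp, hmemq, hNq⟩ := degree_one hζ hα ht𝔮 hr𝔮
  have hqℓ : ℓ₁ ≠ q := by
    rintro rfl
    exact h𝔮B ((hB 𝔮).mpr hmemq)
  -- the automorphisms
  have hex : ∀ c : ℕ, ∃ σ : K ≃ₐ[ℚ] K, c ∈ Finset.Icc 1 ((p - 1) / 2) →
      σ (ζ : K) = (ζ : K) ^ c := by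
    intro c
    by_cases hcm : c ∈ Finset.Icc 1 ((p - 1) / 2)
    · rw [Finset.mem_Icc] at hcm
      have hnd : ¬ p ∣ c := fun hd => by
        have := Nat.le_of_dvd (by omega) hd
        have := hpp.two_le
        omega
      obtain ⟨σ, hσ⟩ := exists_sigma hζ c hnd
      exact ⟨σ, fun _ => hσ⟩
    · exact ⟨1, fun h => absurd h hcm⟩
  choose s hs using hex
  obtain ⟨J, hJ⟩ := exists_jacobi hp hζ 𝔮 q hq hqp hNq
  have hJ' := hJ φ s hs
  rw [hφ1 J] at hJ'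
  -- values at the conjugates
  have hval : ∀ c ∈ Finset.Icc 1 ((p - 1) / 2),
      φ (galPl (s c)⁻¹ 𝔮) = (φ s₀ * res p ζ 𝔮 α * (res p ζ s₀ α)⁻¹) * (c : ZMod p) := by
    intro c hcm
    have hsc := hs c hcm
    rw [Finset.mem_Icc] at hcm
    have hc0 : (c : ZMod p) ≠ 0 := by
      intro h
      rw [ZMod.natCast_eq_zero_iff] at h
      have := Nat.le_of_dvd (by omega) h
      have := hpp.two_le
      omega
    set k : ℕ := ((c : ZMod p)⁻¹).val with hk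
    have hkc : (k : ZMod p) * c = 1 := by
      rw [hk, ZMod.natCast_zmod_val, inv_mul_cancel₀ hc0]
    have hζK : (ζ : K) ^ p = 1 := by
      have := hζ.pow_eq_one
      exact_mod_cast congrArg (fun x : 𝓞 K => (x : K)) this
    have hpow : (ζ : K) ^ (c * k) = (ζ : K) := by
      have h1 : ((c * k : ℕ) : ZMod p) = ((1 : ℕ) : ZMod p) := by
        push_cast; rw [mul_comm]; exact hkc
      rw [ZMod.natCast_eq_natCast_iff'] at h1
      rw [← Nat.mod_add_div (c * k) p, pow_add, pow_mul, hζK, one_pow, mul_one, h1,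
        Nat.mod_eq_of_lt hpp.one_lt, pow_one]
    have hinv : (s c)⁻¹ (ζ : K) = (ζ : K) ^ k := by
      have : (s c) ((ζ : K) ^ k) = (ζ : K) := by
        rw [map_pow, hsc, ← pow_mul, hpow]
      conv_lhs => rw [← this]
      exact (s c).symm_apply_apply _
    have h1 := res_gal hζ hα (s c)⁻¹ k hinv ht𝔮
    have hk0 : (k : ZMod p) ≠ 0 := fun h => by rw [h, zero_mul] at hkc; exact zero_ne_one hkc
    have h2 : res p ζ (galPl (s c)⁻¹ 𝔮) α = c * res p ζ 𝔮 α := by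
      have h3 : (k : ZMod p) * ((k : ZMod p) * res p ζ (galPl (s c)⁻¹ 𝔮) α) =
          (k : ZMod p) * res p ζ 𝔮 α := by linear_combination h1
      have h4 := mul_left_cancel₀ hk0 h3
      calc res p ζ (galPl (s c)⁻¹ 𝔮) α
          = ((k : ZMod p) * c) * res p ζ (galPl (s c)⁻¹ 𝔮) α := by rw [hkc, one_mul]
        _ = c * ((k : ZMod p) * res p ζ (galPl (s c)⁻¹ 𝔮) α) := by ring
        _ = c * res p ζ 𝔮 α := by rw [h4]
    have hr2 : res p ζ (galPl (s c)⁻¹ 𝔮) α ≠ 0 := by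
      rw [h2]; exact mul_ne_zero hc0 hr𝔮
    have hcr := cross hp hζ α hα φ hφ1 hφ2 s₀ (galPl (s c)⁻¹ 𝔮) ℓ₁ q hℓ₁ hq hqℓ hℓ₁p hqp hN₁
      (by rw [absNorm_galPl]; exact hNq) hr₀ hr2
    rw [h2] at hcr
    field_simp
    linear_combination -hcr
  rw [Finset.sum_congr rfl hval, ← Finset.mul_sum] at hJ'
  have := mul_eq_zero.mp hJ'.symm
  rcases this with h | h
  · exact (mul_ne_zero (mul_ne_zero hs₀ hr𝔮) (inv_ne_zero hr₀)) h
  · exact sum_Icc_ne_zero hp h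

end Fermat.Agent.S14
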