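import Mathlib

set_option autoImplicit false

namespace Fermat.Agent.S14

open Filter Topology IsDedekindDomain NumberField

namespace Analytic

variable (F : Type*) [Field F] [NumberField F]

/-- number of ideals of norm `n`. -/
noncomputable def cnt (n : ℕ) : ℕ := Nat.card {I : Ideal (𝓞 F) // Ideal.absNorm I = n}

theorem tendsto_cnt :
    Tendsto (fun n : ℕ ↦ (∑ k ∈ Finset.Icc 1 n, (cnt F k : ℝ)) / (n : ℝ)) atTop
      (𝓝 (dedekindZeta_residue F)) := by
  refine ((Ideal.tendsto_norm_le_div_atTop₀ F).comp tendsto_natCast_atTop_atTop).congr fun n ↦ ?_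
  simp only [Function.comp_apply, Nat.cast_le, ← Nat.cast_sum, cnt]
  congr
  rw [← add_left_inj 1, ← Ideal.card_norm_le_eq_card_norm_le_add_one,
    show Finset.Icc 1 n = Finset.Ioc 0 n from Finset.Icc_succ_left_eq_Ioc _ _,
    show 1 = Nat.card {I : Ideal (𝓞 F) // Ideal.absNorm I = 0} by simp [Ideal.absNorm_eq_zero_iff],
    Finset.sum_Ioc_add_eq_sum_Icc (n.zero_le),
    ← Finset.card_preimage_eq_sum_card_image_eq (fun k _ ↦ Ideal.finite_setOfPred_absNorm_eq k)]
  simp [Set.coe_eq_subtype]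

theorem lseriesSummable_cnt {s : ℝ} (hs : 1 < s) :
    LSeriesSummable (fun n ↦ ((cnt F n : ℝ) : ℂ)) (s : ℂ) := by
  refine LSeriesSummable_of_sum_norm_bigO_and_nonneg (f := fun n ↦ (cnt F n : ℝ)) (r := 1) ?_
    (fun _ ↦ Nat.cast_nonneg _) zero_le_one (by simpa using hs)
  exact Asymptotics.isBigO_atTop_natCast_rpow_of_tendsto_div_rpow (by simpa using tendsto_cnt F)

theorem term_cnt {s : ℝ} (hs : 1 < s) (n : ℕ) :
    LSeries.term (fun n ↦ ((cnt F n : ℝ) : ℂ)) (s : ℂ) n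
      = (((cnt F n : ℝ) * (n : ℝ) ^ (-s) : ℝ) : ℂ) := by
  have hs0 : (s : ℂ) ≠ 0 := by
    rw [Ne, Complex.ofReal_eq_zero]; linarith
  rw [LSeries.term_of_ne_zero' hs0, Real.rpow_neg (Nat.cast_nonneg n), Complex.ofReal_mul,
    Complex.ofReal_inv, Complex.ofReal_cpow (Nat.cast_nonneg n), div_eq_mul_inv]
  simp only [Complex.ofReal_natCast]

theorem summable_cnt {s : ℝ} (hs : 1 < s) :
    Summable (fun n : ℕ ↦ (cnt F n : ℝ) * (n : ℝ) ^ (-s)) := by
  have h := lseriesSummable_cnt F hs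
  unfold LSeriesSummable at h
  rw [funext (term_cnt F hs)] at h
  exact Complex.summable_ofReal.mp h

/-- the Dedekind zeta function at a real argument, as a real number. -/
noncomputable def Z (s : ℝ) : ℝ := ∑' n : ℕ, (cnt F n : ℝ) * (n : ℝ) ^ (-s)

theorem dedekindZeta_eq {s : ℝ} (hs : 1 < s) : dedekindZeta F (s : ℂ) = ((Z F s : ℝ) : ℂ) := by
  have h1 : dedekindZeta F (s : ℂ) = LSeries (fun n ↦ ((cnt F n : ℝ) : ℂ)) (s : ℂ) := by
    unfold dedekindZeta cnt
    congr 1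
  rw [h1, LSeries, funext (term_cnt F hs), Z, Complex.ofReal_tsum]

theorem hasSum_ideal {s : ℝ} (hs : 1 < s) :
    HasSum (fun I : Ideal (𝓞 F) ↦ (Ideal.absNorm I : ℝ) ^ (-s)) (Z F s) := by
  rw [← (Equiv.sigmaFiberEquiv (fun I : Ideal (𝓞 F) ↦ Ideal.absNorm I)).hasSum_iff]
  have hfib : ∀ n : ℕ, HasSum (fun c : {I : Ideal (𝓞 F) // Ideal.absNorm I = n} ↦
      (Ideal.absNorm c.1 : ℝ) ^ (-s)) ((cnt F n : ℝ) * (n : ℝ) ^ (-s)) := by
    intro n
    have : Finite {I : Ideal (𝓞 F) // Ideal.absNorm I = n} :=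
      (Ideal.finite_setOfPred_absNorm_eq n).to_subtype
    have := Fintype.ofFinite {I : Ideal (𝓞 F) // Ideal.absNorm I = n}
    have h := hasSum_fintype (fun c : {I : Ideal (𝓞 F) // Ideal.absNorm I = n} ↦
      (Ideal.absNorm c.1 : ℝ) ^ (-s))
    convert h using 1
    rw [Finset.sum_congr rfl (fun c _ ↦ by rw [c.2] :
      ∀ c ∈ (Finset.univ : Finset {I : Ideal (𝓞 F) // Ideal.absNorm I = n}),
        (Ideal.absNorm c.1 : ℝ) ^ (-s) = (n : ℝ) ^ (-s))]
    rw [Finset.sum_const, Finset.card_univ, cnt, Nat.card_eq_fintype_card, nsmul_eq_mul]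
  refine HasSum.sigma_of_hasSum (summable_cnt F hs).hasSum hfib ?_
  rw [summable_sigma_of_nonneg (fun x ↦ by
    simp only [Function.comp]; positivity)]
  refine ⟨fun n ↦ (hfib n).summable, ?_⟩
  have := summable_cnt F hs
  convert this using 2 with n
  exact (hfib n).tsum_eq


section Euler

variable {R : Type*} [CommRing R] [IsDedekindDomain R]

/-- `e ↦ ∏_{v ∈ S} v ^ e v`. -/
noncomputable def prodPow (S : Finset (HeightOneSpectrum R)) (e : S → ℕ) : Ideal R :=
  ∏ v : S, v.1.asIdeal ^ e v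

/-- the multiset of prime factors of `prodPow S e`. -/
noncomputable def msPow (S : Finset (HeightOneSpectrum R)) (e : S → ℕ) : Multiset (Ideal R) :=
  ∑ v : S, e v • ({v.1.asIdeal} : Multiset (Ideal R))

omit [IsDedekindDomain R] in
theorem msPow_prod (S : Finset (HeightOneSpectrum R)) (e : S → ℕ) :
    (msPow S e).prod = prodPow S e := by
  unfold msPow prodPow
  rw [Multiset.prod_sum]
  refine Finset.prod_congr rfl fun v _ ↦ ?_
  rw [Multiset.prod_nsmul, Multiset.prod_singleton]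

theorem msPow_prime (S : Finset (HeightOneSpectrum R)) (e : S → ℕ) :
    ∀ p ∈ msPow S e, Prime p := by
  intro p hp
  unfold msPow at hp
  rw [Multiset.mem_sum] at hp
  obtain ⟨v, _, hv⟩ := hp
  have := Multiset.mem_of_mem_nsmul hv
  rw [Multiset.mem_singleton] at this
  rw [this]
  exact v.1.prime

omit [IsDedekindDomain R] in
theorem msPow_count (S : Finset (HeightOneSpectrum R)) (e : S → ℕ) (w : S) :
    by classical exact Multiset.count w.1.asIdeal (msPow S e) = e w := by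
  classical
  unfold msPow
  rw [Multiset.count_sum']
  rw [Finset.sum_eq_single w]
  · rw [Multiset.count_nsmul, Multiset.count_singleton_self, mul_one]
  · intro v _ hv
    rw [Multiset.count_nsmul, Multiset.count_singleton, if_neg, mul_zero]
    intro h
    exact hv (Subtype.ext (HeightOneSpectrum.ext h.symm))
  · intro h
    exact absurd (Finset.mem_univ w) h

theorem prodPow_injective (S : Finset (HeightOneSpectrum R)) :
    Function.Injective (prodPow S) := by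
  classical
  intro e e' h
  rw [← msPow_prod, ← msPow_prod] at h
  have h2 : msPow S e = msPow S e' := by
    rw [← UniqueFactorizationMonoid.normalizedFactors_prod_of_prime (msPow_prime S e), h,
      UniqueFactorizationMonoid.normalizedFactors_prod_of_prime (msPow_prime S e')]
  funext w
  have h1 := msPow_count S e w
  have h3 := msPow_count S e' w
  rw [← h1, ← h3, h2]

/-- the finite set of ideals `∏_{v ∈ S} v ^ e v` with all `e v < M`. -/
noncomputable def box (S : Finset (HeightOneSpectrum R)) (M : ℕ) : Finset (Ideal R) := by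
  classical
  exact (Fintype.piFinset (fun _ : S ↦ Finset.range M)).image (prodPow S)

theorem sum_box (f : Ideal R →* ℝ) (S : Finset (HeightOneSpectrum R)) (M : ℕ) :
    ∑ I ∈ box S M, f I = ∏ v ∈ S, ∑ j ∈ Finset.range M, f v.asIdeal ^ j := by
  classical
  unfold box
  rw [Finset.sum_image (fun _ _ _ _ h ↦ prodPow_injective S h)]
  rw [← Finset.prod_coe_sort S (fun v ↦ ∑ j ∈ Finset.range M, f v.asIdeal ^ j)]
  rw [Finset.prod_univ_sum]
  refine Finset.sum_congr rfl fun e _ ↦ ?_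
  unfold prodPow
  rw [map_prod]
  refine Finset.prod_congr rfl fun v _ ↦ ?_
  rw [map_pow]

theorem exists_box (T : Finset (Ideal R)) (hT : ∀ I ∈ T, I ≠ ⊥) :
    ∃ (S : Finset (HeightOneSpectrum R)) (M : ℕ), T ⊆ box S M := by
  classical
  have hfin : (⋃ I ∈ T, Function.mulSupport
      (fun v : HeightOneSpectrum R ↦ v.maxPowDividing I)).Finite :=
    Set.Finite.biUnion T.finite_toSet (fun I hI ↦ Ideal.hasFiniteMulSupport (hT I hI))
  let S := hfin.toFinset
  let c : Ideal R → HeightOneSpectrum R → ℕ :=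
    fun I v ↦ (Associates.mk v.asIdeal).count (Associates.mk I).factors
  let M := (T.sup fun I ↦ S.sup fun v ↦ c I v) + 1
  refine ⟨S, M, fun I hI ↦ ?_⟩
  unfold box
  rw [Finset.mem_image]
  refine ⟨fun v ↦ c I v.1, ?_, ?_⟩
  · rw [Fintype.mem_piFinset]
    intro v
    rw [Finset.mem_range, Nat.lt_succ_iff]
    exact le_trans (Finset.le_sup (f := fun v ↦ c I v) v.2)
      (Finset.le_sup (f := fun I ↦ S.sup fun v ↦ c I v) hI)
  · unfold prodPow
    rw [Finset.prod_coe_sort S (fun v ↦ v.asIdeal ^ c I v)]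
    conv_rhs => rw [← Ideal.finprod_heightOneSpectrum_factorization (hT I hI)]
    rw [finprod_eq_prod_of_mulSupport_subset (s := S)]
    · rfl
    · intro v hv
      rw [Finset.mem_coe, Set.Finite.mem_toFinset]
      exact Set.mem_biUnion hI hv

end Euler


/-- `I ↦ N(I)^(-s)` as a monoid homomorphism. -/
noncomputable def nrm (s : ℝ) : Ideal (𝓞 F) →* ℝ where
  toFun I := (Ideal.absNorm I : ℝ) ^ (-s)
  map_one' := by simp
  map_mul' I J := by
    rw [map_mul, Nat.cast_mul, Real.mul_rpow (Nat.cast_nonneg _) (Nat.cast_nonneg _)]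

theorem nrm_apply (s : ℝ) (I : Ideal (𝓞 F)) : nrm F s I = (Ideal.absNorm I : ℝ) ^ (-s) := rfl

theorem nrm_nonneg (s : ℝ) (I : Ideal (𝓞 F)) : 0 ≤ nrm F s I := by
  rw [nrm_apply]; positivity

theorem two_le_absNorm (v : HeightOneSpectrum (𝓞 F)) : 2 ≤ Ideal.absNorm v.asIdeal := by
  have h0 : Ideal.absNorm v.asIdeal ≠ 0 := by
    rw [Ne, Ideal.absNorm_eq_zero_iff]; exact v.ne_bot
  have h1 : Ideal.absNorm v.asIdeal ≠ 1 := by
    rw [Ne, Ideal.absNorm_eq_one_iff]; exact v.isPrime.ne_top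
  omega

theorem nrm_le_half {s : ℝ} (hs : 1 < s) (v : HeightOneSpectrum (𝓞 F)) :
    nrm F s v.asIdeal ≤ 1 / 2 := by
  have h2 : (2 : ℝ) ≤ (Ideal.absNorm v.asIdeal : ℝ) := by exact_mod_cast two_le_absNorm F v
  rw [nrm_apply]
  calc (Ideal.absNorm v.asIdeal : ℝ) ^ (-s) ≤ (2 : ℝ) ^ (-s) :=
        Real.rpow_le_rpow_of_nonpos (by norm_num) h2 (by linarith)
    _ ≤ (2 : ℝ) ^ (-1 : ℝ) := Real.rpow_le_rpow_of_exponent_le (by norm_num) (by linarith)
    _ = 1 / 2 := by rw [Real.rpow_neg_one]; norm_num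

theorem nrm_sq_le {s : ℝ} (hs : 1 < s) (v : HeightOneSpectrum (𝓞 F)) :
    nrm F s v.asIdeal ^ 2 ≤ nrm F 2 v.asIdeal := by
  have h2 : (2 : ℝ) ≤ (Ideal.absNorm v.asIdeal : ℝ) := by exact_mod_cast two_le_absNorm F v
  rw [nrm_apply, nrm_apply, ← Real.rpow_natCast, ← Real.rpow_mul (by positivity)]
  refine Real.rpow_le_rpow_of_exponent_le (by linarith) ?_
  push_cast
  linarith

theorem summable_nrm {s : ℝ} (hs : 1 < s) :
    Summable (fun v : HeightOneSpectrum (𝓞 F) ↦ nrm F s v.asIdeal) :=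
  (hasSum_ideal F hs).summable.comp_injective
    (i := fun v : HeightOneSpectrum (𝓞 F) ↦ v.asIdeal) (fun _ _ h ↦ HeightOneSpectrum.ext h)

/-- the prime zeta function. -/
noncomputable def P (s : ℝ) : ℝ := ∑' v : HeightOneSpectrum (𝓞 F), nrm F s v.asIdeal

theorem sum_box_le {s : ℝ} (hs : 1 < s) (S : Finset (HeightOneSpectrum (𝓞 F))) (M : ℕ) :
    ∏ v ∈ S, ∑ j ∈ Finset.range M, nrm F s v.asIdeal ^ j ≤ Z F s := by
  rw [← sum_box]
  exact sum_le_hasSum _ (fun I _ ↦ nrm_nonneg F s I) (hasSum_ideal F hs)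

theorem prod_inv_le {s : ℝ} (hs : 1 < s) (S : Finset (HeightOneSpectrum (𝓞 F))) :
    ∏ v ∈ S, (1 - nrm F s v.asIdeal)⁻¹ ≤ Z F s := by
  have ht : Tendsto (fun M : ℕ ↦ ∏ v ∈ S, ∑ j ∈ Finset.range M, nrm F s v.asIdeal ^ j) atTop
      (𝓝 (∏ v ∈ S, (1 - nrm F s v.asIdeal)⁻¹)) :=
    tendsto_finsetProd S fun v _ ↦
      (hasSum_geometric_of_lt_one (nrm_nonneg F s _)
        (lt_of_le_of_lt (nrm_le_half F hs v) (by norm_num))).tendsto_sum_nat
  exact le_of_tendsto' ht (fun M ↦ sum_box_le F hs S M)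

theorem exp_le_inv {x : ℝ} (hx : x < 1) : Real.exp x ≤ (1 - x)⁻¹ := by
  have h1 : 1 - x ≤ Real.exp (-x) := by
    have := Real.add_one_le_exp (-x); linarith
  have h2 : 0 < 1 - x := by linarith
  rw [Real.exp_neg] at h1
  rw [le_inv_comm₀ (Real.exp_pos x) h2]
  exact h1

theorem inv_le_exp {x : ℝ} (h0 : 0 ≤ x) (hx : x ≤ 1 / 2) :
    (1 - x)⁻¹ ≤ Real.exp (x + 2 * x ^ 2) := by
  have h2 : 0 < 1 - x := by linarith
  have h3 : (1 - x)⁻¹ = x / (1 - x) + 1 := by field_simp; ring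
  have h4 : x / (1 - x) ≤ x + 2 * x ^ 2 := by
    rw [div_le_iff₀ h2]
    nlinarith [mul_nonneg h0 h0, mul_nonneg (mul_nonneg h0 h0) (by linarith : 0 ≤ 1 / 2 - x)]
  calc (1 - x)⁻¹ = x / (1 - x) + 1 := h3
    _ ≤ Real.exp (x / (1 - x)) := Real.add_one_le_exp _
    _ ≤ Real.exp (x + 2 * x ^ 2) := Real.exp_le_exp.mpr h4

theorem exp_P_le {s : ℝ} (hs : 1 < s) : Real.exp (P F s) ≤ Z F s := by
  have ht : Tendsto (fun S : Finset (HeightOneSpectrum (𝓞 F)) ↦
      Real.exp (∑ v ∈ S, nrm F s v.asIdeal)) atTop (𝓝 (Real.exp (P F s))) :=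
    (Real.continuous_exp.tendsto _).comp (summable_nrm F hs).hasSum
  refine le_of_tendsto' ht fun S ↦ le_trans ?_ (prod_inv_le F hs S)
  rw [Real.exp_sum]
  refine Finset.prod_le_prod (fun v _ ↦ (Real.exp_pos _).le) fun v _ ↦ ?_
  exact exp_le_inv (lt_of_le_of_lt (nrm_le_half F hs v) (by norm_num))

theorem Z_le_exp {s : ℝ} (hs : 1 < s) : Z F s ≤ Real.exp (P F s + 2 * P F 2) := by
  classical
  refine hasSum_le_of_sum_le (hasSum_ideal F hs) fun T ↦ ?_
  have hbot : (Ideal.absNorm (⊥ : Ideal (𝓞 F)) : ℝ) ^ (-s) = 0 := by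
    rw [Ideal.absNorm_bot, Nat.cast_zero, Real.zero_rpow (by linarith)]
  rw [← Finset.sum_erase T hbot]
  obtain ⟨S, M, hSM⟩ := exists_box (T.erase ⊥) (fun I hI ↦ Finset.ne_of_mem_erase hI)
  calc ∑ I ∈ T.erase ⊥, (Ideal.absNorm I : ℝ) ^ (-s)
      ≤ ∑ I ∈ box S M, nrm F s I :=
        Finset.sum_le_sum_of_subset_of_nonneg hSM (fun I _ _ ↦ nrm_nonneg F s I)
    _ = ∏ v ∈ S, ∑ j ∈ Finset.range M, nrm F s v.asIdeal ^ j := sum_box _ S M
    _ ≤ ∏ v ∈ S, (1 - nrm F s v.asIdeal)⁻¹ := by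
        refine Finset.prod_le_prod (fun v _ ↦ Finset.sum_nonneg fun j _ ↦
          pow_nonneg (nrm_nonneg F s _) j) fun v _ ↦ ?_
        exact sum_le_hasSum _ (fun j _ ↦ pow_nonneg (nrm_nonneg F s _) j)
          (hasSum_geometric_of_lt_one (nrm_nonneg F s _)
            (lt_of_le_of_lt (nrm_le_half F hs v) (by norm_num)))
    _ ≤ ∏ v ∈ S, Real.exp (nrm F s v.asIdeal + 2 * nrm F s v.asIdeal ^ 2) := by
        refine Finset.prod_le_prod (fun v _ ↦ ?_) fun v _ ↦
          inv_le_exp (nrm_nonneg F s _) (nrm_le_half F hs v)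
        have := nrm_le_half F hs v
        exact inv_nonneg.mpr (by linarith)
    _ = Real.exp (∑ v ∈ S, (nrm F s v.asIdeal + 2 * nrm F s v.asIdeal ^ 2)) :=
        (Real.exp_sum _ _).symm
    _ ≤ Real.exp (P F s + 2 * P F 2) := by
        refine Real.exp_le_exp.mpr ?_
        rw [Finset.sum_add_distrib, ← Finset.mul_sum]
        have h1 : ∑ v ∈ S, nrm F s v.asIdeal ≤ P F s :=
          (summable_nrm F hs).sum_le_tsum S (fun v _ ↦ nrm_nonneg F s _)
        have h2 : ∑ v ∈ S, nrm F s v.asIdeal ^ 2 ≤ P F 2 :=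
          le_trans (Finset.sum_le_sum fun v _ ↦ nrm_sq_le F hs v)
            ((summable_nrm F (by norm_num : (1 : ℝ) < 2)).sum_le_tsum S
              (fun v _ ↦ nrm_nonneg F 2 _))
        linarith

theorem tendsto_Z :
    Tendsto (fun s : ℝ ↦ (s - 1) * Z F s) (𝓝[>] 1) (𝓝 (dedekindZeta_residue F)) := by
  have h := (Complex.continuous_re.tendsto _).comp (tendsto_sub_one_mul_dedekindZeta_nhdsGT F)
  rw [Complex.ofReal_re] at h
  refine h.congr' ?_
  filter_upwards [self_mem_nhdsWithin] with s hs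
  have hs' : 1 < s := hs
  simp only [Function.comp]
  rw [dedekindZeta_eq F hs', ← Complex.ofReal_one, ← Complex.ofReal_sub, ← Complex.ofReal_mul,
    Complex.ofReal_re]

end Analytic

variable (F : Type*) [Field F] [NumberField F]

theorem summable_primeNorm {s : ℝ} (hs : 1 < s) :
    Summable (fun 𝔭 : HeightOneSpectrum (𝓞 F) ↦ (Ideal.absNorm 𝔭.asIdeal : ℝ) ^ (-s)) :=
  Analytic.summable_nrm F hs

/-- `∑_𝔭 N𝔭^{-s} = log (1/(s-1)) + O(1)` as `s → 1+`. -/
theorem primeZeta_asymp :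
    ∃ C : ℝ, ∀ᶠ s in 𝓝[>] (1 : ℝ),
      |(∑' 𝔭 : HeightOneSpectrum (𝓞 F), (Ideal.absNorm 𝔭.asIdeal : ℝ) ^ (-s))
        - Real.log (1 / (s - 1))| ≤ C := by
  have hρ := dedekindZeta_residue_pos F
  have hlog : Tendsto (fun s : ℝ ↦ Real.log ((s - 1) * Analytic.Z F s)) (𝓝[>] 1)
      (𝓝 (Real.log (dedekindZeta_residue F))) :=
    (Analytic.tendsto_Z F).log hρ.ne'
  have hP2 : 0 ≤ Analytic.P F 2 := tsum_nonneg fun v ↦ Analytic.nrm_nonneg F 2 _
  refine ⟨2 * Analytic.P F 2 + (|Real.log (dedekindZeta_residue F)| + 1), ?_⟩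
  have hev : ∀ᶠ s in 𝓝[>] (1 : ℝ), |Real.log ((s - 1) * Analytic.Z F s)|
      < |Real.log (dedekindZeta_residue F)| + 1 :=
    hlog.abs.eventually_lt_const (by linarith)
  filter_upwards [hev, self_mem_nhdsWithin] with s h1 hs
  have hs' : 1 < s := hs
  have hs1 : 0 < s - 1 := by linarith
  change |Analytic.P F s - Real.log (1 / (s - 1))| ≤ _
  have hZpos : 0 < Analytic.Z F s := lt_of_lt_of_le (Real.exp_pos _) (Analytic.exp_P_le F hs')
  have hA : Analytic.P F s ≤ Real.log (Analytic.Z F s) := by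
    rw [Real.le_log_iff_exp_le hZpos]; exact Analytic.exp_P_le F hs'
  have hB : Real.log (Analytic.Z F s) ≤ Analytic.P F s + 2 * Analytic.P F 2 := by
    rw [Real.log_le_iff_le_exp hZpos]; exact Analytic.Z_le_exp F hs'
  have hC : Real.log ((s - 1) * Analytic.Z F s)
      = Real.log (Analytic.Z F s) - Real.log (1 / (s - 1)) := by
    rw [Real.log_mul hs1.ne' hZpos.ne', one_div, Real.log_inv]; ring
  rw [hC] at h1
  rw [abs_lt] at h1
  rw [abs_le]
  constructor <;> linarith [h1.1, h1.2]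

end Fermat.Agent.S14
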