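import Fermat.Agent.S14.Defs

/-!
# S14: basic API for `ord`, `res`, `Gen`, weak approximation, Galois action.
Pieces: S14/BASIC-ord, S14/BASIC-res, S14/BASIC-approx, S14/BASIC-gal.
-/

set_option autoImplicit false

namespace Fermat.Agent.S14

open IsDedekindDomain NumberField

section Ord  -- piece S14/BASIC-ord

variable {K : Type*} [Field K] [NumberField K]

theorem ord_one (v : Pl K) : ord v (1 : Kˣ) = 0 := by simp [ord]

theorem ord_mul (v : Pl K) (x y : Kˣ) : ord v (x * y) = ord v x + ord v y := by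
  simp [ord]; ring

theorem ord_inv (v : Pl K) (x : Kˣ) : ord v x⁻¹ = - ord v x := by simp [ord]

theorem ord_pow (v : Pl K) (x : Kˣ) (n : ℕ) : ord v (x ^ n) = n * ord v x := by
  simp [ord]

theorem ord_zpow (v : Pl K) (x : Kˣ) (n : ℤ) : ord v (x ^ n) = n * ord v x := by
  simp [ord]

theorem ord_div (v : Pl K) (x y : Kˣ) : ord v (x / y) = ord v x - ord v y := by
  rw [div_eq_mul_inv, ord_mul, ord_inv]; ring

theorem valuation_eq_exp (v : Pl K) (x : Kˣ) :
    v.valuation K (x : K) = WithZero.exp (- ord v x) := by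
  rw [← HeightOneSpectrum.valuationOfNeZero_eq, ord, neg_neg]
  rfl

theorem valuation_eq_one_iff (v : Pl K) (x : Kˣ) : v.valuation K (x : K) = 1 ↔ ord v x = 0 := by
  rw [valuation_eq_exp, ← WithZero.exp_zero, WithZero.exp_inj, neg_eq_zero]

theorem valuation_le_one_iff (v : Pl K) (x : Kˣ) : v.valuation K (x : K) ≤ 1 ↔ 0 ≤ ord v x := by
  rw [valuation_eq_exp, ← WithZero.exp_zero, WithZero.exp_le_exp, neg_nonpos]

theorem ord_support_finite (x : Kˣ) : {v : Pl K | ord v x ≠ 0}.Finite := by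
  have h1 := HeightOneSpectrum.Support.finite (𝓞 K) (x : K)
  have h2 := HeightOneSpectrum.Support.finite (𝓞 K) ((x⁻¹ : Kˣ) : K)
  refine (h1.union h2).subset fun v hv => ?_
  simp only [Set.mem_ofPred_eq] at hv
  simp only [Set.mem_union, HeightOneSpectrum.Support, Set.mem_ofPred_eq, ← not_le,
    valuation_le_one_iff, ord_inv]
  omega

theorem le_ord_iff (v : Pl K) (x : Kˣ) (a : 𝓞 K) (h : (x : K) = a) (n : ℕ) :
    (n : ℤ) ≤ ord v x ↔ a ∈ v.asIdeal ^ n := by
  have e : v.valuation K (x : K) = v.intValuation a := by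
    rw [h]
    exact HeightOneSpectrum.valuation_of_algebraMap v a
  rw [← HeightOneSpectrum.intValuation_le_pow_iff_mem, ← e, valuation_eq_exp,
    WithZero.exp_le_exp, neg_le_neg_iff]

theorem ord_nonneg_of_integer (v : Pl K) (x : Kˣ) (a : 𝓞 K) (h : (x : K) = a) : 0 ≤ ord v x := by
  have := (le_ord_iff v x a h 0).mpr (by simp)
  simpa using this

theorem ord_eq_zero_iff (v : Pl K) (x : Kˣ) (a : 𝓞 K) (h : (x : K) = a) :
    ord v x = 0 ↔ a ∉ v.asIdeal := by
  have h0 := ord_nonneg_of_integer v x a h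
  have h1 := le_ord_iff v x a h 1
  rw [pow_one] at h1
  rw [← h1]
  push_cast
  omega

theorem exists_integer_of_ord_nonneg (x : Kˣ) (h : ∀ v : Pl K, 0 ≤ ord v x) :
    ∃ a : 𝓞 K, (x : K) = a := by
  obtain ⟨a, ha⟩ := HeightOneSpectrum.mem_integers_of_valuation_le_one K (x : K)
    fun v => (valuation_le_one_iff v x).mpr (h v)
  exact ⟨a, ha.symm⟩

theorem mem_SUnit_iff (S : Finset (Pl K)) (x : Kˣ) : x ∈ SUnit K S ↔ ∀ v ∉ S, ord v x = 0 := by
  constructor
  · intro h v hv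
    exact (valuation_eq_one_iff v x).mp (h v (by simpa using hv))
  · intro h v hv
    exact (valuation_eq_one_iff v x).mpr (h v (by simpa using hv))

/-- a `v`-unit is a quotient of two integers prime to `v` -/
theorem exists_frac (v : Pl K) (x : Kˣ) (h : ord v x = 0) :
    ∃ a b : 𝓞 K, a ∉ v.asIdeal ∧ b ∉ v.asIdeal ∧ (x : K) = (a : K) / (b : K) := by
  obtain ⟨a, ⟨b, hb⟩, hab⟩ := HeightOneSpectrum.exists_primeCompl_mul_eq_of_integer v (x : K)
    ((valuation_le_one_iff v x).mpr h.ge)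
  have hb' : b ∉ v.asIdeal := hb
  have hb0 : (algebraMap (𝓞 K) K b) ≠ 0 := by
    rw [Ne, map_eq_zero_iff _ (IsFractionRing.injective (𝓞 K) K)]
    rintro rfl
    exact hb' (zero_mem _)
  have hx : (x : K) = (a : K) / (b : K) := by
    rw [eq_div_iff hb0]
    exact hab
  refine ⟨a, b, ?_, hb', hx⟩
  have e : ((x * Units.mk0 _ hb0 : Kˣ) : K) = a := hab
  rw [← ord_eq_zero_iff v _ a e, ord_mul, h, zero_add, ord_eq_zero_iff v _ b rfl]
  exact hb'

/-- ultrametric inequality in the form used for congruences -/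
theorem mem_Ulev_iff (v : Pl K) (n : ℕ) (x : Kˣ) :
    x ∈ Ulev v n ↔ v.valuation K (x : K) = 1 ∧
      v.valuation K ((x : K) - 1) ≤ WithZero.exp (-(n : ℤ)) := Iff.rfl

/-- if `x ^ p` is an `S`-unit then so is `x` -/
theorem mem_SUnit_of_pow (S : Finset (Pl K)) (x : Kˣ) {n : ℕ} (hn : n ≠ 0)
    (h : x ^ n ∈ SUnit K S) : x ∈ SUnit K S := by
  rw [mem_SUnit_iff] at h ⊢
  intro v hv
  have := h v hv
  rw [ord_pow] at this
  rcases mul_eq_zero.mp this with h0 | h0
  · exact absurd (by exact_mod_cast h0) hn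
  · exact h0

end Ord

section Approx  -- piece S14/BASIC-approx

variable {K : Type*} [Field K] [NumberField K]

theorem Gen.mono {S S' : Finset (Pl K)} (h : Gen S) (hS : S ⊆ S') : Gen S' :=
  fun m => (h m).imp fun _ hc v hv => hc v fun hv' => hv (hS hv')

/-- integers with prescribed exact orders at finitely many places -/
theorem exists_integer_pow (S : Finset (Pl K)) (e : Pl K → ℕ) :
    ∃ a : 𝓞 K, a ≠ 0 ∧ ∀ v ∈ S, a ∈ v.asIdeal ^ e v ∧ a ∉ v.asIdeal ^ (e v + 1) := by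
  classical
  rcases S.eq_empty_or_nonempty with rfl | ⟨v₀, hv₀⟩
  · exact ⟨1, one_ne_zero, by simp⟩
  have hπ : ∀ v : Pl K, ∃ π : 𝓞 K, π ∈ v.asIdeal ^ e v ∧ π ∉ v.asIdeal ^ (e v + 1) := fun v => by
    obtain ⟨π, h1, h2⟩ := SetLike.exists_of_lt (Ideal.pow_succ_lt_pow v.ne_bot (e v))
    exact ⟨π, h1, h2⟩
  choose π hπ1 hπ2 using hπ
  obtain ⟨y, hy⟩ := IsDedekindDomain.exists_forall_sub_mem_ideal (s := S) (fun v => v.asIdeal)
    (fun v => e v + 1) (fun v _ => v.prime)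
    (fun v _ w _ h => fun h' => h (HeightOneSpectrum.ext h')) (fun v => π v)
  have key : ∀ v ∈ S, y ∈ v.asIdeal ^ e v ∧ y ∉ v.asIdeal ^ (e v + 1) := by
    intro v hv
    have h1 := hy v hv
    constructor
    · have h2 : y - π v ∈ v.asIdeal ^ e v := Ideal.pow_le_pow_right (Nat.le_succ _) h1
      have := add_mem h2 (hπ1 v)
      simpa using this
    · intro h2
      apply hπ2 v
      have := sub_mem h2 h1
      simpa using this
  refine ⟨y, ?_, key⟩
  rintro rfl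
  exact (key v₀ hv₀).2 (zero_mem _)

/-- weak approximation for valuations -/
theorem exists_ord_eq (S : Finset (Pl K)) (n : Pl K → ℤ) : ∃ x : Kˣ, ∀ v ∈ S, ord v x = n v := by
  have hmk : ∀ e : Pl K → ℕ, ∃ x : Kˣ, ∀ v ∈ S, ord v x = e v := by
    intro e
    obtain ⟨a, ha0, ha⟩ := exists_integer_pow S e
    have ha0' : (a : K) ≠ 0 := by
      intro h
      exact ha0 (RingOfIntegers.coe_eq_zero_iff.mp h)
    refine ⟨Units.mk0 _ ha0', fun v hv => ?_⟩
    have h1 := (le_ord_iff v (Units.mk0 _ ha0') a rfl (e v)).mpr (ha v hv).1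
    have h2 := (le_ord_iff v (Units.mk0 _ ha0') a rfl (e v + 1)).not.mpr (ha v hv).2
    push_cast at h2
    omega
  obtain ⟨x, hx⟩ := hmk fun v => (n v).toNat
  obtain ⟨y, hy⟩ := hmk fun v => (-n v).toNat
  refine ⟨x / y, fun v hv => ?_⟩
  rw [ord_div, hx v hv, hy v hv]
  omega

/-- Chinese remainder theorem in the form: prescribed residues at finitely many places. -/
theorem exists_integer_congr (S : Finset (Pl K)) (a : Pl K → 𝓞 K) :
    ∃ x : 𝓞 K, x ≠ 0 ∧ ∀ v ∈ S, x - a v ∈ v.asIdeal := by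
  classical
  obtain ⟨y, hy⟩ := IsDedekindDomain.exists_forall_sub_mem_ideal (s := S) (fun v => v.asIdeal)
    (fun _ => 1) (fun v _ => v.prime)
    (fun v _ w _ h => fun h' => h (HeightOneSpectrum.ext h')) (fun v => a v)
  by_cases hy0 : y = 0
  · obtain ⟨c, hc0, hc⟩ := exists_integer_pow S fun _ => 1
    refine ⟨c, hc0, fun v hv => ?_⟩
    have h1 := hy v hv
    have h2 := (hc v hv).1
    rw [pow_one] at h1 h2
    rw [hy0] at h1
    have := add_mem h2 h1
    simpa [sub_eq_add_neg] using this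
  · exact ⟨y, hy0, fun v hv => by simpa using hy v hv⟩

open scoped nonZeroDivisors in
theorem count_spanSingleton_of_integer (v : Pl K) (x : Kˣ) (a : 𝓞 K) (h : (x : K) = a) :
    FractionalIdeal.count K v (FractionalIdeal.spanSingleton (𝓞 K)⁰ (x : K)) = ord v x := by
  classical
  have ha0 : a ≠ 0 := by
    rintro rfl
    exact x.ne_zero (by rw [h]; rfl)
  have e1 : FractionalIdeal.spanSingleton (𝓞 K)⁰ (x : K) =
      ((Ideal.span {a} : Ideal (𝓞 K)) : FractionalIdeal (𝓞 K)⁰ K) := by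
    rw [FractionalIdeal.coeIdeal_span_singleton, h]
  have hs : (Ideal.span {a} : Ideal (𝓞 K)) ≠ 0 := by
    rw [Ne, Ideal.zero_eq_bot, Ideal.span_singleton_eq_bot]
    exact ha0
  rw [e1, FractionalIdeal.count_coe K v hs]
  have e2 : v.valuation K (x : K) = v.intValuation a := by
    rw [h]
    exact HeightOneSpectrum.valuation_of_algebraMap v a
  rw [valuation_eq_exp, HeightOneSpectrum.intValuation_if_neg v ha0, WithZero.exp_inj] at e2
  omega

open scoped nonZeroDivisors in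
theorem count_spanSingleton (v : Pl K) (x : Kˣ) :
    FractionalIdeal.count K v (FractionalIdeal.spanSingleton (𝓞 K)⁰ (x : K)) = ord v x := by
  obtain ⟨a, b, hb, hab⟩ := IsFractionRing.div_surjective (A := 𝓞 K) (x : K)
  have hb0 : algebraMap (𝓞 K) K b ≠ 0 := by
    rw [Ne, map_eq_zero_iff _ (IsFractionRing.injective (𝓞 K) K)]
    exact nonZeroDivisors.ne_zero hb
  let y : Kˣ := Units.mk0 _ hb0
  have hxy : ((x * y : Kˣ) : K) = a := by
    show (x : K) * algebraMap (𝓞 K) K b = algebraMap (𝓞 K) K a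
    rw [← hab, div_mul_cancel₀ _ hb0]
  have h1 := count_spanSingleton_of_integer v (x * y) a hxy
  have h2 := count_spanSingleton_of_integer v y b rfl
  rw [Units.val_mul, ← FractionalIdeal.spanSingleton_mul_spanSingleton,
    FractionalIdeal.count_mul K v (FractionalIdeal.spanSingleton_ne_zero_iff.mpr x.ne_zero)
      (FractionalIdeal.spanSingleton_ne_zero_iff.mpr y.ne_zero), h2, ord_mul] at h1
  omega

open scoped nonZeroDivisors in
/-- finiteness of the class group + moving lemma -/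
theorem exists_gen_disjoint (B : Finset (Pl K)) : ∃ S : Finset (Pl K), Disjoint S B ∧ Gen S := by
  classical
  have hrep : ∀ C : ClassGroup (𝓞 K), ∃ I : (FractionalIdeal (𝓞 K)⁰ K)ˣ,
      ClassGroup.mk K I = C ∧
        ∀ v ∈ B, FractionalIdeal.count K v (I : FractionalIdeal (𝓞 K)⁰ K) = 0 := by
    intro C
    refine ClassGroup.induction K (fun J => ?_) C
    obtain ⟨x, hx⟩ := exists_ord_eq B
      (fun v => - FractionalIdeal.count K v (J : FractionalIdeal (𝓞 K)⁰ K))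
    refine ⟨toPrincipalIdeal (𝓞 K) K x * J, ?_, fun v hv => ?_⟩
    · have h1 : ClassGroup.mk K (toPrincipalIdeal (𝓞 K) K x) = 1 := by
        rw [ClassGroup.mk_eq_one_iff, FractionalIdeal.isPrincipal_iff]
        exact ⟨x, coe_toPrincipalIdeal x⟩
      rw [map_mul, h1, one_mul]
    · rw [Units.val_mul, FractionalIdeal.count_mul K v (Units.ne_zero _) (Units.ne_zero _),
        coe_toPrincipalIdeal, count_spanSingleton, hx v hv]
      ring
  choose I hI hIB using hrep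
  have hfin : ∀ C : ClassGroup (𝓞 K),
      {v : Pl K | FractionalIdeal.count K v (I C : FractionalIdeal (𝓞 K)⁰ K) ≠ 0}.Finite :=
    fun C => FractionalIdeal.finite_factors (I C : FractionalIdeal (𝓞 K)⁰ K)
  refine ⟨Finset.univ.biUnion fun C => (hfin C).toFinset, ?_, ?_⟩
  · rw [Finset.disjoint_left]
    intro v hv hvB
    simp only [Finset.mem_biUnion, Finset.mem_univ, true_and, Set.Finite.mem_toFinset,
      Set.mem_ofPred_eq] at hv
    obtain ⟨C, hC⟩ := hv
    exact hC (hIB C v hvB)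
  · intro m
    have hne : m.prod (fun (v : Pl K) (n : ℤ) => (v.asIdeal : FractionalIdeal (𝓞 K)⁰ K) ^ n) ≠ 0 := by
      rw [Finsupp.prod, Finset.prod_ne_zero_iff]
      exact fun v _ => zpow_ne_zero _ (FractionalIdeal.coeIdeal_ne_zero.mpr v.ne_bot)
    let A : (FractionalIdeal (𝓞 K)⁰ K)ˣ := Units.mk0 _ hne
    have h1 : ClassGroup.mk K (A * I (ClassGroup.mk K A)⁻¹) = 1 := by
      rw [map_mul, hI, mul_inv_cancel]
    rw [ClassGroup.mk_eq_one_iff, FractionalIdeal.isPrincipal_iff] at h1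
    obtain ⟨c, hc⟩ := h1
    have hc0 : c ≠ 0 := by
      rintro rfl
      rw [FractionalIdeal.spanSingleton_zero] at hc
      exact Units.ne_zero _ hc
    refine ⟨Units.mk0 c hc0, fun v hv => ?_⟩
    rw [← count_spanSingleton, Units.val_mk0, ← hc, Units.val_mul,
      FractionalIdeal.count_mul K v (Units.ne_zero _) (Units.ne_zero _)]
    have h2 : FractionalIdeal.count K v
        (I (ClassGroup.mk K A)⁻¹ : FractionalIdeal (𝓞 K)⁰ K) = 0 := by
      by_contra h3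
      apply hv
      simp only [Finset.mem_biUnion, Finset.mem_univ, true_and, Set.Finite.mem_toFinset,
        Set.mem_ofPred_eq]
      exact ⟨_, h3⟩
    rw [h2, add_zero]
    exact FractionalIdeal.count_finsuppProd K v m

end Approx

section Res  -- piece S14/BASIC-res

variable {K : Type*} [Field K] [NumberField K] {p : ℕ} [Fact p.Prime] {ζ : 𝓞 K}

attribute [local instance] Ideal.Quotient.field

omit [NumberField K] in
/-- `1 - ζ` divides `p` -/
theorem resaux_one_sub_dvd (hζ : IsPrimitiveRoot ζ p) : (1 - ζ) ∣ (p : 𝓞 K) := by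
  have h1 : Polynomial.eval 1 (Polynomial.cyclotomic p (𝓞 K)) = p :=
    Polynomial.eval_one_cyclotomic_prime
  have h2 : Polynomial.eval ζ (Polynomial.cyclotomic p (𝓞 K)) = 0 :=
    hζ.isRoot_cyclotomic (Fact.out : p.Prime).pos
  have := Polynomial.sub_dvd_eval_sub 1 ζ (Polynomial.cyclotomic p (𝓞 K))
  rwa [h1, h2, sub_zero] at this

theorem resaux_finite (v : Pl K) : Finite (𝓞 K ⧸ v.asIdeal) :=
  Ideal.finiteQuotientOfFreeOfNeBot v.asIdeal v.ne_bot

theorem resaux_card (v : Pl K) : Nat.card (𝓞 K ⧸ v.asIdeal) = Ideal.absNorm v.asIdeal := by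
  rw [Ideal.absNorm_apply, Submodule.cardQuot_apply]

theorem resaux_prim (hζ : IsPrimitiveRoot ζ p) {v : Pl K} (hv : Tame p v) :
    IsPrimitiveRoot (Ideal.Quotient.mk v.asIdeal ζ) p := by
  have h1 : (Ideal.Quotient.mk v.asIdeal ζ) ^ p = 1 := by
    rw [← map_pow, hζ.pow_eq_one, map_one]
  have h2 : Ideal.Quotient.mk v.asIdeal ζ ≠ 1 := by
    intro h
    apply hv
    have h3 : (1 - ζ) ∈ v.asIdeal := by
      rw [← Ideal.Quotient.eq_zero_iff_mem, map_sub, h, map_one, sub_self]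
    exact Ideal.mem_of_dvd _ (resaux_one_sub_dvd hζ) h3
  rw [← orderOf_eq_prime h1 h2]
  exact IsPrimitiveRoot.orderOf _

theorem resaux_pow_card (v : Pl K) (u : 𝓞 K ⧸ v.asIdeal) (hu : u ≠ 0) :
    u ^ (Ideal.absNorm v.asIdeal - 1) = 1 := by
  have := resaux_finite v
  have := Fintype.ofFinite (𝓞 K ⧸ v.asIdeal)
  rw [← resaux_card, Nat.card_eq_fintype_card]
  exact FiniteField.pow_card_sub_one_eq_one u hu

theorem dvd_absNorm_sub_one (hζ : IsPrimitiveRoot ζ p) {v : Pl K} (hv : Tame p v) :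
    p ∣ Ideal.absNorm v.asIdeal - 1 := by
  have h := resaux_prim hζ hv
  exact h.dvd_of_pow_eq_one _ (resaux_pow_card v _ (h.ne_zero (Fact.out : p.Prime).ne_zero))

/-- discrete logarithm in the residue field -/
theorem resaux_exists_dlog (hζ : IsPrimitiveRoot ζ p) {v : Pl K} (hv : Tame p v)
    (u : 𝓞 K ⧸ v.asIdeal) (hu : u ≠ 0) :
    ∃ j : ZMod p, u ^ ((Ideal.absNorm v.asIdeal - 1) / p) =
      (Ideal.Quotient.mk v.asIdeal ζ) ^ j.val := by
  have h := resaux_prim hζ hv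
  have h1 : (u ^ ((Ideal.absNorm v.asIdeal - 1) / p)) ^ p = 1 := by
    rw [← pow_mul, Nat.div_mul_cancel (dvd_absNorm_sub_one hζ hv), resaux_pow_card v u hu]
  obtain ⟨i, hi, hi'⟩ := h.eq_pow_of_pow_eq_one h1
  exact ⟨(i : ZMod p), by rw [ZMod.val_cast_of_lt hi, hi']⟩

theorem resaux_dlog_inj (hζ : IsPrimitiveRoot ζ p) {v : Pl K} (hv : Tame p v) (i j : ZMod p)
    (h : (Ideal.Quotient.mk v.asIdeal ζ) ^ i.val = (Ideal.Quotient.mk v.asIdeal ζ) ^ j.val) :
    i = j :=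
  ZMod.val_injective p ((resaux_prim hζ hv).pow_inj (ZMod.val_lt i) (ZMod.val_lt j) h)

theorem resaux_pow_add (hζ : IsPrimitiveRoot ζ p) (v : Pl K) (i j : ZMod p) :
    (Ideal.Quotient.mk v.asIdeal ζ) ^ (i + j).val =
      (Ideal.Quotient.mk v.asIdeal ζ) ^ i.val * (Ideal.Quotient.mk v.asIdeal ζ) ^ j.val := by
  have h1 : (Ideal.Quotient.mk v.asIdeal ζ) ^ p = 1 := by
    rw [← map_pow, hζ.pow_eq_one, map_one]
  rw [ZMod.val_add, ← pow_add, ← pow_eq_pow_mod _ h1]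

/-- `j` is the symbol of the `v`-unit `y` -/
def IsDl (p : ℕ) (ζ : 𝓞 K) (v : Pl K) (y : Kˣ) (j : ZMod p) : Prop :=
  ∃ a b : 𝓞 K, a ∉ v.asIdeal ∧ b ∉ v.asIdeal ∧ (y : K) * b = a ∧
    (Ideal.Quotient.mk v.asIdeal a) ^ ((Ideal.absNorm v.asIdeal - 1) / p) =
      (Ideal.Quotient.mk v.asIdeal ζ) ^ j.val *
        (Ideal.Quotient.mk v.asIdeal b) ^ ((Ideal.absNorm v.asIdeal - 1) / p)

theorem IsDl.exists (hζ : IsPrimitiveRoot ζ p) {v : Pl K} (hv : Tame p v) (y : Kˣ)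
    (hy : ord v y = 0) : ∃ j, IsDl p ζ v y j := by
  obtain ⟨a, b, ha, hb, hab⟩ := exists_frac v y hy
  have ha' : Ideal.Quotient.mk v.asIdeal a ≠ 0 := by rwa [Ne, Ideal.Quotient.eq_zero_iff_mem]
  have hb' : Ideal.Quotient.mk v.asIdeal b ≠ 0 := by rwa [Ne, Ideal.Quotient.eq_zero_iff_mem]
  obtain ⟨j, hj⟩ := resaux_exists_dlog hζ hv (Ideal.Quotient.mk v.asIdeal a /
    Ideal.Quotient.mk v.asIdeal b) (div_ne_zero ha' hb')
  have hb0 : (b : K) ≠ 0 := by
    intro h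
    apply hb
    have : b = 0 := by exact_mod_cast h
    rw [this]; exact zero_mem _
  refine ⟨j, a, b, ha, hb, ?_, ?_⟩
  · rw [hab]; field_simp
  · rw [← hj, div_pow]; field_simp

theorem IsDl.unique (hζ : IsPrimitiveRoot ζ p) {v : Pl K} (hv : Tame p v) {y : Kˣ} {i j : ZMod p}
    (hi : IsDl p ζ v y i) (hj : IsDl p ζ v y j) : i = j := by
  obtain ⟨a, b, ha, hb, hab, h⟩ := hi
  obtain ⟨a', b', ha', hb', hab', h'⟩ := hj
  have hbq : Ideal.Quotient.mk v.asIdeal b ≠ 0 := by rwa [Ne, Ideal.Quotient.eq_zero_iff_mem]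
  have hbq' : Ideal.Quotient.mk v.asIdeal b' ≠ 0 := by rwa [Ne, Ideal.Quotient.eq_zero_iff_mem]
  have e1 : a * b' = a' * b := by
    have : (a : K) * b' = a' * b := by rw [← hab, ← hab']; ring
    exact_mod_cast this
  apply resaux_dlog_inj hζ hv
  have e2 := congrArg (fun t => (Ideal.Quotient.mk v.asIdeal t) ^
    ((Ideal.absNorm v.asIdeal - 1) / p)) e1
  simp only [map_mul, mul_pow, h, h'] at e2
  have hne : (Ideal.Quotient.mk v.asIdeal b) ^ ((Ideal.absNorm v.asIdeal - 1) / p) *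
      (Ideal.Quotient.mk v.asIdeal b') ^ ((Ideal.absNorm v.asIdeal - 1) / p) ≠ 0 :=
    mul_ne_zero (pow_ne_zero _ hbq) (pow_ne_zero _ hbq')
  apply mul_right_cancel₀ hne
  linear_combination e2

theorem IsDl.mul (hζ : IsPrimitiveRoot ζ p) {v : Pl K} {y y' : Kˣ} {i j : ZMod p}
    (hi : IsDl p ζ v y i) (hj : IsDl p ζ v y' j) : IsDl p ζ v (y * y') (i + j) := by
  obtain ⟨a, b, ha, hb, hab, h⟩ := hi
  obtain ⟨a', b', ha', hb', hab', h'⟩ := hj
  refine ⟨a * a', b * b', ?_, ?_, ?_, ?_⟩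
  · exact fun hh => (v.isPrime.mem_or_mem hh).elim ha ha'
  · exact fun hh => (v.isPrime.mem_or_mem hh).elim hb hb'
  · have e1 : ((a * a' : 𝓞 K) : K) = (a : K) * a' := map_mul (algebraMap (𝓞 K) K) a a'
    have e2 : ((b * b' : 𝓞 K) : K) = (b : K) * b' := map_mul (algebraMap (𝓞 K) K) b b'
    rw [Units.val_mul, e1, e2, ← hab, ← hab']; ring
  · rw [resaux_pow_add hζ, map_mul, map_mul, mul_pow, mul_pow, h, h']; ring

theorem exists_resSpec (hζ : IsPrimitiveRoot ζ p) {v : Pl K} (hv : Tame p v) :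
    ∃ ρ : Kˣ →* Multiplicative (ZMod p), ResSpec p ζ v ρ := by
  classical
  obtain ⟨w, hw⟩ := exists_ord_eq {v} (fun _ => 1)
  replace hw : ord v w = 1 := hw v (Finset.mem_singleton_self v)
  have h0 : ∀ x : Kˣ, ord v (x * w ^ (- ord v x)) = 0 := by
    intro x; rw [ord_mul, ord_zpow, hw]; ring
  choose f hf using fun x : Kˣ => IsDl.exists hζ hv _ (h0 x)
  refine ⟨MonoidHom.mk' (fun x => Multiplicative.ofAdd (f x)) ?_, ?_⟩
  · intro x y
    rw [← ofAdd_add]
    congr 1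
    refine IsDl.unique hζ hv (hf (x * y)) ?_
    have := IsDl.mul hζ (hf x) (hf y)
    have e : x * y * w ^ (- ord v (x * y)) = x * w ^ (- ord v x) * (y * w ^ (- ord v y)) := by
      rw [ord_mul, neg_add, zpow_add]
      exact mul_mul_mul_comm _ _ _ _
    rwa [e]
  · intro x a hxa ha
    have hx0 : ord v x = 0 := (ord_eq_zero_iff v x a hxa).mpr ha
    have h1 := hf x
    rw [hx0, neg_zero, zpow_zero, mul_one] at h1
    have ha' : Ideal.Quotient.mk v.asIdeal a ≠ 0 := by rwa [Ne, Ideal.Quotient.eq_zero_iff_mem]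
    obtain ⟨j, hj⟩ := resaux_exists_dlog hζ hv _ ha'
    have h2 : IsDl p ζ v x j := by
      refine ⟨a, 1, ha, ?_, by simp [hxa], by simpa using hj⟩
      exact fun h => v.isPrime.ne_top ((Ideal.eq_top_iff_one _).mpr h)
    have h3 : f x = j := IsDl.unique hζ hv h1 h2
    rw [← Ideal.Quotient.eq_zero_iff_mem, map_sub, map_pow, map_pow, hj]
    simp [h3]

theorem res_spec (hζ : IsPrimitiveRoot ζ p) {v : Pl K} (hv : Tame p v) (x : Kˣ) (a : 𝓞 K)
    (h : (x : K) = a) (ha : a ∉ v.asIdeal) :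
    a ^ ((Ideal.absNorm v.asIdeal - 1) / p) - ζ ^ (res p ζ v x).val ∈ v.asIdeal := by
  have hex := exists_resSpec hζ hv
  unfold res
  rw [dif_pos hex]
  exact hex.choose_spec x a h ha

/-- uniqueness: the symbol of an integer prime to `v` is determined by the congruence -/
theorem res_eq_of_congr (hζ : IsPrimitiveRoot ζ p) {v : Pl K} (hv : Tame p v) (x : Kˣ) (a : 𝓞 K)
    (h : (x : K) = a) (ha : a ∉ v.asIdeal) (j : ZMod p)
    (hj : a ^ ((Ideal.absNorm v.asIdeal - 1) / p) - ζ ^ j.val ∈ v.asIdeal) :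
    res p ζ v x = j := by
  have h1 := res_spec hζ hv x a h ha
  apply resaux_dlog_inj hζ hv
  rw [← Ideal.Quotient.eq_zero_iff_mem, map_sub, map_pow, map_pow, sub_eq_zero] at h1 hj
  rw [← h1, hj]

theorem res_inv (v : Pl K) (x : Kˣ) : res p ζ v x⁻¹ = - res p ζ v x := by
  have h2 : res p ζ v x⁻¹ + res p ζ v x = 0 := by rw [← res_mul, inv_mul_cancel, res_one]
  exact eq_neg_of_add_eq_zero_left h2

theorem res_pow (v : Pl K) (x : Kˣ) (n : ℕ) : res p ζ v (x ^ n) = n * res p ζ v x := by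
  induction n with
  | zero => simp [res_one]
  | succ n ih => rw [pow_succ, res_mul, ih]; push_cast; ring

theorem res_pow_p (v : Pl K) (x : Kˣ) : res p ζ v (x ^ p) = 0 := by
  rw [res_pow]; simp

/-- a generator of the multiplicative group of the residue field -/
theorem resaux_exists_gen (v : Pl K) : ∃ g : (𝓞 K ⧸ v.asIdeal)ˣ,
    (∀ u, u ∈ Subgroup.zpowers g) ∧ orderOf g = Ideal.absNorm v.asIdeal - 1 := by
  have := resaux_finite v
  obtain ⟨g, hg⟩ := IsCyclic.exists_generator (α := (𝓞 K ⧸ v.asIdeal)ˣ)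
  refine ⟨g, hg, ?_⟩
  rw [orderOf_eq_card_of_forall_mem_zpowers hg, Nat.card_units, resaux_card]

theorem resaux_one_lt_absNorm (v : Pl K) : 1 < Ideal.absNorm v.asIdeal := by
  have := resaux_finite v
  rw [← resaux_card]
  exact Finite.one_lt_card

/-- the symbol of an integer prime to `v` vanishes iff it is a `p`-th power modulo `v` -/
theorem res_eq_zero_iff (hζ : IsPrimitiveRoot ζ p) {v : Pl K} (hv : Tame p v) (x : Kˣ) (a : 𝓞 K)
    (h : (x : K) = a) (ha : a ∉ v.asIdeal) :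
    res p ζ v x = 0 ↔ ∃ c : 𝓞 K, a - c ^ p ∈ v.asIdeal := by
  have ha' : Ideal.Quotient.mk v.asIdeal a ≠ 0 := by rwa [Ne, Ideal.Quotient.eq_zero_iff_mem]
  have hp := (Fact.out : p.Prime)
  obtain ⟨e, he⟩ := dvd_absNorm_sub_one hζ hv
  have hediv : (Ideal.absNorm v.asIdeal - 1) / p = e := by
    rw [he, Nat.mul_div_cancel_left _ hp.pos]
  constructor
  · intro h0
    have h1 := res_spec hζ hv x a h ha
    rw [h0, ZMod.val_zero, pow_zero, ← Ideal.Quotient.eq_zero_iff_mem, map_sub, map_pow, map_one,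
      sub_eq_zero, hediv] at h1
    obtain ⟨g, hg, hord⟩ := resaux_exists_gen v
    obtain ⟨m, hm⟩ := Subgroup.mem_zpowers_iff.mp (hg (Units.mk0 _ ha'))
    have h2 : g ^ (m * e) = 1 := by
      rw [zpow_mul, hm, zpow_natCast]
      ext
      simpa using h1
    have h3 : ((p * e : ℕ) : ℤ) ∣ m * e := by
      rw [← he, ← hord]; exact orderOf_dvd_iff_zpow_eq_one.mpr h2
    have he0 : (e : ℤ) ≠ 0 := by
      have := resaux_one_lt_absNorm v
      rintro h0
      have : e = 0 := by exact_mod_cast h0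
      subst this
      omega
    have h4 : (p : ℤ) ∣ m := by
      push_cast at h3
      exact Int.dvd_of_mul_dvd_mul_right he0 h3
    obtain ⟨m', rfl⟩ := h4
    obtain ⟨c, hc⟩ := Ideal.Quotient.mk_surjective (((g ^ m' : (𝓞 K ⧸ v.asIdeal)ˣ)) : 𝓞 K ⧸ v.asIdeal)
    refine ⟨c, ?_⟩
    rw [← Ideal.Quotient.eq_zero_iff_mem, map_sub, map_pow, hc, sub_eq_zero, ← Units.val_pow_eq_pow_val,
      ← zpow_natCast, ← zpow_mul, mul_comm m', hm]
    rfl
  · rintro ⟨c, hc⟩
    apply res_eq_of_congr hζ hv x a h ha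
    rw [← Ideal.Quotient.eq_zero_iff_mem, map_sub, map_pow, sub_eq_zero] at hc
    have hc' : Ideal.Quotient.mk v.asIdeal c ≠ 0 := by
      intro h0
      rw [h0, zero_pow hp.ne_zero] at hc
      exact ha' hc
    rw [ZMod.val_zero, pow_zero, ← Ideal.Quotient.eq_zero_iff_mem, map_sub, map_pow, map_one,
      sub_eq_zero, hc, ← pow_mul, hediv, ← he, resaux_pow_card v _ hc']

/-- congruent integers have the same symbol -/
theorem res_congr (hζ : IsPrimitiveRoot ζ p) {v : Pl K} (hv : Tame p v) (x y : Kˣ) (a b : 𝓞 K)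
    (hx : (x : K) = a) (hy : (y : K) = b) (ha : a ∉ v.asIdeal) (hab : a - b ∈ v.asIdeal) :
    res p ζ v x = res p ζ v y := by
  have hb : b ∉ v.asIdeal := by
    intro hb
    apply ha
    have := add_mem hab hb
    rwa [sub_add_cancel] at this
  apply res_eq_of_congr hζ hv x a hx ha
  have h1 := res_spec hζ hv y b hy hb
  rw [← Ideal.Quotient.eq_zero_iff_mem, map_sub, sub_eq_zero] at hab
  rw [← Ideal.Quotient.eq_zero_iff_mem, map_sub, map_pow, map_pow] at h1 ⊢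
  rw [hab, h1]

theorem exists_res_eq (hζ : IsPrimitiveRoot ζ p) {v : Pl K} (hv : Tame p v) (j : ZMod p) :
    ∃ (x : Kˣ) (a : 𝓞 K), (x : K) = a ∧ a ∉ v.asIdeal ∧ res p ζ v x = j := by
  have hp := (Fact.out : p.Prime)
  obtain ⟨g, hg, hord⟩ := resaux_exists_gen v
  obtain ⟨a, hag⟩ := Ideal.Quotient.mk_surjective (g : 𝓞 K ⧸ v.asIdeal)
  have ha : a ∉ v.asIdeal := by
    rw [← Ideal.Quotient.eq_zero_iff_mem, hag]; exact g.ne_zero
  have ha0 : (a : K) ≠ 0 := by
    intro h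
    apply ha
    have : a = 0 := by exact_mod_cast h
    rw [this]; exact zero_mem _
  have hi : res p ζ v (Units.mk0 (a : K) ha0) ≠ 0 := by
    intro h0
    have h1 := res_spec hζ hv (Units.mk0 (a : K) ha0) a rfl ha
    rw [h0, ZMod.val_zero, pow_zero, ← Ideal.Quotient.eq_zero_iff_mem, map_sub, map_pow, map_one,
      sub_eq_zero, hag] at h1
    have h2 : g ^ ((Ideal.absNorm v.asIdeal - 1) / p) = 1 := by
      ext; simpa using h1
    have h3 := orderOf_dvd_of_pow_eq_one h2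
    rw [hord] at h3
    have h4 := resaux_one_lt_absNorm v
    have h5 : 0 < (Ideal.absNorm v.asIdeal - 1) / p :=
      Nat.div_pos (Nat.le_of_dvd (by omega) (dvd_absNorm_sub_one hζ hv)) hp.pos
    have h6 := Nat.le_of_dvd h5 h3
    have h7 : (Ideal.absNorm v.asIdeal - 1) / p < Ideal.absNorm v.asIdeal - 1 :=
      Nat.div_lt_self (by omega) hp.one_lt
    omega
  refine ⟨Units.mk0 (a : K) ha0 ^ (j * (res p ζ v (Units.mk0 (a : K) ha0))⁻¹).val,
    a ^ (j * (res p ζ v (Units.mk0 (a : K) ha0))⁻¹).val, ?_, ?_, ?_⟩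
  · rw [Units.val_pow_eq_pow_val, Units.val_mk0]
    exact (map_pow (algebraMap (𝓞 K) K) a _).symm
  · exact fun h => ha (v.isPrime.mem_of_pow_mem _ h)
  · rw [res_pow, ZMod.natCast_zmod_val, mul_assoc, inv_mul_cancel₀ hi, mul_one]

/-- weak approximation for valuations and residue symbols -/
theorem exists_ord_res_eq (hζ : IsPrimitiveRoot ζ p) (S : Finset (Pl K)) (n : Pl K → ℤ)
    (ρ : Pl K → ZMod p) :
    ∃ x : Kˣ, ∀ v ∈ S, ord v x = n v ∧ (Tame p v → res p ζ v x = ρ v) := by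
  classical
  obtain ⟨x₀, hx₀⟩ := exists_ord_eq S n
  have key : ∀ v : Pl K, ∃ (x : Kˣ) (a : 𝓞 K), (x : K) = a ∧ a ∉ v.asIdeal ∧
      (Tame p v → res p ζ v x = ρ v - res p ζ v x₀) := by
    intro v
    by_cases hv : Tame p v
    · obtain ⟨x, a, h1, h2, h3⟩ := exists_res_eq hζ hv (ρ v - res p ζ v x₀)
      exact ⟨x, a, h1, h2, fun _ => h3⟩
    · refine ⟨1, 1, by simp, ?_, fun h => absurd h hv⟩
      exact fun h => v.isPrime.ne_top ((Ideal.eq_top_iff_one _).mpr h)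
  choose X A h1 h2 h3 using key
  obtain ⟨y, hy0, hy⟩ := exists_integer_congr S A
  have hy0' : (y : K) ≠ 0 := by
    intro h; apply hy0; exact_mod_cast h
  refine ⟨x₀ * Units.mk0 (y : K) hy0', fun v hv => ?_⟩
  have hyv : y ∉ v.asIdeal := by
    intro h
    apply h2 v
    have := sub_mem h (hy v hv)
    rwa [sub_sub_cancel] at this
  refine ⟨?_, fun ht => ?_⟩
  · rw [ord_mul, hx₀ v hv, (ord_eq_zero_iff v (Units.mk0 (y : K) hy0') y rfl).mpr hyv, add_zero]
  · rw [res_mul, res_congr hζ ht (Units.mk0 (y : K) hy0') (X v) y (A v) rfl (h1 v) hyv (hy v hv),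
      h3 v ht]
    ring

theorem pows_le_tamePow (v : Pl K) : pows K p ≤ tamePow p ζ v := by
  rintro _ ⟨y, rfl⟩
  refine ⟨?_, ?_⟩
  · simp only [powMonoidHom_apply, ord_pow]; exact dvd_mul_right _ _
  · simp only [powMonoidHom_apply]; exact res_pow_p v y

theorem pows_le_locPow (v : Pl K) : pows K p ≤ locPow p ζ v := by
  unfold locPow
  split_ifs
  · exact pows_le_tamePow v
  · exact le_sup_left

theorem pows_le_locPowS (S : Finset (Pl K)) : pows K p ≤ locPowS p ζ S :=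
  le_iInf₂ fun v _ => pows_le_locPow v

theorem mem_locPowS_iff (S : Finset (Pl K)) (x : Kˣ) :
    x ∈ locPowS p ζ S ↔ ∀ v ∈ S, x ∈ locPow p ζ v := by
  simp [locPowS, Subgroup.mem_iInf]

theorem mem_locPow_tame {v : Pl K} (hv : Tame p v) (x : Kˣ) :
    x ∈ locPow p ζ v ↔ (p : ℤ) ∣ ord v x ∧ res p ζ v x = 0 := by
  unfold locPow; rw [if_pos hv]; rfl

theorem mem_locPow_wild {v : Pl K} (hv : ¬ Tame p v) (x : Kˣ) :
    x ∈ locPow p ζ v ↔ x ∈ wildPow p v := by
  unfold locPow; rw [if_neg hv]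

theorem ord_eq_zero_of_mem_Ulev {v : Pl K} {n : ℕ} {x : Kˣ} (h : x ∈ Ulev v n) : ord v x = 0 := by
  have h1 : v.valuation K (x : K) = 1 := h.1
  rw [valuation_eq_exp, WithZero.exp_eq_one, neg_eq_zero] at h1
  exact h1

theorem Ulev_anti (v : Pl K) {m n : ℕ} (h : m ≤ n) : Ulev v n ≤ Ulev v m := by
  rintro x ⟨h1, h2⟩
  refine ⟨h1, h2.trans ?_⟩
  rw [WithZero.exp_le_exp]
  omega

theorem dvd_ord_of_mem_pows_sup_Ulev (v : Pl K) (n : ℕ) (x : Kˣ) (h : x ∈ pows K p ⊔ Ulev v n) :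
    (p : ℤ) ∣ ord v x := by
  obtain ⟨y, ⟨z, rfl⟩, u, hu, rfl⟩ := Subgroup.mem_sup.mp h
  rw [ord_mul, ord_eq_zero_of_mem_Ulev hu, add_zero, powMonoidHom_apply, ord_pow]
  exact dvd_mul_right _ _

theorem dvd_ord_of_mem_primaryAt (v : Pl K) (x : Kˣ) (h : x ∈ primaryAt p v) :
    (p : ℤ) ∣ ord v x :=
  dvd_ord_of_mem_pows_sup_Ulev v p x h

/-- local `p`-th powers have valuation divisible by `p` (tame or wild) -/
theorem dvd_ord_of_mem_locPow (v : Pl K) (x : Kˣ) (h : x ∈ locPow p ζ v) : (p : ℤ) ∣ ord v x := by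
  by_cases hv : Tame p v
  · exact ((mem_locPow_tame hv x).mp h).1
  · exact dvd_ord_of_mem_pows_sup_Ulev v (p + 1) x ((mem_locPow_wild hv x).mp h)

theorem wildPow_le_primaryAt (v : Pl K) : wildPow p v ≤ primaryAt p v :=
  sup_le_sup_left (Ulev_anti v (Nat.le_succ p)) _

end Res

section Pair  -- piece S14/BASIC-ord

variable {K : Type*} [Field K] [NumberField K] {p : ℕ} [Fact p.Prime] {ζ : 𝓞 K}

theorem pair_support_finite (φ : Pl K → ZMod p) (x : Kˣ) :
    (Function.support fun v => φ v * (ord v x : ZMod p)).Finite := by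
  refine (ord_support_finite x).subset fun v hv h0 => hv ?_
  simp [h0]

theorem pair_mul (φ : Pl K → ZMod p) (x y : Kˣ) : pair p φ (x * y) = pair p φ x + pair p φ y := by
  unfold pair
  rw [← finsum_add_distrib (pair_support_finite φ x) (pair_support_finite φ y)]
  refine finsum_congr fun v => ?_
  rw [ord_mul]
  push_cast
  ring

theorem pair_one (φ : Pl K → ZMod p) : pair p φ (1 : Kˣ) = 0 := by
  simp [pair, ord_one]

theorem pair_pow_p (φ : Pl K → ZMod p) (x : Kˣ) : pair p φ (x ^ p) = 0 := by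
  simp [pair, ord_pow]

theorem pair_inv (φ : Pl K → ZMod p) (x : Kˣ) : pair p φ x⁻¹ = - pair p φ x := by
  have h2 : pair p φ x⁻¹ + pair p φ x = 0 := by rw [← pair_mul, inv_mul_cancel, pair_one]
  exact eq_neg_of_add_eq_zero_left h2

/-- evaluate the pairing as a finite sum over any finite set containing the support -/
theorem pair_eq_sum (φ : Pl K → ZMod p) (x : Kˣ) (S : Finset (Pl K))
    (h : ∀ v ∉ S, φ v = 0 ∨ ord v x = 0) :
    pair p φ x = ∑ v ∈ S, φ v * (ord v x : ZMod p) := by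
  unfold pair
  refine finsum_eq_sum_of_support_subset _ fun v hv => ?_
  by_contra hvS
  apply hv
  rcases h v hvS with h0 | h0 <;> simp [h0]

theorem pair_add (φ ψ : Pl K → ZMod p) (x : Kˣ) :
    pair p (φ + ψ) x = pair p φ x + pair p ψ x := by
  unfold pair
  rw [← finsum_add_distrib (pair_support_finite φ x) (pair_support_finite ψ x)]
  refine finsum_congr fun v => ?_
  rw [Pi.add_apply]
  ring

theorem pair_smul (a : ZMod p) (φ : Pl K → ZMod p) (x : Kˣ) :
    pair p (a • φ) x = a * pair p φ x := by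
  unfold pair
  rw [mul_finsum]
  refine finsum_congr fun v => ?_
  rw [Pi.smul_apply, smul_eq_mul]
  ring

theorem rpair_eq_sum (c : Pl K → ZMod p) (x : Kˣ) (S : Finset (Pl K)) (h : ∀ v ∉ S, c v = 0) :
    rpair p ζ c x = ∑ v ∈ S, c v * res p ζ v x := by
  unfold rpair
  refine finsum_eq_sum_of_support_subset _ fun v hv => ?_
  by_contra hvS
  apply hv
  simp [h v hvS]

end Pair

section Gal  -- piece S14/BASIC-gal

variable {K : Type*} [Field K] [NumberField K] {p : ℕ} [Fact p.Prime] {ζ : 𝓞 K}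

theorem mem_galPl (σ : K ≃ₐ[ℚ] K) (v : Pl K) (a : 𝓞 K) :
    a ∈ (galPl σ v).asIdeal ↔ RingOfIntegers.mapRingEquiv (σ.symm : K ≃+* K) a ∈ v.asIdeal :=
  Iff.rfl

/-- the action of the Galois group on integers -/
noncomputable abbrev gOQ (σ : K ≃ₐ[ℚ] K) : 𝓞 K ≃+* 𝓞 K := RingOfIntegers.mapRingEquiv (σ : K ≃+* K)

theorem coe_gOQ (σ : K ≃ₐ[ℚ] K) (a : 𝓞 K) : ((gOQ σ a : 𝓞 K) : K) = σ a := rfl

theorem gOQ_symm_gOQ (σ : K ≃ₐ[ℚ] K) (a : 𝓞 K) :
    RingOfIntegers.mapRingEquiv (σ.symm : K ≃+* K) (gOQ σ a) = a :=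
  RingOfIntegers.ext (σ.symm_apply_apply _)

theorem gOQ_gOQ_symm (σ : K ≃ₐ[ℚ] K) (a : 𝓞 K) :
    gOQ σ (RingOfIntegers.mapRingEquiv (σ.symm : K ≃+* K) a) = a :=
  RingOfIntegers.ext (σ.apply_symm_apply _)

theorem gOQ_mem_galPl (σ : K ≃ₐ[ℚ] K) (v : Pl K) (a : 𝓞 K) :
    gOQ σ a ∈ (galPl σ v).asIdeal ↔ a ∈ v.asIdeal := by
  rw [mem_galPl, gOQ_symm_gOQ]

theorem galPl_asIdeal_eq_map (σ : K ≃ₐ[ℚ] K) (v : Pl K) :
    (galPl σ v).asIdeal = v.asIdeal.map (gOQ σ) := by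
  ext a
  rw [mem_galPl, Ideal.mem_map_of_equiv]
  constructor
  · intro h
    exact ⟨_, h, gOQ_gOQ_symm σ a⟩
  · rintro ⟨b, hb, rfl⟩
    rwa [gOQ_symm_gOQ]

theorem gOQ_mem_galPl_pow (σ : K ≃ₐ[ℚ] K) (v : Pl K) (a : 𝓞 K) (n : ℕ) :
    gOQ σ a ∈ (galPl σ v).asIdeal ^ n ↔ a ∈ v.asIdeal ^ n := by
  rw [galPl_asIdeal_eq_map, ← Ideal.map_pow, Ideal.mem_map_of_equiv]
  constructor
  · rintro ⟨b, hb, h⟩
    rwa [← (gOQ σ).injective h]
  · intro h
    exact ⟨a, h, rfl⟩

theorem galPl_one (v : Pl K) : galPl (1 : K ≃ₐ[ℚ] K) v = v := by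
  apply HeightOneSpectrum.ext
  ext a
  rw [mem_galPl]
  have : RingOfIntegers.mapRingEquiv (((1 : K ≃ₐ[ℚ] K).symm : K ≃ₐ[ℚ] K) : K ≃+* K) a = a :=
    RingOfIntegers.ext rfl
  rw [this]

theorem galPl_mul (σ τ : K ≃ₐ[ℚ] K) (v : Pl K) : galPl (σ * τ) v = galPl σ (galPl τ v) := by
  apply HeightOneSpectrum.ext
  ext a
  rw [mem_galPl, mem_galPl, mem_galPl]
  have : RingOfIntegers.mapRingEquiv (((σ * τ).symm : K ≃ₐ[ℚ] K) : K ≃+* K) a =
      RingOfIntegers.mapRingEquiv (τ.symm : K ≃+* K)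
        (RingOfIntegers.mapRingEquiv (σ.symm : K ≃+* K) a) :=
    RingOfIntegers.ext rfl
  rw [this]

theorem ord_galPl_of_integer (σ : K ≃ₐ[ℚ] K) (v : Pl K) (x : Kˣ) (a : 𝓞 K) (h : (x : K) = a) :
    ord (galPl σ v) (gU σ x) = ord v x := by
  have h' : ((gU σ x : Kˣ) : K) = (gOQ σ a : 𝓞 K) := by
    rw [coe_gU, h, coe_gOQ]
  have h1 := ord_nonneg_of_integer v x a h
  have h2 := ord_nonneg_of_integer (galPl σ v) (gU σ x) _ h'
  have key : ∀ n : ℕ, (n : ℤ) ≤ ord (galPl σ v) (gU σ x) ↔ (n : ℤ) ≤ ord v x := fun n => by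
    rw [le_ord_iff _ _ _ h', le_ord_iff _ _ _ h, gOQ_mem_galPl_pow]
  have k1 := (key (ord (galPl σ v) (gU σ x)).toNat).mp (by omega)
  have k2 := (key (ord v x).toNat).mpr (by omega)
  omega

theorem ord_galPl (σ : K ≃ₐ[ℚ] K) (v : Pl K) (x : Kˣ) : ord (galPl σ v) (gU σ x) = ord v x := by
  obtain ⟨a, b, hb, hab⟩ := IsFractionRing.div_surjective (A := 𝓞 K) (x : K)
  have hb0 : algebraMap (𝓞 K) K b ≠ 0 := by
    rw [Ne, map_eq_zero_iff _ (IsFractionRing.injective (𝓞 K) K)]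
    exact nonZeroDivisors.ne_zero hb
  let y : Kˣ := Units.mk0 _ hb0
  have hxy : ((x * y : Kˣ) : K) = a := by
    show (x : K) * algebraMap (𝓞 K) K b = algebraMap (𝓞 K) K a
    rw [← hab, div_mul_cancel₀ _ hb0]
  have h1 := ord_galPl_of_integer σ v (x * y) a hxy
  have h2 := ord_galPl_of_integer σ v y b rfl
  rw [map_mul, ord_mul, ord_mul, h2] at h1
  omega

theorem absNorm_galPl (σ : K ≃ₐ[ℚ] K) (v : Pl K) :
    Ideal.absNorm (galPl σ v).asIdeal = Ideal.absNorm v.asIdeal := by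
  rw [Ideal.absNorm_apply, Ideal.absNorm_apply, Submodule.cardQuot_apply, Submodule.cardQuot_apply]
  exact (Nat.card_congr
    (Ideal.quotientEquiv v.asIdeal (galPl σ v).asIdeal (gOQ σ) (galPl_asIdeal_eq_map σ v)).toEquiv).symm

theorem tame_galPl (σ : K ≃ₐ[ℚ] K) (v : Pl K) : Tame p (galPl σ v) ↔ Tame p v := by
  unfold Tame
  rw [mem_galPl, map_natCast]

theorem res_galPl_of_integer (hζ : IsPrimitiveRoot ζ p) (σ : K ≃ₐ[ℚ] K) (k : ℕ)
    (hk : σ (ζ : K) = (ζ : K) ^ k) {v : Pl K} (hv : Tame p v) (x : Kˣ) (a : 𝓞 K)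
    (h : (x : K) = a) (ha : a ∉ v.asIdeal) :
    res p ζ (galPl σ v) (gU σ x) = k * res p ζ v x := by
  have h' : ((gU σ x : Kˣ) : K) = (gOQ σ a : 𝓞 K) := by
    rw [coe_gU, h, coe_gOQ]
  have hζk : gOQ σ ζ = ζ ^ k := RingOfIntegers.ext (by simpa using hk)
  apply res_eq_of_congr hζ ((tame_galPl σ v).mpr hv) _ _ h' ((gOQ_mem_galPl σ v a).not.mpr ha)
  rw [absNorm_galPl]
  have h1 := res_spec hζ hv x a h ha
  have h2 := (gOQ_mem_galPl σ v _).mpr h1
  rw [map_sub, map_pow, map_pow, hζk] at h2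
  have h3 : (ζ ^ k) ^ (res p ζ v x).val = ζ ^ ((k : ZMod p) * res p ζ v x).val := by
    rw [← pow_mul, pow_eq_pow_mod (k * (res p ζ v x).val) hζ.pow_eq_one, ZMod.val_mul,
      ZMod.val_natCast, Nat.mod_mul_mod]
  rwa [h3] at h2

/-- equivariance of the power residue symbol -/
theorem res_galPl (hζ : IsPrimitiveRoot ζ p) (σ : K ≃ₐ[ℚ] K) (k : ℕ)
    (hk : σ (ζ : K) = (ζ : K) ^ k) {v : Pl K} (hv : Tame p v) (x : Kˣ) (hx : (p : ℤ) ∣ ord v x) :
    res p ζ (galPl σ v) (gU σ x) = k * res p ζ v x := by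
  obtain ⟨m, hm⟩ := hx
  obtain ⟨y, hy⟩ := exists_ord_eq {v} fun _ => m
  have hy' : ord v y = m := hy v (Finset.mem_singleton_self v)
  have hu : ord v (x / y ^ p) = 0 := by
    rw [ord_div, ord_pow, hy', hm]
    ring
  obtain ⟨a, b, ha, hb, hab⟩ := exists_frac v _ hu
  have ha0 : (a : K) ≠ 0 := fun h0 => ha (by
    rw [RingOfIntegers.coe_eq_zero_iff.mp h0]; exact zero_mem _)
  have hb0 : (b : K) ≠ 0 := fun h0 => hb (by
    rw [RingOfIntegers.coe_eq_zero_iff.mp h0]; exact zero_mem _)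
  have hxe : x = Units.mk0 _ ha0 * (Units.mk0 _ hb0)⁻¹ * y ^ p := by
    have h1 : x / y ^ p = Units.mk0 _ ha0 * (Units.mk0 _ hb0)⁻¹ := by
      apply Units.ext
      rw [hab]
      simp [div_eq_mul_inv]
    rw [← h1, div_mul_cancel]
  rw [hxe, map_mul, map_mul, map_inv, map_pow, res_mul, res_mul, res_inv, res_pow_p, res_mul,
    res_mul, res_inv, res_pow_p, res_galPl_of_integer hζ σ k hk hv _ a rfl ha,
    res_galPl_of_integer hζ σ k hk hv _ b rfl hb]
  ring

end Gal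

end Fermat.Agent.S14
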