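import Fermat.Agent.S14.BridgeDefs

/-! # S14/BRIDGE-P1 : linear algebra of the extension (B1 + B2) -/

set_option autoImplicit false

namespace Fermat.Agent.S14.Br

namespace Coc

variable {p : ℕ} [Fact p.Prime] {G : Type*} [Group G] {V : Type*} [AddCommGroup V]
  [Module (ZMod p) V] [DistribMulAction G V] [SMulCommClass G (ZMod p) V]

/-- a basis `e1, e2` of `V` adapted to `C`, with the matrix coefficients of the action. -/
structure Frame (C : Submodule (ZMod p) V) (ω b : G → ZMod p) (e1 e2 : V) : Prop where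
  e1_mem : e1 ∈ C
  e1_ne : e1 ≠ 0
  e2_not : e2 ∉ C
  spanC : ∀ c ∈ C, ∃ t : ZMod p, c = t • e1
  spanV : ∀ v : V, ∃ x y : ZMod p, v = x • e2 + y • e1
  act1 : ∀ σ : G, σ • e1 = e1
  act2 : ∀ σ : G, σ • e2 = ω σ • e2 + b σ • e1

theorem indep_aux {C : Submodule (ZMod p) V} {e1 e2 : V} (h1 : e1 ∈ C) (h1' : e1 ≠ 0)
    (h2 : e2 ∉ C) {x y : ZMod p} (h : x • e2 + y • e1 = 0) : x = 0 ∧ y = 0 := by
  have hx : x = 0 := by
    by_contra hx
    apply h2
    have : e2 = (-(x⁻¹ * y)) • e1 := by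
      have h' : x • e2 = -(y • e1) := eq_neg_of_add_eq_zero_left h
      calc e2 = x⁻¹ • (x • e2) := by rw [smul_smul, inv_mul_cancel₀ hx, one_smul]
        _ = (-(x⁻¹ * y)) • e1 := by rw [h', smul_neg, smul_smul, neg_smul]
    rw [this]
    exact C.smul_mem _ h1
  refine ⟨hx, ?_⟩
  rw [hx, zero_smul, zero_add] at h
  exact (smul_eq_zero.mp h).resolve_right h1'

namespace Frame

variable {C : Submodule (ZMod p) V} {ω b : G → ZMod p} {e1 e2 : V}

theorem indep (F : Frame C ω b e1 e2) {x y : ZMod p} (h : x • e2 + y • e1 = 0) : x = 0 ∧ y = 0 :=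
  indep_aux F.e1_mem F.e1_ne F.e2_not h

theorem indep' (F : Frame C ω b e1 e2) {x y x' y' : ZMod p}
    (h : x • e2 + y • e1 = x' • e2 + y' • e1) : x = x' ∧ y = y' := by
  have : (x - x') • e2 + (y - y') • e1 = 0 := by
    rw [sub_smul, sub_smul]
    have := sub_eq_zero.mpr h
    rw [← this]
    abel
  obtain ⟨h1, h2⟩ := F.indep this
  exact ⟨sub_eq_zero.mp h1, sub_eq_zero.mp h2⟩

theorem mul (F : Frame C ω b e1 e2) (σ τ : G) :
    ω (σ * τ) = ω σ * ω τ ∧ b (σ * τ) = ω τ * b σ + b τ := by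
  have h : ω (σ * τ) • e2 + b (σ * τ) • e1 = (ω σ * ω τ) • e2 + (ω τ * b σ + b τ) • e1 := by
    rw [← F.act2, mul_smul, F.act2 τ, smul_add, smul_comm σ, smul_comm σ, F.act2 σ, F.act1 σ,
      smul_add, smul_smul, smul_smul, add_smul, mul_comm (ω σ), add_assoc]
  exact F.indep' h

theorem one (F : Frame C ω b e1 e2) : ω 1 = 1 ∧ b 1 = 0 := by
  have h : ω 1 • e2 + b 1 • e1 = (1 : ZMod p) • e2 + (0 : ZMod p) • e1 := by
    rw [← F.act2, one_smul, one_smul, zero_smul, add_zero]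
  exact F.indep' h

theorem trivial_iff (F : Frame C ω b e1 e2) (σ : G) :
    (∀ v : V, σ • v = v) ↔ ω σ = 1 ∧ b σ = 0 := by
  constructor
  · intro h
    have h' : ω σ • e2 + b σ • e1 = (1 : ZMod p) • e2 + (0 : ZMod p) • e1 := by
      rw [← F.act2, h, one_smul, zero_smul, add_zero]
    exact F.indep' h'
  · rintro ⟨h1, h2⟩ v
    obtain ⟨x, y, rfl⟩ := F.spanV v
    rw [smul_add, smul_comm σ, smul_comm σ, F.act2, F.act1, h1, h2, one_smul, zero_smul, add_zero]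

theorem conj (F : Frame C ω b e1 e2) (σ τ : G) (hτ : ω τ = 1) :
    b (σ⁻¹ * τ * σ) = ω σ * b τ := by
  have h1 := (F.mul (σ⁻¹ * τ) σ).2
  have h2 := (F.mul σ⁻¹ τ).2
  have h3 := (F.mul σ⁻¹ σ).2
  rw [inv_mul_cancel, F.one.2] at h3
  rw [h1, h2, hτ]
  linear_combination -h3

theorem pow (F : Frame C ω b e1 e2) (τ : G) (hτ : ω τ = 1) (n : ℕ) :
    ω (τ ^ n) = 1 ∧ b (τ ^ n) = n * b τ := by
  induction n with
  | zero => simpa using F.one
  | succ n ih =>
    rw [pow_succ, (F.mul _ _).1, (F.mul _ _).2, ih.1, ih.2, hτ]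
    refine ⟨by ring, by push_cast; ring⟩

/-- if `b` vanishes identically, the line spanned by `e2` is a stable complement -/
theorem isCompl (F : Frame C ω b e1 e2) : IsCompl C (Submodule.span (ZMod p) {e2}) := by
  constructor
  · rw [Submodule.disjoint_def]
    intro v hv hv'
    obtain ⟨x, rfl⟩ := Submodule.mem_span_singleton.mp hv'
    by_cases hx : x = 0
    · rw [hx, zero_smul]
    · exfalso
      apply F.e2_not
      have : e2 = x⁻¹ • (x • e2) := by rw [smul_smul, inv_mul_cancel₀ hx, one_smul]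
      rw [this]
      exact C.smul_mem _ hv
  · rw [codisjoint_iff, eq_top_iff]
    intro v _
    obtain ⟨x, y, rfl⟩ := F.spanV v
    rw [add_comm]
    exact Submodule.add_mem_sup (C.smul_mem _ F.e1_mem)
      (Submodule.smul_mem _ _ (Submodule.mem_span_singleton_self e2))

theorem stable_of_b_eq_zero (F : Frame C ω b e1 e2) (hb : ∀ σ, b σ = 0) (σ : G) (v : V)
    (hv : v ∈ Submodule.span (ZMod p) {e2}) : σ • v ∈ Submodule.span (ZMod p) {e2} := by
  obtain ⟨x, rfl⟩ := Submodule.mem_span_singleton.mp hv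
  rw [smul_comm, F.act2, hb, zero_smul, add_zero]
  exact Submodule.smul_mem _ _ (Submodule.smul_mem _ _ (Submodule.mem_span_singleton_self e2))

/-- if `b σ₀ = 0` with `ω σ₀ ≠ 1` and `b` vanishes on the kernel of `ω`, then `b = 0` -/
theorem b_eq_zero (F : Frame C ω b e1 e2) (σ₀ : G) (h0 : ω σ₀ ≠ 1) (hb0 : b σ₀ = 0)
    (hker : ∀ τ, ω τ = 1 → b τ = 0) (σ : G) : b σ = 0 := by
  -- `κ = σ σ₀ σ⁻¹ σ₀⁻¹`
  have hinv : ∀ τ : G, ω τ * ω τ⁻¹ = 1 := fun τ ↦ by
    rw [← (F.mul _ _).1, mul_inv_cancel, F.one.1]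
  have hκ : ω (σ * σ₀ * σ⁻¹ * σ₀⁻¹) = 1 := by
    rw [(F.mul _ _).1, (F.mul _ _).1, (F.mul _ _).1]
    linear_combination (ω σ₀ * ω σ₀⁻¹) * hinv σ + hinv σ₀
  have hbκ := hker _ hκ
  have e : σ * σ₀ * σ⁻¹ * σ₀⁻¹ * (σ₀ * σ) = σ * σ₀ := by group
  have h1 := (F.mul (σ * σ₀ * σ⁻¹ * σ₀⁻¹) (σ₀ * σ)).2
  rw [e, hbκ, (F.mul σ σ₀).2, (F.mul σ₀ σ).2, hb0] at h1
  have h2 : (ω σ₀ - 1) * b σ = 0 := by linear_combination h1
  exact (mul_eq_zero.mp h2).resolve_left (sub_ne_zero.mpr h0)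

end Frame

/-- existence of an adapted frame, normalised at `σ₀` -/
theorem exists_frame (C : Submodule (ZMod p) V) (ω : G → ZMod p)
    (fixed_sub : ∀ σ : G, ∀ x ∈ C, σ • x = x)
    (cyclo_quot : ∀ σ : G, ∀ x : V, σ • x - ω σ • x ∈ C)
    (card_sub : Nat.card C = p) (card_total : Nat.card V = p ^ 2)
    (σ₀ : G) (h0 : ω σ₀ ≠ 1) :
    ∃ (b : G → ZMod p) (e1 e2 : V), Frame C ω b e1 e2 ∧ b σ₀ = 0 := by
  have hp : p.Prime := Fact.out
  have hCfin : Finite C := Nat.finite_of_card_ne_zero (by rw [card_sub]; exact hp.ne_zero)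
  have hVfin : Finite V :=
    Nat.finite_of_card_ne_zero (by rw [card_total]; exact pow_ne_zero _ hp.ne_zero)
  have hnt : Nontrivial C := by
    rw [← Finite.one_lt_card_iff_nontrivial, card_sub]
    exact hp.one_lt
  obtain ⟨⟨e1, he1⟩, hne⟩ := exists_ne (0 : C)
  have he1' : e1 ≠ 0 := fun h ↦ hne (Subtype.ext h)
  -- `C` is spanned by `e1`
  have hspanC : ∀ c ∈ C, ∃ t : ZMod p, c = t • e1 := by
    let f : ZMod p → C := fun t ↦ ⟨t • e1, C.smul_mem t he1⟩
    have hf : Function.Injective f := by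
      intro t t' h
      exact smul_left_injective (ZMod p) he1' (congrArg Subtype.val h)
    have hbij := hf.bijective_of_nat_card_le (by rw [card_sub, Nat.card_zmod])
    intro c hc
    obtain ⟨t, ht⟩ := hbij.2 ⟨c, hc⟩
    exact ⟨t, (congrArg Subtype.val ht).symm⟩
  -- a vector outside `C`
  obtain ⟨e0, he0⟩ : ∃ e0 : V, e0 ∉ C := by
    by_contra hh
    push Not at hh
    have : Nat.card C = Nat.card V := Nat.card_congr (Equiv.subtypeUnivEquiv hh)
    rw [card_sub, card_total] at this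
    have h2 : p * 1 = p * p := by rw [mul_one, ← sq]; exact this
    have := Nat.eq_of_mul_eq_mul_left hp.pos h2
    exact hp.one_lt.ne this
  obtain ⟨b0, hb0⟩ := hspanC _ (cyclo_quot σ₀ e0)
  have hω : ω σ₀ - 1 ≠ 0 := sub_ne_zero.mpr h0
  set t : ZMod p := b0 / (ω σ₀ - 1) with ht
  set e2 : V := e0 + t • e1 with he2
  have he2' : e2 ∉ C := by
    intro h
    apply he0
    have : e0 = e2 - t • e1 := by rw [he2]; abel
    rw [this]
    exact C.sub_mem h (C.smul_mem _ he1)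
  have hspanV : ∀ v : V, ∃ x y : ZMod p, v = x • e2 + y • e1 := by
    let g : ZMod p × ZMod p → V := fun xy ↦ xy.1 • e2 + xy.2 • e1
    have hg : Function.Injective g := by
      rintro ⟨x, y⟩ ⟨x', y'⟩ h
      have h' : (x - x') • e2 + (y - y') • e1 = 0 := by
        rw [sub_smul, sub_smul]
        have h'' : x • e2 + y • e1 - (x' • e2 + y' • e1) = 0 := sub_eq_zero.mpr h
        rw [← h'']
        abel
      obtain ⟨h1, h2⟩ := indep_aux he1 he1' he2' h'
      rw [sub_eq_zero.mp h1, sub_eq_zero.mp h2]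
    have hbij := hg.bijective_of_nat_card_le
      (by rw [card_total, Nat.card_prod, Nat.card_zmod, sq])
    intro v
    obtain ⟨⟨x, y⟩, hxy⟩ := hbij.2 v
    exact ⟨x, y, hxy.symm⟩
  choose b hb using fun σ : G ↦ hspanC _ (cyclo_quot σ e2)
  have hF : Frame C ω b e1 e2 :=
    { e1_mem := he1
      e1_ne := he1'
      e2_not := he2'
      spanC := hspanC
      spanV := hspanV
      act1 := fun σ ↦ fixed_sub σ e1 he1
      act2 := fun σ ↦ by rw [← hb σ]; abel }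
  refine ⟨b, e1, e2, hF, ?_⟩
  have h1 : σ₀ • e2 - ω σ₀ • e2 = 0 := by
    have e : σ₀ • e0 = ω σ₀ • e0 + b0 • e1 := by rw [← hb0]; abel
    rw [he2, smul_add, smul_comm σ₀, fixed_sub σ₀ e1 he1, e, smul_add, smul_smul]
    have : b0 = (ω σ₀ - 1) * t := by rw [ht]; field_simp
    rw [this, sub_mul, one_mul, sub_smul]
    abel
  rw [hb σ₀] at h1
  exact (smul_eq_zero.mp h1).resolve_right he1'

end Coc

section Cyclo

variable {p : ℕ} [Fact p.Prime] {z : Qb}

theorem apply_eq_pow_cycloExp (hz : IsPrimitiveRoot z p) (σ : GQ) :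
    σ z = z ^ ExtCitation.cycloExp p σ := by
  haveI : NeZero p := ⟨(Fact.out : p.Prime).ne_zero⟩
  have hz0 : z ≠ 0 := hz.ne_zero (Fact.out : p.Prime).ne_zero
  have ht : Units.mk0 z hz0 ∈ rootsOfUnity p Qb := by
    rw [mem_rootsOfUnity]
    ext
    simpa using hz.pow_eq_one
  have := modularCyclotomicCharacter.spec (L := Qb) (ExtCitation.card_rootsOfUnity_eq_self p)
    (σ : Qb ≃+* Qb) ht
  simpa [ExtCitation.cycloExp] using this

theorem natCast_eq_of_pow_eq (hz : IsPrimitiveRoot z p) {k m : ℕ} (h : z ^ k = z ^ m) :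
    (k : ZMod p) = (m : ZMod p) := by
  have hz0 : z ≠ 0 := hz.ne_zero (Fact.out : p.Prime).ne_zero
  have h1 : z ^ ((k : ℤ) - (m : ℤ)) = 1 := by
    rw [zpow_sub₀ hz0, zpow_natCast, zpow_natCast, h, div_self (pow_ne_zero _ hz0)]
  have h2 := (hz.zpow_eq_one_iff_dvd _).mp h1
  have h3 := (ZMod.intCast_zmod_eq_zero_iff_dvd _ p).mpr h2
  push_cast at h3
  exact sub_eq_zero.mp h3

theorem natCast_eq_cycloExp (hz : IsPrimitiveRoot z p) (σ : GQ) (k : ℕ) (h : σ z = z ^ k) :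
    (k : ZMod p) = (ExtCitation.cycloExp p σ : ZMod p) :=
  natCast_eq_of_pow_eq hz (by rw [← h, apply_eq_pow_cycloExp hz σ])

theorem fix_iff (hz : IsPrimitiveRoot z p) (σ : GQ) :
    σ z = z ↔ (ExtCitation.cycloExp p σ : ZMod p) = 1 := by
  constructor
  · intro h
    have := natCast_eq_cycloExp hz σ 1 (by rw [pow_one]; exact h)
    rw [← this, Nat.cast_one]
  · intro h
    rw [apply_eq_pow_cycloExp hz σ]
    have h1 : (ExtCitation.cycloExp p σ : ZMod p) = ((1 : ℕ) : ZMod p) := by rw [h, Nat.cast_one]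
    rw [ZMod.natCast_eq_natCast_iff'] at h1
    rw [pow_eq_pow_mod _ hz.pow_eq_one, h1, ← pow_eq_pow_mod _ hz.pow_eq_one, pow_one]

theorem exists_sq (h3 : 3 ≤ p) (hz : IsPrimitiveRoot z p) : ∃ σ : GQ, σ z = z ^ 2 := by
  have hp : p.Prime := Fact.out
  haveI : NeZero ((p : ℕ) : Qb) := ⟨Nat.cast_ne_zero.mpr hp.ne_zero⟩
  have hcop : Nat.Coprime 2 p := (Nat.coprime_primes Nat.prime_two hp).mpr (by omega)
  have hz2 : IsPrimitiveRoot (z ^ 2) p := hz.pow_of_coprime 2 hcop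
  have := Fermat.Agent.Frob.isAlgebraicQbar
  have := Fermat.Agent.Frob.isAlgClosureQbar
  have : Normal ℚ Qb := IsAlgClosure.normal ℚ Qb
  refine minpoly.exists_algEquiv_of_root' (Algebra.IsAlgebraic.isAlgebraic z) ?_
  rw [← Polynomial.cyclotomic_eq_minpoly_rat hz hp.pos, Polynomial.aeval_def,
    Polynomial.eval₂_eq_eval_map, Polynomial.map_cyclotomic]
  exact Polynomial.isRoot_cyclotomic_iff.mpr hz2

end Cyclo

open Coc in
theorem exists_cocycle {p : ℕ} [Fact p.Prime] (h3 : 3 ≤ p) (V : Type) [AddCommGroup V]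
    [Module (ZMod p) V]
    [DistribMulAction (AlgebraicClosure ℚ ≃ₐ[ℚ] AlgebraicClosure ℚ) V]
    [SMulCommClass (AlgebraicClosure ℚ ≃ₐ[ℚ] AlgebraicClosure ℚ) (ZMod p) V]
    (C : Submodule (ZMod p) V) (h : ExtCitation.IsAdmissibleExtensionCts p V C)
    (hns : ¬ ExtCitation.SplitsGlobally C) (z : Qb) (hz : IsPrimitiveRoot z p) :
    ∃ b : GQ → ZMod p, Cocycle p z b := by
  obtain ⟨σ₀, hσ₀⟩ := exists_sq h3 hz
  set ω : GQ → ZMod p := fun σ ↦ (ExtCitation.cycloExp p σ : ZMod p) with hω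
  have hω0 : ω σ₀ ≠ 1 := by
    have h2 : ((2 : ℕ) : ZMod p) = ω σ₀ := natCast_eq_cycloExp hz σ₀ 2 hσ₀
    rw [← h2]
    intro h1
    have h4 : ((2 : ℕ) : ZMod p) = ((1 : ℕ) : ZMod p) := by rw [h1, Nat.cast_one]
    rw [ZMod.natCast_eq_natCast_iff'] at h4
    rw [Nat.mod_eq_of_lt (by omega), Nat.mod_eq_of_lt (by omega)] at h4
    omega
  obtain ⟨b, e1, e2, F, hb0⟩ := exists_frame C ω h.fixed_sub h.cyclo_quot h.card_sub h.card_total
    σ₀ hω0
  have hfix : ∀ σ : GQ, σ z = z ↔ ω σ = 1 := fun σ ↦ fix_iff hz σ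
  refine ⟨b, ?_, ?_, ?_, ?_, ?_, ?_⟩
  · intro σ τ _ hτ
    rw [(F.mul σ τ).2, (hfix τ).mp hτ, one_mul]
  · intro σ k hk τ hτ
    rw [F.conj σ τ ((hfix τ).mp hτ), natCast_eq_cycloExp hz σ k hk]
  · by_contra hcon
    push Not at hcon
    apply hns
    have hker : ∀ τ, ω τ = 1 → b τ = 0 := by
      intro τ hτ
      by_contra hne
      have hpw := F.pow τ hτ (b τ)⁻¹.val
      apply hcon (τ ^ (b τ)⁻¹.val) ((hfix _).mpr hpw.1)
      rw [hpw.2, ZMod.natCast_zmod_val, inv_mul_cancel₀ hne]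
    have hb : ∀ σ, b σ = 0 := F.b_eq_zero σ₀ hω0 hb0 hker
    exact ⟨Submodule.span (ZMod p) {e2}, fun σ x hx ↦ F.stable_of_b_eq_zero hb σ x hx, F.isCompl⟩
  · have : {τ : GQ | τ z = z ∧ b τ = 0} = {σ : GQ | ∀ v : V, σ • v = v} := by
      ext σ
      simp only [Set.mem_ofPred_eq]
      rw [F.trivial_iff, hfix]
    rw [this]
    exact h.open_kernel
  · intro l hl hlp A hA σ hσ
    have := (F.trivial_iff σ).mp (h.unramified_outside l hl hlp A hA σ hσ)
    exact ⟨(hfix σ).mpr this.1, this.2⟩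
  · intro A hA σ hσ hσz
    obtain ⟨C', hC', hcompl⟩ := h.locally_split A hA
    have htop : e2 ∈ C ⊔ C' := by rw [hcompl.sup_eq_top]; exact Submodule.mem_top
    obtain ⟨c, hc, c', hc', hsum⟩ := Submodule.mem_sup.mp htop
    have h1 : σ • c' - c' = b σ • e1 := by
      have e : c' = e2 - c := by rw [← hsum]; abel
      rw [e, smul_sub, h.fixed_sub σ c hc, F.act2, (hfix σ).mp hσz, one_smul]
      abel
    have h2 : b σ • e1 ∈ C ⊓ C' :=
      ⟨C.smul_mem _ F.e1_mem, by rw [← h1]; exact C'.sub_mem (hC' σ hσ c' hc') hc'⟩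
    rw [hcompl.inf_eq_bot, Submodule.mem_bot] at h2
    exact (smul_eq_zero.mp h2).resolve_right F.e1_ne

end Fermat.Agent.S14.Br
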