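import Fermat.Agent.S14.Basic
import Fermat.Agent.Lib.Frobenius
import Fermat.Prelude.Def_ExtCitation_AdmissibleExtension_v2

/-!
# S14/BRIDGE : common definitions (sub-owner helper25)

`Qb = AlgebraicClosure ℚ`, `GQ = Gal(Qb/ℚ)`.  `z : Qb` is a primitive `p`-th root of unity;
`G_K = {τ | τ z = z}`.
-/

set_option autoImplicit false

namespace Fermat.Agent.S14.Br

abbrev Qb : Type := AlgebraicClosure ℚ
abbrev GQ : Type := Qb ≃ₐ[ℚ] Qb

/-- the "cocycle" attached to a non-split admissible extension, restricted to what we need. -/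
structure Cocycle (p : ℕ) (z : Qb) (b : GQ → ZMod p) : Prop where
  add : ∀ σ τ : GQ, σ z = z → τ z = z → b (σ * τ) = b σ + b τ
  conj : ∀ (σ : GQ) (k : ℕ), σ z = z ^ k → ∀ τ : GQ, τ z = z → b (σ⁻¹ * τ * σ) = k * b τ
  nontriv : ∃ τ₀ : GQ, τ₀ z = z ∧ b τ₀ = 1
  isOpen : IsOpen {τ : GQ | τ z = z ∧ b τ = 0}
  unram : ∀ l : ℕ, l.Prime → l ≠ p → ∀ A : ValuationSubring Qb, A.LiesOverPrime l →
    ∀ σ ∈ A.inertiaSubgroupIn ℚ, σ z = z ∧ b σ = 0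
  split : ∀ A : ValuationSubring Qb, A.LiesOverPrime p →
    ∀ σ ∈ A.decompositionSubgroup ℚ, σ z = z → b σ = 0

/-- a Kummer generator `a` of the extension of `ℚ(z)` cut out by the cocycle. -/
structure KummerData (p : ℕ) (z a : Qb) : Prop where
  prim : IsPrimitiveRoot z p
  ne_zero : a ≠ 0
  kummer : ∀ τ : GQ, τ z = z → ∃ i : ℕ, τ a = z ^ i * a
  moved : ∃ τ₀ : GQ, τ₀ z = z ∧ τ₀ a ≠ a
  eigen : ∀ (σ : GQ) (k : ℕ), σ z = z ^ k → ∀ τ : GQ, τ z = z →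
    τ (σ a / a ^ (k ^ 2)) = σ a / a ^ (k ^ 2)
  unram : ∀ l : ℕ, l.Prime → l ≠ p → ∀ A : ValuationSubring Qb, A.LiesOverPrime l →
    ∀ σ ∈ A.inertiaSubgroupIn ℚ, σ z = z ∧ σ a = a
  split : ∀ A : ValuationSubring Qb, A.LiesOverPrime p →
    ∀ σ ∈ A.decompositionSubgroup ℚ, σ z = z → σ a = a

end Fermat.Agent.S14.Br
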