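import Fermat.Agent.S14.BridgeDefs
import Fermat.Agent.S13.Minkowski

/-! # S14/BRIDGE-P3 : lifting to decomposition / inertia groups -/

set_option autoImplicit false

open scoped Pointwise

namespace Fermat.Agent.S14.Br

local notation "Zbar" => integralClosure ℤ (AlgebraicClosure ℚ)

open Fermat.Agent.Frob in
/-- Core of P3 at the level of `Zbar`: if `τ` maps `Q ∩ Zbar^H` into `Q = primeOf A`, then
`(τ h) • Q = Q` for some `h ∈ H`. -/
theorem exists_mul_smul_primeOf (H : Subgroup GQ) (hH : IsClosed (H : Set GQ))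
    (A : ValuationSubring Qb) {l : ℕ} (hl : l.Prime) (hA : A.LiesOverPrime l) (τ : GQ)
    (h1 : ∀ x : Zbar, (∀ h ∈ H, h • x = x) → x ∈ primeOf A → τ • x ∈ primeOf A) :
    ∃ h ∈ H, (τ * h) • primeOf A = primeOf A := by
  have := isGaloisQbar
  have := isAlgebraicQbar
  have hQ := primeOf_isPrime A
  let _ : TopologicalSpace Zbar := ⊥
  have : DiscreteTopology Zbar := ⟨rfl⟩
  have hcs := continuousSMul_Zbar
  set Q := primeOf A with hQdef
  let A₀ := FixedPoints.subalgebra ℤ Zbar H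
  have : CompactSpace H := isCompact_iff_compactSpace.mp hH.isCompact
  have : Algebra.IsInvariant A₀ Zbar H := ⟨fun b hb => ⟨⟨b, hb⟩, rfl⟩⟩
  have hint : Algebra.IsIntegral ℤ A₀ := ⟨fun a =>
    (isIntegral_algHom_iff A₀.val Subtype.val_injective).mp (Algebra.IsIntegral.isIntegral _)⟩
  have hQ' : (τ⁻¹ • Q).IsPrime := inferInstance
  -- `Q.under A₀` is maximal
  have hP0 : (Q.under A₀).IsPrime := inferInstance
  have hlQ : ((l : ℤ) : Zbar) ∈ Q := by
    rw [hQdef, mem_primeOf]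
    have h2 : ((((l : ℕ) : ℤ) : Zbar) : Qb) = (l : Qb) := by simp
    rw [h2]
    exact hA
  have hmaxZ : ((Q.under A₀).comap (algebraMap ℤ A₀)).IsMaximal := by
    have hp : ((Q.under A₀).comap (algebraMap ℤ A₀)).IsPrime := inferInstance
    apply hp.isMaximal
    intro hbot
    have hmem : (l : ℤ) ∈ (Q.under A₀).comap (algebraMap ℤ A₀) := by
      rw [Ideal.mem_comap, Ideal.under, Ideal.mem_comap, ← IsScalarTower.algebraMap_apply]
      simpa using hlQ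
    rw [hbot, Ideal.mem_bot] at hmem
    exact hl.ne_zero (by exact_mod_cast hmem)
  have hmax : (Q.under A₀).IsMaximal :=
    Ideal.isMaximal_of_isIntegral_of_isMaximal_comap (R := ℤ) (Q.under A₀) hmaxZ
  have hle : Q.under A₀ ≤ (τ⁻¹ • Q).under A₀ := by
    intro a ha
    simp only [Ideal.under, Ideal.mem_comap] at ha ⊢
    change (a : Zbar) ∈ τ⁻¹ • Q
    rw [Ideal.mem_pointwise_smul_iff_inv_smul_mem, inv_inv]
    exact h1 a (fun h hh => a.2 ⟨h, hh⟩) ha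
  have hne : (τ⁻¹ • Q).under A₀ ≠ ⊤ := (inferInstance : ((τ⁻¹ • Q).under A₀).IsPrime).ne_top
  have heq : Q.under A₀ = (τ⁻¹ • Q).under A₀ := hmax.eq_of_le hne hle
  obtain ⟨h, hh⟩ := Algebra.IsInvariant.exists_smul_of_under_eq_of_profinite (A := A₀) (G := H)
    Q (τ⁻¹ • Q) heq
  refine ⟨h, h.2, ?_⟩
  rw [mul_smul]
  have : (h : GQ) • Q = τ⁻¹ • Q := hh.symm
  rw [this, smul_inv_smul]

open Fermat.Agent.Frob in
/-- If `τ` maps `𝔪_A ∩ Zbar^H` into `𝔪_A`, then `τ h` lies in the decomposition group of `A` for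
some `h ∈ H`. -/
theorem exists_mul_mem_decomposition (H : Subgroup GQ) (hH : IsClosed (H : Set GQ))
    (A : ValuationSubring Qb) {l : ℕ} (hl : l.Prime) (hA : A.LiesOverPrime l) (τ : GQ)
    (h1 : ∀ x : Qb, IsIntegral ℤ x → (∀ h ∈ H, h x = x) → x ∈ A.nonunits → τ x ∈ A.nonunits) :
    ∃ h ∈ H, τ * h ∈ A.decompositionSubgroup ℚ := by
  obtain ⟨h, hh, hst⟩ := exists_mul_smul_primeOf H hH A hl hA τ (fun x hx hxQ =>
    h1 (x : Qb) x.2 (fun h hh => congrArg Subtype.val (hx h hh)) hxQ)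
  exact ⟨h, hh, mem_decompositionSubgroup A hl hA hst⟩

open Fermat.Agent.Frob in
/-- If `τ x ≡ x mod 𝔪_A` for all `x ∈ Zbar^H`, then `τ h` lies in the inertia group of `A` for
some `h ∈ H`. -/
theorem exists_mul_mem_inertia (H : Subgroup GQ) (hH : IsClosed (H : Set GQ))
    (A : ValuationSubring Qb) {l : ℕ} (hl : l.Prime) (hA : A.LiesOverPrime l) (τ : GQ)
    (h1 : ∀ x : Qb, IsIntegral ℤ x → (∀ h ∈ H, h x = x) → τ x - x ∈ A.nonunits) :
    ∃ h ∈ H, τ * h ∈ A.inertiaSubgroupIn ℚ := by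
  have h1' : ∀ x : Zbar, (∀ h ∈ H, h • x = x) → τ • x - x ∈ primeOf A := fun x hx =>
    h1 (x : Qb) x.2 (fun h hh => congrArg Subtype.val (hx h hh))
  obtain ⟨h₀, hh₀, hstab⟩ := exists_mul_smul_primeOf H hH A hl hA τ (fun x hx hxQ => by
    have := (primeOf A).add_mem (h1' x hx) hxQ
    simpa using this)
  have := isGaloisQbar
  have := isAlgebraicQbar
  have hQ := primeOf_isPrime A
  let _ : TopologicalSpace Zbar := ⊥
  have : DiscreteTopology Zbar := ⟨rfl⟩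
  have hcs := continuousSMul_Zbar
  set Q := primeOf A with hQdef
  let A₀ := FixedPoints.subalgebra ℤ Zbar H
  have : CompactSpace H := isCompact_iff_compactSpace.mp hH.isCompact
  have : Algebra.IsInvariant A₀ Zbar H := ⟨fun b hb => ⟨⟨b, hb⟩, rfl⟩⟩
  set τ₁ : GQ := τ * h₀ with hτ₁
  have hτ₁A : ∀ a : A₀, τ₁ • (a : Zbar) - a ∈ Q := by
    intro a
    have ha : ∀ h ∈ H, h • (a : Zbar) = a := fun h hh => a.2 ⟨h, hh⟩
    rw [hτ₁, mul_smul, ha h₀ hh₀]
    exact h1' a ha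
  let P : Ideal A₀ := Q.under A₀
  let e : (Zbar ⧸ Q) ≃+* (Zbar ⧸ Q) :=
    Ideal.quotientEquiv Q Q (MulSemiringAction.toRingEquiv GQ Zbar τ₁) hstab.symm
  have he : ∀ b : Zbar, e (Ideal.Quotient.mk Q b) = Ideal.Quotient.mk Q (τ₁ • b) := fun b => rfl
  let e' : (Zbar ⧸ Q) ≃ₐ[A₀ ⧸ P] (Zbar ⧸ Q) := AlgEquiv.ofRingEquiv (f := e) (by
    intro r
    obtain ⟨a, rfl⟩ := Ideal.Quotient.mk_surjective r
    change e (Ideal.Quotient.mk Q (a : Zbar)) = Ideal.Quotient.mk Q (a : Zbar)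
    rw [he, Ideal.Quotient.eq]
    exact hτ₁A a)
  obtain ⟨⟨h₂, hh₂⟩, hσe⟩ := Ideal.Quotient.stabilizerHom_surjective_of_profinite (G := H) P Q e'
  have hh₂' : (h₂ : GQ) • Q = Q := hh₂
  have key : ∀ b : Zbar, τ₁ • b - (h₂ : GQ) • b ∈ Q := by
    intro b
    have h1 := congrArg (fun f => f (Ideal.Quotient.mk Q b)) hσe
    simp only [Ideal.Quotient.stabilizerHom_apply] at h1
    rw [← Ideal.Quotient.eq]
    exact h1.symm
  refine ⟨h₀ * (h₂ : GQ)⁻¹, H.mul_mem hh₀ (H.inv_mem h₂.2), ?_⟩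
  apply Fermat.Agent.S13.Minkowski.mem_inertiaSubgroupIn A hl hA
  intro x
  have h3 : (τ * (h₀ * (h₂ : GQ)⁻¹)) • x - x
      = τ₁ • ((h₂ : GQ)⁻¹ • x) - (h₂ : GQ) • ((h₂ : GQ)⁻¹ • x) := by
    rw [smul_inv_smul, hτ₁, ← mul_smul, mul_assoc]
  rw [h3]
  exact key _

end Fermat.Agent.S14.Br
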