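import Fermat.Agent.S14.CrossAux

/-!
# S14: properties of the character given by the first inequality.
-/

set_option autoImplicit false

namespace Fermat.Agent.S14.Cross

open IsDedekindDomain NumberField

variable {K : Type*} [Field K] [NumberField K] {p : ℕ} [Fact p.Prime] {ζ : 𝓞 K}

/-- the hypotheses on a pair `(c, ψ)` as produced by `KT1` for `z`, with ramification inside `S` -/
structure IsChar (p : ℕ) (ζ : 𝓞 K) (z : Kˣ) (c ψ : Pl K → ZMod p) (S : Finset (Pl K)) : Prop where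
  hc : ∀ v, (p : ℤ) ∣ ord v z → c v = 0
  hψ : ∀ v, ¬ (p : ℤ) ∣ ord v z → ψ v = 0
  hrel : ∀ x : Kˣ, (∀ v, ¬ (p : ℤ) ∣ ord v z → ord v x = 0) → rpair p ζ c x + pair p ψ x = 0
  hRS : ∀ v, ¬ (p : ℤ) ∣ ord v z → v ∈ S ∧ Tame p v

theorem IsChar.c_eq_zero {z : Kˣ} {c ψ : Pl K → ZMod p} {S : Finset (Pl K)}
    (h : IsChar p ζ z c ψ S) {v : Pl K} (hv : v ∉ S) : c v = 0 := by
  by_contra hne
  exact hne (h.hc v (by
    by_contra hd
    exact hv (h.hRS v hd).1))

theorem IsChar.pair_eq_zero {z : Kˣ} {c ψ : Pl K → ZMod p} {S : Finset (Pl K)}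
    (h : IsChar p ζ z c ψ S) (x : Kˣ) (hx : x ∈ locPowS p ζ S) : pair p ψ x = 0 := by
  classical
  rw [mem_locPowS_iff] at hx
  obtain ⟨d, hd⟩ := exists_ord_eq S (fun v => ord v x / p)
  have hp0 : (p : ℤ) ≠ 0 := by exact_mod_cast (Fact.out : p.Prime).ne_zero
  have hord : ∀ v ∈ S, ord v (x * (d ^ p)⁻¹) = 0 := by
    intro v hv
    rw [ord_mul, ord_inv, ord_pow, hd v hv,
      Int.mul_ediv_cancel' (dvd_ord_of_mem_locPow v x (hx v hv))]
    ring
  have hrel := h.hrel (x * (d ^ p)⁻¹) (fun v hv => hord v (h.hRS v hv).1)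
  have h1 : rpair p ζ c (x * (d ^ p)⁻¹) = 0 := by
    rw [rpair_eq_sum c _ S (fun v hv => h.c_eq_zero hv)]
    refine Finset.sum_eq_zero fun v hv => ?_
    by_cases hd' : (p : ℤ) ∣ ord v z
    · rw [h.hc v hd', zero_mul]
    · have ht := (h.hRS v hd').2
      rw [res_mul, res_inv, res_pow_p, ((mem_locPow_tame ht x).mp (hx v hv)).2]
      simp
  rw [h1, zero_add, pair_mul, pair_inv, pair_pow_p, neg_zero, add_zero] at hrel
  exact hrel

theorem IsChar.exists_ne_zero (hζ : IsPrimitiveRoot ζ p) {z : Kˣ} {c ψ : Pl K → ZMod p}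
    {S : Finset (Pl K)} (h : IsChar p ζ z c ψ S) (hgen : Gen S) (hne : c ≠ 0 ∨ ψ ≠ 0) :
    ∃ x : Kˣ, pair p (off S ψ) x ≠ 0 := by
  classical
  by_contra hall
  push Not at hall
  -- `ψ` vanishes outside `S`
  have hψS : ∀ v ∉ S, ψ v = 0 := by
    intro v hv
    obtain ⟨x, hx⟩ := hgen (Finsupp.single v 1)
    rw [← pair_off_single ψ S x v hv (by rw [hx v hv]; simp)
      (fun w hw hwv => by rw [hx w hw]; simp [Finsupp.single_apply, Ne.symm hwv])]
    exact hall x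
  have hc0 : ∀ v, c v = 0 := by
    intro v₀
    by_cases hd : (p : ℤ) ∣ ord v₀ z
    · exact h.hc v₀ hd
    obtain ⟨hv₀S, -⟩ := h.hRS v₀ hd
    obtain ⟨x, hx⟩ := exists_ord_res_eq hζ S (fun _ => 0) (fun v => if v = v₀ then 1 else 0)
    have hrel := h.hrel x (fun v hv => (hx v (h.hRS v hv).1).1)
    rw [rpair_eq_sum c _ S (fun v hv => h.c_eq_zero hv),
      pair_eq_sum ψ x S (fun v hv => Or.inl (hψS v hv))] at hrel
    have h2 : ∑ v ∈ S, ψ v * (ord v x : ZMod p) = 0 :=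
      Finset.sum_eq_zero fun v hv => by rw [(hx v hv).1]; simp
    rw [h2, add_zero, Finset.sum_eq_single v₀] at hrel
    · rw [(hx v₀ hv₀S).2 (h.hRS v₀ hd).2] at hrel
      simpa using hrel
    · intro v hv hvv
      by_cases hd' : (p : ℤ) ∣ ord v z
      · rw [h.hc v hd', zero_mul]
      · rw [(hx v hv).2 (h.hRS v hd').2]; simp [hvv]
    · intro hh; exact absurd hv₀S hh
  have hψ0 : ∀ v, ψ v = 0 := by
    intro v₀
    by_cases hv₀S : v₀ ∈ S
    swap
    · exact hψS v₀ hv₀S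
    by_cases hd : (p : ℤ) ∣ ord v₀ z
    swap
    · exact h.hψ v₀ hd
    obtain ⟨x, hx⟩ := exists_ord_res_eq hζ S (fun v => if v = v₀ then 1 else 0) (fun _ => 0)
    have hrel := h.hrel x (fun v hv => by
      rw [(hx v (h.hRS v hv).1).1, if_neg]
      rintro rfl
      exact hv hd)
    have h1 : rpair p ζ c x = 0 := by
      rw [rpair_eq_sum c _ S (fun v hv => h.c_eq_zero hv)]
      exact Finset.sum_eq_zero fun v _ => by rw [hc0 v, zero_mul]
    rw [h1, zero_add, pair_eq_sum ψ x S (fun v hv => Or.inl (hψS v hv)),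
      Finset.sum_eq_single v₀] at hrel
    · rw [(hx v₀ hv₀S).1] at hrel
      simpa using hrel
    · intro v hv hvv
      rw [(hx v hv).1]; simp [hvv]
    · intro hh; exact absurd hv₀S hh
  rcases hne with h1 | h1
  · exact h1 (funext hc0)
  · exact h1 (funext hψ0)

end Fermat.Agent.S14.Cross
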