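import Fermat.Agent.S14.CrossR
import Fermat.Agent.S14.CrossChar

/-!
# S14: crossing with a cyclotomic Kummer extension.
-/

set_option autoImplicit false

namespace Fermat.Agent.S14

open IsDedekindDomain NumberField

variable {K : Type*} [Field K] [NumberField K] {p : ℕ} [Fact p.Prime]
  [IsCyclotomicExtension {p} ℚ K] {ζ : 𝓞 K}

namespace Cross

omit [NumberField K] [IsCyclotomicExtension {p} ℚ K] in
theorem mem_pows_of_pow_mem {x : Kˣ} {i : ℕ} (hi : ¬ p ∣ i) (h : x ^ i ∈ pows K p) :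
    x ∈ pows K p := by
  have hpp : p.Prime := Fact.out
  have hco : Nat.Coprime i p := ((Nat.Prime.coprime_iff_not_dvd hpp).mpr hi).symm
  have hg : (i : ℤ) * Int.gcdA i p + (p : ℤ) * Int.gcdB i p = 1 := by
    have := Int.gcd_eq_gcd_ab i p
    rw [Int.gcd_natCast_natCast, hco] at this
    exact_mod_cast this.symm
  have h1 : x = (x ^ i) ^ (Int.gcdA i p) * (x ^ (Int.gcdB i p)) ^ p := by
    rw [← zpow_natCast x i, ← zpow_mul, ← zpow_natCast (x ^ (Int.gcdB i p)) p, ← zpow_mul,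
      ← zpow_add, mul_comm (Int.gcdB i p), hg, zpow_one]
  rw [h1]
  exact mul_mem (zpow_mem h _) ⟨_, rfl⟩

end Cross

open Cross in
/-- A class character vanishing on the places split in `K(α^(1/p))` is proportional to the Kummer
character of `α`. -/
theorem cross (hp : p ≠ 2) (hζ : IsPrimitiveRoot ζ p) (α : Kˣ) (hα : Bad p ζ α)
    (φ : Pl K → ZMod p) (hφ1 : ∀ x : Kˣ, pair p φ x = 0)
    (hφ2 : ∀ v, α ∈ locPow p ζ v → φ v = 0)
    (s₁ s₂ : Pl K) (ℓ₁ ℓ₂ : ℕ) (hℓ₁ : ℓ₁.Prime) (hℓ₂ : ℓ₂.Prime) (hne : ℓ₁ ≠ ℓ₂)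
    (hℓ₁p : ℓ₁ ≠ p) (hℓ₂p : ℓ₂ ≠ p)
    (hN₁ : Ideal.absNorm s₁.asIdeal = ℓ₁) (hN₂ : Ideal.absNorm s₂.asIdeal = ℓ₂)
    (hr₁ : res p ζ s₁ α ≠ 0) (hr₂ : res p ζ s₂ α ≠ 0) :
    φ s₁ * res p ζ s₂ α = φ s₂ * res p ζ s₁ α := by
  classical
  have hpp : p.Prime := Fact.out
  have hp0 : (p : ℤ) ≠ 0 := by exact_mod_cast hpp.ne_zero
  have hpint : Prime (p : ℤ) := Nat.prime_iff_prime_int.mp hpp
  set a₁ := res p ζ s₁ α with ha₁
  set a₂ := res p ζ s₂ α with ha₂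
  have hm₁ : (ℓ₁ : 𝓞 K) ∈ s₁.asIdeal := hN₁ ▸ absNorm_mem s₁
  have hm₂ : (ℓ₂ : 𝓞 K) ∈ s₂.asIdeal := hN₂ ▸ absNorm_mem s₂
  have ht₁ : Tame p s₁ := tame_of_absNorm hℓ₁ hℓ₁p hN₁
  have ht₂ : Tame p s₂ := tame_of_absNorm hℓ₂ hℓ₂p hN₂
  obtain ⟨𝔯, r, hr, hrp, hrℓ₁, hrℓ₂, hN𝔯, hres₁, hrel12⟩ :=
    exists_r hp hζ s₁ s₂ ℓ₁ ℓ₂ hℓ₁ hℓ₂ hne hℓ₁p hℓ₂p hm₁ hm₂ a₁ a₂ hr₁
  obtain ⟨γ, hγord, hγ𝔯, hγprim, hγres⟩ := exists_gamma hp hζ 𝔯 r hr hrp hN𝔯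
  have hrs₁ : (r : 𝓞 K) ∉ s₁.asIdeal := fun h => false_of_two_primes hr hℓ₁ hrℓ₁ h hm₁
  have hrs₂ : (r : 𝓞 K) ∉ s₂.asIdeal := fun h => false_of_two_primes hr hℓ₂ hrℓ₂ h hm₂
  have g₁ : res p ζ s₁ γ = - res p ζ 𝔯 (nU K ℓ₁ hℓ₁.ne_zero) :=
    hγres s₁ ht₁ hrs₁ (nU K ℓ₁ hℓ₁.ne_zero) (by rw [hN₁]; rfl)
  have g₂ : res p ζ s₂ γ = - res p ζ 𝔯 (nU K ℓ₂ hℓ₂.ne_zero) :=
    hγres s₂ ht₂ hrs₂ (nU K ℓ₂ hℓ₂.ne_zero) (by rw [hN₂]; rfl)
  set h₁ := res p ζ s₁ γ with hh₁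
  set h₂ := res p ζ s₂ γ with hh₂
  have hh₁0 : h₁ ≠ 0 := by rw [g₁]; exact neg_ne_zero.mpr hres₁
  have hprop : a₁ * h₂ = a₂ * h₁ := by rw [g₁, g₂]; linear_combination -hrel12
  -- the element `z`
  set j : ZMod p := - a₁ * h₁⁻¹ with hj
  have hj0 : j ≠ 0 := mul_ne_zero (neg_ne_zero.mpr hr₁) (inv_ne_zero hh₁0)
  set z : Kˣ := α * γ ^ j.val with hz
  have hresz : ∀ v, res p ζ v z = res p ζ v α + j * res p ζ v γ := by
    intro v
    rw [hz, res_mul, res_pow, ZMod.natCast_zmod_val]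
  have hordz : ∀ v, ord v z = ord v α + j.val * ord v γ := by
    intro v
    rw [hz, ord_mul, ord_pow]
  have hz₁ : res p ζ s₁ z = 0 := by
    rw [hresz, ← ha₁, ← hh₁, hj]
    field_simp
    ring
  have hz₂ : res p ζ s₂ z = 0 := by
    rw [hresz, ← ha₂, ← hh₂, hj]
    field_simp
    linear_combination -hprop
  have hzdvd : ∀ v : Pl K, (r : 𝓞 K) ∉ v.asIdeal → (p : ℤ) ∣ ord v z := by
    intro v hv
    rw [hordz, hγord v hv, mul_zero, add_zero]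
    exact hα.ord_dvd v
  have hnd : ∀ (n : ℕ) (e : ℤ), (p : ℤ) ∣ e → (p : ℤ) ∣ e + n * ((p : ℤ) - 1) → p ∣ n := by
    intro n e he h
    have h1 : (p : ℤ) ∣ (n : ℤ) := by
      have h2 : (n : ℤ) = e + n * p - (e + n * ((p : ℤ) - 1)) := by ring
      rw [h2]
      exact dvd_sub (dvd_add he (dvd_mul_left _ _)) h
    exact_mod_cast h1
  have hz𝔯 : ¬ (p : ℤ) ∣ ord 𝔯 z := by
    intro h
    rw [hordz, hγ𝔯] at h
    have h1 := hnd j.val _ (hα.ord_dvd 𝔯) h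
    exact not_dvd_val hj0 (by exact_mod_cast h1)
  have hznp : z ∉ pows K p := by
    rintro ⟨d, hd⟩
    apply hz𝔯
    rw [← hd]
    simp only [powMonoidHom_apply, ord_pow]
    exact dvd_mul_right _ _
  have hzprim : ∀ v : Pl K, ¬ Tame p v → z ∈ primaryAt p v := fun v hv =>
    mul_mem (wildPow_le_primaryAt v (hα.wild v hv)) (pow_mem (hγprim v hv) _)
  obtain ⟨c, ψ, hc, hψ, hψ2, hcψ, hrelψ⟩ := KT1 hp hζ z hznp hzprim
  -- the sets
  obtain ⟨R, hR⟩ := exists_finset_above (K := K) r hr.ne_zero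
  obtain ⟨Λ, hΛ⟩ := exists_finset_above (K := K) p hpp.ne_zero
  obtain ⟨S₀, hS₀d, hS₀gen⟩ := exists_gen_disjoint ({s₁, s₂} : Finset (Pl K))
  set S := S₀ ∪ R ∪ Λ with hS
  have hgen : Gen S := hS₀gen.mono (fun v hv => by
    rw [hS]; exact Finset.mem_union_left _ (Finset.mem_union_left _ hv))
  have hwild : ∀ v : Pl K, ¬ Tame p v → v ∈ S := fun v hv => by
    rw [hS]
    exact Finset.mem_union_right _ ((hΛ v).mpr (not_not.mp hv))
  have hRS : ∀ v : Pl K, (r : 𝓞 K) ∈ v.asIdeal → v ∈ S := fun v hv => by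
    rw [hS]
    exact Finset.mem_union_left _ (Finset.mem_union_right _ ((hR v).mpr hv))
  have hnotS : ∀ s : Pl K, s ∈ ({s₁, s₂} : Finset (Pl K)) → (r : 𝓞 K) ∉ s.asIdeal → Tame p s →
      s ∉ S := by
    intro s hs hrs hts hsS
    rw [hS, Finset.mem_union, Finset.mem_union] at hsS
    rcases hsS with (h | h) | h
    · exact (Finset.disjoint_left.mp hS₀d h) hs
    · exact hrs ((hR s).mp h)
    · exact hts ((hΛ s).mp h)
  have hs₁S : s₁ ∉ S := hnotS s₁ (by simp) hrs₁ ht₁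
  have hs₂S : s₂ ∉ S := hnotS s₂ (by simp) hrs₂ ht₂
  have htameS : ∀ v ∉ S, Tame p v := fun v hv => by
    by_contra h
    exact hv (hwild v h)
  have hrS : ∀ v ∉ S, (r : 𝓞 K) ∉ v.asIdeal := fun v hv h => hv (hRS v h)
  have hchar : IsChar p ζ z c ψ S :=
    ⟨hc, hψ, hrelψ, fun v hv => ⟨hRS v (by
      by_contra h
      exact hv (hzdvd v h)), by
      by_contra h
      exact hv (dvd_ord_of_mem_primaryAt v z (hzprim v h))⟩⟩
  -- `α` modulo `p`-th powers is an `S`-unit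
  have hfin : (Function.support (fun v : Pl K => ord v α / p)).Finite := by
    refine (ord_support_finite α).subset fun v hv => ?_
    simp only [Function.mem_support, ne_eq] at hv
    intro h0
    apply hv
    have h0' : ord v α = 0 := h0
    rw [h0']
    simp
  obtain ⟨d, hd⟩ := hgen (Finsupp.ofSupportFinite _ hfin)
  set α₀ : Kˣ := α * (d ^ p)⁻¹ with hα₀
  have hαα₀ : α = α₀ * d ^ p := by rw [hα₀]; group
  have hα₀S : α₀ ∈ SUnit K S := by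
    rw [mem_SUnit_iff]
    intro v hv
    rw [hα₀, ord_mul, ord_inv, ord_pow, hd v hv]
    simp only [Finsupp.ofSupportFinite_coe]
    rw [Int.mul_ediv_cancel' (hα.ord_dvd v)]
    ring
  have hγS : γ ∈ SUnit K S := by
    rw [mem_SUnit_iff]
    exact fun v hv => hγord v (hrS v hv)
  have hresα₀ : ∀ v, res p ζ v α = res p ζ v α₀ := by
    intro v
    rw [hαα₀, res_mul, res_pow_p, add_zero]
  have hind : ∀ i k : ℕ, α₀ ^ i * γ ^ k ∈ pows K p → p ∣ i ∧ p ∣ k := by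
    rintro i k ⟨e, he⟩
    simp only [powMonoidHom_apply] at he
    have hk : p ∣ k := by
      have h1 : ord 𝔯 (e ^ p) = i * ord 𝔯 α₀ + k * ((p : ℤ) - 1) := by
        rw [he, ord_mul, ord_pow, ord_pow, hγ𝔯]
      rw [ord_pow] at h1
      have h2 : (p : ℤ) ∣ ord 𝔯 α₀ := by
        rw [hα₀, ord_mul, ord_inv, ord_pow]
        exact dvd_add (hα.ord_dvd 𝔯) ((dvd_neg).mpr (dvd_mul_right _ _))
      exact hnd k _ (dvd_mul_of_dvd_right h2 _) (h1 ▸ dvd_mul_right _ _)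
    refine ⟨?_, hk⟩
    by_contra hi
    obtain ⟨k', rfl⟩ := hk
    have h3 : α₀ ^ i ∈ pows K p := by
      refine ⟨e * (γ ^ k')⁻¹, ?_⟩
      simp only [powMonoidHom_apply]
      rw [mul_pow, he, inv_pow, ← pow_mul, mul_comm k' p]
      group
    have h4 := mem_pows_of_pow_mem hi h3
    apply hα.not_pow
    rw [hαα₀]
    exact mul_mem h4 ⟨d, rfl⟩
  obtain ⟨T, hST, hBT, hcard, hTprop, hsurj⟩ :=
    exists_T hp hζ S ({s₁, s₂} : Finset (Pl K)) α₀ γ hα₀S hγS hind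
  set ST := S ∪ T with hSTdef
  have hSTiff : ∀ v, v ∈ ST ↔ v ∈ S ∨ v ∈ T := fun v => by rw [hSTdef, Finset.mem_union]
  obtain ⟨hidx0, hidx⟩ := T2 hp hζ S T ST hSTiff hwild hgen hST hsurj
  have hidx2 : (locPowS p ζ S ⊔ SUnit K ST).index ≤ p ^ 2 := by
    rw [← hcard, pow_add, mul_comm (p ^ T.card)] at hidx
    exact Nat.le_of_mul_le_mul_right hidx (pow_pos hpp.pos _)
  have hTS : ∀ t ∈ T, t ∉ S := fun t ht hS' => (Finset.disjoint_left.mp hST hS') ht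
  -- vanishing at `T`
  have hφT : ∀ t ∈ T, φ t = 0 := by
    intro t ht
    obtain ⟨htt, h1, -⟩ := hTprop t ht
    exact hφ2 t ((mem_locPow_tame htt α).mpr ⟨hα.ord_dvd t, by rw [hresα₀, h1]⟩)
  have hψT : ∀ t ∈ T, ψ t = 0 := by
    intro t ht
    obtain ⟨htt, h1, h2⟩ := hTprop t ht
    refine hψ2 t ((mem_locPow_tame htt z).mpr ⟨hzdvd t (hrS t (hTS t ht)), ?_⟩)
    rw [hresz, hresα₀, h1, h2]
    simp
  set h' : Pl K → ZMod p := fun v => - res p ζ v γ with hh'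
  have hh'T : ∀ t ∈ T, h' t = 0 := by
    intro t ht
    obtain ⟨-, -, h2⟩ := hTprop t ht
    simp [hh', h2]
  -- the three characters
  have hdvdS : ∀ y ∈ locPowS p ζ S, ∀ v ∈ S, (p : ℤ) ∣ ord v y := fun y hy v hv =>
    dvd_ord_of_mem_locPow v y ((mem_locPowS_iff S y).mp hy v hv)
  have kill : ∀ θ : Pl K → ZMod p, (∀ y ∈ locPowS p ζ S, pair p (off S θ) y = 0) →
      (∀ t ∈ T, θ t = 0) → ∀ x ∈ locPowS p ζ S ⊔ SUnit K ST, pair p (off S θ) x = 0 := by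
    intro θ hθ1 hθ2 x hx
    obtain ⟨y, hy, w, hw, rfl⟩ := Subgroup.mem_sup.mp hx
    rw [pair_mul, hθ1 y hy, pair_off_SUnit θ S T ST hSTiff w hw hθ2, add_zero]
  have k₁ := kill φ (fun y hy => by rw [pair_off_eq φ S y (hdvdS y hy)]; exact hφ1 y) hφT
  have k₂ := kill h' (fun y hy =>
    pair_norm_res_eq_zero hp hζ 𝔯 r hr hrp hN𝔯 S hRS (off S h') (fun v hv => off_of_mem h' hv)
      (fun v hv n hn => by
        rw [off_of_not_mem h' hv, hh']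
        simp only
        rw [hγres v (htameS v hv) (hrS v hv) n hn, neg_neg]) y hy) hh'T
  have k₃ := kill ψ (fun y hy => by
    rw [pair_off_eq ψ S y (hdvdS y hy)]; exact hchar.pair_eq_zero y hy) hψT
  obtain ⟨c₁, c₂, c₃, hcne, hlin⟩ := exists_lin_dep (locPowS p ζ S ⊔ SUnit K ST) hidx0 hidx2
    (pair p (off S φ)) (pair p (off S h')) (pair p (off S ψ))
    (pair_mul _) (pair_mul _) (pair_mul _) k₁ k₂ k₃
  -- evaluation at `s₁`, `s₂`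
  have heval : ∀ s ∉ S, ∃ x : Kˣ, ∀ θ : Pl K → ZMod p, pair p (off S θ) x = θ s := by
    intro s hs
    obtain ⟨x, hx⟩ := hgen (Finsupp.single s 1)
    refine ⟨x, fun θ => pair_off_single θ S x s hs (by rw [hx s hs]; simp)
      (fun w hw hws => by rw [hx w hw]; simp [Ne.symm hws])⟩
  obtain ⟨x₁, hx₁⟩ := heval s₁ hs₁S
  obtain ⟨x₂, hx₂⟩ := heval s₂ hs₂S
  have hψs₁ : ψ s₁ = 0 := hψ2 s₁ ((mem_locPow_tame ht₁ z).mpr ⟨hzdvd s₁ hrs₁, hz₁⟩)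
  have hψs₂ : ψ s₂ = 0 := hψ2 s₂ ((mem_locPow_tame ht₂ z).mpr ⟨hzdvd s₂ hrs₂, hz₂⟩)
  have e₁ := hlin x₁
  have e₂ := hlin x₂
  rw [hx₁, hx₁, hx₁, hψs₁, mul_zero, add_zero] at e₁
  rw [hx₂, hx₂, hx₂, hψs₂, mul_zero, add_zero] at e₂
  have e₁' : c₁ * φ s₁ = c₂ * h₁ := by
    have : h' s₁ = - h₁ := rfl
    rw [this] at e₁
    linear_combination e₁
  have e₂' : c₁ * φ s₂ = c₂ * h₂ := by
    have : h' s₂ = - h₂ := rfl
    rw [this] at e₂
    linear_combination e₂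
  by_cases hc₁ : c₁ = 0
  · exfalso
    rw [hc₁, zero_mul] at e₁'
    have hc₂ : c₂ = 0 := (mul_eq_zero.mp e₁'.symm).resolve_right hh₁0
    have hc₃ : c₃ ≠ 0 := by
      rcases hcne with h | h | h
      · exact absurd hc₁ h
      · exact absurd hc₂ h
      · exact h
    obtain ⟨x, hx⟩ := hchar.exists_ne_zero hζ hgen hcψ
    have := hlin x
    rw [hc₁, hc₂, zero_mul, zero_mul, zero_add, zero_add] at this
    exact hx ((mul_eq_zero.mp this).resolve_left hc₃)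
  · apply mul_left_cancel₀ hc₁
    calc c₁ * (φ s₁ * a₂) = (c₁ * φ s₁) * a₂ := by ring
      _ = c₂ * (a₂ * h₁) := by rw [e₁']; ring
      _ = c₂ * (a₁ * h₂) := by rw [hprop]
      _ = (c₁ * φ s₂) * a₁ := by rw [e₂']; ring
      _ = c₁ * (φ s₂ * a₁) := by ring

end Fermat.Agent.S14
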