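import Fermat.Agent.S14.Unram

set_option autoImplicit false

namespace Fermat.Agent.S14

namespace GaussFrob

open IsDedekindDomain NumberField

variable {K : Type*} [Field K] [NumberField K] {p : ℕ} [Fact p.Prime]
  [IsCyclotomicExtension {p} ℚ K] {ζ : 𝓞 K}

omit [IsCyclotomicExtension {p} ℚ K] [Fact p.Prime] in
open Pointwise in
theorem galPl_asIdeal_eq_smul (σ : K ≃ₐ[ℚ] K) (v : Pl K) : (galPl σ v).asIdeal = σ • v.asIdeal := by
  ext y
  rw [mem_galPl, Ideal.mem_pointwise_smul_iff_inv_smul_mem]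
  rfl

omit [IsCyclotomicExtension {p} ℚ K] [Fact p.Prime] in
/-- the rational prime below a place -/
theorem exists_prime_mem (v : Pl K) : ∃ ℓ : ℕ, ℓ.Prime ∧ (ℓ : 𝓞 K) ∈ v.asIdeal := by
  obtain ⟨q, hq : _ = Ideal.span _⟩ := IsPrincipalIdealRing.principal (v.asIdeal.under ℤ)
  have hq0 : q ≠ 0 := fun h0 => v.ne_bot
    (Ideal.eq_bot_of_comap_eq_bot (hq.trans (by rw [h0]; simp)))
  have hqp : Prime q := by
    rw [← Ideal.span_singleton_prime hq0, ← hq]; infer_instance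
  refine ⟨q.natAbs, Int.prime_iff_natAbs_prime.mp hqp, ?_⟩
  have h1 : q ∈ v.asIdeal.under ℤ := by rw [hq]; exact Ideal.mem_span_singleton_self q
  have h2 : ((q : ℤ) : 𝓞 K) ∈ v.asIdeal := by simpa [Ideal.under, Ideal.mem_comap] using h1
  rcases Int.natAbs_eq q with h | h
  · rw [h] at h2
    simpa using h2
  · rw [h] at h2
    simpa using h2

theorem exists_sigma_aux (hζ : IsPrimitiveRoot ζ p) (σ : K ≃ₐ[ℚ] K) (c : ℕ)
    (hc : haveI : NeZero p := ⟨(Fact.out : p.Prime).ne_zero⟩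
      ((IsCyclotomicExtension.Rat.galEquivZMod p K σ : (ZMod p)ˣ) : ZMod p) = c) :
    σ (ζ : K) = (ζ : K) ^ c := by
  have hp : p.Prime := Fact.out
  have : NeZero p := ⟨hp.ne_zero⟩
  have h1 : (ζ : K) ^ p = 1 := by
    have := congrArg (fun a : 𝓞 K => (a : K)) hζ.pow_eq_one
    simpa using this
  rw [IsCyclotomicExtension.Rat.galEquivZMod_apply_of_pow_eq p K σ h1, hc, ZMod.val_natCast,
    ← pow_eq_pow_mod c h1]

/-- existence of the automorphisms `σ_c` -/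
theorem exists_sigma (hζ : IsPrimitiveRoot ζ p) (c : ℕ) (hc : ¬ p ∣ c) :
    ∃ σ : K ≃ₐ[ℚ] K, σ (ζ : K) = (ζ : K) ^ c := by
  have hp : p.Prime := Fact.out
  have : NeZero p := ⟨hp.ne_zero⟩
  have hcop : c.Coprime p := ((Nat.Prime.coprime_iff_not_dvd hp).mpr hc).symm
  refine ⟨(IsCyclotomicExtension.Rat.galEquivZMod p K).symm (ZMod.unitOfCoprime c hcop), ?_⟩
  apply exists_sigma_aux hζ
  rw [MulEquiv.apply_symm_apply, ZMod.coe_unitOfCoprime]

open Pointwise in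
/-- Frobenius: a tame place `v` over the rational prime `ℓ` is fixed by `σ_ℓ`, and has degree one
if `ℓ ≡ 1 mod p`. -/
theorem exists_frob (hζ : IsPrimitiveRoot ζ p) (v : Pl K) (hv : Tame p v) :
    ∃ (ℓ : ℕ) (σ : K ≃ₐ[ℚ] K), ℓ.Prime ∧ ℓ ≠ p ∧ (ℓ : 𝓞 K) ∈ v.asIdeal ∧
      σ (ζ : K) = (ζ : K) ^ ℓ ∧ galPl σ v = v ∧
      ((ℓ : ZMod p) = 1 → Ideal.absNorm v.asIdeal = ℓ) := by
  have hp : p.Prime := Fact.out
  have : NeZero p := ⟨hp.ne_zero⟩
  obtain ⟨ℓ, hℓ, hmem⟩ := exists_prime_mem v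
  have hne : ℓ ≠ p := by
    rintro rfl
    exact hv hmem
  have : Fact ℓ.Prime := ⟨hℓ⟩
  have := liesOver_of_mem v ℓ hℓ hmem
  have hnd : ¬ ℓ ∣ p := fun h => hne ((Nat.prime_dvd_prime_iff_eq hℓ hp).mp h)
  have hcop : ℓ.Coprime p := (Nat.Prime.coprime_iff_not_dvd hℓ).mpr hnd
  have : v.asIdeal.IsMaximal := v.isMaximal
  have hst := IsCyclotomicExtension.Rat.galEquivZMod_stabilizer p K ℓ v.asIdeal hcop
  have h1 : ZMod.unitOfCoprime ℓ hcop ∈ (IsCyclotomicExtension.Rat.galEquivZMod p K).mapSubgroup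
      (MulAction.stabilizer (K ≃ₐ[ℚ] K) v.asIdeal) := by
    rw [hst]; exact Subgroup.mem_zpowers _
  obtain ⟨σ, hσ, hσ'⟩ := h1
  refine ⟨ℓ, σ, hℓ, hne, hmem, ?_, ?_, ?_⟩
  · apply exists_sigma_aux hζ
    have : IsCyclotomicExtension.Rat.galEquivZMod p K σ = ZMod.unitOfCoprime ℓ hcop := hσ'
    rw [this, ZMod.coe_unitOfCoprime]
  · apply HeightOneSpectrum.ext
    rw [galPl_asIdeal_eq_smul]
    exact hσ
  · intro h1
    have h2 := IsCyclotomicExtension.Rat.inertiaDeg_eq_of_not_dvd ℓ K v.asIdeal hnd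
    rw [h1, orderOf_one] at h2
    have h3 := Ideal.pow_inertiaDeg ℓ v.asIdeal
    rw [h2, pow_one] at h3
    exact h3.symm

end GaussFrob

end Fermat.Agent.S14
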