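import Fermat.Agent.S14.GaussJac

/-!
# S14: the `p`-th power of the Gauss sum of the power residue character of a place of degree one.
-/

set_option autoImplicit false
set_option linter.unusedSectionVars false

namespace Fermat.Agent.S14.GaussAux

open IsDedekindDomain NumberField

attribute [local instance] Ideal.Quotient.field

section Abstract

variable {F R : Type*} [Field F] [Fintype F] [CommRing R]

/-- `g(χ) ≡ -1 mod λ` if all values of `χ` are `≡ 1 mod λ` -/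
theorem dvd_gaussSum_add_one [IsDomain R] (χ : MulChar F R) (ψ : AddChar F R) (hψ : ψ ≠ 1) (l : R)
    (h : ∀ x : F, x ≠ 0 → l ∣ χ x - 1) : l ∣ gaussSum χ ψ + 1 := by
  classical
  have h0 : ∑ x : F, ψ x = 0 := AddChar.sum_eq_zero_of_ne_one hψ
  have h1 : gaussSum χ ψ + 1 = ∑ x ∈ Finset.univ.erase (0 : F), (χ x - 1) * ψ x := by
    have h2 : ∑ x : F, (χ x - 1) * ψ x = gaussSum χ ψ := by
      simp_rw [sub_mul, one_mul]
      rw [Finset.sum_sub_distrib, h0, sub_zero]; rfl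
    rw [← h2, ← Finset.add_sum_erase _ _ (Finset.mem_univ (0 : F)), MulChar.map_zero,
      AddChar.map_zero_eq_one]
    ring
  rw [h1]
  refine Finset.dvd_sum fun x hx => Dvd.dvd.mul_right (h x (Finset.ne_of_mem_erase hx)) _

theorem pow_dvd_pow_add_one {p : ℕ} (hp : p.Prime) (hodd : Odd p) (g l : R) (h1 : l ∣ g + 1)
    (h2 : l ^ (p - 1) ∣ (p : R)) : l ^ p ∣ g ^ p + 1 := by
  obtain ⟨r, hr⟩ := exists_add_pow_prime_eq hp (g + 1) (-1 : R)
  have e : g ^ p + 1 = (g + 1) ^ p + (p : R) * (g + 1) * (-1) * r := by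
    have : g + 1 + -1 = g := by ring
    rw [this, hodd.neg_one_pow] at hr
    rw [hr]; ring
  rw [e]
  refine dvd_add (pow_dvd_pow_of_dvd h1 p) ?_
  have e2 : l ^ p = l ^ (p - 1) * l := by
    rw [← pow_succ, Nat.sub_add_cancel hp.one_le]
  rw [e2]
  exact Dvd.dvd.mul_right (Dvd.dvd.mul_right (mul_dvd_mul h2 h1) _) _

theorem dvd_sum_pow_sub {ι : Type*} (s : Finset ι) (f : ι → R) {l : ℕ} (hl : l.Prime) (n : ℕ) :
    (l : R) ∣ (∑ i ∈ s, f i) ^ l ^ n - ∑ i ∈ s, f i ^ l ^ n := by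
  classical
  induction s using Finset.induction_on with
  | empty => simp [hl.ne_zero]
  | insert a s ha ih =>
    rw [Finset.sum_insert ha, Finset.sum_insert ha]
    obtain ⟨r, hr⟩ := exists_add_pow_prime_pow_eq hl (f a) (∑ i ∈ s, f i) n
    rw [hr]
    have : f a ^ l ^ n + (∑ i ∈ s, f i) ^ l ^ n + ((l : R) * f a * ∑ i ∈ s, f i) * r -
        (f a ^ l ^ n + ∑ i ∈ s, f i ^ l ^ n)
        = ((∑ i ∈ s, f i) ^ l ^ n - ∑ i ∈ s, f i ^ l ^ n) + (l : R) * (f a * (∑ i ∈ s, f i) * r) := by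
      ring
    rw [this]
    exact dvd_add ih (dvd_mul_right _ _)

/-- Frobenius congruence for Gauss sums -/
theorem dvd_gaussSum_pow_sub (χ : MulChar F R) (ψ : AddChar F R) {l : ℕ} (hl : l.Prime) (n : ℕ)
    (h : ∀ x : F, χ x ^ l ^ n = χ x) (a : Fˣ) (ha : (a : F) = ((l ^ n : ℕ) : F)) :
    (l : R) ∣ χ a * gaussSum χ ψ ^ l ^ n - gaussSum χ ψ := by
  have h1 := dvd_sum_pow_sub (Finset.univ : Finset F) (fun x => χ x * ψ x) hl n
  have h2 : ∑ x : F, (χ x * ψ x) ^ l ^ n = gaussSum χ (AddChar.mulShift ψ a) := by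
    unfold gaussSum
    refine Finset.sum_congr rfl fun x _ => ?_
    rw [mul_pow, h, AddChar.mulShift_apply, ha, ← nsmul_eq_mul, AddChar.map_nsmul_eq_pow]
  rw [h2] at h1
  have h3 := gaussSum_mulShift χ ψ a
  have h4 : χ a * gaussSum χ ψ ^ l ^ n - gaussSum χ ψ =
      χ a * (gaussSum χ ψ ^ l ^ n - gaussSum χ (AddChar.mulShift ψ a)) := by
    rw [mul_sub, h3]
  rw [h4]
  exact Dvd.dvd.mul_left h1 _

end Abstract

section Descent

variable {K L : Type*} [Field K] [Field L] [Algebra K L]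

theorem algebraMap_OO_injective : Function.Injective (algebraMap (𝓞 K) (𝓞 L)) := by
  intro a b h
  apply RingOfIntegers.ext
  apply (algebraMap K L).injective
  exact congrArg (fun x : 𝓞 L => (x : L)) h

/-- divisibility descends from `𝓞 L` to `𝓞 K` -/
theorem dvd_of_algebraMap_dvd (a b : 𝓞 K) (h : algebraMap (𝓞 K) (𝓞 L) b ∣ algebraMap (𝓞 K) (𝓞 L) a) :
    b ∣ a := by
  by_cases hb : b = 0
  · subst hb
    rw [map_zero, zero_dvd_iff] at h
    rw [zero_dvd_iff]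
    exact algebraMap_OO_injective (L := L) (by rw [h, map_zero])
  obtain ⟨c, hc⟩ := h
  have hb' : (b : K) ≠ 0 := by
    intro h0; apply hb; exact_mod_cast h0
  have h1 : algebraMap K L (a : K) = algebraMap K L (b : K) * (c : L) := by
    have h0 := congrArg (fun x : 𝓞 L => (x : L)) hc
    have e : ((algebraMap (𝓞 K) (𝓞 L) b * c : 𝓞 L) : L) =
        ((algebraMap (𝓞 K) (𝓞 L) b : 𝓞 L) : L) * (c : L) := map_mul (algebraMap (𝓞 L) L) _ _
    simp only [e] at h0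
    exact h0
  have h2 : (c : L) = algebraMap K L ((a : K) / (b : K)) := by
    rw [map_div₀, h1]
    have : algebraMap K L (b : K) ≠ 0 := by simpa using hb'
    field_simp
  have h3 : IsIntegral ℤ ((a : K) / (b : K)) := by
    rw [← isIntegral_algebraMap_iff (algebraMap K L).injective, ← h2]
    exact c.isIntegral_coe
  refine ⟨⟨(a : K) / (b : K), h3⟩, ?_⟩
  apply RingOfIntegers.ext
  have e : ((b * ⟨(a : K) / (b : K), h3⟩ : 𝓞 K) : K) = (b : K) * ((a : K) / (b : K)) :=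
    map_mul (algebraMap (𝓞 K) K) _ _
  rw [e]
  field_simp

end Descent

section AddCharExists

/-- a nontrivial additive character with values in the ring of integers of an extension -/
theorem exists_addChar (K : Type*) [Field K] [CharZero K] (F : Type*) [Field F] [Finite F] :
    ∃ (n : ℕ+) (ψ : AddChar F (𝓞 (CyclotomicField n K))), ψ ≠ 1 := by
  have h : ringChar K ≠ ringChar F := by
    rw [ringChar.eq_zero]
    exact (CharP.ringChar_ne_zero_of_finite F).symm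
  let ψ₀ := AddChar.FiniteField.primitiveChar F K h
  have hint : ∀ x, IsIntegral ℤ (ψ₀.char x) := by
    intro x
    have hpos : 0 < ringChar F := Nat.pos_of_ne_zero (CharP.ringChar_ne_zero_of_finite F)
    refine IsIntegral.of_pow hpos ?_
    rw [← AddChar.map_nsmul_eq_pow, nsmul_eq_mul, CharP.cast_eq_zero, zero_mul,
      AddChar.map_zero_eq_one]
    exact isIntegral_one
  refine ⟨ψ₀.n, { toFun := fun x => ⟨ψ₀.char x, hint x⟩
                  map_zero_eq_one' := ?_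
                  map_add_eq_mul' := ?_ }, ?_⟩
  · apply RingOfIntegers.ext
    change ψ₀.char 0 = _
    rw [AddChar.map_zero_eq_one]
    exact (map_one (algebraMap (𝓞 (CyclotomicField ψ₀.n K)) (CyclotomicField ψ₀.n K))).symm
  · intro x y
    apply RingOfIntegers.ext
    change ψ₀.char (x + y) = _
    rw [AddChar.map_add_eq_mul]
    exact (map_mul (algebraMap (𝓞 (CyclotomicField ψ₀.n K)) (CyclotomicField ψ₀.n K))
      ⟨ψ₀.char x, hint x⟩ ⟨ψ₀.char y, hint y⟩).symm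
  · intro h1
    have h2 : ψ₀.char = 1 := by
      ext x
      have h4 := congrArg (fun ψ : AddChar F (𝓞 (CyclotomicField ψ₀.n K)) =>
        ((ψ x : 𝓞 _) : CyclotomicField ψ₀.n K)) h1
      have h5 : (((1 : AddChar F (𝓞 (CyclotomicField ψ₀.n K))) x : 𝓞 _) : CyclotomicField ψ₀.n K) = 1 := by
        rw [AddChar.one_apply]
        exact map_one (algebraMap (𝓞 (CyclotomicField ψ₀.n K)) (CyclotomicField ψ₀.n K))
      rw [AddChar.one_apply]
      exact h4.trans h5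
    have h3 := ψ₀.prim (one_ne_zero)
    apply h3
    rw [AddChar.mulShift_one, h2]

end AddCharExists

section Gamma

variable {K : Type*} [Field K] [NumberField K] {p : ℕ} [Fact p.Prime] {ζ : 𝓞 K}
variable {𝔯 : Pl K} {χ : MulChar (𝓞 K ⧸ 𝔯.asIdeal) (𝓞 K)} [Fintype (𝓞 K ⧸ 𝔯.asIdeal)]

/-- the integer `γ₀ = g(χ)^p` -/
noncomputable def gamma0 (p : ℕ) (χ : MulChar (𝓞 K ⧸ 𝔯.asIdeal) (𝓞 K)) : 𝓞 K :=
  χ (-1) * (Fintype.card (𝓞 K ⧸ 𝔯.asIdeal) : 𝓞 K) *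
    ∏ i ∈ Finset.Ico 1 (p - 1), jacobiSum χ (χ ^ i)

variable {L : Type*} [Field L] [Algebra K L] (ψ : AddChar (𝓞 K ⧸ 𝔯.asIdeal) (𝓞 L))

theorem IsChi.comp_ne_one (hζ : IsPrimitiveRoot ζ p) (hv : Tame p 𝔯) (h : IsChi p ζ 𝔯 χ) :
    χ.ringHomComp (algebraMap (𝓞 K) (𝓞 L)) ≠ 1 := by
  rw [MulChar.ringHomComp_ne_one_iff algebraMap_OO_injective]
  exact h.ne_one hζ hv

theorem IsChi.orderOf_comp (hζ : IsPrimitiveRoot ζ p) (hv : Tame p 𝔯) (h : IsChi p ζ 𝔯 χ) :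
    orderOf (χ.ringHomComp (algebraMap (𝓞 K) (𝓞 L))) = p := by
  apply orderOf_eq_prime
  · rw [MulChar.ringHomComp_pow, h.pow_p hζ, MulChar.ringHomComp_one]
  · exact h.comp_ne_one hζ hv

theorem IsChi.gaussSum_pow_eq (hζ : IsPrimitiveRoot ζ p) (hv : Tame p 𝔯) (h : IsChi p ζ 𝔯 χ)
    (hψ : ψ ≠ 1) :
    gaussSum (χ.ringHomComp (algebraMap (𝓞 K) (𝓞 L))) ψ ^ p =
      algebraMap (𝓞 K) (𝓞 L) (gamma0 p χ) := by
  have hp := (Fact.out : p.Prime)
  have hord := h.orderOf_comp (L := L) hζ hv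
  have h1 := gaussSum_pow_eq_prod_jacobiSum (χ := χ.ringHomComp (algebraMap (𝓞 K) (𝓞 L))) (ψ := ψ)
    (by rw [hord]; exact hp.two_le) (AddChar.IsPrimitive.of_ne_one hψ)
  rw [hord] at h1
  rw [h1, gamma0, map_mul, map_mul, map_prod, map_natCast, MulChar.ringHomComp_apply]
  congr 1
  refine Finset.prod_congr rfl fun i _ => ?_
  rw [MulChar.ringHomComp_pow, jacobiSum_ringHomComp]

theorem IsChi.gamma0_add_one (hp2 : p ≠ 2) (hζ : IsPrimitiveRoot ζ p) (hv : Tame p 𝔯)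
    (h : IsChi p ζ 𝔯 χ) (hψ : ψ ≠ 1) : (ζ - 1) ^ p ∣ gamma0 p χ + 1 := by
  have hp := (Fact.out : p.Prime)
  apply dvd_of_algebraMap_dvd (L := L)
  rw [map_add, map_one, map_pow, ← h.gaussSum_pow_eq ψ hζ hv hψ]
  apply pow_dvd_pow_add_one hp (hp.odd_of_ne_two hp2)
  · apply dvd_gaussSum_add_one _ _ hψ
    intro x hx
    obtain ⟨j, hj⟩ := h.exists_pow x hx
    rw [MulChar.ringHomComp_apply, hj, ← map_one (algebraMap (𝓞 K) (𝓞 L)), ← map_sub]
    apply map_dvd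
    have := sub_dvd_pow_sub_pow ζ 1 j.val
    rwa [one_pow] at this
  · rw [← map_pow, ← map_natCast (algebraMap (𝓞 K) (𝓞 L))]
    apply map_dvd
    have hζ' : IsPrimitiveRoot (ζ : K) p := hζ.map_of_injective RingOfIntegers.coe_injective
    have h1 := IsCyclotomicExtension.Rat.associated_zeta_sub_one_pow_prime p hζ'
    have h2 : hζ'.toInteger = ζ := RingOfIntegers.ext rfl
    rw [h2] at h1
    exact h1.dvd

theorem exists_prime_pow_absNorm (t : Pl K) :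
    ∃ l f : ℕ, l.Prime ∧ Ideal.absNorm t.asIdeal = l ^ f ∧ (l : 𝓞 K) ∈ t.asIdeal := by
  have := resaux_finite t
  let _ : Fintype (𝓞 K ⧸ t.asIdeal) := Fintype.ofFinite _
  obtain ⟨n, hl, hn⟩ := FiniteField.card (𝓞 K ⧸ t.asIdeal) (ringChar (𝓞 K ⧸ t.asIdeal))
  refine ⟨ringChar (𝓞 K ⧸ t.asIdeal), n, hl, ?_, ?_⟩
  · rw [← resaux_card, Nat.card_eq_fintype_card, hn]
  · rw [← Ideal.Quotient.eq_zero_iff_mem, map_natCast]
    exact ringChar.Nat.cast_ringChar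

theorem IsChi.gamma0_frob (hζ : IsPrimitiveRoot ζ p) (r : ℕ) (hr : r.Prime) (hrp : r ≠ p)
    (hN : Ideal.absNorm 𝔯.asIdeal = r) (h : IsChi p ζ 𝔯 χ) (hψ : ψ ≠ 1) (t : Pl K)
    (ht : Tame p t) (hrt : (r : 𝓞 K) ∉ t.asIdeal) :
    χ (Ideal.Quotient.mk 𝔯.asIdeal (Ideal.absNorm t.asIdeal : 𝓞 K)) *
      gamma0 p χ ^ ((Ideal.absNorm t.asIdeal - 1) / p) - 1 ∈ t.asIdeal := by
  have hp := (Fact.out : p.Prime)
  have hv : Tame p 𝔯 := tame_of_absNorm 𝔯 r hr hrp hN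
  obtain ⟨l, f, hl, hlf, hlt⟩ := exists_prime_pow_absNorm t
  have hlr : l ≠ r := by rintro rfl; exact hrt hlt
  obtain ⟨E, hE⟩ := dvd_absNorm_sub_one hζ ht
  have hEdiv : (Ideal.absNorm t.asIdeal - 1) / p = E := by
    rw [hE, Nat.mul_div_cancel_left _ hp.pos]
  have hN1 : Ideal.absNorm t.asIdeal = p * E + 1 := by
    have := resaux_one_lt_absNorm t
    omega
  have hNr : ((l ^ f : ℕ) : 𝓞 K) ∉ 𝔯.asIdeal :=
    natCast_not_mem_of_coprime 𝔯 (Nat.Coprime.pow_right f ((Nat.coprime_primes hr hl).mpr hlr.symm))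
      (natCast_mem_of_absNorm 𝔯 r hN)
  have hNr' : ((l ^ f : ℕ) : 𝓞 K ⧸ 𝔯.asIdeal) ≠ 0 := by
    rw [← map_natCast (Ideal.Quotient.mk 𝔯.asIdeal), Ne, Ideal.Quotient.eq_zero_iff_mem]
    exact hNr
  set χL := χ.ringHomComp (algebraMap (𝓞 K) (𝓞 L)) with hχL
  set g := gaussSum χL ψ with hg
  have hfix : ∀ x, χL x ^ l ^ f = χL x := by
    intro x
    rw [← hlf, hN1, MulChar.ringHomComp_apply, ← map_pow]
    congr 1
    by_cases hx : x = 0
    · subst hx; rw [MulChar.map_zero, zero_pow (by omega)]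
    · rw [pow_succ, pow_mul, h.apply_pow_p hζ hx, one_pow, one_mul]
  have h1 := dvd_gaussSum_pow_sub χL ψ hl f hfix (Units.mk0 _ hNr') rfl
  have h2 : g * gaussSum χL⁻¹ ψ⁻¹ = (r : 𝓞 L) := by
    rw [gaussSum_mul_gaussSum_eq_card (h.comp_ne_one hζ hv) (AddChar.IsPrimitive.of_ne_one hψ),
      ← Nat.card_eq_fintype_card, resaux_card, hN]
  have h3 : g ^ l ^ f = algebraMap (𝓞 K) (𝓞 L) (gamma0 p χ ^ E) * g := by
    rw [← hlf, hN1, pow_succ, pow_mul, h.gaussSum_pow_eq ψ hζ hv hψ, map_pow]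
  have h4 : (χL (Units.mk0 _ hNr' : (𝓞 K ⧸ 𝔯.asIdeal)ˣ) * g ^ l ^ f - g) * gaussSum χL⁻¹ ψ⁻¹ =
      algebraMap (𝓞 K) (𝓞 L) ((r : 𝓞 K) * (χ ((l ^ f : ℕ) : 𝓞 K ⧸ 𝔯.asIdeal) *
        gamma0 p χ ^ E - 1)) := by
    rw [h3, map_mul, map_sub, map_mul, map_one, map_natCast, ← h2, Units.val_mk0,
      MulChar.ringHomComp_apply]
    ring
  have h5 : (l : 𝓞 K) ∣ (r : 𝓞 K) * (χ ((l ^ f : ℕ) : 𝓞 K ⧸ 𝔯.asIdeal) * gamma0 p χ ^ E - 1) := by
    apply dvd_of_algebraMap_dvd (L := L)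
    rw [← h4, map_natCast]
    exact Dvd.dvd.mul_right h1 _
  have h6 := Ideal.mem_of_dvd _ h5 hlt
  rw [hEdiv, map_natCast, hlf]
  exact (t.isPrime.mem_or_mem h6).resolve_left hrt

end Gamma

section Final

variable {K : Type*} [Field K] [NumberField K] {p : ℕ} [Fact p.Prime]
  [IsCyclotomicExtension {p} ℚ K] {ζ : 𝓞 K}

theorem ord_prod {ι : Type*} (v : Pl K) (s : Finset ι) (f : ι → Kˣ) :
    ord v (∏ i ∈ s, f i) = ∑ i ∈ s, ord v (f i) := by
  classical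
  induction s using Finset.induction_on with
  | empty => simp [ord_one]
  | insert a s ha ih => rw [Finset.prod_insert ha, Finset.sum_insert ha, ord_mul, ih]

theorem absNorm_not_mem (𝔯 t : Pl K) (r : ℕ) (hr : r.Prime) (hN : Ideal.absNorm 𝔯.asIdeal = r)
    (hrt : (r : 𝓞 K) ∉ t.asIdeal) : (Ideal.absNorm t.asIdeal : 𝓞 K) ∉ 𝔯.asIdeal := by
  obtain ⟨l, f, hl, hlf, hlt⟩ := exists_prime_pow_absNorm t
  have hlr : l ≠ r := by rintro rfl; exact hrt hlt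
  rw [hlf]
  exact natCast_not_mem_of_coprime 𝔯
    (Nat.Coprime.pow_right f ((Nat.coprime_primes hr hl).mpr hlr.symm))
    (natCast_mem_of_absNorm 𝔯 r hN)

theorem exists_gamma (hp : p ≠ 2) (hζ : IsPrimitiveRoot ζ p) (𝔯 : Pl K) (r : ℕ) (hr : r.Prime)
    (hrp : r ≠ p) (hN : Ideal.absNorm 𝔯.asIdeal = r) :
    ∃ γ : Kˣ, (∀ v : Pl K, (r : 𝓞 K) ∉ v.asIdeal → ord v γ = 0) ∧ ord 𝔯 γ = (p : ℤ) - 1 ∧
      (∀ v : Pl K, ¬ Tame p v → γ ∈ primaryAt p v) ∧
      (∀ t : Pl K, Tame p t → (r : 𝓞 K) ∉ t.asIdeal → ∀ n : Kˣ,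
        (n : K) = (Ideal.absNorm t.asIdeal : K) → res p ζ t γ = - res p ζ 𝔯 n) := by
  classical
  have hpp := (Fact.out : p.Prime)
  have hp3 : 3 ≤ p := by
    have := hpp.two_le
    omega
  have hodd : Odd p := hpp.odd_of_ne_two hp
  have hv : Tame p 𝔯 := tame_of_absNorm 𝔯 r hr hrp hN
  have := resaux_finite 𝔯
  let _ : Fintype (𝓞 K ⧸ 𝔯.asIdeal) := Fintype.ofFinite _
  obtain ⟨χ, hχ⟩ := exists_chi hζ hv
  obtain ⟨m, ψ, hψ⟩ := exists_addChar K (𝓞 K ⧸ 𝔯.asIdeal)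
  have hr0 : (r : 𝓞 K) ≠ 0 := by exact_mod_cast hr.ne_zero
  have hr0' : ((r : 𝓞 K) : K) ≠ 0 := by
    intro h; apply hr0; exact_mod_cast h
  have hrmem : (r : 𝓞 K) ∈ 𝔯.asIdeal := natCast_mem_of_absNorm 𝔯 r hN
  -- the Jacobi sums
  have hJ : ∀ i ∈ Finset.Ico 1 (p - 1),
      jacobiSum χ (χ ^ i) * jacobiSum χ⁻¹ (χ ^ i)⁻¹ = (r : 𝓞 K) ∧
      jacobiSum χ (χ ^ i) ∈ 𝔯.asIdeal ∧ jacobiSum χ (χ ^ i) ∉ 𝔯.asIdeal ^ 2 := by
    intro i hi
    have hi' := Finset.mem_Ico.mp hi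
    obtain ⟨g1, g2, g3, -⟩ := hχ.jac_facts hζ r hr hrp hN (a := 1) (b := i) one_pos (by omega)
      (by omega)
    rw [pow_one] at g1 g2 g3
    exact ⟨g1, g2, g3⟩
  have hJ0 : ∀ i ∈ Finset.Ico 1 (p - 1), ((jacobiSum χ (χ ^ i) : 𝓞 K) : K) ≠ 0 := by
    intro i hi h0
    have h1 : jacobiSum χ (χ ^ i) = 0 := by exact_mod_cast h0
    have h2 := (hJ i hi).1
    rw [h1, zero_mul] at h2
    exact hr0 h2.symm
  have hγ : gamma0 p χ = (r : 𝓞 K) * ∏ i ∈ Finset.Ico 1 (p - 1), jacobiSum χ (χ ^ i) := by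
    rw [gamma0, MulChar.val_neg_one_eq_one_of_odd_order hodd (hχ.pow_p hζ), one_mul,
      ← Nat.card_eq_fintype_card, resaux_card, hN]
  -- units
  let u : ℕ → Kˣ := fun i => if h : ((jacobiSum χ (χ ^ i) : 𝓞 K) : K) ≠ 0 then Units.mk0 _ h else 1
  have hu : ∀ i ∈ Finset.Ico 1 (p - 1), ((u i : Kˣ) : K) = ((jacobiSum χ (χ ^ i) : 𝓞 K) : K) := by
    intro i hi
    simp only [u, dif_pos (hJ0 i hi), Units.val_mk0]
  let γ : Kˣ := Units.mk0 _ hr0' * ∏ i ∈ Finset.Ico 1 (p - 1), u i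
  have hγK : ((γ : Kˣ) : K) = ((gamma0 p χ : 𝓞 K) : K) := by
    have e1 : ((gamma0 p χ : 𝓞 K) : K) =
        ((r : 𝓞 K) : K) * ∏ i ∈ Finset.Ico 1 (p - 1), ((jacobiSum χ (χ ^ i) : 𝓞 K) : K) := by
      rw [hγ]
      exact (map_mul (algebraMap (𝓞 K) K) _ _).trans (by rw [map_prod])
    rw [e1]
    simp only [γ, Units.val_mul, Units.val_mk0, Units.coe_prod]
    congr 1
    exact Finset.prod_congr rfl hu
  have hout : ∀ v : Pl K, (r : 𝓞 K) ∉ v.asIdeal → gamma0 p χ ∉ v.asIdeal := by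
    intro v hrv hmem
    rw [hγ] at hmem
    rcases v.isPrime.mem_or_mem hmem with h1 | h1
    · exact hrv h1
    · obtain ⟨i, hi, h2⟩ := (Ideal.IsPrime.prod_mem_iff).mp h1
      apply hrv
      rw [← (hJ i hi).1]
      exact Ideal.mul_mem_right _ _ h2
  have hord0 : ∀ v : Pl K, (r : 𝓞 K) ∉ v.asIdeal → ord v γ = 0 :=
    fun v hrv => (ord_eq_zero_iff v γ _ hγK).mpr (hout v hrv)
  refine ⟨γ, hord0, ?_, ?_, ?_⟩
  · -- valuation at `𝔯`
    have h1 : ord 𝔯 (Units.mk0 _ hr0') = 1 :=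
      ord_eq_one_of 𝔯 _ (r : 𝓞 K) rfl hrmem (natCast_not_mem_sq hζ 𝔯 r hr hrp hrmem)
    have h2 : ∀ i ∈ Finset.Ico 1 (p - 1), ord 𝔯 (u i) = 1 := fun i hi =>
      ord_eq_one_of 𝔯 _ _ (hu i hi) (hJ i hi).2.1 (hJ i hi).2.2
    simp only [γ]
    rw [ord_mul, ord_prod, h1, Finset.sum_congr rfl h2, Finset.sum_const, Nat.card_Ico]
    simp only [nsmul_eq_mul, mul_one]
    have : ((p - 1 - 1 : ℕ) : ℤ) = (p : ℤ) - 2 := by omega
    rw [this]; ring
  · -- primary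
    intro v hvw
    have hpv : (p : 𝓞 K) ∈ v.asIdeal := by
      by_contra h; exact hvw h
    have hrv : (r : 𝓞 K) ∉ v.asIdeal :=
      natCast_not_mem_of_coprime v ((Nat.coprime_primes hpp hr).mpr hrp.symm) hpv
    have hlam : ζ - 1 ∈ v.asIdeal := by
      have hζ' : IsPrimitiveRoot (ζ : K) p := hζ.map_of_injective RingOfIntegers.coe_injective
      have h1 := IsCyclotomicExtension.Rat.associated_zeta_sub_one_pow_prime p hζ'
      have h2 : hζ'.toInteger = ζ := RingOfIntegers.ext rfl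
      rw [h2] at h1
      exact v.isPrime.mem_of_pow_mem _ (Ideal.mem_of_dvd _ h1.symm.dvd hpv)
    have hmem : gamma0 p χ + 1 ∈ v.asIdeal ^ p := by
      obtain ⟨s, hs⟩ := hχ.gamma0_add_one ψ hp hζ hv hψ
      rw [hs]
      exact Ideal.mul_mem_right _ _ (Ideal.pow_mem_pow hlam p)
    have hU : -γ ∈ Ulev v p := by
      refine ⟨?_, ?_⟩
      · rw [Units.val_neg, Valuation.map_neg]
        exact (valuation_eq_one_iff v γ).mpr (hord0 v hrv)
      · have e : (((-γ : Kˣ) : K) - 1) = -(((gamma0 p χ + 1 : 𝓞 K)) : K) := by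
          have e2 : ((gamma0 p χ + 1 : 𝓞 K) : K) = ((gamma0 p χ : 𝓞 K) : K) + 1 :=
            (map_add (algebraMap (𝓞 K) K) _ _).trans (by rw [map_one])
          rw [Units.val_neg, hγK, e2]; ring
        rw [e, Valuation.map_neg]
        have e3 := HeightOneSpectrum.valuation_of_algebraMap (K := K) v (gamma0 p χ + 1)
        exact e3.le.trans ((HeightOneSpectrum.intValuation_le_pow_iff_mem v _ p).mpr hmem)
    have hneg : (-1 : Kˣ) ∈ pows K p := ⟨-1, by simp [hodd.neg_one_pow]⟩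
    have e : γ = (-1) * (-γ) := by simp
    rw [e]
    exact Subgroup.mul_mem_sup hneg hU
  · -- the residue symbols
    intro t ht hrt n hn
    have hNr := absNorm_not_mem 𝔯 t r hr hN hrt
    have hn' : (n : K) = ((Ideal.absNorm t.asIdeal : 𝓞 K) : K) := by
      rw [hn]; exact (map_natCast (algebraMap (𝓞 K) K) _).symm
    have h1 := hχ.gamma0_frob ψ hζ r hr hrp hN hψ t ht hrt
    rw [hχ.apply_mk hζ hv n _ hn' hNr] at h1
    apply res_eq_of_congr hζ ht γ _ hγK (hout t hrt)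
    have h2 : ζ ^ (-res p ζ 𝔯 n).val * ζ ^ (res p ζ 𝔯 n).val = 1 := by
      rw [← zeta_pow_add hζ, neg_add_cancel, ZMod.val_zero, pow_zero]
    have h3 : gamma0 p χ ^ ((Ideal.absNorm t.asIdeal - 1) / p) - ζ ^ (-res p ζ 𝔯 n).val =
        ζ ^ (-res p ζ 𝔯 n).val * (ζ ^ (res p ζ 𝔯 n).val *
          gamma0 p χ ^ ((Ideal.absNorm t.asIdeal - 1) / p) - 1) := by
      rw [mul_sub, ← mul_assoc, h2]; ring
    rw [h3]
    exact Ideal.mul_mem_left _ _ h1

end Final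

end Fermat.Agent.S14.GaussAux
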