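import Fermat.Agent.S14.GaussChar

/-!
# S14: Jacobi sums of the power residue character of a place of degree one.
-/

set_option autoImplicit false
set_option linter.unusedSectionVars false

namespace Fermat.Agent.S14.GaussAux

open IsDedekindDomain NumberField

attribute [local instance] Ideal.Quotient.field

section General

variable {K : Type*} [Field K] [NumberField K]

theorem liesOver_of_mem (v : Pl K) (ℓ : ℕ) (hℓ : ℓ.Prime) (hv : (ℓ : 𝓞 K) ∈ v.asIdeal) :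
    v.asIdeal.LiesOver (Ideal.span {(ℓ : ℤ)}) := by
  constructor
  have hmax : (Ideal.span {(ℓ : ℤ)}).IsMaximal :=
    (Ideal.span_singleton_prime (by exact_mod_cast hℓ.ne_zero)).mpr
      (Nat.prime_iff_prime_int.mp hℓ) |>.isMaximal (by simp [hℓ.ne_zero])
  refine hmax.eq_of_le ?_ ?_
  · exact (Ideal.comap_ne_top _ v.isPrime.ne_top)
  · rw [Ideal.span_singleton_le_iff_mem, Ideal.under_def, Ideal.mem_comap]
    simpa using hv

open scoped Pointwise in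
theorem galPl_asIdeal (σ : K ≃ₐ[ℚ] K) (v : Pl K) : (galPl σ v).asIdeal = σ • v.asIdeal := by
  ext a
  rw [mem_galPl, Ideal.mem_pointwise_smul_iff_inv_smul_mem]
  rfl

/-- the Galois group acts transitively on the places above a rational prime -/
theorem exists_galPl_eq [IsGalois ℚ K] (v w : Pl K) (ℓ : ℕ) (hℓ : ℓ.Prime)
    (hv : (ℓ : 𝓞 K) ∈ v.asIdeal) (hw : (ℓ : 𝓞 K) ∈ w.asIdeal) :
    ∃ σ : K ≃ₐ[ℚ] K, galPl σ v = w := by
  have := liesOver_of_mem v ℓ hℓ hv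
  have := liesOver_of_mem w ℓ hℓ hw
  obtain ⟨σ, hσ⟩ := Ideal.exists_smul_eq_of_isGaloisGroup (Ideal.span {(ℓ : ℤ)}) v.asIdeal w.asIdeal
    (K ≃ₐ[ℚ] K)
  refine ⟨σ, ?_⟩
  ext1
  rw [galPl_asIdeal, hσ]

theorem ord_eq_one_of (v : Pl K) (x : Kˣ) (a : 𝓞 K) (h : (x : K) = a) (h1 : a ∈ v.asIdeal)
    (h2 : a ∉ v.asIdeal ^ 2) : ord v x = 1 := by
  have e1 : ((1 : ℕ) : ℤ) ≤ ord v x := (le_ord_iff v x a h 1).mpr (by simpa using h1)
  have e2 : ¬ ((2 : ℕ) : ℤ) ≤ ord v x := fun hh => h2 ((le_ord_iff v x a h 2).mp hh)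
  push_cast at e1 e2
  omega

theorem natCast_mem_of_absNorm (v : Pl K) (q : ℕ) (hN : Ideal.absNorm v.asIdeal = q) :
    (q : 𝓞 K) ∈ v.asIdeal := by
  rw [← hN]; exact Ideal.absNorm_mem _

theorem natCast_not_mem_of_coprime (v : Pl K) {m n : ℕ} (hmn : Nat.Coprime m n)
    (hm : (m : 𝓞 K) ∈ v.asIdeal) : (n : 𝓞 K) ∉ v.asIdeal := by
  intro hn
  apply v.isPrime.ne_top
  rw [Ideal.eq_top_iff_one]
  have h1 : (m : ℤ) * Nat.gcdA m n + (n : ℤ) * Nat.gcdB m n = 1 := by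
    have := Nat.gcd_eq_gcd_ab m n
    rw [hmn] at this
    exact_mod_cast this.symm
  have h2 : (m : 𝓞 K) * ((Nat.gcdA m n : ℤ) : 𝓞 K) + (n : 𝓞 K) * ((Nat.gcdB m n : ℤ) : 𝓞 K) = 1 := by
    exact_mod_cast congrArg (Int.cast : ℤ → 𝓞 K) h1
  rw [← h2]
  exact add_mem (Ideal.mul_mem_right _ _ hm) (Ideal.mul_mem_right _ _ hn)

theorem tame_of_absNorm {p : ℕ} [Fact p.Prime] (v : Pl K) (q : ℕ) (hq : q.Prime) (hqp : q ≠ p)
    (hN : Ideal.absNorm v.asIdeal = q) : Tame p v :=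
  natCast_not_mem_of_coprime v ((Nat.coprime_primes hq Fact.out).mpr hqp)
    (natCast_mem_of_absNorm v q hN)

/-- power sums: `∑ x^m (1-x)^n = 0` in a finite field if `m + n < q - 1` -/
theorem sum_pow_mul_one_sub_pow {F : Type*} [Field F] [Fintype F] (m n : ℕ)
    (h : m + n < Fintype.card F - 1) : ∑ x : F, x ^ m * (1 - x) ^ n = 0 := by
  have h1 : ∀ x : F, x ^ m * (1 - x) ^ n =
      ∑ k ∈ Finset.range (n + 1), ((-1) ^ k * (n.choose k : F)) * x ^ (m + k) := by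
    intro x
    have : (1 - x) = (-x) + 1 := by ring
    rw [this, add_pow, Finset.mul_sum]
    refine Finset.sum_congr rfl fun k _ => ?_
    rw [neg_pow, one_pow, pow_add]; ring
  simp_rw [h1]
  rw [Finset.sum_comm]
  refine Finset.sum_eq_zero fun k hk => ?_
  rw [← Finset.mul_sum, FiniteField.sum_pow_lt_card_sub_one F (m + k) (by
    have := Finset.mem_range.mp hk; omega), mul_zero]

end General

section Chi

variable {K : Type*} [Field K] [NumberField K] {p : ℕ} [Fact p.Prime] {ζ : 𝓞 K}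
variable {v : Pl K} {χ : MulChar (𝓞 K ⧸ v.asIdeal) (𝓞 K)} [Fintype (𝓞 K ⧸ v.asIdeal)]

theorem IsChi.jacobiSum_mem (hζ : IsPrimitiveRoot ζ p) (hv : Tame p v) (h : IsChi p ζ v χ)
    {a b : ℕ} (ha : 0 < a) (hb : 0 < b) (hab : a + b < p) :
    jacobiSum (χ ^ a) (χ ^ b) ∈ v.asIdeal := by
  have hp := (Fact.out : p.Prime)
  rw [← Ideal.Quotient.eq_zero_iff_mem, jacobiSum, map_sum]
  obtain ⟨e, he⟩ := dvd_absNorm_sub_one hζ hv
  have hediv : (Ideal.absNorm v.asIdeal - 1) / p = e := by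
    rw [he, Nat.mul_div_cancel_left _ hp.pos]
  have h1 : ∀ x : 𝓞 K ⧸ v.asIdeal, Ideal.Quotient.mk v.asIdeal ((χ ^ a) x * (χ ^ b) (1 - x)) =
      x ^ (e * a) * (1 - x) ^ (e * b) := by
    intro x
    rw [map_mul, MulChar.pow_apply' _ ha.ne', MulChar.pow_apply' _ hb.ne', map_pow, map_pow,
      h.mk_apply, h.mk_apply, hediv, ← pow_mul, ← pow_mul]
  simp_rw [h1]
  apply sum_pow_mul_one_sub_pow
  rw [← Nat.card_eq_fintype_card, resaux_card, he, ← mul_add, mul_comm]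
  have he0 : 0 < e := by
    have := resaux_one_lt_absNorm v
    rcases Nat.eq_zero_or_pos e with h0 | h0
    · subst h0; omega
    · exact h0
  exact Nat.mul_lt_mul_of_pos_right hab he0

theorem IsChi.jacobiSum_mul_inv (hζ : IsPrimitiveRoot ζ p) (hv : Tame p v) (h : IsChi p ζ v χ)
    {a b : ℕ} (ha : ¬ p ∣ a) (hb : ¬ p ∣ b) (hab : ¬ p ∣ a + b) :
    jacobiSum (χ ^ a) (χ ^ b) * jacobiSum (χ ^ a)⁻¹ (χ ^ b)⁻¹ =
      (Ideal.absNorm v.asIdeal : 𝓞 K) := by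
  have hinj : Function.Injective (algebraMap (𝓞 K) K) := FaithfulSMul.algebraMap_injective (𝓞 K) K
  apply hinj
  rw [map_mul, ← jacobiSum_ringHomComp, ← jacobiSum_ringHomComp, ← MulChar.ringHomComp_inv,
    ← MulChar.ringHomComp_inv, map_natCast, ← resaux_card, Nat.card_eq_fintype_card]
  apply jacobiSum_mul_jacobiSum_inv
  · rw [ringChar.eq_zero]
    intro h0
    have := CharP.ringChar_ne_zero_of_finite (𝓞 K ⧸ v.asIdeal)
    exact this h0.symm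
  · rw [MulChar.ringHomComp_ne_one_iff hinj]; exact h.pow_ne_one hζ hv ha
  · rw [MulChar.ringHomComp_ne_one_iff hinj]; exact h.pow_ne_one hζ hv hb
  · rw [← MulChar.ringHomComp_mul, MulChar.ringHomComp_ne_one_iff hinj, ← pow_add]
    exact h.pow_ne_one hζ hv hab

/-- Galois action on the character -/
theorem IsChi.ringHomComp_eq (h : IsChi p ζ v χ) (σ : K ≃ₐ[ℚ] K) (c : ℕ)
    (hc : σ (ζ : K) = (ζ : K) ^ c) :
    χ.ringHomComp (RingOfIntegers.mapRingEquiv (σ : K ≃+* K) : 𝓞 K →+* 𝓞 K) = χ ^ c := by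
  ext u
  obtain ⟨j, hj⟩ := h.exists_pow u u.ne_zero
  rw [MulChar.pow_apply_coe, MulChar.ringHomComp_apply, hj]
  have e1 : ∀ (x : 𝓞 K) (n : ℕ), ((x ^ n : 𝓞 K) : K) = (x : K) ^ n :=
    fun x n => map_pow (algebraMap (𝓞 K) K) x n
  change σ ((ζ ^ j.val : 𝓞 K) : K) = _
  rw [e1, e1, e1, map_pow, hc, ← pow_mul, ← pow_mul, mul_comm]

theorem IsChi.map_jacobiSum (h : IsChi p ζ v χ) (σ : K ≃ₐ[ℚ] K) (c : ℕ)
    (hc : σ (ζ : K) = (ζ : K) ^ c) :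
    σ ((jacobiSum χ χ : 𝓞 K) : K) = ((jacobiSum (χ ^ c) (χ ^ c) : 𝓞 K) : K) := by
  rw [← h.ringHomComp_eq σ c hc, jacobiSum_ringHomComp]
  rfl

end Chi

section Cyclo

variable {K : Type*} [Field K] [NumberField K] {p : ℕ} [Fact p.Prime]
  [IsCyclotomicExtension {p} ℚ K] {ζ : 𝓞 K}

/-- primes different from `p` are unramified in `ℚ(ζ_p)` -/
theorem natCast_not_mem_sq (hζ : IsPrimitiveRoot ζ p) (v : Pl K) (ℓ : ℕ) (hℓ : ℓ.Prime)
    (hℓp : ℓ ≠ p) (hv : (ℓ : 𝓞 K) ∈ v.asIdeal) : (ℓ : 𝓞 K) ∉ v.asIdeal ^ 2 := by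
  have hp := (Fact.out : p.Prime)
  have : Fact ℓ.Prime := ⟨hℓ⟩
  have := liesOver_of_mem v ℓ hℓ hv
  have h1 := IsCyclotomicExtension.Rat.ramificationIdx_eq_of_not_dvd (m := p) ℓ K v.asIdeal
    (fun h => hℓp ((Nat.prime_dvd_prime_iff_eq hℓ hp).mp h))
  rw [← Ideal.ramificationIdx'_eq_ramificationIdx (Ideal.span {(ℓ : ℤ)}) v.asIdeal
    (by simp [hℓ.ne_zero])] at h1
  intro h2
  have h3 : Ideal.map (algebraMap ℤ (𝓞 K)) (Ideal.span {(ℓ : ℤ)}) ≤ v.asIdeal := by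
    rw [Ideal.map_span, Set.image_singleton, Ideal.span_singleton_le_iff_mem]
    simpa using hv
  refine (Ideal.ramificationIdx'_ne_one_iff h3).mpr ?_ h1
  rw [Ideal.map_span, Set.image_singleton, Ideal.span_singleton_le_iff_mem]
  simpa using h2

theorem coe_prim (hζ : IsPrimitiveRoot ζ p) : IsPrimitiveRoot (ζ : K) p :=
  hζ.map_of_injective RingOfIntegers.coe_injective

theorem algEquiv_ext (hζ : IsPrimitiveRoot ζ p) (σ τ : K ≃ₐ[ℚ] K) (h : σ (ζ : K) = τ (ζ : K)) :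
    σ = τ := by
  have h1 := ((coe_prim hζ).powerBasis ℚ).algHom_ext (f := (σ : K →ₐ[ℚ] K)) (g := (τ : K →ₐ[ℚ] K))
    (by simpa using h)
  exact AlgEquiv.coe_toAlgHom_injective h1

theorem exists_pow_eq (hζ : IsPrimitiveRoot ζ p) (σ : K ≃ₐ[ℚ] K) :
    ∃ c, 0 < c ∧ c < p ∧ σ (ζ : K) = (ζ : K) ^ c := by
  have hp := (Fact.out : p.Prime)
  have h1 : (σ (ζ : K)) ^ p = 1 := by rw [← map_pow, (coe_prim hζ).pow_eq_one, map_one]
  obtain ⟨c, hc, hc'⟩ := (coe_prim hζ).eq_pow_of_pow_eq_one h1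
  refine ⟨c, ?_, hc, hc'.symm⟩
  rcases Nat.eq_zero_or_pos c with h0 | h0
  · exfalso
    subst h0
    rw [pow_zero] at hc'
    have : (ζ : K) = 1 := by
      apply σ.injective; rw [← hc', map_one]
    exact (coe_prim hζ).ne_one hp.one_lt this
  · exact h0

/-- the decomposition group of a place of degree one is trivial -/
theorem eq_one_of_galPl_eq (hζ : IsPrimitiveRoot ζ p) (𝔮 : Pl K) (q : ℕ) (hq : q.Prime)
    (hqp : q ≠ p) (hN : Ideal.absNorm 𝔮.asIdeal = q) (τ : K ≃ₐ[ℚ] K) (hτ : galPl τ 𝔮 = 𝔮) :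
    τ = 1 := by
  have hp := (Fact.out : p.Prime)
  have hv : Tame p 𝔮 := tame_of_absNorm 𝔮 q hq hqp hN
  have : Fact q.Prime := ⟨hq⟩
  have hcard : Nat.card (𝓞 K ⧸ 𝔮.asIdeal) = q := by rw [resaux_card, hN]
  have h1 : ∃ n : ℤ, ζ - (n : 𝓞 K) ∈ 𝔮.asIdeal := by
    have h2 : Ideal.Quotient.mk 𝔮.asIdeal ζ ∈ AddSubgroup.zmultiples (1 : 𝓞 K ⧸ 𝔮.asIdeal) :=
      mem_zmultiples_of_prime_card hcard one_ne_zero
    obtain ⟨n, hn⟩ := AddSubgroup.mem_zmultiples_iff.mp h2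
    refine ⟨n, ?_⟩
    rw [← Ideal.Quotient.eq_zero_iff_mem, map_sub, ← hn, map_intCast]
    simp
  obtain ⟨n, hn⟩ := h1
  have h3 : RingOfIntegers.mapRingEquiv (τ.symm : K ≃+* K) (ζ - (n : 𝓞 K)) ∈ 𝔮.asIdeal := by
    rw [← mem_galPl, hτ]; exact hn
  rw [map_sub, map_intCast] at h3
  have h4 : RingOfIntegers.mapRingEquiv (τ.symm : K ≃+* K) ζ - ζ ∈ 𝔮.asIdeal := by
    have := sub_mem h3 hn
    rwa [sub_sub_sub_cancel_right] at this
  obtain ⟨c, hc0, hcp, hc⟩ := exists_pow_eq hζ τ.symm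
  have h5 : RingOfIntegers.mapRingEquiv (τ.symm : K ≃+* K) ζ = ζ ^ c := by
    apply RingOfIntegers.ext
    have e1 : ((ζ ^ c : 𝓞 K) : K) = (ζ : K) ^ c := map_pow (algebraMap (𝓞 K) K) ζ c
    rw [e1, ← hc]
    rfl
  rw [h5, ← Ideal.Quotient.eq_zero_iff_mem, map_sub, map_pow, sub_eq_zero] at h4
  have h6 : c = 1 := (resaux_prim hζ hv).pow_inj hcp hp.one_lt (by rw [h4, pow_one])
  subst h6
  rw [pow_one] at hc
  have h7 : τ.symm = 1 := algEquiv_ext hζ _ _ (by simpa using hc)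
  have h8 : τ⁻¹ = 1 := h7
  exact inv_eq_one.mp h8

variable {𝔮 : Pl K} {χ : MulChar (𝓞 K ⧸ 𝔮.asIdeal) (𝓞 K)} [Fintype (𝓞 K ⧸ 𝔮.asIdeal)]

theorem IsChi.jac_facts (hζ : IsPrimitiveRoot ζ p) (q : ℕ) (hq : q.Prime)
    (hqp : q ≠ p) (hN : Ideal.absNorm 𝔮.asIdeal = q) (h : IsChi p ζ 𝔮 χ)
    {a b : ℕ} (ha : 0 < a) (hb : 0 < b) (hab : a + b < p) :
    jacobiSum (χ ^ a) (χ ^ b) * jacobiSum (χ ^ a)⁻¹ (χ ^ b)⁻¹ = (q : 𝓞 K) ∧
    jacobiSum (χ ^ a) (χ ^ b) ∈ 𝔮.asIdeal ∧ jacobiSum (χ ^ a) (χ ^ b) ∉ 𝔮.asIdeal ^ 2 ∧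
      jacobiSum (χ ^ a)⁻¹ (χ ^ b)⁻¹ ∉ 𝔮.asIdeal := by
  have hv : Tame p 𝔮 := tame_of_absNorm 𝔮 q hq hqp hN
  have h1 := h.jacobiSum_mul_inv hζ hv (a := a) (b := b)
    (fun hd => by have := Nat.le_of_dvd ha hd; omega)
    (fun hd => by have := Nat.le_of_dvd hb hd; omega)
    (fun hd => by have := Nat.le_of_dvd (by omega) hd; omega)
  rw [hN] at h1
  have h2 := h.jacobiSum_mem hζ hv ha hb hab
  have h3 := natCast_not_mem_sq hζ 𝔮 q hq hqp (natCast_mem_of_absNorm 𝔮 q hN)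
  refine ⟨h1, h2, ?_, ?_⟩
  · intro h4
    apply h3
    rw [← h1]
    exact Ideal.mul_mem_right _ _ h4
  · intro h4
    apply h3
    rw [← h1, sq]
    exact Ideal.mul_mem_mul h2 h4

end Cyclo

section Main

variable {K : Type*} [Field K] [NumberField K] {p : ℕ} [Fact p.Prime]
  [IsCyclotomicExtension {p} ℚ K] {ζ : 𝓞 K}

theorem gU_inv_gU (τ : K ≃ₐ[ℚ] K) (x : Kˣ) : gU τ⁻¹ (gU τ x) = x := by
  ext
  simp only [coe_gU]
  exact τ.symm_apply_apply _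

theorem ord_galPl_inv (τ : K ≃ₐ[ℚ] K) (v : Pl K) (x : Kˣ) :
    ord (galPl τ⁻¹ v) x = ord v (gU τ x) := by
  have := ord_galPl τ⁻¹ v (gU τ x)
  rwa [gU_inv_gU] at this

theorem exists_jacobi (hp : p ≠ 2) (hζ : IsPrimitiveRoot ζ p) (𝔮 : Pl K) (q : ℕ) (hq : q.Prime)
    (hqp : q ≠ p) (hN : Ideal.absNorm 𝔮.asIdeal = q) :
    ∃ J : Kˣ, ∀ (φ : Pl K → ZMod p) (s : ℕ → (K ≃ₐ[ℚ] K)),
      (∀ c ∈ Finset.Icc 1 ((p - 1) / 2), s c (ζ : K) = (ζ : K) ^ c) →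
      pair p φ J = ∑ c ∈ Finset.Icc 1 ((p - 1) / 2), φ (galPl (s c)⁻¹ 𝔮) := by
  classical
  have hpp := (Fact.out : p.Prime)
  have hp3 : 3 ≤ p := by
    have := hpp.two_le
    omega
  have hodd : Odd p := hpp.odd_of_ne_two hp
  have hv : Tame p 𝔮 := tame_of_absNorm 𝔮 q hq hqp hN
  have : IsGalois ℚ K := IsCyclotomicExtension.isGalois {p} ℚ K
  have := resaux_finite 𝔮
  letI : Fintype (𝓞 K ⧸ 𝔮.asIdeal) := Fintype.ofFinite _
  obtain ⟨χ, hχ⟩ := exists_chi hζ hv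
  have hq0 : (q : 𝓞 K) ≠ 0 := by exact_mod_cast hq.ne_zero
  obtain ⟨f1, -, -, -⟩ := hχ.jac_facts hζ q hq hqp hN (a := 1) (b := 1) one_pos one_pos (by omega)
  rw [pow_one] at f1
  have hJ0 : jacobiSum χ χ ≠ 0 := by
    intro h0; rw [h0, zero_mul] at f1; exact hq0 f1.symm
  have hJ0' : ((jacobiSum χ χ : 𝓞 K) : K) ≠ 0 := by
    intro h; apply hJ0; exact_mod_cast h
  -- the key computation
  have key : ∀ (τ : K ≃ₐ[ℚ] K) (c : ℕ), 0 < c → c < p → τ (ζ : K) = (ζ : K) ^ c →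
      ord (galPl τ⁻¹ 𝔮) (Units.mk0 _ hJ0') = if 2 * c < p then 1 else 0 := by
    intro τ c hc0 hcp hτ
    rw [ord_galPl_inv]
    have e1 : ((gU τ (Units.mk0 _ hJ0') : Kˣ) : K) = ((jacobiSum (χ ^ c) (χ ^ c) : 𝓞 K) : K) := by
      rw [coe_gU, Units.val_mk0, hχ.map_jacobiSum τ c hτ]
    split_ifs with h2
    · obtain ⟨-, g2, g3, -⟩ := hχ.jac_facts hζ q hq hqp hN (a := c) (b := c) hc0 hc0 (by omega)
      exact ord_eq_one_of 𝔮 _ _ e1 g2 g3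
    · have h2' : 2 * c ≠ p := by
        intro h; rw [← h] at hodd; exact (Nat.not_odd_iff_even.mpr (even_two_mul c)) hodd
      obtain ⟨-, -, -, g4⟩ := hχ.jac_facts hζ q hq hqp hN (a := p - c) (b := p - c) (by omega)
        (by omega) (by omega)
      have e2 : (χ ^ (p - c))⁻¹ = χ ^ c := by
        apply inv_eq_of_mul_eq_one_right
        rw [← pow_add, Nat.sub_add_cancel hcp.le, hχ.pow_p hζ]
      rw [e2] at g4
      exact (ord_eq_zero_iff 𝔮 _ _ e1).mpr g4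
  refine ⟨Units.mk0 _ hJ0', fun φ s hs => ?_⟩
  have hinj : Set.InjOn (fun c => galPl (s c)⁻¹ 𝔮) (Finset.Icc 1 ((p - 1) / 2) : Finset ℕ) := by
    intro c hc d hd hcd
    simp only at hcd
    have h1 : galPl (s d * (s c)⁻¹) 𝔮 = 𝔮 := by
      rw [galPl_mul, hcd, ← galPl_mul, mul_inv_cancel, galPl_one]
    have h2 := eq_one_of_galPl_eq hζ 𝔮 q hq hqp hN _ h1
    have h3 : s d = s c := mul_inv_eq_one.mp h2
    have h4 : (ζ : K) ^ c = (ζ : K) ^ d := by rw [← hs c hc, ← hs d hd, h3]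
    have hc' := Finset.mem_Icc.mp hc
    have hd' := Finset.mem_Icc.mp hd
    exact (coe_prim hζ).pow_inj (by omega) (by omega) h4
  rw [pair_eq_sum φ _ ((Finset.Icc 1 ((p - 1) / 2)).image (fun c => galPl (s c)⁻¹ 𝔮)),
    Finset.sum_image hinj]
  · refine Finset.sum_congr rfl fun c hc => ?_
    have hc' := Finset.mem_Icc.mp hc
    rw [key (s c) c (by omega) (by omega) (hs c hc), if_pos (by omega)]
    simp
  · intro v hvS
    right
    by_cases hqv : (q : 𝓞 K) ∈ v.asIdeal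
    · obtain ⟨τ, hτ⟩ := exists_galPl_eq 𝔮 v q hq (natCast_mem_of_absNorm 𝔮 q hN) hqv
      obtain ⟨c, hc0, hcp, hc⟩ := exists_pow_eq hζ τ⁻¹
      have h1 := key τ⁻¹ c hc0 hcp hc
      rw [inv_inv, hτ] at h1
      rw [h1, if_neg]
      intro h2
      apply hvS
      have hcI : c ∈ Finset.Icc 1 ((p - 1) / 2) := Finset.mem_Icc.mpr ⟨hc0, by omega⟩
      refine Finset.mem_image.mpr ⟨c, hcI, ?_⟩
      have h3 : s c = τ⁻¹ := algEquiv_ext hζ _ _ (by rw [hs c hcI, hc])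
      simp only [h3, inv_inv, hτ]
    · refine (ord_eq_zero_iff v _ (jacobiSum χ χ) rfl).mpr ?_
      intro h1
      apply hqv
      rw [← f1]
      exact Ideal.mul_mem_right _ _ h1

end Main

end Fermat.Agent.S14.GaussAux
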