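import Fermat.Agent.S14.Basic

/-!
# S14/G4: the norm residue character is trivial on local `p`-th powers.
-/

set_option autoImplicit false

namespace Fermat.Agent.S14

namespace GaussNorm

open IsDedekindDomain NumberField

variable {K : Type*} [Field K] [NumberField K] {p : ℕ} [Fact p.Prime]

/-- the norm of a place, as a unit of `K` -/
noncomputable def nU (v : Pl K) : Kˣ :=
  Units.mk0 ((Ideal.absNorm v.asIdeal : ℕ) : K) (by
    rw [Ne, Nat.cast_eq_zero, Ideal.absNorm_eq_zero_iff]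
    exact v.ne_bot)

theorem coe_nU (v : Pl K) : ((nU v : Kˣ) : K) = (Ideal.absNorm v.asIdeal : K) := rfl

theorem count_eq_ord (v : Pl K) (x : Kˣ) (a : 𝓞 K) (h : (x : K) = a) :
    (((Associates.mk v.asIdeal).count (Associates.mk (Ideal.span {a})).factors : ℕ) : ℤ) =
      ord v x := by
  have ha0 : a ≠ 0 := by
    rintro rfl
    exact x.ne_zero (by rw [h]; rfl)
  have e2 : v.valuation K (x : K) = v.intValuation a := by
    rw [h]
    exact HeightOneSpectrum.valuation_of_algebraMap v a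
  rw [valuation_eq_exp, HeightOneSpectrum.intValuation_if_neg v ha0, WithZero.exp_inj] at e2
  omega

/-- the absolute norm of an integer, factored -/
theorem exists_absNorm_eq (x : Kˣ) (a : 𝓞 K) (h : (x : K) = a) :
    ∃ T : Finset (Pl K), (∀ v ∉ T, ord v x = 0) ∧
      Ideal.absNorm (Ideal.span {a}) = ∏ v ∈ T, Ideal.absNorm v.asIdeal ^ (ord v x).toNat := by
  have ha0 : a ≠ 0 := by
    rintro rfl
    exact x.ne_zero (by rw [h]; rfl)
  have hs : (Ideal.span {a} : Ideal (𝓞 K)) ≠ 0 := by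
    rw [Ne, Ideal.zero_eq_bot, Ideal.span_singleton_eq_bot]
    exact ha0
  have hfin := Ideal.hasFiniteMulSupport hs
  refine ⟨hfin.toFinset, ?_, ?_⟩
  · intro v hv
    rw [Set.Finite.mem_toFinset, Function.mem_mulSupport, not_not,
      HeightOneSpectrum.maxPowDividing] at hv
    rw [← count_eq_ord v x a h]
    by_contra hne
    have h1 : (Associates.mk v.asIdeal).count (Associates.mk (Ideal.span {a})).factors ≠ 0 := by
      exact_mod_cast hne
    have h2 : v.asIdeal = 1 := (pow_eq_one_iff.mp hv).resolve_right h1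
    exact v.isPrime.ne_top (by rw [h2, Ideal.one_eq_top])
  · conv_lhs => rw [← Ideal.finprod_heightOneSpectrum_factorization hs, finprod_eq_prod _ hfin]
    rw [map_prod]
    refine Finset.prod_congr rfl fun v _ => ?_
    rw [HeightOneSpectrum.maxPowDividing, map_pow]
    congr 1
    have := count_eq_ord v x a h
    omega

section Additive

variable {G : Type*} [CommGroup G] (F : G → ZMod p) (hF : ∀ x y, F (x * y) = F x + F y)

include hF

theorem F_one : F 1 = 0 := by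
  have := hF 1 1
  rw [mul_one] at this
  exact left_eq_add.mp this

theorem F_pow (x : G) (n : ℕ) : F (x ^ n) = n * F x := by
  induction n with
  | zero => simp [F_one F hF]
  | succ n ih => rw [pow_succ, hF, ih]; push_cast; ring

theorem F_prod {ι : Type*} (s : Finset ι) (g : ι → G) : F (∏ i ∈ s, g i) = ∑ i ∈ s, F (g i) := by
  classical
  induction s using Finset.induction_on with
  | empty => simp [F_one F hF]
  | insert i s hi ih => rw [Finset.prod_insert hi, Finset.sum_insert hi, hF, ih]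

theorem F_inv (x : G) : F x⁻¹ = - F x := by
  have h2 : F x⁻¹ + F x = 0 := by rw [← hF, inv_mul_cancel, F_one F hF]
  exact eq_neg_of_add_eq_zero_left h2

theorem F_eq_zero_of_sq (hp : p ≠ 2) (ε : G) (hε : ε ^ 2 = 1) : F ε = 0 := by
  have h1 := F_pow F hF ε 2
  rw [hε, F_one F hF] at h1
  have h2 : ((2 : ℕ) : ZMod p) ≠ 0 := by
    rw [Ne, ZMod.natCast_eq_zero_iff]
    intro hd
    exact hp ((Nat.prime_dvd_prime_iff_eq Fact.out Nat.prime_two).mp hd)
  exact (mul_eq_zero.mp h1.symm).resolve_left h2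

end Additive

theorem exists_prod_gal [IsGalois ℚ K] (x : Kˣ) (a : 𝓞 K) (h : (x : K) = a) :
    ∃ (T : Finset (Pl K)) (ε : Kˣ), (∀ v ∉ T, ord v x = 0) ∧ ε ^ 2 = 1 ∧
      ∏ σ : K ≃ₐ[ℚ] K, gU σ x = ε * ∏ v ∈ T, nU v ^ (ord v x).toNat := by
  obtain ⟨T, hT, hN⟩ := exists_absNorm_eq x a h
  rw [Ideal.absNorm_span_singleton] at hN
  have h1 : (∏ σ : K ≃ₐ[ℚ] K, σ (x : K)) = ((Algebra.norm ℤ a : ℤ) : K) := by
    rw [← Algebra.norm_eq_prod_automorphisms, h, ← Algebra.coe_norm_int]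
    simp
  have h2 : (((Algebra.norm ℤ a).natAbs : ℕ) : K) =
      ∏ v ∈ T, ((nU v : Kˣ) : K) ^ (ord v x).toNat := by
    rw [hN]
    push_cast
    rfl
  rcases Int.natAbs_eq (Algebra.norm ℤ a) with h3 | h3
  · refine ⟨T, 1, hT, one_pow 2, ?_⟩
    apply Units.ext
    rw [one_mul, Units.coe_prod, Units.coe_prod]
    simp only [coe_gU, Units.val_pow_eq_pow_val]
    rw [h1, ← h2, h3]
    simp
  · refine ⟨T, -1, hT, by simp, ?_⟩
    apply Units.ext
    rw [Units.val_mul, Units.coe_prod, Units.coe_prod]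
    simp only [coe_gU, Units.val_pow_eq_pow_val]
    rw [h1, ← h2]
    conv_lhs => rw [h3]
    simp

theorem sum_gal_of_integer [IsGalois ℚ K] (hp : p ≠ 2) (F : Kˣ → ZMod p)
    (hF : ∀ x y, F (x * y) = F x + F y) (x : Kˣ) (a : 𝓞 K) (h : (x : K) = a) :
    ∑ σ : K ≃ₐ[ℚ] K, F (gU σ x) = pair p (fun v => F (nU v)) x := by
  obtain ⟨T, ε, hT, hε, hprod⟩ := exists_prod_gal x a h
  rw [pair_eq_sum _ x T (fun v hv => Or.inr (hT v hv)), ← F_prod F hF, hprod, hF,
    F_eq_zero_of_sq F hF hp ε hε, zero_add, F_prod F hF]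
  refine Finset.sum_congr rfl fun v _ => ?_
  rw [F_pow F hF, mul_comm]
  congr 1
  have h0 := ord_nonneg_of_integer v x a h
  have h1 : (((ord v x).toNat : ℕ) : ℤ) = ord v x := Int.toNat_of_nonneg h0
  rw [← Int.cast_natCast, h1]

theorem sum_gal [IsGalois ℚ K] (hp : p ≠ 2) (F : Kˣ → ZMod p)
    (hF : ∀ x y, F (x * y) = F x + F y) (x : Kˣ) :
    ∑ σ : K ≃ₐ[ℚ] K, F (gU σ x) = pair p (fun v => F (nU v)) x := by
  obtain ⟨a, b, hb, hab⟩ := IsFractionRing.div_surjective (A := 𝓞 K) (x : K)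
  have hb0 : algebraMap (𝓞 K) K b ≠ 0 := by
    rw [Ne, map_eq_zero_iff _ (IsFractionRing.injective (𝓞 K) K)]
    exact nonZeroDivisors.ne_zero hb
  let y : Kˣ := Units.mk0 _ hb0
  have hxy : ((x * y : Kˣ) : K) = a := by
    show (x : K) * algebraMap (𝓞 K) K b = algebraMap (𝓞 K) K a
    rw [← hab, div_mul_cancel₀ _ hb0]
  have h1 := sum_gal_of_integer hp F hF (x * y) a hxy
  have h2 := sum_gal_of_integer hp F hF y b rfl
  simp only [map_mul, hF, Finset.sum_add_distrib, pair_mul] at h1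
  rw [h2] at h1
  exact add_right_cancel h1

variable [IsCyclotomicExtension {p} ℚ K] {ζ : 𝓞 K}

omit [IsCyclotomicExtension {p} ℚ K] in
theorem exists_pow_of_gal (hζ : IsPrimitiveRoot ζ p) (σ : K ≃ₐ[ℚ] K) :
    ∃ k : ℕ, σ (ζ : K) = (ζ : K) ^ k := by
  have hp : p.Prime := Fact.out
  have : NeZero p := ⟨hp.ne_zero⟩
  have h1 : (gOQ σ ζ) ^ p = 1 := by rw [← map_pow, hζ.pow_eq_one, map_one]
  obtain ⟨k, -, hk⟩ := hζ.eq_pow_of_pow_eq_one h1
  refine ⟨k, ?_⟩
  have := congrArg (fun a : 𝓞 K => (a : K)) hk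
  simpa using this.symm

omit [IsCyclotomicExtension {p} ℚ K] in
theorem tame_of_absNorm (𝔯 : Pl K) (r : ℕ) (hr : r.Prime) (hrp : r ≠ p)
    (hN : Ideal.absNorm 𝔯.asIdeal = r) : Tame p 𝔯 := by
  have hp : p.Prime := Fact.out
  intro hmem
  have hr' : (r : 𝓞 K) ∈ 𝔯.asIdeal := hN ▸ Ideal.absNorm_mem 𝔯.asIdeal
  have hc : IsCoprime (p : ℤ) (r : ℤ) :=
    Nat.isCoprime_iff_coprime.mpr ((Nat.coprime_primes hp hr).mpr (Ne.symm hrp))
  obtain ⟨a, b, hab⟩ := hc
  apply 𝔯.isPrime.ne_top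
  rw [Ideal.eq_top_iff_one]
  have h1 : ((a : 𝓞 K) * (p : 𝓞 K) + (b : 𝓞 K) * (r : 𝓞 K)) = 1 := by
    exact_mod_cast congrArg (fun n : ℤ => (n : 𝓞 K)) hab
  rw [← h1]
  exact add_mem (Ideal.mul_mem_left _ _ hmem) (Ideal.mul_mem_left _ _ hr')

theorem pair_norm_res_eq_zero (hp : p ≠ 2) (hζ : IsPrimitiveRoot ζ p) (𝔯 : Pl K) (r : ℕ)
    (hr : r.Prime) (hrp : r ≠ p) (hN : Ideal.absNorm 𝔯.asIdeal = r) (S : Finset (Pl K))
    (hS : ∀ v : Pl K, (r : 𝓞 K) ∈ v.asIdeal → v ∈ S)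
    (h : Pl K → ZMod p) (hh0 : ∀ v ∈ S, h v = 0)
    (hh : ∀ v ∉ S, ∀ n : Kˣ, (n : K) = (Ideal.absNorm v.asIdeal : K) → h v = res p ζ 𝔯 n)
    (x : Kˣ) (hx : x ∈ locPowS p ζ S) : pair p h x = 0 := by
  have : IsGalois ℚ K := IsCyclotomicExtension.isGalois {p} ℚ K
  have h1 := sum_gal hp (res p ζ 𝔯) (res_mul p ζ 𝔯) x
  have hr' : (r : 𝓞 K) ∈ 𝔯.asIdeal := hN ▸ Ideal.absNorm_mem 𝔯.asIdeal
  have h2 : ∑ σ : K ≃ₐ[ℚ] K, res p ζ 𝔯 (gU σ x) = 0 := by
    refine Finset.sum_eq_zero fun σ _ => ?_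
    have e1 : galPl σ (galPl σ⁻¹ 𝔯) = 𝔯 := by rw [← galPl_mul, mul_inv_cancel, galPl_one]
    have hv : Tame p (galPl σ⁻¹ 𝔯) := (tame_galPl σ⁻¹ 𝔯).mpr (tame_of_absNorm 𝔯 r hr hrp hN)
    have hvS : galPl σ⁻¹ 𝔯 ∈ S := by
      apply hS
      rw [mem_galPl, map_natCast]
      exact hr'
    have hloc := (mem_locPow_tame hv x).mp ((mem_locPowS_iff S x).mp hx _ hvS)
    obtain ⟨k, hk⟩ := exists_pow_of_gal hζ σ
    have := res_galPl hζ σ k hk hv x hloc.1
    rw [e1, hloc.2, mul_zero] at this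
    exact this
  rw [h2] at h1
  have h3 : (fun v => res p ζ 𝔯 (nU v)) = h + fun v => res p ζ 𝔯 (nU v) - h v := by
    funext v
    simp
  rw [h3, pair_add] at h1
  have h4 : pair p (fun v => res p ζ 𝔯 (nU v) - h v) x = 0 := by
    rw [pair_eq_sum _ x S fun v hv => Or.inl (by rw [hh v hv (nU v) rfl, sub_self])]
    refine Finset.sum_eq_zero fun v hv => ?_
    have hd := dvd_ord_of_mem_locPow v x ((mem_locPowS_iff S x).mp hx v hv)
    rw [(ZMod.intCast_zmod_eq_zero_iff_dvd _ p).mpr hd, mul_zero]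
  rw [h4, add_zero] at h1
  exact h1.symm

end GaussNorm

end Fermat.Agent.S14
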