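import Fermat.Agent.S14.Basic
import Fermat.Agent.S14.GaussFrob
import Fermat.Agent.S14.GaussNorm
import Fermat.Agent.S14.GaussJac
import Fermat.Agent.S14.GaussGamma

/-!
# S14: Gauss and Jacobi sums.
-/

set_option autoImplicit false

namespace Fermat.Agent.S14

open IsDedekindDomain NumberField

variable {K : Type*} [Field K] [NumberField K] {p : ℕ} [Fact p.Prime]
  [IsCyclotomicExtension {p} ℚ K] {ζ : 𝓞 K}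

/-- Frobenius: a tame place `v` over the rational prime `ℓ` is fixed by `σ_ℓ`, and has degree one
if `ℓ ≡ 1 mod p`. -/
theorem exists_frob (hζ : IsPrimitiveRoot ζ p) (v : Pl K) (hv : Tame p v) :
    ∃ (ℓ : ℕ) (σ : K ≃ₐ[ℚ] K), ℓ.Prime ∧ ℓ ≠ p ∧ (ℓ : 𝓞 K) ∈ v.asIdeal ∧
      σ (ζ : K) = (ζ : K) ^ ℓ ∧ galPl σ v = v ∧
      ((ℓ : ZMod p) = 1 → Ideal.absNorm v.asIdeal = ℓ) :=
  GaussFrob.exists_frob hζ v hv

/-- existence of the automorphisms `σ_c` -/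
theorem exists_sigma (hζ : IsPrimitiveRoot ζ p) (c : ℕ) (hc : ¬ p ∣ c) :
    ∃ σ : K ≃ₐ[ℚ] K, σ (ζ : K) = (ζ : K) ^ c :=
  GaussFrob.exists_sigma hζ c hc

/-- `γ = g(χ_𝔯)^p` for a place `𝔯` of degree one over `r ≠ p`:
* `γ` is a unit outside `r`, `ord 𝔯 γ = p - 1`;
* `γ ≡ -1 mod (1-ζ)^p`, so `γ` is primary;
* `(γ / t) = χ_𝔯(N t)⁻¹` for all tame `t ∤ r`. -/
theorem exists_gamma (hp : p ≠ 2) (hζ : IsPrimitiveRoot ζ p) (𝔯 : Pl K) (r : ℕ) (hr : r.Prime)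
    (hrp : r ≠ p) (hN : Ideal.absNorm 𝔯.asIdeal = r) :
    ∃ γ : Kˣ, (∀ v : Pl K, (r : 𝓞 K) ∉ v.asIdeal → ord v γ = 0) ∧ ord 𝔯 γ = (p : ℤ) - 1 ∧
      (∀ v : Pl K, ¬ Tame p v → γ ∈ primaryAt p v) ∧
      (∀ t : Pl K, Tame p t → (r : 𝓞 K) ∉ t.asIdeal → ∀ n : Kˣ,
        (n : K) = (Ideal.absNorm t.asIdeal : K) → res p ζ t γ = - res p ζ 𝔯 n) :=
  GaussAux.exists_gamma hp hζ 𝔯 r hr hrp hN

/-- `J = J(χ_𝔮, χ_𝔮)` for a place `𝔮` of degree one over `q ≠ p`: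
`(J) = ∏_{1 ≤ c < p/2} σ_c⁻¹ 𝔮`. -/
theorem exists_jacobi (hp : p ≠ 2) (hζ : IsPrimitiveRoot ζ p) (𝔮 : Pl K) (q : ℕ) (hq : q.Prime)
    (hqp : q ≠ p) (hN : Ideal.absNorm 𝔮.asIdeal = q) :
    ∃ J : Kˣ, ∀ (φ : Pl K → ZMod p) (s : ℕ → (K ≃ₐ[ℚ] K)),
      (∀ c ∈ Finset.Icc 1 ((p - 1) / 2), s c (ζ : K) = (ζ : K) ^ c) →
      pair p φ J = ∑ c ∈ Finset.Icc 1 ((p - 1) / 2), φ (galPl (s c)⁻¹ 𝔮) :=
  GaussAux.exists_jacobi hp hζ 𝔮 q hq hqp hN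

/-- the character `x ↦ ∑_{v ∉ S} res_v(γ) ord_v(x)` kills the local `p`-th powers at `S`, if `S`
contains all places above `r` and `p`: this is the explicit reciprocity law for `K(γ^(1/p))`.
Stated for the function `h v = - res 𝔯 (N v)`. -/
theorem pair_norm_res_eq_zero (hp : p ≠ 2) (hζ : IsPrimitiveRoot ζ p) (𝔯 : Pl K) (r : ℕ)
    (hr : r.Prime) (hrp : r ≠ p) (hN : Ideal.absNorm 𝔯.asIdeal = r) (S : Finset (Pl K))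
    (hS : ∀ v : Pl K, (r : 𝓞 K) ∈ v.asIdeal → v ∈ S)
    (h : Pl K → ZMod p) (hh0 : ∀ v ∈ S, h v = 0)
    (hh : ∀ v ∉ S, ∀ n : Kˣ, (n : K) = (Ideal.absNorm v.asIdeal : K) → h v = res p ζ 𝔯 n)
    (x : Kˣ) (hx : x ∈ locPowS p ζ S) : pair p h x = 0 :=
  GaussNorm.pair_norm_res_eq_zero hp hζ 𝔯 r hr hrp hN S hS h hh0 hh x hx

end Fermat.Agent.S14
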