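import Mathlib

/-!
# S14 / H : Herbrand quotient bookkeeping for cyclic groups of prime order

* `card_quot_p` : `|M / pM| = p ^ rank M * |M[p]|` for a finitely generated abelian group `M`.
* `herbrand_index` : if `τ ^ p = 1` on a finitely generated abelian group `A` and
  `ker N = (τ - 1) A`, then `[A^τ : N A] ^ (p - 1) * p ^ rank A = p ^ (p * rank A^τ)`.
-/

set_option autoImplicit false

namespace Fermat.Agent.S14.Herbrand
open Finset Polynomial

variable {M : Type*} [AddCommGroup M]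

theorem card_ker_comp (f g : M →+ M) :
    Nat.card (f.comp g).ker = Nat.card g.ker * Nat.card (f.ker ⊓ g.range : AddSubgroup M) := by
  have h1 : g.ker ≤ (f.comp g).ker := by
    intro x hx
    rw [AddMonoidHom.mem_ker] at hx ⊢
    simp [hx]
  have h2 := AddSubgroup.relIndex_mul_relIndex ⊥ g.ker (f.comp g).ker bot_le h1
  rw [AddSubgroup.relIndex_bot_left, AddSubgroup.relIndex_bot_left, AddSubgroup.relIndex_ker] at h2
  rw [← h2]
  congr 2
  have : (f.comp g).ker = f.ker.comap g := by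
    ext x; simp
  rw [this, AddSubgroup.map_comap_eq, inf_comm]

theorem zmul (f g : M →+ M) :
    (f.comp g).range.index * Nat.card f.ker * Nat.card g.ker =
      f.range.index * g.range.index * Nat.card (f.comp g).ker := by
  have h0 : (f.comp g).range = g.range.map f := by
    rw [AddMonoidHom.range_eq_map, AddMonoidHom.range_eq_map, AddSubgroup.map_map]
  rw [h0, AddSubgroup.index_map, card_ker_comp]
  have h1 : g.range.relIndex (g.range ⊔ f.ker) * (g.range ⊔ f.ker).index = g.range.index :=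
    AddSubgroup.relIndex_mul_index le_sup_left
  rw [AddSubgroup.relIndex_sup_left, ← AddSubgroup.inf_relIndex_right] at h1
  have h2 := AddSubgroup.relIndex_mul_relIndex ⊥ (g.range ⊓ f.ker) f.ker bot_le inf_le_right
  rw [AddSubgroup.relIndex_bot_left, AddSubgroup.relIndex_bot_left] at h2
  rw [← h1, ← h2, inf_comm f.ker]
  ring

theorem index_free (p : ℕ) (hp : p ≠ 0) (F : Type*) [AddCommGroup F] [Module.Free ℤ F] [Module.Finite ℤ F] :
    (zsmulAddGroupHom (p : ℤ) : F →+ F).range.index = p ^ Module.finrank ℤ F := by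
  set f : F →ₗ[ℤ] F := (p : ℤ) • LinearMap.id with hf
  have hinj : Function.Injective f := by
    intro x y hxy
    simp only [hf, LinearMap.smul_apply, LinearMap.id_apply] at hxy
    exact smul_right_injective F (by exact_mod_cast hp : (p : ℤ) ≠ 0) hxy
  have h := Submodule.natAbs_det_equiv (LinearMap.range f) (LinearEquiv.ofInjective f hinj)
  have h2 : (LinearMap.range f).subtype ∘ₗ
      AddMonoidHom.toIntLinearMap ((LinearEquiv.ofInjective f hinj : F ≃ₗ[ℤ] LinearMap.range f) : F →+ LinearMap.range f) = f := by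
    ext x
    simp
  rw [h2, hf, LinearMap.det_smul, LinearMap.det_id, mul_one, Int.natAbs_pow, Int.natAbs_natCast] at h
  rw [h]
  have h3 : (zsmulAddGroupHom (p : ℤ) : F →+ F).range = (LinearMap.range f).toAddSubgroup := by
    ext x
    simp [hf, AddMonoidHom.mem_range]
  rw [h3]
  rfl

theorem finite_ker_zsmul (p : ℕ) (hp : p ≠ 0) (M : Type*) [AddCommGroup M] [Module.Finite ℤ M] :
    Finite (zsmulAddGroupHom (p : ℤ) : M →+ M).ker := by
  have hfinT : Finite (Submodule.torsion ℤ M) :=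
    Module.finite_of_fg_torsion _ (Submodule.torsion_isTorsion)
  have : ((zsmulAddGroupHom (p : ℤ) : M →+ M).ker : Set M) ⊆ (Submodule.torsion ℤ M : Set M) := by
    intro x hx
    simp only [SetLike.mem_coe, AddMonoidHom.mem_ker, zsmulAddGroupHom_apply] at hx
    simp only [SetLike.mem_coe, Submodule.mem_torsion_iff]
    exact ⟨⟨(p : ℤ), mem_nonZeroDivisors_of_ne_zero (by exact_mod_cast hp)⟩, hx⟩
  exact Set.Finite.subset (Set.toFinite (Submodule.torsion ℤ M : Set M)) this

theorem index_zsmul (p : ℕ) (hp : p ≠ 0) (M : Type*) [AddCommGroup M] [Module.Finite ℤ M] :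
    (zsmulAddGroupHom (p : ℤ) : M →+ M).range.index =
      p ^ Module.finrank ℤ M * Nat.card (zsmulAddGroupHom (p : ℤ) : M →+ M).ker := by
  set P : M →+ M := zsmulAddGroupHom (p : ℤ) with hP
  set Ts := Submodule.torsion ℤ M with hTs
  set T : AddSubgroup M := Ts.toAddSubgroup with hT
  set π : M →+ M ⧸ Ts := Ts.mkQ.toAddMonoidHom with hπ
  have hp' : (p : ℤ) ≠ 0 := by exact_mod_cast hp
  have hfinT : Finite T := Module.finite_of_fg_torsion Ts (Submodule.torsion_isTorsion)
  have hrank : Module.finrank ℤ (M ⧸ Ts) = Module.finrank ℤ M := by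
    have h := Ts.finrank_quotient_add_finrank
    have h0 : Module.finrank ℤ Ts = 0 :=
      (Module.finrank_eq_zero_iff_isTorsion).2 Submodule.torsion_isTorsion
    omega
  have h1 : (P.range ⊔ T).index = p ^ Module.finrank ℤ M := by
    have h := AddSubgroup.index_map P.range π
    have hk : π.ker = T := by
      ext x
      simp [hπ, hT, AddMonoidHom.mem_ker]
    have hr : π.range = ⊤ := by
      rw [AddMonoidHom.range_eq_top]
      exact Ts.mkQ_surjective
    have hm : P.range.map π = (zsmulAddGroupHom (p : ℤ) : (M ⧸ Ts) →+ (M ⧸ Ts)).range := by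
      ext x
      constructor
      · rintro ⟨_, ⟨y, rfl⟩, rfl⟩
        exact ⟨π y, by simp [hP]⟩
      · rintro ⟨y, rfl⟩
        obtain ⟨z, rfl⟩ := Ts.mkQ_surjective y
        exact ⟨P z, ⟨z, rfl⟩, by simp [hP, hπ]⟩
    rw [hk, hr, hm, AddSubgroup.index_top, mul_one, index_free p hp, hrank] at h
    exact h.symm
  have h2 : P.range.relIndex (P.range ⊔ T) * (P.range ⊔ T).index = P.range.index :=
    AddSubgroup.relIndex_mul_index le_sup_left
  rw [AddSubgroup.relIndex_sup_left, ← AddSubgroup.inf_relIndex_right] at h2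
  have h3 : P.range ⊓ T = T.map P := by
    ext x
    constructor
    · rintro ⟨⟨y, rfl⟩, hy⟩
      refine ⟨y, ?_, rfl⟩
      obtain ⟨a, ha⟩ := hy
      refine ⟨a * ⟨(p : ℤ), mem_nonZeroDivisors_of_ne_zero hp'⟩, ?_⟩
      rw [← ha]
      simp [hP, mul_smul, Submonoid.smul_def]
    · rintro ⟨y, hy, rfl⟩
      exact ⟨⟨y, rfl⟩, Ts.smul_mem (p : ℤ) hy⟩
  have h4 : P.ker ≤ T := by
    intro x hx
    exact ⟨⟨(p : ℤ), mem_nonZeroDivisors_of_ne_zero hp'⟩, hx⟩
  have h5 := AddSubgroup.relIndex_mul_relIndex ⊥ P.ker T bot_le h4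
  rw [AddSubgroup.relIndex_bot_left, AddSubgroup.relIndex_bot_left, AddSubgroup.relIndex_ker] at h5
  have h6 := AddSubgroup.relIndex_mul_relIndex ⊥ (T.map P) T bot_le (h3 ▸ inf_le_right)
  rw [AddSubgroup.relIndex_bot_left, AddSubgroup.relIndex_bot_left] at h6
  have h7 : Nat.card (T.map P) ≠ 0 := by
    intro h0
    rw [h0, mul_zero] at h5
    exact Nat.card_pos.ne h5
  have h8 : (T.map P).relIndex T = Nat.card P.ker := by
    apply Nat.eq_of_mul_eq_mul_left (Nat.pos_of_ne_zero h7)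
    rw [h6, ← h5, mul_comm]
  rw [← h2, h3, h8, h1, mul_comm]

theorem poly_dvd (p : ℕ) [hp : Fact p.Prime] :
    (∑ i ∈ range p, (X : ℤ[X]) ^ i) ∣ ∏ k ∈ range (p - 1), (1 - (X : ℤ[X]) ^ (k + 1)) - C (p : ℤ) := by
  have hp0 : p ≠ 0 := hp.out.ne_zero
  have hζ : IsPrimitiveRoot (Complex.exp (2 * Real.pi * Complex.I / p)) p :=
    Complex.isPrimitiveRoot_exp p hp0
  set ζ := Complex.exp (2 * Real.pi * Complex.I / p) with hζdef
  rw [← cyclotomic_prime ℤ p, cyclotomic_eq_minpoly hζ hp.out.pos]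
  apply minpoly.isIntegrallyClosed_dvd (hζ.isIntegral hp.out.pos)
  have hp1 : p - 1 + 1 = p := Nat.sub_add_cancel hp.out.one_le
  have h := IsPrimitiveRoot.prod_one_sub_pow_eq_order (n := p - 1) (μ := ζ) (by rw [hp1]; exact hζ)
  simp only [map_sub, map_prod, map_one, map_pow, aeval_X, aeval_C]
  rw [h]
  have : ((p - 1 : ℕ) : ℂ) + 1 = (p : ℂ) := by
    exact_mod_cast congrArg (Nat.cast : ℕ → ℂ) hp1
  rw [this]
  simp

theorem aeval_prod_eq (p : ℕ) [hp : Fact p.Prime] {M : Type*} [AddCommGroup M]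
    (τ : Module.End ℤ M) (hN : ∑ i ∈ range p, τ ^ i = 0) :
    aeval τ (∏ k ∈ range (p - 1), (1 - (X : ℤ[X]) ^ (k + 1))) = (p : ℤ) • (1 : Module.End ℤ M) := by
  obtain ⟨Q, hQ⟩ := poly_dvd p
  have h := congrArg (aeval τ) hQ
  rw [map_sub, map_mul, map_sum] at h
  simp only [map_pow, aeval_X, hN, zero_mul, aeval_C] at h
  rw [sub_eq_zero] at h
  rw [h]
  simp

theorem range_pow_sub_one_le (σ : Module.End ℤ M) (k : ℕ) :
    LinearMap.range (σ ^ k - 1) ≤ LinearMap.range (σ - 1) := by
  rw [← mul_geom_sum]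
  exact LinearMap.range_comp_le_range _ _

theorem ker_le_ker_pow_sub_one (σ : Module.End ℤ M) (k : ℕ) :
    LinearMap.ker (σ - 1) ≤ LinearMap.ker (σ ^ k - 1) := by
  rw [← geom_sum_mul]
  exact LinearMap.ker_le_ker_comp _ _

theorem exists_pow_pow_eq (p : ℕ) [hp : Fact p.Prime] (τ : Module.End ℤ M) (hτ : τ ^ p = 1)
    (k : ℕ) (hk0 : 0 < k) (hk : k < p) : ∃ m : ℕ, (τ ^ k) ^ m = τ := by
  have hc : Nat.Coprime k p := (Nat.coprime_of_lt_prime hk0.ne' hk hp.out).symm
  obtain ⟨m, -, hm⟩ := Nat.exists_mul_mod_eq_one_of_coprime hc hp.out.one_lt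
  refine ⟨m, ?_⟩
  rw [← pow_mul, pow_eq_pow_mod _ hτ, hm, pow_one]

theorem range_one_sub_pow (p : ℕ) [hp : Fact p.Prime] (τ : Module.End ℤ M) (hτ : τ ^ p = 1)
    (k : ℕ) (hk0 : 0 < k) (hk : k < p) :
    LinearMap.range (1 - τ ^ k) = LinearMap.range (τ - 1) := by
  rw [← neg_sub, LinearMap.range_neg]
  apply le_antisymm (range_pow_sub_one_le τ k)
  obtain ⟨m, hm⟩ := exists_pow_pow_eq p τ hτ k hk0 hk
  have := range_pow_sub_one_le (τ ^ k) m
  rwa [hm] at this

theorem ker_one_sub_pow (p : ℕ) [hp : Fact p.Prime] (τ : Module.End ℤ M) (hτ : τ ^ p = 1)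
    (k : ℕ) (hk0 : 0 < k) (hk : k < p) :
    LinearMap.ker (1 - τ ^ k) = LinearMap.ker (τ - 1) := by
  rw [← neg_sub, LinearMap.ker_neg]
  apply le_antisymm _ (ker_le_ker_pow_sub_one τ k)
  obtain ⟨m, hm⟩ := exists_pow_pow_eq p τ hτ k hk0 hk
  have := ker_le_ker_pow_sub_one (τ ^ k) m
  rwa [hm] at this

theorem pow_eq_one_of_sum (p : ℕ) (τ : Module.End ℤ M) (hN : ∑ i ∈ range p, τ ^ i = 0) :
    τ ^ p = 1 := by
  have := geom_sum_mul τ p
  rw [hN, zero_mul] at this
  exact (sub_eq_zero.1 this.symm)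

theorem sum_pow_apply_of_fixed (p : ℕ) (τ : Module.End ℤ M) (x : M) (hx : τ x = x) :
    (∑ i ∈ range p, τ ^ i) x = (p : ℤ) • x := by
  have h : ∀ i : ℕ, (τ ^ i) x = x := by
    intro i
    induction i with
    | zero => simp
    | succ n ih => rw [pow_succ, Module.End.mul_apply, hx, ih]
  rw [LinearMap.sum_apply]
  simp [h]

theorem key_index (p : ℕ) [hp : Fact p.Prime] [Module.Finite ℤ M]
    (τ : Module.End ℤ M) (hN : ∑ i ∈ range p, τ ^ i = 0) :
    (τ - 1).toAddMonoidHom.range.index ^ (p - 1) =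
      p ^ Module.finrank ℤ M * Nat.card (τ - 1).toAddMonoidHom.ker ^ (p - 1) := by
  have hτ := pow_eq_one_of_sum p τ hN
  have hp0 : p ≠ 0 := hp.out.ne_zero
  set d := (τ - 1).toAddMonoidHom.range.index with hd
  set κ := Nat.card (τ - 1).toAddMonoidHom.ker with hκ
  have hfin := finite_ker_zsmul p hp0 M
  have hκ0 : κ ≠ 0 := by
    have hsub : ((τ - 1).toAddMonoidHom.ker : Set M) ⊆
        ((zsmulAddGroupHom (p : ℤ) : M →+ M).ker : Set M) := by
      intro x hx
      simp only [SetLike.mem_coe, AddMonoidHom.mem_ker, LinearMap.toAddMonoidHom_coe,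
        LinearMap.sub_apply, Module.End.one_apply, sub_eq_zero] at hx
      simp only [SetLike.mem_coe, AddMonoidHom.mem_ker, zsmulAddGroupHom_apply]
      rw [← sum_pow_apply_of_fixed p τ x hx, hN, LinearMap.zero_apply]
    have : Finite (τ - 1).toAddMonoidHom.ker :=
      Set.Finite.subset (Set.toFinite _) hsub
    exact Nat.card_pos.ne'
  have hind : ∀ j : ℕ, j ≤ p - 1 →
      Nat.card (aeval τ (∏ k ∈ range j, (1 - (X : ℤ[X]) ^ (k + 1)))).toAddMonoidHom.ker ≠ 0 ∧
      (aeval τ (∏ k ∈ range j, (1 - (X : ℤ[X]) ^ (k + 1)))).toAddMonoidHom.range.index * κ ^ j =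
        d ^ j * Nat.card (aeval τ (∏ k ∈ range j, (1 - (X : ℤ[X]) ^ (k + 1)))).toAddMonoidHom.ker := by
    intro j
    induction j with
    | zero =>
      intro _
      have h1 : (aeval τ (∏ k ∈ range 0, (1 - (X : ℤ[X]) ^ (k + 1)))).toAddMonoidHom =
          AddMonoidHom.id M := by
        ext x; simp
      rw [h1]
      have h2 : (AddMonoidHom.id M).ker = ⊥ := by
        ext x; simp
      have h3 : (AddMonoidHom.id M).range = ⊤ := by
        rw [AddMonoidHom.range_eq_top]; exact Function.surjective_id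
      rw [h2, h3]
      simp
    | succ j ih =>
      intro hj
      obtain ⟨ih0, ih1⟩ := ih (by omega)
      set f := (aeval τ (∏ k ∈ range j, (1 - (X : ℤ[X]) ^ (k + 1)))).toAddMonoidHom with hf
      set g := (1 - τ ^ (j + 1)).toAddMonoidHom with hg
      have hfg : (aeval τ (∏ k ∈ range (j + 1), (1 - (X : ℤ[X]) ^ (k + 1)))).toAddMonoidHom =
          f.comp g := by
        rw [prod_range_succ, map_mul]
        ext x
        simp [hf, hg]
      have hgr : g.range.index = d := by
        rw [hg, hd, ← LinearMap.range_toAddSubgroup, ← LinearMap.range_toAddSubgroup,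
          range_one_sub_pow p τ hτ (j + 1) (by omega) (by omega)]
      have hgk : Nat.card g.ker = κ := by
        rw [hg, hκ, ← LinearMap.ker_toAddSubgroup, ← LinearMap.ker_toAddSubgroup,
          ker_one_sub_pow p τ hτ (j + 1) (by omega) (by omega)]
      rw [hfg]
      have hz := zmul f g
      have hc := card_ker_comp f g
      rw [hgr, hgk] at hz
      rw [hgk] at hc
      have hfinf : Finite f.ker := Nat.finite_of_card_ne_zero ih0
      have hinf : Nat.card (f.ker ⊓ g.range : AddSubgroup M) ≠ 0 := by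
        have : Finite (f.ker ⊓ g.range : AddSubgroup M) :=
          Set.Finite.subset (Set.toFinite (f.ker : Set M)) (fun x hx => hx.1)
        exact Nat.card_pos.ne'
      refine ⟨by rw [hc]; exact mul_ne_zero hκ0 hinf, ?_⟩
      apply Nat.eq_of_mul_eq_mul_right (Nat.pos_of_ne_zero ih0)
      calc (f.comp g).range.index * κ ^ (j + 1) * Nat.card f.ker
          = ((f.comp g).range.index * Nat.card f.ker * κ) * κ ^ j := by ring
        _ = (f.range.index * κ ^ j) * d * Nat.card (f.comp g).ker := by rw [hz]; ring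
        _ = d ^ (j + 1) * Nat.card (f.comp g).ker * Nat.card f.ker := by rw [ih1]; ring
  obtain ⟨h0, h1⟩ := hind (p - 1) le_rfl
  rw [aeval_prod_eq p τ hN] at h0 h1
  have h2 : ((p : ℤ) • (1 : Module.End ℤ M)).toAddMonoidHom = zsmulAddGroupHom (p : ℤ) := by
    ext x; simp
  rw [h2] at h0 h1
  rw [index_zsmul p hp0 M] at h1
  apply Nat.eq_of_mul_eq_mul_right (Nat.pos_of_ne_zero h0)
  rw [← h1]
  ring

theorem restrict_index (K : Submodule ℤ M) (f : M →+ M) (f' : K →+ K)
    (h : ∀ x : K, (f' x : M) = f x) :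
    f'.range.index = (K.toAddSubgroup.map f).relIndex K.toAddSubgroup := by
  have hinj : Function.Injective K.subtype.toAddMonoidHom := K.injective_subtype
  rw [← AddSubgroup.relIndex_top_right, ← AddSubgroup.relIndex_map_map_of_injective _ _ hinj]
  congr 1
  · ext x
    constructor
    · rintro ⟨_, ⟨y, rfl⟩, rfl⟩
      exact ⟨y, y.2, (h y).symm⟩
    · rintro ⟨y, hy, rfl⟩
      exact ⟨f' ⟨y, hy⟩, ⟨_, rfl⟩, h ⟨y, hy⟩⟩
  · ext x
    constructor
    · rintro ⟨y, -, rfl⟩
      exact y.2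
    · intro hx
      exact ⟨⟨x, hx⟩, trivial, rfl⟩

theorem restrict_card_ker (K : Submodule ℤ M) (f : M →+ M) (f' : K →+ K)
    (h : ∀ x : K, (f' x : M) = f x) :
    Nat.card f'.ker = Nat.card (f.ker ⊓ K.toAddSubgroup : AddSubgroup M) := by
  have hinj : Function.Injective K.subtype.toAddMonoidHom := K.injective_subtype
  rw [← AddSubgroup.relIndex_bot_left, ← AddSubgroup.relIndex_map_map_of_injective _ _ hinj,
    AddSubgroup.map_bot, AddSubgroup.relIndex_bot_left]
  congr 2
  ext x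
  constructor
  · rintro ⟨y, hy, rfl⟩
    refine ⟨?_, y.2⟩
    have : f' y = 0 := hy
    show f (y : M) = 0
    rw [← h, this]; rfl
  · rintro ⟨hx1, hx2⟩
    refine ⟨⟨x, hx2⟩, ?_, rfl⟩
    show f' ⟨x, hx2⟩ = 0
    apply Subtype.ext
    rw [h]
    exact hx1

end Fermat.Agent.S14.Herbrand

namespace Fermat.Agent.S14
open Finset Herbrand

theorem card_quot_p (p : ℕ) [Fact p.Prime] (M : Type*) [AddCommGroup M] [Module.Finite ℤ M] :
    Nat.card (M ⧸ (zsmulAddGroupHom (p : ℤ) : M →+ M).range) =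
      p ^ Module.finrank ℤ M * Nat.card (zsmulAddGroupHom (p : ℤ) : M →+ M).ker :=
  index_zsmul p (Fact.out : p.Prime).ne_zero M

theorem herbrand_index (p : ℕ) [Fact p.Prime] {A : Type*} [AddCommGroup A] [Module.Finite ℤ A]
    (τ : Module.End ℤ A) (hτ : τ ^ p = 1)
    (hH : ∀ a : A, (∑ i ∈ range p, τ ^ i) a = 0 → ∃ b : A, a = τ b - b) :
    ((LinearMap.range (∑ i ∈ range p, τ ^ i)).toAddSubgroup.relIndex
        (LinearMap.ker (τ - 1)).toAddSubgroup) ^ (p - 1) * p ^ Module.finrank ℤ A =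
      p ^ (p * Module.finrank ℤ (LinearMap.ker (τ - 1))) := by
  have hpp : p.Prime := Fact.out
  have hp0 : p ≠ 0 := hpp.ne_zero
  set N : Module.End ℤ A := ∑ i ∈ range p, τ ^ i with hN
  set D : Module.End ℤ A := τ - 1 with hD
  have hND : N * D = 0 := by rw [hN, hD, geom_sum_mul, hτ, sub_self]
  have hDN : D * N = 0 := by rw [hN, hD, mul_geom_sum, hτ, sub_self]
  have hrD : LinearMap.range D = LinearMap.ker N := by
    apply le_antisymm
    · rintro _ ⟨y, rfl⟩
      rw [LinearMap.mem_ker, ← Module.End.mul_apply, hND, LinearMap.zero_apply]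
    · intro x hx
      obtain ⟨b, hb⟩ := hH x hx
      exact ⟨b, by simp [hD, hb]⟩
  have hrN : LinearMap.range N ≤ LinearMap.ker D := by
    rintro _ ⟨y, rfl⟩
    rw [LinearMap.mem_ker, ← Module.End.mul_apply, hDN, LinearMap.zero_apply]
  have hNp : ∀ x ∈ LinearMap.ker D, N x = (p : ℤ) • x := by
    intro x hx
    apply sum_pow_apply_of_fixed
    rw [LinearMap.mem_ker, hD, LinearMap.sub_apply, Module.End.one_apply, sub_eq_zero] at hx
    exact hx
  -- ranks
  have hrank : Module.finrank ℤ (LinearMap.ker N) + Module.finrank ℤ (LinearMap.ker D) =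
      Module.finrank ℤ A := by
    rw [← hrD, ← (LinearMap.ker D).finrank_quotient_add_finrank, D.quotKerEquivRange.finrank_eq]
  set r1 := Module.finrank ℤ (LinearMap.ker D) with hr1
  set r2 := Module.finrank ℤ (LinearMap.ker N) with hr2
  set a1 : AddSubgroup A := (LinearMap.ker D).toAddSubgroup with ha1
  set a2 : AddSubgroup A := (LinearMap.ker N).toAddSubgroup with ha2
  -- restriction of τ to ker N
  have hcomm : Commute N τ := Commute.sum_left _ _ _ (fun i _ => Commute.pow_self τ i)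
  have hmap : ∀ x ∈ LinearMap.ker N, τ x ∈ LinearMap.ker N := by
    intro x hx
    rw [LinearMap.mem_ker] at hx ⊢
    rw [← Module.End.mul_apply, hcomm.eq, Module.End.mul_apply, hx, map_zero]
  set τ' : Module.End ℤ (LinearMap.ker N) := τ.restrict hmap with hτ'
  have hpow : ∀ (i : ℕ) (x : LinearMap.ker N), (((τ' ^ i) x : LinearMap.ker N) : A) = (τ ^ i) x := by
    intro i
    induction i with
    | zero => intro x; simp
    | succ n ih =>
      intro x
      rw [pow_succ, Module.End.mul_apply, ih, pow_succ, Module.End.mul_apply]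
      rfl
  have hN' : ∑ i ∈ range p, τ' ^ i = 0 := by
    ext x
    rw [LinearMap.sum_apply]
    simp only [AddSubmonoidClass.coe_finsetSum, hpow, LinearMap.zero_apply, ZeroMemClass.coe_zero]
    have := x.2
    rw [LinearMap.mem_ker] at this
    rw [← LinearMap.sum_apply]
    exact this
  have hkey := key_index p τ' hN'
  have hD' : ∀ x : LinearMap.ker N, (((τ' - 1).toAddMonoidHom x : LinearMap.ker N) : A) =
      D.toAddMonoidHom x := by
    intro x
    simp [hD, hτ']
  rw [restrict_index _ D.toAddMonoidHom _ hD', restrict_card_ker _ D.toAddMonoidHom _ hD',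
    ← LinearMap.ker_toAddSubgroup] at hkey
  -- multiplication by p on ker D
  have hz := index_zsmul p hp0 (LinearMap.ker D)
  have hP' : ∀ x : LinearMap.ker D,
      (((zsmulAddGroupHom (p : ℤ) : LinearMap.ker D →+ LinearMap.ker D) x : LinearMap.ker D) : A) =
      (zsmulAddGroupHom (p : ℤ) : A →+ A) x := by
    intro x
    simp
  have hκ0 : Nat.card (zsmulAddGroupHom (p : ℤ) : LinearMap.ker D →+ LinearMap.ker D).ker ≠ 0 := by
    have := finite_ker_zsmul p hp0 (LinearMap.ker D)
    exact Nat.card_pos.ne'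
  rw [restrict_card_ker _ _ _ hP'] at hκ0
  rw [restrict_index _ _ _ hP', restrict_card_ker _ _ _ hP'] at hz
  have hinf : ((zsmulAddGroupHom (p : ℤ) : A →+ A).ker ⊓ a1 : AddSubgroup A) = a1 ⊓ a2 := by
    ext x
    constructor
    · rintro ⟨h1, h2⟩
      refine ⟨h2, ?_⟩
      show N x = 0
      rw [hNp x h2]
      exact h1
    · rintro ⟨h1, h2⟩
      refine ⟨?_, h1⟩
      show (p : ℤ) • x = 0
      rw [← hNp x h1]
      exact h2
  have hmapN : a1.map (zsmulAddGroupHom (p : ℤ) : A →+ A) = a1.map N.toAddMonoidHom := by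
    ext x
    constructor
    · rintro ⟨y, hy, rfl⟩
      exact ⟨y, hy, hNp y hy⟩
    · rintro ⟨y, hy, rfl⟩
      exact ⟨y, hy, (hNp y hy).symm⟩
  rw [hinf] at hκ0 hz
  rw [hmapN] at hz
  set κ := Nat.card (a1 ⊓ a2 : AddSubgroup A) with hκ
  -- the two index computations
  have hrNa : (LinearMap.range N).toAddSubgroup = (⊤ : AddSubgroup A).map N.toAddMonoidHom := by
    rw [LinearMap.range_toAddSubgroup, AddMonoidHom.range_eq_map]
  have hrDa : a2 = (⊤ : AddSubgroup A).map D.toAddMonoidHom := by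
    rw [ha2, ← hrD, LinearMap.range_toAddSubgroup, AddMonoidHom.range_eq_map]
  have e1 : (a1.map N.toAddMonoidHom).relIndex (LinearMap.range N).toAddSubgroup =
      (a1 ⊔ a2).index := by
    rw [hrNa, AddSubgroup.relIndex_map_map, ← LinearMap.ker_toAddSubgroup, top_sup_eq,
      AddSubgroup.relIndex_top_right]
  have e2 : (a2.map D.toAddMonoidHom).relIndex a2 = (a1 ⊔ a2).index := by
    have e : (a2.map D.toAddMonoidHom).relIndex a2 =
        (a2.map D.toAddMonoidHom).relIndex ((⊤ : AddSubgroup A).map D.toAddMonoidHom) := by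
      rw [← hrDa]
    rw [e, AddSubgroup.relIndex_map_map, ← LinearMap.ker_toAddSubgroup, top_sup_eq,
      AddSubgroup.relIndex_top_right, sup_comm]
  have e3 := AddSubgroup.relIndex_mul_relIndex (a1.map N.toAddMonoidHom)
    (LinearMap.range N).toAddSubgroup a1
    (by rw [hrNa]; exact AddSubgroup.map_mono le_top) hrN
  rw [e1, hz] at e3
  rw [e2] at hkey
  set d := (a1 ⊔ a2).index with hd
  set h := (LinearMap.range N).toAddSubgroup.relIndex a1 with hh
  -- arithmetic
  have hp1 : p - 1 + 1 = p := Nat.sub_add_cancel hpp.one_le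
  have e4 : (d * h) ^ (p - 1) = (p ^ r1 * κ) ^ (p - 1) := by rw [e3]
  rw [mul_pow, hkey, mul_pow] at e4
  have e5 : p ^ r2 * h ^ (p - 1) = (p ^ r1) ^ (p - 1) := by
    apply Nat.eq_of_mul_eq_mul_right (Nat.pos_of_ne_zero (pow_ne_zero (p - 1) hκ0))
    rw [← e4]; ring
  rw [← hrank]
  calc h ^ (p - 1) * p ^ (r2 + r1) = (p ^ r2 * h ^ (p - 1)) * p ^ r1 := by ring
    _ = (p ^ r1) ^ (p - 1) * p ^ r1 := by rw [e5]
    _ = (p ^ r1) ^ (p - 1 + 1) := by ring
    _ = p ^ (p * r1) := by rw [hp1, ← pow_mul, mul_comm]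

end Fermat.Agent.S14
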