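import Fermat.Agent.S14.Basic
import Fermat.Agent.S14.Herbrand

/-!
# S14: `S`-units modulo `p`-th powers in `K = ℚ(ζ_p)`.
-/

set_option autoImplicit false

namespace Fermat.Agent.S14

open IsDedekindDomain NumberField

variable {K : Type*} [Field K] [NumberField K] {p : ℕ} [Fact p.Prime]
  [IsCyclotomicExtension {p} ℚ K]

namespace UPAux

theorem rank_eq (hp : p ≠ 2) : NumberField.Units.rank K + 1 = (p - 1) / 2 := by
  have hp' : p.Prime := Fact.out
  have : NeZero p := ⟨hp'.ne_zero⟩
  have h2 : 2 < p := lt_of_le_of_ne hp'.two_le (Ne.symm hp)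
  have h1 := IsCyclotomicExtension.Rat.nrComplexPlaces_eq_totient_div_two p K
  have h0 := IsCyclotomicExtension.Rat.nrRealPlaces_eq_zero (n := p) K h2
  rw [Nat.totient_prime hp'] at h1
  rw [NumberField.Units.rank, NumberField.InfinitePlace.card_eq_nrRealPlaces_add_nrComplexPlaces,
    h0, h1]
  omega

theorem card_ker (S : Finset (Pl K)) :
    Nat.card (zsmulAddGroupHom (p : ℤ) : Additive (SUnit K S) →+ Additive (SUnit K S)).ker = p := by
  have hp' : p.Prime := Fact.out
  have : NeZero p := ⟨hp'.ne_zero⟩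
  refine Eq.trans (Nat.card_congr (β := rootsOfUnity p K)
    { toFun := fun x => ⟨((Additive.toMul x.1 : SUnit K S) : Kˣ), ?_⟩
      invFun := fun z => ⟨Additive.ofMul ⟨z.1, ?_⟩, ?_⟩
      left_inv := fun x => rfl
      right_inv := fun z => rfl })
    (IsPrimitiveRoot.card_rootsOfUnity (IsCyclotomicExtension.zeta_spec p ℚ K))
  · have h := x.2
    rw [AddMonoidHom.mem_ker] at h
    rw [mem_rootsOfUnity]
    have h2 : (Additive.toMul x.1 : SUnit K S) ^ p = 1 := by
      have h3 : (p : ℤ) • x.1 = 0 := h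
      have h4 := congrArg Additive.toMul h3
      rw [toMul_zsmul, zpow_natCast] at h4
      exact h4
    exact_mod_cast congrArg (Subtype.val) h2
  · apply mem_SUnit_of_pow S z.1 hp'.ne_zero
    rw [(mem_rootsOfUnity _ _).mp z.2]
    exact one_mem _
  · rw [AddMonoidHom.mem_ker]
    apply Additive.toMul.injective
    apply Subtype.ext
    simpa using (mem_rootsOfUnity _ _).mp z.2

end UPAux

open UPAux

/-- `#(K_S / K_S^p) = p ^ (#S + (p-1)/2)` -/
theorem card_SUnit_mod_pow (hp : p ≠ 2) (S : Finset (Pl K)) :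
    Nat.card (SUnit K S ⧸ (powMonoidHom p : SUnit K S →* SUnit K S).range) =
      p ^ (S.card + (p - 1) / 2) := by
  have h := card_quot_p p (Additive (SUnit K S))
  rw [card_ker, sunit_finrank, ← pow_succ, ← AddSubgroup.index_eq_card] at h
  rw [← Subgroup.index_eq_card, ← rank_eq (K := K) hp]
  have e : Subgroup.toAddSubgroup (powMonoidHom p : SUnit K S →* SUnit K S).range =
      (zsmulAddGroupHom (p : ℤ) : Additive (SUnit K S) →+ Additive (SUnit K S)).range := by
    ext x
    constructor
    · rintro ⟨y, hy⟩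
      refine ⟨Additive.ofMul y, ?_⟩
      apply Additive.toMul.injective
      simpa using hy
    · rintro ⟨y, hy⟩
      refine ⟨Additive.toMul y, ?_⟩
      have := congrArg Additive.toMul hy
      simpa using this
  rw [← e] at h
  rw [show (powMonoidHom p : SUnit K S →* SUnit K S).range.index =
    (Subgroup.toAddSubgroup (powMonoidHom p : SUnit K S →* SUnit K S).range).index from rfl, h]
  congr 1
  ring

/-- the same as a relative index inside `Kˣ` -/
theorem relIndex_pows_SUnit (hp : p ≠ 2) (S : Finset (Pl K)) :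
    (pows K p).relIndex (SUnit K S) = p ^ (S.card + (p - 1) / 2) := by
  have hp' : p.Prime := Fact.out
  rw [← card_SUnit_mod_pow hp S, ← Subgroup.index_eq_card, Subgroup.relIndex]
  congr 1
  ext x
  rw [Subgroup.mem_subgroupOf]
  constructor
  · rintro ⟨y, hy⟩
    have hy' : y ^ p = (x : Kˣ) := hy
    have hyS : y ∈ SUnit K S := mem_SUnit_of_pow S y hp'.ne_zero (by rw [hy']; exact x.2)
    exact ⟨⟨y, hyS⟩, Subtype.ext hy'⟩
  · rintro ⟨y, hy⟩
    exact ⟨y, congrArg Subtype.val hy⟩

end Fermat.Agent.S14
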