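import Fermat.Agent.S14.DL
import Fermat.Agent.S14.UP

/-!
# S14: choice of the auxiliary set `T`.
-/

set_option autoImplicit false

namespace Fermat.Agent.S14

open IsDedekindDomain NumberField

variable {K : Type*} [Field K] [NumberField K] {p : ℕ} [Fact p.Prime]
  [IsCyclotomicExtension {p} ℚ K] {ζ : 𝓞 K}

namespace TSel

omit [NumberField K] [IsCyclotomicExtension {p} ℚ K] in
/-- reduce an integer exponent modulo `p` -/
theorem zpow_eq (w : Kˣ) (a : ℤ) : ∃ e : Kˣ, w ^ a = w ^ ((a : ZMod p).val) * e ^ p := by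
  refine ⟨w ^ (a / p), ?_⟩
  have h1 : (((a : ZMod p).val : ℕ) : ℤ) = a % p := ZMod.val_intCast a
  rw [← zpow_natCast w, h1, ← zpow_natCast (w ^ (a / p)) p, ← zpow_mul, ← zpow_add,
    mul_comm, Int.emod_add_mul_ediv]

theorem comm_aux {G : Type*} [CommGroup G] (A B A' B' C D : G) :
    (A * B)⁻¹ * (A' * B') * (C * A) * (D * B) = A' * C * (B' * D) := by
  have : (A * B)⁻¹ * (A' * B') * (C * A) * (D * B) = (A' * C * (B' * D)) * ((A * B)⁻¹ * (A * B)) := by
    simp only [mul_assoc, mul_comm, mul_left_comm]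
  rw [this, inv_mul_cancel, mul_one]

/-- counting: if the common kernel of the symbols at `T` on `K_S` is contained in
`⟨w₁, w₂⟩ Kˣᵖ` then `#S + (p-1)/2 ≤ #T + 2`. -/
theorem card_le (hp : p ≠ 2) (S T : Finset (Pl K)) (w₁ w₂ : Kˣ)
    (h₁ : w₁ ∈ SUnit K S) (h₂ : w₂ ∈ SUnit K S)
    (hsurj : ∀ ρ : Pl K → ZMod p, ∃ x ∈ SUnit K S, ∀ t ∈ T, res p ζ t x = ρ t)
    (hall : ∀ x ∈ SUnit K S, (∀ t ∈ T, res p ζ t x = 0) →
      x ∈ Subgroup.closure ({w₁, w₂} : Set Kˣ) ⊔ pows K p) :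
    S.card + (p - 1) / 2 ≤ T.card + 2 := by
  classical
  have hpp : p.Prime := Fact.out
  have : NeZero p := ⟨hpp.ne_zero⟩
  choose X hXS hX using hsurj
  let ext : (T → ZMod p) → (Pl K → ZMod p) := fun ρ v => if h : v ∈ T then ρ ⟨v, h⟩ else 0
  let f : (T → ZMod p) × ZMod p × ZMod p →
      SUnit K S ⧸ (powMonoidHom p : SUnit K S →* SUnit K S).range := fun a =>
    QuotientGroup.mk (⟨X (ext a.1), hXS _⟩ * ⟨w₁, h₁⟩ ^ a.2.1.val * ⟨w₂, h₂⟩ ^ a.2.2.val)
  have hf : Function.Surjective f := by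
    intro q
    obtain ⟨⟨x, hx⟩, rfl⟩ := QuotientGroup.mk_surjective q
    set ρ : T → ZMod p := fun t => res p ζ t.1 x with hρ
    have hy : x * (X (ext ρ))⁻¹ ∈ Subgroup.closure ({w₁, w₂} : Set Kˣ) ⊔ pows K p := by
      refine hall _ (mul_mem hx (inv_mem (hXS _))) fun t ht => ?_
      rw [res_mul, res_inv, hX (ext ρ) t ht]
      simp [ext, ht, hρ]
    obtain ⟨y, hy1, _, ⟨d, rfl⟩, hyd⟩ := Subgroup.mem_sup.mp hy
    obtain ⟨a, b, rfl⟩ := Subgroup.mem_closure_pair.mp hy1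
    obtain ⟨e₁, he₁⟩ := zpow_eq (p := p) w₁ a
    obtain ⟨e₂, he₂⟩ := zpow_eq (p := p) w₂ b
    simp only [powMonoidHom_apply] at hyd
    refine ⟨(ρ, (a : ZMod p), (b : ZMod p)), ?_⟩
    have hkey : x = X (ext ρ) * w₁ ^ (a : ZMod p).val * w₂ ^ (b : ZMod p).val *
        (e₁ * e₂ * d) ^ p := by
      have : x = X (ext ρ) * (w₁ ^ a * w₂ ^ b * d ^ p) := by
        rw [hyd, mul_comm x, mul_inv_cancel_left]
      rw [this, he₁, he₂, mul_pow, mul_pow]
      simp only [mul_assoc, mul_left_comm, mul_comm]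
    have hE : e₁ * e₂ * d ∈ SUnit K S := by
      apply mem_SUnit_of_pow S _ hpp.ne_zero
      have : (e₁ * e₂ * d) ^ p =
          (X (ext ρ) * w₁ ^ (a : ZMod p).val * w₂ ^ (b : ZMod p).val)⁻¹ * x := by
        rw [hkey]; group
      rw [this]
      exact mul_mem (inv_mem (mul_mem (mul_mem (hXS _) (pow_mem h₁ _)) (pow_mem h₂ _))) hx
    simp only [f]
    rw [QuotientGroup.eq]
    refine ⟨⟨e₁ * e₂ * d, hE⟩, ?_⟩
    apply Subtype.ext
    simp only [powMonoidHom_apply, Subgroup.coe_pow, Subgroup.coe_mul, Subgroup.coe_inv]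
    conv_rhs => rw [hkey]
    group
  have hcard := Nat.card_le_card_of_surjective f hf
  rw [card_SUnit_mod_pow hp S] at hcard
  have h2 : Nat.card ((T → ZMod p) × ZMod p × ZMod p) = p ^ (T.card + 2) := by
    rw [Nat.card_prod, Nat.card_prod, Nat.card_fun, Nat.card_zmod]
    simp only [Nat.card_eq_fintype_card, Fintype.card_coe]
    ring
  rw [h2] at hcard
  exact (Nat.pow_le_pow_iff_right hpp.one_lt).mp hcard

/-- two independent elements: `2 ≤ #S + (p-1)/2`. -/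
theorem two_le (hp : p ≠ 2) (S : Finset (Pl K)) (w₁ w₂ : Kˣ)
    (h₁ : w₁ ∈ SUnit K S) (h₂ : w₂ ∈ SUnit K S)
    (hind : ∀ i j : ℕ, w₁ ^ i * w₂ ^ j ∈ pows K p → p ∣ i ∧ p ∣ j) :
    2 ≤ S.card + (p - 1) / 2 := by
  classical
  have hpp : p.Prime := Fact.out
  have : NeZero p := ⟨hpp.ne_zero⟩
  let f : ZMod p × ZMod p → SUnit K S ⧸ (powMonoidHom p : SUnit K S →* SUnit K S).range :=
    fun a => QuotientGroup.mk (⟨w₁, h₁⟩ ^ a.1.val * ⟨w₂, h₂⟩ ^ a.2.val)
  have hfin : Finite (SUnit K S ⧸ (powMonoidHom p : SUnit K S →* SUnit K S).range) := by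
    apply Nat.finite_of_card_ne_zero
    rw [card_SUnit_mod_pow hp S]
    exact pow_ne_zero _ hpp.ne_zero
  have hf : Function.Injective f := by
    rintro ⟨i, j⟩ ⟨i', j'⟩ h
    simp only [f] at h
    rw [QuotientGroup.eq] at h
    obtain ⟨⟨e, he⟩, hee⟩ := h
    have h3 := congrArg Subtype.val hee
    simp only [powMonoidHom_apply, Subgroup.coe_pow, Subgroup.coe_mul, Subgroup.coe_inv] at h3
    -- `w₁^(i' + (p - i)) * w₂^(j' + (p - j))` is a `p`-th power
    have hi := ZMod.val_lt i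
    have hj := ZMod.val_lt j
    have h4 : w₁ ^ (i'.val + (p - i.val)) * w₂ ^ (j'.val + (p - j.val)) ∈ pows K p := by
      refine ⟨e * w₁ * w₂, ?_⟩
      simp only [powMonoidHom_apply]
      rw [mul_pow, mul_pow, h3]
      have e1 : w₁ ^ p = w₁ ^ (p - i.val) * w₁ ^ i.val := by
        rw [← pow_add]; congr 1; omega
      have e2 : w₂ ^ p = w₂ ^ (p - j.val) * w₂ ^ j.val := by
        rw [← pow_add]; congr 1; omega
      rw [e1, e2, pow_add, pow_add]
      exact comm_aux _ _ _ _ _ _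
    obtain ⟨d1, d2⟩ := hind _ _ h4
    have hcast : ∀ a a' : ZMod p, p ∣ a'.val + (p - a.val) → a = a' := by
      intro a a' hd
      have ha := ZMod.val_lt a
      have h5 : ((a'.val + (p - a.val) : ℕ) : ZMod p) = 0 := (ZMod.natCast_eq_zero_iff _ _).mpr hd
      rw [Nat.cast_add, Nat.cast_sub ha.le, ZMod.natCast_zmod_val, ZMod.natCast_zmod_val,
        ZMod.natCast_self] at h5
      linear_combination -h5
    rw [hcast i i' d1, hcast j j' d2]
  have hcard := Nat.card_le_card_of_injective f hf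
  rw [card_SUnit_mod_pow hp S, Nat.card_prod, Nat.card_zmod, ← sq] at hcard
  exact (Nat.pow_le_pow_iff_right hpp.one_lt).mp hcard

end TSel

open TSel in
/-- Given two `S`-units independent modulo `p`-th powers there is a set `T` of
`#S + (p-1)/2 - 2` tame places outside `S ∪ B` at which `w₁, w₂` are `p`-th power residues and such
that the `S`-units surject onto the residue symbols at `T`. -/
theorem exists_T (hp : p ≠ 2) (hζ : IsPrimitiveRoot ζ p) (S B : Finset (Pl K))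
    (w₁ w₂ : Kˣ) (h₁ : w₁ ∈ SUnit K S) (h₂ : w₂ ∈ SUnit K S)
    (hind : ∀ i j : ℕ, w₁ ^ i * w₂ ^ j ∈ pows K p → p ∣ i ∧ p ∣ j) :
    ∃ T : Finset (Pl K), Disjoint S T ∧ Disjoint B T ∧ T.card + 2 = S.card + (p - 1) / 2 ∧
      (∀ t ∈ T, Tame p t ∧ res p ζ t w₁ = 0 ∧ res p ζ t w₂ = 0) ∧
      (∀ ρ : Pl K → ZMod p, ∃ x ∈ SUnit K S, ∀ t ∈ T, res p ζ t x = ρ t) := by
  classical
  have key : ∀ k : ℕ, k + 2 ≤ S.card + (p - 1) / 2 →
      ∃ T : Finset (Pl K), Disjoint S T ∧ Disjoint B T ∧ T.card = k ∧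
      (∀ t ∈ T, Tame p t ∧ res p ζ t w₁ = 0 ∧ res p ζ t w₂ = 0) ∧
      (∀ ρ : Pl K → ZMod p, ∃ x ∈ SUnit K S, ∀ t ∈ T, res p ζ t x = ρ t) := by
    intro k
    induction k with
    | zero =>
      intro _
      exact ⟨∅, by simp, by simp, rfl, by simp, fun _ => ⟨1, one_mem _, by simp⟩⟩
    | succ k ih =>
      intro hk
      obtain ⟨T, hST, hBT, hcard, hT, hsurj⟩ := ih (by omega)
      -- an element of the kernel outside `⟨w₁, w₂⟩ Kˣᵖ`
      obtain ⟨u, huS, huT, hu⟩ : ∃ u ∈ SUnit K S, (∀ t ∈ T, res p ζ t u = 0) ∧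
          u ∉ Subgroup.closure ({w₁, w₂} : Set Kˣ) ⊔ pows K p := by
        by_contra hcon
        push Not at hcon
        have := card_le hp S T w₁ w₂ h₁ h₂ hsurj hcon
        omega
      obtain ⟨t, htB, htame, hus, -, hres⟩ := DL hp hζ (S ∪ B ∪ T) {w₁, w₂} u (by
        rw [Finset.coe_insert, Finset.coe_singleton]; exact hu)
      simp only [Finset.mem_union, not_or] at htB
      obtain ⟨⟨htS, htB⟩, htT⟩ := htB
      refine ⟨insert t T, ?_, ?_, ?_, ?_, ?_⟩
      · rw [Finset.disjoint_insert_right]; exact ⟨htS, hST⟩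
      · rw [Finset.disjoint_insert_right]; exact ⟨htB, hBT⟩
      · rw [Finset.card_insert_of_notMem htT, hcard]
      · intro t' ht'
        rcases Finset.mem_insert.mp ht' with rfl | h
        · exact ⟨htame, (hus w₁ (by simp)).2, (hus w₂ (by simp)).2⟩
        · exact hT t' h
      · intro ρ
        obtain ⟨x₀, hx₀S, hx₀⟩ := hsurj ρ
        set m : ZMod p := (ρ t - res p ζ t x₀) * (res p ζ t u)⁻¹ with hm
        refine ⟨x₀ * u ^ m.val, mul_mem hx₀S (pow_mem huS _), fun t' ht' => ?_⟩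
        rw [res_mul, res_pow, ZMod.natCast_zmod_val]
        rcases Finset.mem_insert.mp ht' with rfl | h
        · rw [hm]; field_simp; ring
        · rw [hx₀ t' h, huT t' h]; ring
  have h2 := two_le hp S w₁ w₂ h₁ h₂ hind
  obtain ⟨T, a, b, c, d, e⟩ := key (S.card + (p - 1) / 2 - 2) (by omega)
  exact ⟨T, a, b, by omega, d, e⟩

end Fermat.Agent.S14
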