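import Fermat.Agent.S14.T2
import Fermat.Agent.S14.TSel
import Fermat.Agent.S14.Gauss

/-!
# S14: auxiliary lemmas for the crossing argument.
-/

set_option autoImplicit false

namespace Fermat.Agent.S14.Cross

open IsDedekindDomain NumberField

variable {K : Type*} [Field K] [NumberField K] {p : ℕ} [Fact p.Prime] {ζ : 𝓞 K}

open Classical in
/-- cut off a function on places at `S` -/
noncomputable def off (S : Finset (Pl K)) (θ : Pl K → ZMod p) : Pl K → ZMod p :=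
  fun v => if v ∈ S then 0 else θ v

theorem off_of_mem {S : Finset (Pl K)} (θ : Pl K → ZMod p) {v : Pl K} (h : v ∈ S) :
    off S θ v = 0 := by simp [off, h]

theorem off_of_not_mem {S : Finset (Pl K)} (θ : Pl K → ZMod p) {v : Pl K} (h : v ∉ S) :
    off S θ v = θ v := by simp [off, h]

theorem intCast_eq_zero_of_dvd {n : ℤ} (h : (p : ℤ) ∣ n) : (n : ZMod p) = 0 :=
  (ZMod.intCast_zmod_eq_zero_iff_dvd n p).mpr h

theorem pair_off_eq (θ : Pl K → ZMod p) (S : Finset (Pl K)) (x : Kˣ)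
    (h : ∀ v ∈ S, (p : ℤ) ∣ ord v x) : pair p (off S θ) x = pair p θ x := by
  classical
  have h1 : θ = off S θ + (fun v => if v ∈ S then θ v else 0) := by
    funext v
    by_cases hv : v ∈ S <;> simp [off, hv]
  have h2 : pair p (fun v => if v ∈ S then θ v else 0) x = 0 := by
    rw [pair_eq_sum _ x S (fun v hv => Or.inl (by simp [hv]))]
    refine Finset.sum_eq_zero fun v hv => ?_
    rw [intCast_eq_zero_of_dvd (h v hv), mul_zero]
  conv_rhs => rw [h1, pair_add, h2, add_zero]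

theorem pair_off_single (θ : Pl K → ZMod p) (S : Finset (Pl K)) (x : Kˣ) (s : Pl K) (hs : s ∉ S)
    (h1 : ord s x = 1) (hx : ∀ v ∉ S, v ≠ s → ord v x = 0) : pair p (off S θ) x = θ s := by
  classical
  rw [pair_eq_sum _ x {s}]
  · simp [off_of_not_mem θ hs, h1]
  · intro v hv
    by_cases hvS : v ∈ S
    · exact Or.inl (off_of_mem θ hvS)
    · exact Or.inr (hx v hvS (by simpa using hv))

theorem pair_off_SUnit (θ : Pl K → ZMod p) (S T ST : Finset (Pl K))
    (hST : ∀ v, v ∈ ST ↔ v ∈ S ∨ v ∈ T) (x : Kˣ) (hx : x ∈ SUnit K ST) (hθ : ∀ t ∈ T, θ t = 0) :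
    pair p (off S θ) x = 0 := by
  classical
  rw [pair_eq_sum _ x ∅]
  · simp
  · intro v _
    by_cases hvS : v ∈ S
    · exact Or.inl (off_of_mem θ hvS)
    · by_cases hvT : v ∈ T
      · left; rw [off_of_not_mem θ hvS, hθ v hvT]
      · right
        exact (mem_SUnit_iff ST x).mp hx v (fun h => ((hST v).mp h).elim hvS hvT)

/-- natural numbers as units -/
noncomputable def nU (K : Type*) [Field K] [NumberField K] (n : ℕ) (hn : n ≠ 0) : Kˣ :=
  Units.mk0 (n : K) (Nat.cast_ne_zero.mpr hn)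

@[simp] theorem coe_nU (n : ℕ) (hn : n ≠ 0) : ((nU K n hn : Kˣ) : K) = (n : K) := rfl

theorem coe_nU' (n : ℕ) (hn : n ≠ 0) : ((nU K n hn : Kˣ) : K) = ((n : 𝓞 K) : K) := by simp

theorem gU_nU (σ : K ≃ₐ[ℚ] K) (n : ℕ) (hn : n ≠ 0) : gU σ (nU K n hn) = nU K n hn := by
  ext; simp

theorem absNorm_mem (v : Pl K) : ((Ideal.absNorm v.asIdeal : ℕ) : 𝓞 K) ∈ v.asIdeal :=
  Ideal.absNorm_mem v.asIdeal

theorem false_of_two_primes {v : Pl K} {a b : ℕ} (ha : a.Prime) (hb : b.Prime) (hab : a ≠ b)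
    (h1 : (a : 𝓞 K) ∈ v.asIdeal) (h2 : (b : 𝓞 K) ∈ v.asIdeal) : False := by
  have hco : Nat.Coprime a b := (Nat.coprime_primes ha hb).mpr hab
  have h3 : ((1 : ℤ) : 𝓞 K) ∈ v.asIdeal := by
    have hg : (a : ℤ) * Int.gcdA a b + (b : ℤ) * Int.gcdB a b = 1 := by
      have := Int.gcd_eq_gcd_ab a b
      rw [Int.gcd_natCast_natCast, hco] at this
      exact_mod_cast this.symm
    rw [← hg]
    push_cast
    exact v.asIdeal.add_mem (v.asIdeal.mul_mem_right _ h1) (v.asIdeal.mul_mem_right _ h2)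
  apply v.isPrime.ne_top
  rw [Ideal.eq_top_iff_one]
  simpa using h3

theorem tame_of_absNorm {v : Pl K} {ℓ : ℕ} (hℓ : ℓ.Prime) (hne : ℓ ≠ p)
    (hN : Ideal.absNorm v.asIdeal = ℓ) : Tame p v := by
  intro h
  exact false_of_two_primes hℓ (Fact.out : p.Prime) hne (hN ▸ absNorm_mem v) h

theorem ord_nU_eq_zero {v : Pl K} {n : ℕ} (hn : n ≠ 0) (h : (n : 𝓞 K) ∉ v.asIdeal) :
    ord v (nU K n hn) = 0 :=
  (ord_eq_zero_iff v _ (n : 𝓞 K) (coe_nU' n hn)).mpr h

/-- the finite set of places above a natural number -/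
theorem exists_finset_above (ℓ : ℕ) (hℓ : ℓ ≠ 0) :
    ∃ B : Finset (Pl K), ∀ v : Pl K, v ∈ B ↔ (ℓ : 𝓞 K) ∈ v.asIdeal := by
  have hfin := ord_support_finite (nU K ℓ hℓ)
  refine ⟨hfin.toFinset, fun v => ?_⟩
  rw [Set.Finite.mem_toFinset, Set.mem_ofPred_eq, ne_eq,
    ord_eq_zero_iff v (nU K ℓ hℓ) (ℓ : 𝓞 K) (coe_nU' ℓ hℓ), not_not]

end Fermat.Agent.S14.Cross
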