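import Fermat.Agent.S14.Basic

/-!
# S14: rational primes different from `p` are unramified in `ℚ(ζ_p)`.  Piece S14/G5.
-/

set_option autoImplicit false

namespace Fermat.Agent.S14

open IsDedekindDomain NumberField

variable {K : Type*} [Field K] [NumberField K] {p : ℕ} [Fact p.Prime]
  [IsCyclotomicExtension {p} ℚ K]

omit [IsCyclotomicExtension {p} ℚ K] [Fact p.Prime] in
theorem liesOver_of_mem (v : Pl K) (ℓ : ℕ) (hℓ : ℓ.Prime) (hmem : (ℓ : 𝓞 K) ∈ v.asIdeal) :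
    v.asIdeal.LiesOver (Ideal.span {(ℓ : ℤ)}) :=
  (Ideal.liesOver_span_iff v.isPrime.ne_top (Nat.prime_iff_prime_int.mp hℓ)).mpr
    (by simpa using hmem)

/-- a rational prime `ℓ ≠ p` has valuation one at every place above it
(Mathlib: `IsCyclotomicExtension.Rat.ramificationIdx_eq_of_not_dvd`). -/
theorem ord_prime_eq_one (v : Pl K) (ℓ : ℕ) (hℓ : ℓ.Prime) (hne : ℓ ≠ p)
    (hmem : (ℓ : 𝓞 K) ∈ v.asIdeal) (x : Kˣ) (hx : (x : K) = (ℓ : K)) : ord v x = 1 := by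
  have hp : p.Prime := Fact.out
  have : NeZero p := ⟨hp.ne_zero⟩
  have : Fact ℓ.Prime := ⟨hℓ⟩
  have := liesOver_of_mem v ℓ hℓ hmem
  have hnd : ¬ ℓ ∣ p := fun h => hne ((Nat.prime_dvd_prime_iff_eq hℓ hp).mp h)
  have h1 := IsCyclotomicExtension.Rat.ramificationIdx_eq_of_not_dvd ℓ K v.asIdeal hnd
  have hmap : Ideal.map (algebraMap ℤ (𝓞 K)) (Ideal.span {(ℓ : ℤ)}) = Ideal.span {(ℓ : 𝓞 K)} := by
    rw [Ideal.map_span, Set.image_singleton]
    simp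
  have hne0 : Ideal.span {(ℓ : 𝓞 K)} ≠ ⊥ := by
    rw [Ne, Ideal.span_singleton_eq_bot]
    exact_mod_cast hℓ.ne_zero
  rw [Ideal.IsDedekindDomain.ramificationIdx_eq_multiplicity (Ideal.span {(ℓ : ℤ)}) v.asIdeal
    (by rw [hmap]; exact hne0), hmap] at h1
  have hfin : FiniteMultiplicity v.asIdeal (Ideal.span {(ℓ : 𝓞 K)}) :=
    FiniteMultiplicity.of_prime_left v.prime hne0
  have hx' : (x : K) = ((ℓ : 𝓞 K) : K) := by rw [hx]; simp
  have e1 := (le_ord_iff v x (ℓ : 𝓞 K) hx' 1).mpr (by rwa [pow_one])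
  have e2 : ¬ ((2 : ℕ) : ℤ) ≤ ord v x := by
    rw [le_ord_iff v x (ℓ : 𝓞 K) hx' 2, ← Ideal.dvd_span_singleton]
    intro hd
    have := hfin.le_multiplicity_of_pow_dvd hd
    omega
  push_cast at e1 e2
  omega

end Fermat.Agent.S14
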