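import Fermat.Agent.S14.CrossAux
import Fermat.Agent.S14.Unram

/-!
# S14: choice of the auxiliary prime `r`.
-/

set_option autoImplicit false

namespace Fermat.Agent.S14.Cross

open IsDedekindDomain NumberField

variable {K : Type*} [Field K] [NumberField K] {p : ℕ} [Fact p.Prime]
  [IsCyclotomicExtension {p} ℚ K] {ζ : 𝓞 K}

theorem val_pos_lt {a : ZMod p} (ha : a ≠ 0) : 0 < a.val ∧ a.val < p := by
  refine ⟨Nat.pos_of_ne_zero fun h => ha ((ZMod.val_eq_zero a).mp h), ZMod.val_lt a⟩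

theorem not_dvd_val {a : ZMod p} (ha : a ≠ 0) : ¬ (p : ℤ) ∣ (a.val : ℤ) := by
  intro h
  have h1 : p ∣ a.val := by exact_mod_cast h
  have := Nat.le_of_dvd (val_pos_lt ha).1 h1
  have := (val_pos_lt ha).2
  omega

theorem exists_r (hp : p ≠ 2) (hζ : IsPrimitiveRoot ζ p)
    (s₁ s₂ : Pl K) (ℓ₁ ℓ₂ : ℕ) (hℓ₁ : ℓ₁.Prime) (hℓ₂ : ℓ₂.Prime) (hne : ℓ₁ ≠ ℓ₂)
    (hℓ₁p : ℓ₁ ≠ p) (hℓ₂p : ℓ₂ ≠ p)
    (hm₁ : (ℓ₁ : 𝓞 K) ∈ s₁.asIdeal) (hm₂ : (ℓ₂ : 𝓞 K) ∈ s₂.asIdeal)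
    (a₁ a₂ : ZMod p) (ha₁ : a₁ ≠ 0) :
    ∃ (𝔯 : Pl K) (r : ℕ), r.Prime ∧ r ≠ p ∧ r ≠ ℓ₁ ∧ r ≠ ℓ₂ ∧ Ideal.absNorm 𝔯.asIdeal = r ∧
      res p ζ 𝔯 (nU K ℓ₁ hℓ₁.ne_zero) ≠ 0 ∧
      a₁ * res p ζ 𝔯 (nU K ℓ₂ hℓ₂.ne_zero) = a₂ * res p ζ 𝔯 (nU K ℓ₁ hℓ₁.ne_zero) := by
  classical
  have hpp : p.Prime := Fact.out
  set u₁ := nU K ℓ₁ hℓ₁.ne_zero with hu₁
  set u₂ := nU K ℓ₂ hℓ₂.ne_zero with hu₂
  obtain ⟨B₁, hB₁⟩ := exists_finset_above (K := K) ℓ₁ hℓ₁.ne_zero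
  obtain ⟨B₂, hB₂⟩ := exists_finset_above (K := K) ℓ₂ hℓ₂.ne_zero
  set m : Kˣ := u₂ ^ a₁.val * u₁ ^ (-a₂).val with hm
  -- valuations
  have o11 : ord s₁ u₁ = 1 := ord_prime_eq_one s₁ ℓ₁ hℓ₁ hℓ₁p hm₁ u₁ rfl
  have o22 : ord s₂ u₂ = 1 := ord_prime_eq_one s₂ ℓ₂ hℓ₂ hℓ₂p hm₂ u₂ rfl
  have o12 : ord s₁ u₂ = 0 :=
    ord_nU_eq_zero hℓ₂.ne_zero (fun h => false_of_two_primes hℓ₁ hℓ₂ hne hm₁ h)
  have o21 : ord s₂ u₁ = 0 :=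
    ord_nU_eq_zero hℓ₁.ne_zero (fun h => false_of_two_primes hℓ₁ hℓ₂ hne h hm₂)
  have hu : u₁ ∉ Subgroup.closure (({m} : Finset Kˣ) : Set Kˣ) ⊔ pows K p := by
    intro h
    rw [Finset.coe_singleton, Subgroup.mem_sup] at h
    obtain ⟨y, hy, w, ⟨d, rfl⟩, hyw⟩ := h
    rw [Subgroup.mem_closure_singleton] at hy
    obtain ⟨k, rfl⟩ := hy
    simp only [powMonoidHom_apply] at hyw
    have e2 : ord s₂ (m ^ k * d ^ p) = k * a₁.val + p * ord s₂ d := by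
      rw [ord_mul, ord_zpow, ord_pow, hm, ord_mul, ord_pow, ord_pow, o22, o21]; ring
    have e1 : ord s₁ (m ^ k * d ^ p) = k * (-a₂).val + p * ord s₁ d := by
      rw [ord_mul, ord_zpow, ord_pow, hm, ord_mul, ord_pow, ord_pow, o12, o11]; ring
    rw [hyw, o21] at e2
    rw [hyw, o11] at e1
    have hk : (p : ℤ) ∣ k := by
      have h1 : (p : ℤ) ∣ k * a₁.val := ⟨- ord s₂ d, by linarith⟩
      rcases (Nat.prime_iff_prime_int.mp hpp).dvd_or_dvd h1 with h2 | h2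
      · exact h2
      · exact absurd h2 (not_dvd_val ha₁)
    obtain ⟨k', rfl⟩ := hk
    have h1 : (p : ℤ) ∣ 1 := ⟨k' * (-a₂).val + ord s₁ d, by rw [e1]; ring⟩
    have h2 : p ∣ 1 := by exact_mod_cast h1
    exact hpp.one_lt.ne' (Nat.dvd_one.mp h2)
  obtain ⟨𝔯, h𝔯B, htame, hus, hord, hres⟩ := DL hp hζ (B₁ ∪ B₂) {m} u₁ hu
  obtain ⟨r, σ, hr, hrp, hrmem, hσ, hfix, hdeg⟩ := exists_frob hζ 𝔯 htame
  have hr1 : (r : ZMod p) = 1 := by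
    have h := res_galPl hζ σ r hσ htame u₁ (by rw [hord]; exact dvd_zero _)
    rw [hfix, hu₁, gU_nU, ← hu₁] at h
    have h2 : ((r : ZMod p) - 1) * res p ζ 𝔯 u₁ = 0 := by linear_combination -h
    exact sub_eq_zero.mp ((mul_eq_zero.mp h2).resolve_right hres)
  refine ⟨𝔯, r, hr, hrp, ?_, ?_, hdeg hr1, hres, ?_⟩
  · rintro rfl
    exact h𝔯B (Finset.mem_union_left _ ((hB₁ 𝔯).mpr hrmem))
  · rintro rfl
    exact h𝔯B (Finset.mem_union_right _ ((hB₂ 𝔯).mpr hrmem))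
  · have h := (hus m (Finset.mem_singleton_self m)).2
    rw [hm, res_mul, res_pow, res_pow, ZMod.natCast_zmod_val, ZMod.natCast_zmod_val] at h
    linear_combination h

end Fermat.Agent.S14.Cross
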