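import Fermat.Agent.S14.KD

/-!
# S14: the density lemma (existence of primes with prescribed Kummer symbols).
-/

set_option autoImplicit false

namespace Fermat.Agent.S14

open IsDedekindDomain NumberField Filter Topology

namespace DLaux

open Dens

section Count

variable {p : ℕ} [Fact p.Prime] {ι : Type*} [Fintype ι] [DecidableEq ι]

/-- the linear form `e ↦ ∑ e_i ρ_i` -/
def phi (ρ : ι → ZMod p) : (ι → ZMod p) →+ ZMod p where
  toFun e := ∑ i, e i * ρ i
  map_zero' := by simp
  map_add' a b := by simp [add_mul, Finset.sum_add_distrib]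

theorem phi_apply (ρ e : ι → ZMod p) : phi ρ e = ∑ i, e i * ρ i := rfl

theorem phi_surjective {ρ : ι → ZMod p} (h : ρ ≠ 0) : Function.Surjective (phi ρ) := by
  classical
  obtain ⟨i0, hi0⟩ : ∃ i, ρ i ≠ 0 := by
    by_contra hh
    push Not at hh
    exact h (funext hh)
  intro c
  refine ⟨Pi.single i0 (c / ρ i0), ?_⟩
  rw [phi_apply, Finset.sum_eq_single i0]
  · rw [Pi.single_eq_same, div_mul_cancel₀ _ hi0]
  · intro j _ hj
    rw [Pi.single_eq_of_ne hj, zero_mul]
  · intro hh; exact absurd (Finset.mem_univ i0) hh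

open Classical in
theorem count_ker (ρ : ι → ZMod p) :
    p * (Finset.univ.filter (fun e : ι → ZMod p ↦ ∑ i, e i * ρ i = 0)).card
      = p ^ Fintype.card ι * (if ρ = 0 then p else 1) := by
  have hcard : Fintype.card (ι → ZMod p) = p ^ Fintype.card ι := by
    rw [Fintype.card_fun, ZMod.card]
  split_ifs with h
  · subst h
    simp only [Pi.zero_apply, mul_zero, Finset.sum_const_zero, Finset.filter_true]
    rw [Finset.card_univ, hcard, mul_comm]
  · have h1 := AddSubgroup.card_mul_index (phi ρ).ker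
    rw [AddSubgroup.index_ker, AddMonoidHom.range_eq_top.mpr (phi_surjective h)] at h1
    have h2 : Nat.card (⊤ : AddSubgroup (ZMod p)) = p := by
      rw [AddSubgroup.card_top, Nat.card_eq_fintype_card, ZMod.card]
    rw [h2, Nat.card_eq_fintype_card (α := ι → ZMod p), hcard] at h1
    have h3 : Nat.card (phi ρ).ker
        = (Finset.univ.filter (fun e : ι → ZMod p ↦ ∑ i, e i * ρ i = 0)).card := by
      rw [← Fintype.card_subtype, ← Nat.card_eq_fintype_card]
      rfl
    rw [← h3, mul_one, mul_comm]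
    exact h1

end Count

variable {K : Type*} [Field K] [NumberField K] {p : ℕ} [Fact p.Prime] {ζ : 𝓞 K}
  {ι : Type*} [Fintype ι] [DecidableEq ι]

theorem res_prod (v : Pl K) (S : Finset ι) (f : ι → Kˣ) :
    res p ζ v (∏ i ∈ S, f i) = ∑ i ∈ S, res p ζ v (f i) := by
  classical
  induction S using Finset.induction_on with
  | empty => simp [res_one]
  | insert a S ha ih => rw [Finset.prod_insert ha, Finset.sum_insert ha, res_mul, ih]

theorem ord_prod (v : Pl K) (S : Finset ι) (f : ι → Kˣ) :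
    ord v (∏ i ∈ S, f i) = ∑ i ∈ S, ord v (f i) := by
  classical
  induction S using Finset.induction_on with
  | empty => simp [ord_one]
  | insert a S ha ih => rw [Finset.prod_insert ha, Finset.sum_insert ha, ord_mul, ih]

/-- `∏ x_i ^ e_i` -/
noncomputable def xe (x : ι → Kˣ) (e : ι → ZMod p) : Kˣ := ∏ i, x i ^ (e i).val

theorem res_xe (v : Pl K) (x : ι → Kˣ) (e : ι → ZMod p) :
    res p ζ v (xe x e) = ∑ i, e i * res p ζ v (x i) := by
  unfold xe
  rw [res_prod]
  refine Finset.sum_congr rfl fun i _ ↦ ?_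
  rw [res_pow, ZMod.natCast_zmod_val]

/-- the places which are tame and at which all `x i` are units -/
def good (p : ℕ) (x : ι → Kˣ) : Set (Pl K) := {v | Tame p v ∧ ∀ i, ord v (x i) = 0}

theorem ord_xe {v : Pl K} {x : ι → Kˣ} (hv : v ∈ good p x) (e : ι → ZMod p) :
    ord v (xe x e) = 0 := by
  unfold xe
  rw [ord_prod]
  refine Finset.sum_eq_zero fun i _ ↦ ?_
  rw [ord_pow, hv.2 i, mul_zero]

theorem finite_compl_good (x : ι → Kˣ) : (good p x)ᶜ.Finite := by
  have h : (good p x)ᶜ ⊆ {v : Pl K | ¬ Tame p v} ∪ ⋃ i, {v : Pl K | ord v (x i) ≠ 0} := by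
    intro v hv
    by_cases ht : Tame p v
    · right
      by_contra hh
      apply hv
      refine ⟨ht, fun i ↦ ?_⟩
      by_contra hi
      exact hh (Set.mem_iUnion.mpr ⟨i, hi⟩)
    · left; exact ht
  exact ((finite_not_tame p).union (Set.finite_iUnion fun i ↦ ord_support_finite (x i))).subset h

/-- good places at which all symbols vanish -/
def zer (p : ℕ) (ζ : 𝓞 K) (x : ι → Kˣ) : Set (Pl K) :=
  {v | v ∈ good p x ∧ ∀ i, res p ζ v (x i) = 0}

/-- good places at which the symbol of `xe x e` vanishes -/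
def Ze (ζ : 𝓞 K) (x : ι → Kˣ) (e : ι → ZMod p) : Set (Pl K) :=
  {v | v ∈ good p x ∧ res p ζ v (xe x e) = 0}

theorem pointwise (x : ι → Kˣ) (s : ℝ) (v : Pl K) :
    (p : ℝ) * ∑ e : ι → ZMod p, (Ze ζ x e).indicator (wt s) v
      = (p : ℝ) ^ Fintype.card ι * ((good p x).indicator (wt s) v
        + ((p : ℝ) - 1) * (zer p ζ x).indicator (wt s) v) := by
  classical
  by_cases hv : v ∈ good p x
  · have h1 : ∀ e : ι → ZMod p, (Ze ζ x e).indicator (wt s) v
        = if ∑ i, e i * res p ζ v (x i) = 0 then wt s v else 0 := by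
      intro e
      rw [← res_xe]
      by_cases h : res p ζ v (xe x e) = 0
      · rw [if_pos h, Set.indicator_of_mem (show v ∈ Ze ζ x e from ⟨hv, h⟩)]
      · rw [if_neg h, Set.indicator_of_notMem (fun hh ↦ h hh.2)]
    rw [Finset.sum_congr rfl (fun e _ ↦ h1 e), Finset.sum_ite, Finset.sum_const_zero, add_zero,
      Finset.sum_const, nsmul_eq_mul, ← mul_assoc, ← Nat.cast_mul,
      count_ker (fun i ↦ res p ζ v (x i)), Set.indicator_of_mem hv]
    by_cases h0 : (fun i ↦ res p ζ v (x i)) = 0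
    · rw [if_pos h0, Set.indicator_of_mem (show v ∈ zer p ζ x from ⟨hv, fun i ↦ congrFun h0 i⟩)]
      push_cast
      ring
    · rw [if_neg h0, Set.indicator_of_notMem (fun hh ↦ h0 (funext hh.2))]
      push_cast
      ring
  · rw [Set.indicator_of_notMem hv, Set.indicator_of_notMem (fun hh ↦ hv hh.1),
      Finset.sum_eq_zero (fun e _ ↦ Set.indicator_of_notMem (fun hh ↦ hv hh.1) _)]
    ring

theorem DS_identity (x : ι → Kˣ) {s : ℝ} (hs : 1 < s) :
    (p : ℝ) * ∑ e : ι → ZMod p, DS (Ze ζ x e) s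
      = (p : ℝ) ^ Fintype.card ι * (DS (good p x) s + ((p : ℝ) - 1) * DS (zer p ζ x) s) := by
  unfold DS
  rw [← Summable.tsum_finsetSum (fun e _ ↦ summable_ind hs _), ← tsum_mul_left, ← tsum_mul_left,
    ← (summable_ind hs _).tsum_add ((summable_ind hs _).mul_left _), ← tsum_mul_left]
  exact tsum_congr fun v ↦ pointwise x s v


open Classical in
/-- the relations modulo `p`-th powers -/
noncomputable def Rel (x : ι → Kˣ) : Finset (ι → ZMod p) :=
  Finset.univ.filter (fun e ↦ xe x e ∈ pows K p)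

theorem mem_Rel (x : ι → Kˣ) (e : ι → ZMod p) : e ∈ Rel x ↔ xe x e ∈ pows K p := by
  simp [Rel]

theorem zero_mem_Rel (x : ι → Kˣ) : (0 : ι → ZMod p) ∈ Rel x := by
  rw [mem_Rel]
  have : xe x (0 : ι → ZMod p) = 1 := by simp [xe]
  rw [this]
  exact one_mem _

theorem bdd_good (x : ι → Kˣ) :
    Bdd (fun s ↦ DS (Set.univ : Set (Pl K)) s - DS (good p x) s) :=
  bdd_DS_sub (Set.subset_univ _) (by rw [← Set.compl_eq_univ_diff]; exact finite_compl_good x)

theorem Ze_of_mem (x : ι → Kˣ) (e : ι → ZMod p) (he : xe x e ∈ pows K p) :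
    Ze ζ x e = good p x := by
  ext v
  constructor
  · exact fun h ↦ h.1
  · intro h
    refine ⟨h, ?_⟩
    obtain ⟨y, hy⟩ := he
    rw [← hy, powMonoidHom_apply]
    exact res_pow_p v y

theorem xe_option (x : ι → Kˣ) (u : Kˣ) (e : Option ι → ZMod p) :
    xe (fun o : Option ι ↦ o.elim u x) e = u ^ (e none).val * xe x (fun i ↦ e (some i)) := by
  unfold xe
  rw [Fintype.prod_option]
  rfl

theorem none_eq_zero (x : ι → Kˣ) (u : Kˣ)
    (hu : u ∉ Subgroup.closure (Set.range x) ⊔ pows K p) (e : Option ι → ZMod p)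
    (he : e ∈ Rel (fun o : Option ι ↦ o.elim u x)) : e none = 0 := by
  by_contra hne
  apply hu
  set H := Subgroup.closure (Set.range x) ⊔ pows K p with hH
  rw [mem_Rel, xe_option] at he
  have hy : xe x (fun i ↦ e (some i)) ∈ H := by
    refine (le_sup_left : Subgroup.closure (Set.range x) ≤ H) ?_
    exact Subgroup.prod_mem _ fun i _ ↦
      Subgroup.pow_mem _ (Subgroup.subset_closure (Set.mem_range_self i)) _
  have hm : u ^ (e none).val ∈ H :=
    (Subgroup.mul_mem_cancel_right H hy).mp ((le_sup_right : pows K p ≤ H) he)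
  have hpw : u ^ p ∈ H := (le_sup_right : pows K p ≤ H) ⟨u, rfl⟩
  have hpp : p.Prime := Fact.out
  have hpos : 0 < (e none).val := Nat.pos_of_ne_zero fun h ↦ hne ((ZMod.val_eq_zero _).mp h)
  have hcop : Nat.Coprime p (e none).val :=
    (Nat.Prime.coprime_iff_not_dvd hpp).mpr (Nat.not_dvd_of_pos_of_lt hpos (ZMod.val_lt _))
  have hb := Nat.gcd_eq_gcd_ab p (e none).val
  rw [hcop.gcd_eq_one] at hb
  have : u = (u ^ p) ^ (Nat.gcdA p (e none).val) * (u ^ (e none).val) ^ (Nat.gcdB p (e none).val) := by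
    rw [← zpow_natCast, ← zpow_natCast, ← zpow_mul, ← zpow_mul, ← zpow_add, ← hb]
    simp
  rw [this]
  exact H.mul_mem (H.zpow_mem hpw _) (H.zpow_mem hm _)

theorem card_Rel_option (x : ι → Kˣ) (u : Kˣ)
    (hu : u ∉ Subgroup.closure (Set.range x) ⊔ pows K p) :
    (Rel (p := p) (fun o : Option ι ↦ o.elim u x)).card = (Rel (p := p) x).card := by
  refine Finset.card_nbij' (fun e i ↦ e (some i)) (fun e o ↦ o.elim 0 e) ?_ ?_ ?_ ?_
  · intro e he
    have h0 := none_eq_zero x u hu e he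
    rw [Finset.mem_coe, mem_Rel, xe_option, h0] at he
    rw [Finset.mem_coe, mem_Rel]
    simpa using he
  · intro e he
    rw [Finset.mem_coe, mem_Rel] at he
    rw [Finset.mem_coe, mem_Rel, xe_option]
    simpa using he
  · intro e he
    have h0 := none_eq_zero x u hu e he
    funext o
    cases o with
    | none => exact h0.symm
    | some i => rfl
  · intro e _
    rfl

section Density

variable [IsCyclotomicExtension {p} ℚ K]

theorem bdd_Ze_of_not_mem (hp : p ≠ 2) (hζ : IsPrimitiveRoot ζ p) (x : ι → Kˣ) (e : ι → ZMod p)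
    (he : xe x e ∉ pows K p) :
    Bdd (fun s ↦ (p : ℝ) * DS (Ze ζ x e) s - DS (Set.univ : Set (Pl K)) s) := by
  obtain ⟨C, hC⟩ := KD hp hζ (xe x e) he
  have h1 : Bdd (fun s ↦ (p : ℝ) * DS (splitSet p ζ (xe x e)) s
      - DS (Set.univ : Set (Pl K)) s) := by
    rw [bdd_iff]
    refine ⟨C, ?_⟩
    filter_upwards [hC] with s hs
    rw [DS_univ, ← DS_subtype]
    exact hs
  have hsub : Ze ζ x e ⊆ splitSet p ζ (xe x e) := fun v hv ↦ ⟨hv.1.1, ord_xe hv.1 e, hv.2⟩
  have hfin : (splitSet p ζ (xe x e) \ Ze ζ x e).Finite :=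
    (finite_compl_good (p := p) x).subset fun v hv hg ↦ hv.2 ⟨hg, hv.1.2.2⟩
  have h2 := (bdd_DS_sub hsub hfin).const_mul p
  exact (h1.sub h2).congr' fun s _ ↦ by ring

/-- the density of the places at which all symbols vanish -/
theorem density (hp : p ≠ 2) (hζ : IsPrimitiveRoot ζ p) (x : ι → Kˣ) :
    Bdd (fun s ↦ (p : ℝ) ^ Fintype.card ι * DS (zer p ζ x) s
      - ((Rel (p := p) x).card : ℝ) * DS (Set.univ : Set (Pl K)) s) := by
  classical
  have h1 : ∀ e ∈ (Finset.univ : Finset (ι → ZMod p)),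
      Bdd (fun s ↦ (p : ℝ) * DS (Ze ζ x e) s
        - (1 + ((p : ℝ) - 1) * (if e ∈ Rel x then 1 else 0)) * DS (Set.univ : Set (Pl K)) s) := by
    intro e _
    by_cases he : xe x e ∈ pows K p
    · have hm : e ∈ Rel x := (mem_Rel x e).mpr he
      rw [Ze_of_mem x e he]
      simp only [if_pos hm]
      exact ((bdd_good (p := p) x).const_mul (-(p : ℝ))).congr' fun s _ ↦ by ring
    · have hm : e ∉ Rel x := fun h ↦ he ((mem_Rel x e).mp h)
      simp only [if_neg hm]
      exact (bdd_Ze_of_not_mem hp hζ x e he).congr' fun s _ ↦ by ring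
  have h2 := Bdd.sum _ h1
  have hsum : ∑ e : ι → ZMod p, (1 + ((p : ℝ) - 1) * (if e ∈ Rel x then 1 else 0))
      = (p : ℝ) ^ Fintype.card ι + ((p : ℝ) - 1) * ((Rel (p := p) x).card : ℝ) := by
    rw [Finset.sum_add_distrib, ← Finset.mul_sum, Finset.sum_boole, Finset.sum_const,
      Finset.card_univ, Fintype.card_fun, ZMod.card, Finset.filter_mem_eq_inter,
      Finset.univ_inter]
    simp
  have h3 : Bdd (fun s ↦ (p : ℝ) ^ Fintype.card ι
      * (DS (good p x) s + ((p : ℝ) - 1) * DS (zer p ζ x) s)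
      - ((p : ℝ) ^ Fintype.card ι + ((p : ℝ) - 1) * ((Rel (p := p) x).card : ℝ))
        * DS (Set.univ : Set (Pl K)) s) :=
    h2.congr' fun s hs ↦ by
      rw [Finset.sum_sub_distrib, ← Finset.mul_sum, DS_identity x hs, ← Finset.sum_mul, hsum]
  have h4 := (bdd_good (p := p) x).const_mul ((p : ℝ) ^ Fintype.card ι)
  have h5 : Bdd (fun s ↦ ((p : ℝ) - 1) * ((p : ℝ) ^ Fintype.card ι * DS (zer p ζ x) s
      - ((Rel (p := p) x).card : ℝ) * DS (Set.univ : Set (Pl K)) s)) :=
    (h3.add h4).congr' fun s _ ↦ by ring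
  have hp1 : (p : ℝ) - 1 ≠ 0 := by
    have : (1 : ℝ) < p := by exact_mod_cast (Fact.out : p.Prime).one_lt
    linarith
  exact Bdd.of_const_mul hp1 h5

end Density

end DLaux

variable {K : Type*} [Field K] [NumberField K] {p : ℕ} [Fact p.Prime]
  [IsCyclotomicExtension {p} ℚ K] {ζ : 𝓞 K}

open DLaux Dens in
/-- **Density lemma**: if `u` is not in the subgroup generated by `us` and the `p`-th powers, there
is a tame place `t` outside `B` at which all elements of `us` are `p`-th power residues and `u`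
is not. -/
theorem DL (hp : p ≠ 2) (hζ : IsPrimitiveRoot ζ p) (B : Finset (Pl K)) (us : Finset Kˣ) (u : Kˣ)
    (hu : u ∉ Subgroup.closure (us : Set Kˣ) ⊔ pows K p) :
    ∃ t : Pl K, t ∉ B ∧ Tame p t ∧ (∀ x ∈ us, ord t x = 0 ∧ res p ζ t x = 0) ∧
      ord t u = 0 ∧ res p ζ t u ≠ 0 := by
  classical
  by_contra hcon
  push Not at hcon
  let x : us → Kˣ := fun i ↦ i.1
  have hrange : Set.range x = (us : Set Kˣ) := Subtype.range_coe
  have hu' : u ∉ Subgroup.closure (Set.range x) ⊔ pows K p := by rw [hrange]; exact hu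
  have hd := density hp hζ x
  have hd' := density hp hζ (fun o : Option us ↦ o.elim u x)
  rw [card_Rel_option x u hu'] at hd'
  have hsub : zer p ζ (fun o : Option us ↦ o.elim u x) ⊆ zer p ζ x :=
    fun v hv ↦ ⟨⟨hv.1.1, fun i ↦ hv.1.2 (some i)⟩, fun i ↦ hv.2 (some i)⟩
  have hfin : (zer p ζ x \ zer p ζ (fun o : Option us ↦ o.elim u x)).Finite := by
    refine ((B.finite_toSet).union (ord_support_finite u)).subset ?_
    intro v hv
    by_contra hh
    rw [Set.mem_union, not_or] at hh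
    apply hv.2
    have hu0 : ord v u = 0 := by
      by_contra h0
      exact hh.2 h0
    have hr := hcon v hh.1 hv.1.1.1 (fun y hy ↦ ⟨hv.1.1.2 ⟨y, hy⟩, hv.1.2 ⟨y, hy⟩⟩) hu0
    refine ⟨⟨hv.1.1.1, ?_⟩, ?_⟩
    · rintro (_ | i)
      · exact hu0
      · exact hv.1.1.2 i
    · rintro (_ | i)
      · exact hr
      · exact hv.1.2 i
  have hc := bdd_DS_sub hsub hfin
  rw [Fintype.card_option] at hd'
  have hp1 : (p : ℝ) - 1 ≠ 0 := by
    have : (1 : ℝ) < p := by exact_mod_cast (Fact.out : p.Prime).one_lt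
    linarith
  have hr0 : ((Rel (p := p) x).card : ℝ) ≠ 0 := by
    have : 0 < (Rel (p := p) x).card := Finset.card_pos.mpr ⟨0, zero_mem_Rel x⟩
    exact_mod_cast this.ne'
  have hfinal : Bdd (fun s ↦ (((p : ℝ) - 1) * ((Rel (p := p) x).card : ℝ))
      * DS (Set.univ : Set (Pl K)) s) :=
    ((hd'.sub (hd.const_mul p)).add (hc.const_mul ((p : ℝ) ^ (Fintype.card us + 1)))).congr'
      fun s _ ↦ by ring
  exact not_bdd_DS_univ (Bdd.of_const_mul (mul_ne_zero hp1 hr0) hfinal)

end Fermat.Agent.S14
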