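import Mathlib

set_option autoImplicit false

namespace Fermat.Agent.S14

open IsDedekindDomain NumberField

variable (F : Type*) [Field F] [NumberField F]

/-- the group of `S`-units of a number field, `S` a finite set of primes -/
noncomputable abbrev SUnit (S : Finset (HeightOneSpectrum (𝓞 F))) : Subgroup Fˣ :=
  (S : Set (HeightOneSpectrum (𝓞 F))).unit F

namespace SUnits

variable (S : Finset (HeightOneSpectrum (𝓞 F)))

/-- the orders at the primes in `S` -/
noncomputable def ordHom : Additive (SUnit F S) →ₗ[ℤ] (S → ℤ) :=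
  AddMonoidHom.toIntLinearMap
    { toFun := fun x v => Multiplicative.toAdd (v.1.valuationOfNeZero ((Additive.toMul x : SUnit F S) : Fˣ))
      map_zero' := by
        funext v
        simp
      map_add' := fun x y => by
        funext v
        simp }

theorem ordHom_apply (x : SUnit F S) (v : S) :
    ordHom F S (Additive.ofMul x) v = Multiplicative.toAdd (v.1.valuationOfNeZero (x : Fˣ)) := rfl

/-- the global units as `S`-units -/
noncomputable def unitHom : Additive (𝓞 F)ˣ →ₗ[ℤ] Additive (SUnit F S) :=
  AddMonoidHom.toIntLinearMap (MonoidHom.toAdditive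
    ((Units.map (algebraMap (𝓞 F) F : 𝓞 F →* F)).codRestrict (SUnit F S) (fun x v _ => by
      rw [← HeightOneSpectrum.valuationOfNeZero_eq, HeightOneSpectrum.valuation_of_unit_eq]
      rfl)))

theorem unitHom_apply (x : (𝓞 F)ˣ) :
    (((Additive.toMul (unitHom F S (Additive.ofMul x)) : SUnit F S) : Fˣ) : F) =
      algebraMap (𝓞 F) F x := rfl

theorem unitHom_injective : Function.Injective (unitHom F S) := by
  intro x y h
  have h1 := unitHom_apply F S (Additive.toMul x)
  have h2 := unitHom_apply F S (Additive.toMul y)
  simp only [ofMul_toMul] at h1 h2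
  rw [h, h2] at h1
  have h3 := (IsFractionRing.injective (𝓞 F) F) h1
  exact Additive.toMul.injective (Units.ext h3.symm)

theorem range_unitHom : LinearMap.range (unitHom F S) = LinearMap.ker (ordHom F S) := by
  apply le_antisymm
  · rintro _ ⟨x, rfl⟩
    rw [LinearMap.mem_ker]
    funext v
    show Multiplicative.toAdd (v.1.valuationOfNeZero
      (Units.map (algebraMap (𝓞 F) F : 𝓞 F →* F) (Additive.toMul x))) = 0
    rw [HeightOneSpectrum.valuation_of_unit_eq]
    rfl
  · intro x hx
    rw [LinearMap.mem_ker] at hx
    have hval : ∀ v : HeightOneSpectrum (𝓞 F),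
        v.valuation F (((Additive.toMul x : SUnit F S) : Fˣ) : F) = 1 := by
      intro v
      by_cases hv : v ∈ S
      · have h0 := congrFun hx ⟨v, hv⟩
        rw [← HeightOneSpectrum.valuationOfNeZero_eq]
        have h1 : v.valuationOfNeZero ((Additive.toMul x : SUnit F S) : Fˣ) = 1 :=
          Multiplicative.toAdd.injective h0
        rw [h1]
        rfl
      · exact (Additive.toMul x).2 v (by simpa using hv)
    obtain ⟨a, ha⟩ := HeightOneSpectrum.mem_integers_of_valuation_le_one F _
      (fun v => (hval v).le)
    obtain ⟨b, hb⟩ := HeightOneSpectrum.mem_integers_of_valuation_le_one F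
      ((((Additive.toMul x : SUnit F S) : Fˣ)⁻¹ : Fˣ) : F) (fun v => by
        rw [Units.val_inv_eq_inv_val, map_inv₀, hval v, inv_one])
    have hab : a * b = 1 := by
      apply IsFractionRing.injective (𝓞 F) F
      rw [map_mul, ha, hb, map_one]
      simp
    refine ⟨Additive.ofMul ⟨a, b, hab, by rw [mul_comm]; exact hab⟩, ?_⟩
    apply Additive.toMul.injective
    apply Subtype.ext
    apply Units.ext
    exact ha

/-- for a prime `w` there is an integer whose only prime divisor is `w` -/
theorem exists_generator (w : HeightOneSpectrum (𝓞 F)) : ∃ a : 𝓞 F, a ≠ 0 ∧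
    w.intValuation a < 1 ∧ ∀ v : HeightOneSpectrum (𝓞 F), v ≠ w → v.intValuation a = 1 := by
  classical
  have hw : w.asIdeal ∈ nonZeroDivisors (Ideal (𝓞 F)) := mem_nonZeroDivisors_of_ne_zero w.ne_bot
  have h1 : ClassGroup.mk0 ⟨w.asIdeal, hw⟩ ^ (classNumber F) = 1 := pow_card_eq_one
  rw [← map_pow] at h1
  have h2 : (w.asIdeal ^ classNumber F).IsPrincipal := by
    have := (ClassGroup.mk0_eq_one_iff (I := w.asIdeal ^ classNumber F)
      (pow_mem hw _)).mp (by rw [← h1]; rfl)
    exact this
  obtain ⟨a, ha⟩ := h2
  have ha' : w.asIdeal ^ classNumber F = Ideal.span {a} := ha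
  have hpos : 0 < classNumber F := Fintype.card_pos
  refine ⟨a, ?_, ?_, ?_⟩
  · rintro rfl
    rw [Set.singleton_zero, Ideal.span_zero] at ha'
    exact w.ne_bot (pow_eq_zero_iff hpos.ne' |>.mp ha')
  · rw [HeightOneSpectrum.intValuation_lt_one_iff_dvd, ← ha']
    exact dvd_pow_self _ hpos.ne'
  · intro v hv
    refine le_antisymm (v.intValuation_le_one a) (not_lt.mp ?_)
    rw [HeightOneSpectrum.intValuation_lt_one_iff_dvd, ← ha']
    intro hdvd
    have h3 : v.asIdeal ∣ w.asIdeal := v.prime.dvd_of_dvd_pow hdvd
    have h4 : w.asIdeal ≤ v.asIdeal := Ideal.le_of_dvd h3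
    have h5 : w.asIdeal = v.asIdeal := w.isMaximal.eq_of_le v.isPrime.ne_top h4
    exact hv (HeightOneSpectrum.ext h5.symm)

/-- an `S`-unit with non zero order exactly at `w ∈ S` -/
theorem exists_sunit [DecidableEq S] (w : S) : ∃ (x : Additive (SUnit F S)) (n : ℤ), n ≠ 0 ∧
    ordHom F S x = Pi.single w n := by
  obtain ⟨a, ha0, haw, hav⟩ := exists_generator F w.1
  have ha0' : algebraMap (𝓞 F) F a ≠ 0 := by
    rw [Ne, map_eq_zero_iff _ (IsFractionRing.injective (𝓞 F) F)]
    exact ha0
  let u : Fˣ := Units.mk0 _ ha0'
  have hu : u ∈ SUnit F S := fun v hv => by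
    show v.valuation F (algebraMap (𝓞 F) F a) = 1
    rw [HeightOneSpectrum.valuation_of_algebraMap]
    apply hav
    rintro rfl
    exact hv w.2
  refine ⟨Additive.ofMul ⟨u, hu⟩, Multiplicative.toAdd (w.1.valuationOfNeZero u), ?_, ?_⟩
  · intro h0
    have h1 : w.1.valuationOfNeZero u = 1 := Multiplicative.toAdd.injective h0
    have h2 := HeightOneSpectrum.valuationOfNeZero_eq w.1 u
    rw [h1] at h2
    have h3 : w.1.valuation F (algebraMap (𝓞 F) F a) = 1 := h2.symm
    rw [HeightOneSpectrum.valuation_of_algebraMap] at h3
    exact haw.ne h3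
  · funext v
    rw [ordHom_apply]
    by_cases hv : v = w
    · subst hv
      rw [Pi.single_eq_same]
    · rw [Pi.single_eq_of_ne hv]
      have h1 : v.1.valuationOfNeZero u = 1 := by
        apply WithZero.coe_injective
        rw [HeightOneSpectrum.valuationOfNeZero_eq]
        show v.1.valuation F (algebraMap (𝓞 F) F a) = 1
        rw [HeightOneSpectrum.valuation_of_algebraMap]
        exact hav _ fun h => hv (Subtype.ext h)
      rw [h1]
      rfl

theorem finrank_range_ordHom : Module.finrank ℤ (LinearMap.range (ordHom F S)) = S.card := by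
  classical
  apply le_antisymm
  · have := Submodule.finrank_le (LinearMap.range (ordHom F S))
    simpa using this
  · choose x n hn hx using exists_sunit F S
    let b : S → LinearMap.range (ordHom F S) := fun w => ⟨ordHom F S (x w), LinearMap.mem_range_self _ _⟩
    have hb : LinearIndependent ℤ b := by
      apply LinearIndependent.of_comp (LinearMap.range (ordHom F S)).subtype
      rw [Fintype.linearIndependent_iff]
      intro g hg w
      have h1 := congrFun hg w
      simp only [Function.comp_apply, Submodule.subtype_apply, b, hx, Finset.sum_apply,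
        Pi.smul_apply, Pi.single_apply, smul_eq_mul, mul_ite, mul_zero, Pi.zero_apply,
        Finset.sum_ite_eq, Finset.mem_univ, if_true] at h1
      exact (mul_eq_zero.mp h1).resolve_right (hn w)
    have := hb.fintype_card_le_finrank
    simpa using this

end SUnits

open SUnits

instance sunit_finite (S : Finset (HeightOneSpectrum (𝓞 F))) :
    Module.Finite ℤ (Additive (SUnit F S)) := by
  rw [Module.finite_def]
  refine Submodule.fg_of_fg_map_of_fg_inf_ker (ordHom F S) ?_ ?_
  · exact IsNoetherian.noetherian _
  · rw [inf_of_le_right le_top, ← range_unitHom, LinearMap.range_eq_map]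
    exact (Module.finite_def.mp inferInstance).map _

/-- Dirichlet `S`-unit theorem (rank). -/
theorem sunit_finrank (S : Finset (HeightOneSpectrum (𝓞 F))) :
    Module.finrank ℤ (Additive (SUnit F S)) = NumberField.Units.rank F + S.card := by
  have h1 := Submodule.finrank_quotient_add_finrank (LinearMap.ker (ordHom F S))
  rw [(ordHom F S).quotKerEquivRange.finrank_eq, finrank_range_ordHom, ← range_unitHom,
    LinearMap.finrank_range_of_inj (unitHom_injective F S), NumberField.Units.finrank_eq] at h1
  omega

end Fermat.Agent.S14
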