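import Mathlib
import Fermat.Agent.S14.SUnits

/-!
# S14: basic definitions (places, additive valuations, power residue symbols)

`K` is a number field, `p` a prime, `ζ : 𝓞 K` a primitive `p`-th root of unity
(the hypothesis `hζ : IsPrimitiveRoot ζ p` is only passed to lemmas).
-/

set_option autoImplicit false

namespace Fermat.Agent.S14

open IsDedekindDomain NumberField

/-- finite places -/
abbrev Pl (K : Type*) [Field K] [NumberField K] := HeightOneSpectrum (𝓞 K)

section General

variable {K : Type*} [Field K] [NumberField K]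

/-- the additive `v`-adic valuation on `Kˣ` -/
noncomputable def ord (v : Pl K) (x : Kˣ) : ℤ := - Multiplicative.toAdd (v.valuationOfNeZero x)

/-- `p`-th powers -/
abbrev pows (K : Type*) [Field K] (p : ℕ) : Subgroup Kˣ := (powMonoidHom p : Kˣ →* Kˣ).range

/-- `S` generates the class group: every divisor is principal away from `S`. -/
def Gen (S : Finset (Pl K)) : Prop := ∀ m : Pl K →₀ ℤ, ∃ c : Kˣ, ∀ v ∉ S, ord v c = m v

/-- higher unit groups `{x | v(x) = 0, v(x - 1) ≥ n}` -/
def Ulev (v : Pl K) (n : ℕ) : Subgroup Kˣ where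
  carrier := {x | v.valuation K (x : K) = 1 ∧ v.valuation K ((x : K) - 1) ≤ WithZero.exp (-(n : ℤ))}
  one_mem' := by simp
  mul_mem' := by
    rintro a b ⟨ha, ha'⟩ ⟨hb, hb'⟩
    refine ⟨by simp [ha, hb], ?_⟩
    have : ((a * b : Kˣ) : K) - 1 = (a : K) * ((b : K) - 1) + ((a : K) - 1) := by push_cast; ring
    rw [this]
    refine (Valuation.map_add _ _ _).trans (max_le ?_ ha')
    rw [map_mul, ha, one_mul]; exact hb'
  inv_mem' := by
    rintro a ⟨ha, ha'⟩
    refine ⟨by simp [ha], ?_⟩
    have : ((a⁻¹ : Kˣ) : K) - 1 = - ((a⁻¹ : Kˣ) : K) * ((a : K) - 1) := by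
      have := a.ne_zero
      push_cast; field_simp; ring
    rw [this, map_mul, Valuation.map_neg]
    simpa [ha] using ha'

/-- action of the Galois group on units -/
noncomputable def gU (σ : K ≃ₐ[ℚ] K) : Kˣ →* Kˣ := Units.map (σ : K →* K)

@[simp] theorem coe_gU (σ : K ≃ₐ[ℚ] K) (x : Kˣ) : ((gU σ x : Kˣ) : K) = σ x := rfl

/-- action of the Galois group on places: `x ∈ σ v ↔ σ⁻¹ x ∈ v` -/
noncomputable def galPl (σ : K ≃ₐ[ℚ] K) (v : Pl K) : Pl K where
  asIdeal := v.asIdeal.comap (RingOfIntegers.mapRingEquiv (σ.symm : K ≃+* K))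
  isPrime := Ideal.comap_isPrime _ _
  ne_bot := by
    intro h
    apply v.ne_bot
    rw [eq_bot_iff]
    intro x hx
    have : (RingOfIntegers.mapRingEquiv (σ.symm : K ≃+* K)).symm x ∈
        v.asIdeal.comap (RingOfIntegers.mapRingEquiv (σ.symm : K ≃+* K)) := by
      rw [Ideal.mem_comap, RingEquiv.apply_symm_apply]; exact hx
    rw [h, Ideal.mem_bot] at this
    rw [Ideal.mem_bot]
    simpa using this

end General

section Residue

variable {K : Type*} [Field K] [NumberField K] (p : ℕ) (ζ : 𝓞 K)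

/-- `v` does not divide `p` -/
def Tame (v : Pl K) : Prop := (p : 𝓞 K) ∉ v.asIdeal

/-- specification of a `p`-th power residue symbol at `v` (written additively):
`a ^ ((Nv - 1)/p) ≡ ζ ^ ρ(a) mod v` for `a ∈ 𝓞 K`, `a ∉ v`. -/
def ResSpec (v : Pl K) (ρ : Kˣ →* Multiplicative (ZMod p)) : Prop :=
  ∀ (x : Kˣ) (a : 𝓞 K), (x : K) = a → a ∉ v.asIdeal →
    a ^ ((Ideal.absNorm v.asIdeal - 1) / p) - ζ ^ (Multiplicative.toAdd (ρ x)).val ∈ v.asIdeal

open Classical in
/-- the (additive) `p`-th power residue symbol at `v`, extended to a homomorphism on all of `Kˣ`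
(the extension depends on a choice; on elements with `p ∣ ord v x` it is canonical). -/
noncomputable def res (v : Pl K) (x : Kˣ) : ZMod p :=
  if h : ∃ ρ : Kˣ →* Multiplicative (ZMod p), ResSpec p ζ v ρ then
    Multiplicative.toAdd (h.choose x) else 0

theorem res_mul (v : Pl K) (x y : Kˣ) : res p ζ v (x * y) = res p ζ v x + res p ζ v y := by
  unfold res
  split_ifs with h
  · simp
  · simp

theorem res_one (v : Pl K) : res p ζ v 1 = 0 := by
  unfold res
  split_ifs with h
  · simp
  · simp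

/-- local `p`-th powers at a tame place -/
def tamePow (v : Pl K) : Subgroup Kˣ where
  carrier := {x | (p : ℤ) ∣ ord v x ∧ res p ζ v x = 0}
  one_mem' := by simp [ord, res_one]
  mul_mem' := by
    rintro a b ⟨ha, ha'⟩ ⟨hb, hb'⟩
    refine ⟨?_, by rw [res_mul, ha', hb', add_zero]⟩
    have : ord v (a * b) = ord v a + ord v b := by simp [ord]; ring
    rw [this]; exact dvd_add ha hb
  inv_mem' := by
    rintro a ⟨ha, ha'⟩
    have h1 : ord v a⁻¹ = - ord v a := by simp [ord]
    have h2 : res p ζ v a⁻¹ + res p ζ v a = 0 := by rw [← res_mul, inv_mul_cancel, res_one]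
    refine ⟨by rw [h1]; exact (dvd_neg).mpr ha, ?_⟩
    rw [ha', add_zero] at h2; exact h2

/-- local `p`-th powers at the wild place of `ℚ(ζ_p)`: `Kˣᵖ · U^(p+1)` -/
def wildPow (v : Pl K) : Subgroup Kˣ := pows K p ⊔ Ulev v (p + 1)

/-- primary elements at the wild place of `ℚ(ζ_p)`: `Kˣᵖ · U^(p)` -/
def primaryAt (v : Pl K) : Subgroup Kˣ := pows K p ⊔ Ulev v p

open Classical in
/-- local `p`-th powers at `v` -/
noncomputable def locPow (v : Pl K) : Subgroup Kˣ :=
  if Tame p v then tamePow p ζ v else wildPow p v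

/-- elements which are local `p`-th powers at all places of `S` -/
noncomputable def locPowS (S : Finset (Pl K)) : Subgroup Kˣ := ⨅ v ∈ S, locPow p ζ v

/-- the pairing of a function on places with a principal divisor -/
noncomputable def pair (φ : Pl K → ZMod p) (x : Kˣ) : ZMod p := ∑ᶠ v, φ v * (ord v x : ZMod p)

/-- the pairing of a function on places with the residue symbols -/
noncomputable def rpair (c : Pl K → ZMod p) (x : Kˣ) : ZMod p := ∑ᶠ v, c v * res p ζ v x

/-- The element produced from a non-split extension. -/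
structure Bad (α : Kˣ) : Prop where
  not_pow : α ∉ pows K p
  ord_dvd : ∀ v : Pl K, (p : ℤ) ∣ ord v α
  wild : ∀ v : Pl K, ¬ Tame p v → α ∈ wildPow p v
  eigen : ∀ (σ : K ≃ₐ[ℚ] K) (k : ℕ), σ (ζ : K) = (ζ : K) ^ k →
    ∃ c : Kˣ, gU σ α = α ^ (k ^ 2) * c ^ p

end Residue

end Fermat.Agent.S14
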