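import Fermat.Agent.S14.Basic
import Fermat.Agent.S14.Analytic

/-!
# S14: partial Dirichlet series over sets of places, modulo bounded functions.
-/

set_option autoImplicit false

namespace Fermat.Agent.S14

open IsDedekindDomain NumberField Filter Topology Asymptotics

namespace Dens

variable {K : Type*} [Field K] [NumberField K]

/-- the weight `Nv^{-s}` -/
noncomputable def wt (s : ℝ) (v : Pl K) : ℝ := (Ideal.absNorm v.asIdeal : ℝ) ^ (-s)

/-- the partial Dirichlet series over a set of places -/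
noncomputable def DS (A : Set (Pl K)) (s : ℝ) : ℝ := ∑' v, A.indicator (wt s) v

/-- bounded as `s → 1+` -/
def Bdd (f : ℝ → ℝ) : Prop := f =O[𝓝[>] (1 : ℝ)] (fun _ ↦ (1 : ℝ))

theorem bdd_iff (f : ℝ → ℝ) : Bdd f ↔ ∃ C : ℝ, ∀ᶠ s in 𝓝[>] (1 : ℝ), |f s| ≤ C := by
  unfold Bdd
  rw [isBigO_iff]
  simp

theorem Bdd.add {f g : ℝ → ℝ} (hf : Bdd f) (hg : Bdd g) : Bdd (fun s ↦ f s + g s) :=
  IsBigO.add hf hg

theorem Bdd.sub {f g : ℝ → ℝ} (hf : Bdd f) (hg : Bdd g) : Bdd (fun s ↦ f s - g s) :=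
  IsBigO.sub hf hg

theorem Bdd.neg {f : ℝ → ℝ} (hf : Bdd f) : Bdd (fun s ↦ - f s) :=
  IsBigO.neg_left hf

theorem Bdd.const_mul {f : ℝ → ℝ} (hf : Bdd f) (c : ℝ) : Bdd (fun s ↦ c * f s) :=
  IsBigO.const_mul_left hf c

theorem Bdd.sum {ι : Type*} {f : ι → ℝ → ℝ} (S : Finset ι) (hf : ∀ i ∈ S, Bdd (f i)) :
    Bdd (fun s ↦ ∑ i ∈ S, f i s) := by
  have h := IsBigO.sum (s := S) (A := f) (g := fun _ ↦ (1 : ℝ)) (l := 𝓝[>] (1 : ℝ)) hf
  have e : (fun s ↦ ∑ i ∈ S, f i s) = ∑ i ∈ S, f i := by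
    funext s
    rw [Finset.sum_apply]
  unfold Bdd
  rw [e]
  exact h

theorem Bdd.congr' {f g : ℝ → ℝ} (hf : Bdd f) (h : ∀ s : ℝ, 1 < s → f s = g s) : Bdd g := by
  refine IsBigO.congr' hf ?_ EventuallyEq.rfl
  filter_upwards [self_mem_nhdsWithin] with s hs using h s hs

theorem Bdd.of_const_mul {f : ℝ → ℝ} {c : ℝ} (hc : c ≠ 0) (hf : Bdd (fun s ↦ c * f s)) :
    Bdd f := by
  have := hf.const_mul c⁻¹
  refine this.congr' fun s _ ↦ ?_
  rw [← mul_assoc, inv_mul_cancel₀ hc, one_mul]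

theorem bdd_of_bounds {f : ℝ → ℝ} (C : ℝ) (h : ∀ s : ℝ, 1 < s → |f s| ≤ C) : Bdd f := by
  rw [bdd_iff]
  refine ⟨C, ?_⟩
  filter_upwards [self_mem_nhdsWithin] with s hs using h s hs

theorem wt_nonneg (s : ℝ) (v : Pl K) : 0 ≤ wt s v := by
  unfold wt; positivity

theorem wt_le_one {s : ℝ} (hs : 1 < s) (v : Pl K) : wt s v ≤ 1 := by
  have := Analytic.nrm_le_half K hs v
  rw [Analytic.nrm_apply] at this
  unfold wt
  linarith

theorem summable_wt {s : ℝ} (hs : 1 < s) : Summable (wt s : Pl K → ℝ) :=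
  summable_primeNorm K hs

theorem summable_ind {s : ℝ} (hs : 1 < s) (A : Set (Pl K)) : Summable (A.indicator (wt s)) :=
  (summable_wt hs).indicator A

theorem DS_subtype (A : Set (Pl K)) (s : ℝ) :
    ∑' v : A, (Ideal.absNorm v.1.asIdeal : ℝ) ^ (-s) = DS A s :=
  tsum_subtype A (wt s)

theorem DS_univ (s : ℝ) :
    DS (Set.univ : Set (Pl K)) s = ∑' v : Pl K, (Ideal.absNorm v.asIdeal : ℝ) ^ (-s) := by
  unfold DS
  rw [Set.indicator_univ]
  rfl

theorem DS_nonneg (A : Set (Pl K)) (s : ℝ) : 0 ≤ DS A s :=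
  tsum_nonneg fun v ↦ Set.indicator_nonneg (fun v _ ↦ wt_nonneg s v) v

theorem DS_mono {s : ℝ} (hs : 1 < s) {A B : Set (Pl K)} (h : A ⊆ B) : DS A s ≤ DS B s :=
  (summable_ind hs A).tsum_le_tsum
    (fun v ↦ Set.indicator_le_indicator_of_subset h (fun v ↦ wt_nonneg s v) v) (summable_ind hs B)

theorem DS_diff {s : ℝ} (hs : 1 < s) {A B : Set (Pl K)} (h : A ⊆ B) :
    DS (B \ A) s = DS B s - DS A s := by
  unfold DS
  rw [← (summable_ind hs B).tsum_sub (summable_ind hs A)]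
  congr 1
  funext v
  by_cases hB : v ∈ B
  · by_cases hA : v ∈ A
    · rw [Set.indicator_of_notMem (fun hh ↦ hh.2 hA), Set.indicator_of_mem hB,
        Set.indicator_of_mem hA, sub_self]
    · rw [Set.indicator_of_mem (Set.mem_diff_of_mem hB hA), Set.indicator_of_mem hB,
        Set.indicator_of_notMem hA, sub_zero]
  · rw [Set.indicator_of_notMem (fun hh ↦ hB hh.1), Set.indicator_of_notMem hB,
      Set.indicator_of_notMem (fun hh ↦ hB (h hh)), sub_zero]

theorem DS_finite_le {s : ℝ} (hs : 1 < s) {A : Set (Pl K)} (hA : A.Finite) :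
    DS A s ≤ hA.toFinset.card := by
  classical
  unfold DS
  rw [tsum_eq_sum (s := hA.toFinset)]
  · calc ∑ v ∈ hA.toFinset, A.indicator (wt s) v ≤ ∑ v ∈ hA.toFinset, (1 : ℝ) := by
          refine Finset.sum_le_sum fun v _ ↦ ?_
          exact Set.indicator_le' (fun v _ ↦ wt_le_one hs v) (fun _ _ ↦ zero_le_one) v
      _ = hA.toFinset.card := by simp
  · intro v hv
    rw [Set.Finite.mem_toFinset] at hv
    exact Set.indicator_of_notMem hv _

theorem bdd_DS_finite {A : Set (Pl K)} (hA : A.Finite) : Bdd (DS A) := by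
  refine bdd_of_bounds hA.toFinset.card fun s hs ↦ ?_
  rw [abs_of_nonneg (DS_nonneg A s)]
  exact DS_finite_le hs hA

/-- two sets which differ by a finite set have the same series up to `O(1)` -/
theorem bdd_DS_sub {A B : Set (Pl K)} (h : A ⊆ B) (hfin : (B \ A).Finite) :
    Bdd (fun s ↦ DS B s - DS A s) :=
  (bdd_DS_finite hfin).congr' fun _ hs ↦ DS_diff hs h

/-- the full series is unbounded -/
theorem not_bdd_DS_univ : ¬ Bdd (DS (Set.univ : Set (Pl K))) := by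
  intro h
  obtain ⟨C, hC⟩ := primeZeta_asymp K
  have h1 : Bdd (fun s ↦ DS (Set.univ : Set (Pl K)) s - Real.log (1 / (s - 1))) := by
    rw [bdd_iff]
    refine ⟨C, ?_⟩
    filter_upwards [hC] with s hs
    rw [DS_univ]; exact hs
  have h2 : Bdd (fun s ↦ Real.log (1 / (s - 1))) :=
    (h.sub h1).congr' fun s _ ↦ by ring
  rw [bdd_iff] at h2
  obtain ⟨C', hC'⟩ := h2
  have ht0 : Tendsto (fun s : ℝ ↦ s - 1) (𝓝[>] 1) (𝓝[>] 0) := by
    rw [tendsto_nhdsWithin_iff]
    constructor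
    · have : Tendsto (fun s : ℝ ↦ s - 1) (𝓝 1) (𝓝 (1 - 1)) :=
        (continuous_id.sub continuous_const).tendsto 1
      rw [sub_self] at this
      exact tendsto_nhdsWithin_of_tendsto_nhds this
    · filter_upwards [self_mem_nhdsWithin] with s hs
      have hs' : 1 < s := hs
      exact sub_pos.mpr hs'
  have ht : Tendsto (fun s : ℝ ↦ Real.log (1 / (s - 1))) (𝓝[>] 1) atTop := by
    refine Real.tendsto_log_atTop.comp ?_
    simp only [one_div]
    exact tendsto_inv_nhdsGT_zero.comp ht0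
  have h3 := ht.eventually_gt_atTop C'
  obtain ⟨s, hs1, hs2⟩ := (hC'.and h3).exists
  have := le_abs_self (Real.log (1 / (s - 1)))
  linarith

/-- the wild places form a finite set -/
theorem finite_not_tame (p : ℕ) [Fact p.Prime] : {v : Pl K | ¬ Tame p v}.Finite := by
  have hp0 : ((p : 𝓞 K) : K) ≠ 0 := by
    have := (Fact.out : p.Prime).ne_zero
    simpa using this
  refine (ord_support_finite (Units.mk0 _ hp0)).subset fun v hv ↦ ?_
  simp only [Set.mem_ofPred_eq, Tame, not_not] at hv ⊢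
  rw [Ne, ord_eq_zero_iff v _ (p : 𝓞 K) rfl, not_not]
  exact hv

end Dens

end Fermat.Agent.S14
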