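import Fermat.Agent.S14.Basic

/-!
# S14: places in a Galois extension `Z/K` of number fields of prime degree.
Piece S14/EXT.  (All statements are reformulations of Mathlib's `Ideal.primesOver`,
`ramificationIdx`, `inertiaDeg`, `Ideal.inertia`, `MulAction.stabilizer` API in terms of
`Pl`, `ord`.)
-/

set_option autoImplicit false

namespace Fermat.Agent.S14

open IsDedekindDomain NumberField

variable {K Z : Type*} [Field K] [NumberField K] [Field Z] [NumberField Z] [Algebra K Z]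

/-- the place of `K` below a place of `Z` -/
noncomputable def below (w : Pl Z) : Pl K where
  asIdeal := w.asIdeal.comap (algebraMap (𝓞 K) (𝓞 Z))
  isPrime := Ideal.comap_isPrime _ _
  ne_bot := fun h => w.ne_bot (Ideal.eq_bot_of_comap_eq_bot h)

/-- base change of units -/
noncomputable def upU : Kˣ →* Zˣ := Units.map (algebraMap K Z : K →* Z)

@[simp] theorem coe_upU (x : Kˣ) : ((upU x : Zˣ) : Z) = algebraMap K Z x := rfl

/-- the norm on units -/
noncomputable def normU : Zˣ →* Kˣ := Units.map (Algebra.norm K : Z →* K)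

@[simp] theorem coe_normU (y : Zˣ) : ((normU y : Kˣ) : K) = Algebra.norm K (y : Z) := rfl

/-- ramification index of `w` over `K` -/
noncomputable def ram (K : Type*) [Field K] [NumberField K] [Algebra K Z] (w : Pl Z) : ℕ :=
  w.asIdeal.ramificationIdx (𝓞 K)

instance liesOver_below (w : Pl Z) : w.asIdeal.LiesOver (below (K := K) w).asIdeal := ⟨rfl⟩

theorem below_eq_iff (w : Pl Z) (v : Pl K) : below w = v ↔ w.asIdeal.LiesOver v.asIdeal := by
  constructor
  · rintro rfl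
    infer_instance
  · intro h
    exact HeightOneSpectrum.ext h.over.symm

theorem ram_pos (w : Pl Z) : 0 < ram K w := Ideal.ramificationIdx_pos _ _

theorem ram_eq' (w : Pl Z) :
    ram K w = (below (K := K) w).asIdeal.ramificationIdx' w.asIdeal :=
  (Ideal.ramificationIdx'_eq_ramificationIdx _ _ (below (K := K) w).ne_bot).symm

theorem ord_upU (w : Pl Z) (x : Kˣ) : ord w (upU x) = ram K w * ord (below w) x := by
  have h := HeightOneSpectrum.valuation_liesOver (K := K) Z (below (K := K) w) w (x : K)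
  rw [← ram_eq', valuation_eq_exp, ← coe_upU, valuation_eq_exp, ← WithZero.exp_nsmul,
    WithZero.exp_inj] at h
  simp only [nsmul_eq_mul] at h
  linarith

theorem image_fiber (v : Pl K) :
    HeightOneSpectrum.asIdeal '' {w : Pl Z | below w = v} = v.asIdeal.primesOver (𝓞 Z) := by
  ext P
  constructor
  · rintro ⟨w, hw, rfl⟩
    exact ⟨w.isPrime, (below_eq_iff w v).mp hw⟩
  · rintro ⟨h1, h2⟩
    exact ⟨⟨P, h1, Ideal.ne_bot_of_liesOver_of_ne_bot v.ne_bot P⟩, (below_eq_iff _ v).mpr h2, rfl⟩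

theorem asIdeal_injective : Function.Injective (HeightOneSpectrum.asIdeal : Pl Z → Ideal (𝓞 Z)) :=
  fun _ _ h => HeightOneSpectrum.ext h

theorem ncard_fiber (v : Pl K) :
    {w : Pl Z | below w = v}.ncard = (v.asIdeal.primesOver (𝓞 Z)).ncard := by
  rw [← image_fiber, Set.ncard_image_of_injective _ asIdeal_injective]

theorem fiber_finite (v : Pl K) : {w : Pl Z | below w = v}.Finite := by
  have h : (v.asIdeal.primesOver (𝓞 Z)).Finite := Algebra.QuasiFinite.finite_primesOver _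
  rw [← image_fiber] at h
  exact h.of_finite_image asIdeal_injective.injOn

theorem fiber_nonempty (v : Pl K) : ∃ w : Pl Z, below w = v := by
  obtain ⟨P, hP⟩ := (inferInstance : Nonempty (v.asIdeal.primesOver (𝓞 Z)))
  rw [← image_fiber] at hP
  obtain ⟨w, hw, -⟩ := hP
  exact ⟨w, hw⟩

/-- Galois action on integers, units and places of `Z` -/
noncomputable def gOZ (σ : Z ≃ₐ[K] Z) : 𝓞 Z ≃+* 𝓞 Z := RingOfIntegers.mapRingEquiv (σ : Z ≃+* Z)

@[simp] theorem coe_gOZ (σ : Z ≃ₐ[K] Z) (y : 𝓞 Z) : ((gOZ σ y : 𝓞 Z) : Z) = σ y := rfl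

noncomputable def gUZ (σ : Z ≃ₐ[K] Z) : Zˣ →* Zˣ := Units.map (σ : Z →* Z)

@[simp] theorem coe_gUZ (σ : Z ≃ₐ[K] Z) (y : Zˣ) : ((gUZ σ y : Zˣ) : Z) = σ y := rfl

theorem gOZ_symm_gOZ (σ : Z ≃ₐ[K] Z) (y : 𝓞 Z) : gOZ σ.symm (gOZ σ y) = y :=
  RingOfIntegers.ext (σ.symm_apply_apply _)

theorem gOZ_gOZ_symm (σ : Z ≃ₐ[K] Z) (y : 𝓞 Z) : gOZ σ (gOZ σ.symm y) = y :=
  RingOfIntegers.ext (σ.apply_symm_apply _)

theorem gOZ_eq_smul (σ : Z ≃ₐ[K] Z) (y : 𝓞 Z) : gOZ σ y = σ • y := rfl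

theorem gOZ_algebraMap (σ : Z ≃ₐ[K] Z) (a : 𝓞 K) :
    gOZ σ (algebraMap (𝓞 K) (𝓞 Z) a) = algebraMap (𝓞 K) (𝓞 Z) a :=
  RingOfIntegers.ext (σ.commutes _)

/-- `y ∈ σ w ↔ σ⁻¹ y ∈ w` -/
noncomputable def gPl (σ : Z ≃ₐ[K] Z) (w : Pl Z) : Pl Z where
  asIdeal := w.asIdeal.comap (gOZ σ.symm)
  isPrime := Ideal.comap_isPrime _ _
  ne_bot := by
    intro h
    apply w.ne_bot
    rw [eq_bot_iff]
    intro x hx
    have : gOZ σ x ∈ w.asIdeal.comap (gOZ σ.symm) := by
      rw [Ideal.mem_comap, gOZ_symm_gOZ]; exact hx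
    rw [h, Ideal.mem_bot] at this
    rw [Ideal.mem_bot]
    simpa using this

theorem mem_gPl (σ : Z ≃ₐ[K] Z) (w : Pl Z) (y : 𝓞 Z) :
    y ∈ (gPl σ w).asIdeal ↔ gOZ σ.symm y ∈ w.asIdeal := Iff.rfl

theorem gOZ_mem_gPl (σ : Z ≃ₐ[K] Z) (w : Pl Z) (y : 𝓞 Z) :
    gOZ σ y ∈ (gPl σ w).asIdeal ↔ y ∈ w.asIdeal := by
  rw [mem_gPl, gOZ_symm_gOZ]

open Pointwise in
theorem gPl_asIdeal_eq_smul (σ : Z ≃ₐ[K] Z) (w : Pl Z) : (gPl σ w).asIdeal = σ • w.asIdeal := by
  ext y
  rw [mem_gPl, Ideal.mem_pointwise_smul_iff_inv_smul_mem]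
  rfl

theorem gPl_asIdeal_eq_map (σ : Z ≃ₐ[K] Z) (w : Pl Z) :
    (gPl σ w).asIdeal = w.asIdeal.map (gOZ σ) := by
  ext a
  rw [mem_gPl, Ideal.mem_map_of_equiv]
  constructor
  · intro h
    exact ⟨_, h, gOZ_gOZ_symm σ a⟩
  · rintro ⟨b, hb, rfl⟩
    rwa [gOZ_symm_gOZ]

theorem gOZ_mem_gPl_pow (σ : Z ≃ₐ[K] Z) (w : Pl Z) (a : 𝓞 Z) (n : ℕ) :
    gOZ σ a ∈ (gPl σ w).asIdeal ^ n ↔ a ∈ w.asIdeal ^ n := by
  rw [gPl_asIdeal_eq_map, ← Ideal.map_pow, Ideal.mem_map_of_equiv]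
  constructor
  · rintro ⟨b, hb, h⟩
    rwa [← (gOZ σ).injective h]
  · intro h
    exact ⟨a, h, rfl⟩

theorem gPl_one (w : Pl Z) : gPl (1 : Z ≃ₐ[K] Z) w = w := by
  apply HeightOneSpectrum.ext
  ext a
  rw [mem_gPl]
  have : gOZ ((1 : Z ≃ₐ[K] Z).symm) a = a := RingOfIntegers.ext rfl
  rw [this]

theorem gPl_mul (σ τ : Z ≃ₐ[K] Z) (w : Pl Z) : gPl (σ * τ) w = gPl σ (gPl τ w) := by
  apply HeightOneSpectrum.ext
  ext a
  rw [mem_gPl, mem_gPl, mem_gPl]
  have : gOZ ((σ * τ).symm) a = gOZ τ.symm (gOZ σ.symm a) := RingOfIntegers.ext rfl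
  rw [this]

theorem below_gPl (σ : Z ≃ₐ[K] Z) (w : Pl Z) : below (K := K) (gPl σ w) = below w := by
  apply HeightOneSpectrum.ext
  ext a
  show algebraMap (𝓞 K) (𝓞 Z) a ∈ (gPl σ w).asIdeal ↔ algebraMap (𝓞 K) (𝓞 Z) a ∈ w.asIdeal
  rw [mem_gPl, gOZ_algebraMap]

theorem ord_gPl_of_integer (σ : Z ≃ₐ[K] Z) (w : Pl Z) (x : Zˣ) (a : 𝓞 Z) (h : (x : Z) = a) :
    ord (gPl σ w) (gUZ σ x) = ord w x := by
  have h' : ((gUZ σ x : Zˣ) : Z) = (gOZ σ a : 𝓞 Z) := by
    rw [coe_gUZ, h, coe_gOZ]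
  have h1 := ord_nonneg_of_integer w x a h
  have h2 := ord_nonneg_of_integer (gPl σ w) (gUZ σ x) _ h'
  have key : ∀ n : ℕ, (n : ℤ) ≤ ord (gPl σ w) (gUZ σ x) ↔ (n : ℤ) ≤ ord w x := fun n => by
    rw [le_ord_iff _ _ _ h', le_ord_iff _ _ _ h, gOZ_mem_gPl_pow]
  have k1 := (key (ord (gPl σ w) (gUZ σ x)).toNat).mp (by omega)
  have k2 := (key (ord w x).toNat).mpr (by omega)
  omega

theorem ord_gPl (σ : Z ≃ₐ[K] Z) (w : Pl Z) (y : Zˣ) : ord (gPl σ w) (gUZ σ y) = ord w y := by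
  obtain ⟨a, b, hb, hab⟩ := IsFractionRing.div_surjective (A := 𝓞 Z) (y : Z)
  have hb0 : algebraMap (𝓞 Z) Z b ≠ 0 := by
    rw [Ne, map_eq_zero_iff _ (IsFractionRing.injective (𝓞 Z) Z)]
    exact nonZeroDivisors.ne_zero hb
  let t : Zˣ := Units.mk0 _ hb0
  have hxy : ((y * t : Zˣ) : Z) = a := by
    show (y : Z) * algebraMap (𝓞 Z) Z b = algebraMap (𝓞 Z) Z a
    rw [← hab, div_mul_cancel₀ _ hb0]
  have h1 := ord_gPl_of_integer σ w (y * t) a hxy
  have h2 := ord_gPl_of_integer σ w t b rfl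
  rw [map_mul, ord_mul, ord_mul, h2] at h1
  omega

theorem smulCommClass_gal : SMulCommClass (Z ≃ₐ[K] Z) (𝓞 K) (𝓞 Z) :=
  ⟨fun σ a y => by
    rw [Algebra.smul_def, Algebra.smul_def, ← gOZ_eq_smul, ← gOZ_eq_smul, map_mul, gOZ_algebraMap]⟩

theorem ram_gPl (σ : Z ≃ₐ[K] Z) (w : Pl Z) : ram K (gPl σ w) = ram K w := by
  unfold ram
  have := smulCommClass_gal (K := K) (Z := Z)
  rw [gPl_asIdeal_eq_smul, Ideal.ramificationIdx_smul]

theorem absNorm_gPl (σ : Z ≃ₐ[K] Z) (w : Pl Z) :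
    Ideal.absNorm (gPl σ w).asIdeal = Ideal.absNorm w.asIdeal := by
  rw [Ideal.absNorm_apply, Ideal.absNorm_apply, Submodule.cardQuot_apply, Submodule.cardQuot_apply]
  exact (Nat.card_congr
    (Ideal.quotientEquiv w.asIdeal (gPl σ w).asIdeal (gOZ σ) (gPl_asIdeal_eq_map σ w)).toEquiv).symm

/-- transitivity of the Galois group on the places above `v` -/
theorem exists_gPl_eq [IsGalois K Z] (w w' : Pl Z) (h : below (K := K) w = below w') :
    ∃ σ : Z ≃ₐ[K] Z, gPl σ w = w' := by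
  have : w.asIdeal.LiesOver (below (K := K) w').asIdeal := (below_eq_iff _ _).mp h
  obtain ⟨σ, hσ⟩ := Ideal.exists_smul_eq_of_isGaloisGroup (below (K := K) w').asIdeal
    w.asIdeal w'.asIdeal (Z ≃ₐ[K] Z)
  exact ⟨σ, HeightOneSpectrum.ext (by rw [gPl_asIdeal_eq_smul, hσ])⟩

/-- `v` splits completely in `Z` -/
def IsSplit (Z : Type*) [Field Z] [NumberField Z] [Algebra K Z] (v : Pl K) : Prop :=
  {w : Pl Z | below w = v}.ncard = Module.finrank K Z

/-- `v` is unramified in `Z` -/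
def IsUnram (Z : Type*) [Field Z] [NumberField Z] [Algebra K Z] (v : Pl K) : Prop :=
  ∀ w : Pl Z, below w = v → ram K w = 1

/-- residue degree of `w` over `K` -/
noncomputable def resdeg (K : Type*) [Field K] [NumberField K] [Algebra K Z] (w : Pl Z) : ℕ :=
  w.asIdeal.inertiaDeg (𝓞 K)

theorem absNorm_eq_pow_resdeg (w : Pl Z) :
    Ideal.absNorm w.asIdeal = Ideal.absNorm (below (K := K) w).asIdeal ^ resdeg K w :=
  (Ideal.absNorm_pow_inertiaDeg (below (K := K) w).asIdeal w.asIdeal).symm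

/-- residue degree one: every integer of `Z` is congruent to an integer of `K` -/
theorem exists_congr_of_absNorm_eq (w : Pl Z)
    (h : Ideal.absNorm w.asIdeal = Ideal.absNorm (below (K := K) w).asIdeal) (y : 𝓞 Z) :
    ∃ a : 𝓞 K, y - algebraMap (𝓞 K) (𝓞 Z) a ∈ w.asIdeal := by
  rw [Ideal.absNorm_apply, Ideal.absNorm_apply, Submodule.cardQuot_apply,
    Submodule.cardQuot_apply] at h
  let f : (𝓞 K ⧸ (below (K := K) w).asIdeal) →+* (𝓞 Z ⧸ w.asIdeal) :=
    Ideal.quotientMap w.asIdeal (algebraMap (𝓞 K) (𝓞 Z)) le_rfl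
  have hf : Function.Injective f := Ideal.quotientMap_injective
  have : Finite (𝓞 Z ⧸ w.asIdeal) := Ideal.finiteQuotientOfFreeOfNeBot _ w.ne_bot
  have : Finite (𝓞 K ⧸ (below (K := K) w).asIdeal) :=
    Ideal.finiteQuotientOfFreeOfNeBot _ (below (K := K) w).ne_bot
  have hs : Function.Surjective f :=
    ((Nat.bijective_iff_injective_and_card f).mpr ⟨hf, h.symm⟩).2
  obtain ⟨a, ha⟩ := hs (Ideal.Quotient.mk _ y)
  obtain ⟨a, rfl⟩ := Ideal.Quotient.mk_surjective a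
  refine ⟨a, ?_⟩
  rw [← Ideal.Quotient.eq, ← ha]
  rfl

attribute [local instance] FractionRing.liftAlgebra in
/-- only finitely many places ramify -/
theorem finite_not_isUnram : {v : Pl K | ¬ IsUnram Z v}.Finite := by
  have h1 : {w : Pl Z | w.asIdeal ∣ differentIdeal (𝓞 K) (𝓞 Z)}.Finite :=
    Ideal.finite_factors differentIdeal_ne_bot
  refine (h1.image (below (K := K))).subset ?_
  intro v hv
  simp only [Set.mem_ofPred_eq, IsUnram, not_forall] at hv
  obtain ⟨w, hw, hr⟩ := hv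
  refine ⟨w, ?_, hw⟩
  show w.asIdeal ∣ differentIdeal (𝓞 K) (𝓞 Z)
  rw [dvd_differentIdeal_iff, ← Ideal.ramificationIdx_eq_one_iff]
  exact hr

section Prime

variable [IsGalois K Z] {p : ℕ} [Fact p.Prime]

theorem efg (hdeg : Module.finrank K Z = p) (w : Pl Z) :
    {w' : Pl Z | below w' = below (K := K) w}.ncard * (ram K w * resdeg K w) = p := by
  have h := Ideal.ncard_primesOver_mul_ramificationIdxIn_mul_inertiaDegIn
    (below (K := K) w).asIdeal (𝓞 Z) (Z ≃ₐ[K] Z)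
  rw [Ideal.ramificationIdxIn_eq_ramificationIdx _ w.asIdeal (Z ≃ₐ[K] Z),
    Ideal.inertiaDegIn_eq_inertiaDeg _ w.asIdeal (Z ≃ₐ[K] Z), ← ncard_fiber,
    IsGalois.card_aut_eq_finrank, hdeg] at h
  exact h

/-- the trichotomy -/
theorem efg_cases (hdeg : Module.finrank K Z = p) (w : Pl Z) :
    ({w' : Pl Z | below w' = below (K := K) w}.ncard = p ∧ ram K w = 1 ∧ resdeg K w = 1) ∨
    ({w' : Pl Z | below w' = below (K := K) w}.ncard = 1 ∧ ram K w = p ∧ resdeg K w = 1) ∨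
    ({w' : Pl Z | below w' = below (K := K) w}.ncard = 1 ∧ ram K w = 1 ∧ resdeg K w = p) := by
  have hp : p.Prime := Fact.out
  have h := efg (K := K) hdeg w
  set g := {w' : Pl Z | below w' = below (K := K) w}.ncard
  set e := ram K w
  set f := resdeg K w
  have hg : g ∣ p := ⟨_, h.symm⟩
  rcases (Nat.dvd_prime hp).mp hg with hg1 | hgp
  · rw [hg1, one_mul] at h
    have he : e ∣ p := ⟨_, h.symm⟩
    rcases (Nat.dvd_prime hp).mp he with he1 | hep
    · rw [he1, one_mul] at h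
      exact Or.inr (Or.inr ⟨hg1, he1, h⟩)
    · rw [hep] at h
      exact Or.inr (Or.inl ⟨hg1, hep, Nat.eq_of_mul_eq_mul_left hp.pos (by rw [h, mul_one])⟩)
  · rw [hgp] at h
    have h1 : e * f = 1 := Nat.eq_of_mul_eq_mul_left hp.pos (by rw [h, mul_one])
    exact Or.inl ⟨hgp, Nat.eq_one_of_mul_eq_one_right h1, Nat.eq_one_of_mul_eq_one_left h1⟩

/-- a place which does not split has a unique place above it -/
theorem unique_of_not_isSplit (hdeg : Module.finrank K Z = p) (v : Pl K) (h : ¬ IsSplit Z v)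
    (w w' : Pl Z) (hw : below w = v) (hw' : below w' = v) : w = w' := by
  subst hw
  have h1 : {w' : Pl Z | below w' = below (K := K) w}.ncard = 1 := by
    rcases efg_cases (K := K) hdeg w with h2 | h2 | h2
    · exact absurd (h2.1.trans hdeg.symm) h
    · exact h2.1
    · exact h2.1
  obtain ⟨a, ha⟩ := Set.ncard_eq_one.mp h1
  have e1 : w ∈ ({a} : Set (Pl Z)) := ha ▸ (rfl : below (K := K) w = below w)
  have e2 : w' ∈ ({a} : Set (Pl Z)) := ha ▸ hw'
  rw [Set.mem_singleton_iff] at e1 e2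
  rw [e1, e2]

theorem IsSplit.isUnram (hdeg : Module.finrank K Z = p) {v : Pl K} (h : IsSplit Z v) :
    IsUnram Z v := by
  have hp : p.Prime := Fact.out
  intro w hw
  subst hw
  rcases efg_cases (K := K) hdeg w with h2 | h2 | h2
  · exact h2.2.1
  · exact absurd (h2.1.symm.trans (h.trans hdeg)) hp.one_lt.ne
  · exact h2.2.1

theorem IsSplit.absNorm_eq (hdeg : Module.finrank K Z = p) {v : Pl K} (h : IsSplit Z v)
    (w : Pl Z) (hw : below w = v) : Ideal.absNorm w.asIdeal = Ideal.absNorm v.asIdeal := by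
  have hp : p.Prime := Fact.out
  subst hw
  rw [absNorm_eq_pow_resdeg (K := K)]
  rcases efg_cases (K := K) hdeg w with h2 | h2 | h2
  · rw [h2.2.2, pow_one]
  · rw [h2.2.2, pow_one]
  · exact absurd (h2.1.symm.trans (h.trans hdeg)) hp.one_lt.ne

/-- inert places -/
theorem absNorm_of_inert (hdeg : Module.finrank K Z = p) {v : Pl K} (h : ¬ IsSplit Z v)
    (h' : IsUnram Z v) (w : Pl Z) (hw : below w = v) :
    Ideal.absNorm w.asIdeal = Ideal.absNorm v.asIdeal ^ p := by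
  have hp : p.Prime := Fact.out
  subst hw
  rw [absNorm_eq_pow_resdeg (K := K)]
  rcases efg_cases (K := K) hdeg w with h2 | h2 | h2
  · exact absurd (h2.1.trans hdeg.symm) h
  · exact absurd ((h' w rfl).symm.trans h2.2.1) hp.one_lt.ne
  · rw [h2.2.2]

/-- ramified places -/
theorem ram_eq_of_not_isUnram (hdeg : Module.finrank K Z = p) {v : Pl K} (h : ¬ IsUnram Z v)
    (w : Pl Z) (hw : below w = v) : ram K w = p := by
  simp only [IsUnram, not_forall] at h
  obtain ⟨w₀, hw₀, hr⟩ := h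
  obtain ⟨σ, rfl⟩ := exists_gPl_eq (K := K) w₀ w (hw₀.trans hw.symm)
  rw [ram_gPl]
  rcases efg_cases (K := K) hdeg w₀ with h2 | h2 | h2
  · exact absurd h2.2.1 hr
  · exact h2.2.1
  · exact absurd h2.2.1 hr

theorem not_isSplit_of_not_isUnram (hdeg : Module.finrank K Z = p) {v : Pl K}
    (h : ¬ IsUnram Z v) : ¬ IsSplit Z v := fun hs => h (hs.isUnram hdeg)

theorem absNorm_of_not_isUnram (hdeg : Module.finrank K Z = p) {v : Pl K} (h : ¬ IsUnram Z v)
    (w : Pl Z) (hw : below w = v) : Ideal.absNorm w.asIdeal = Ideal.absNorm v.asIdeal := by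
  have hp : p.Prime := Fact.out
  have hr := ram_eq_of_not_isUnram hdeg h w hw
  subst hw
  rw [absNorm_eq_pow_resdeg (K := K)]
  rcases efg_cases (K := K) hdeg w with h2 | h2 | h2
  · rw [h2.2.2, pow_one]
  · rw [h2.2.2, pow_one]
  · exact absurd (h2.2.1.symm.trans hr) hp.one_lt.ne

theorem card_inertia (w : Pl Z) : Nat.card (w.asIdeal.inertia (Z ≃ₐ[K] Z)) = ram K w := by
  rw [Ideal.card_inertia_eq_ramificationIdxIn (below (K := K) w).asIdeal w.asIdeal,
    Ideal.ramificationIdxIn_eq_ramificationIdx _ w.asIdeal (Z ≃ₐ[K] Z)]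
  rfl

open Pointwise in
theorem card_stabilizer (w : Pl Z) :
    Nat.card (MulAction.stabilizer (Z ≃ₐ[K] Z) w.asIdeal) = ram K w * resdeg K w := by
  rw [Ideal.card_stabilizer_eq (below (K := K) w).asIdeal w.asIdeal,
    Ideal.ramificationIdxIn_eq_ramificationIdx _ w.asIdeal (Z ≃ₐ[K] Z),
    Ideal.inertiaDegIn_eq_inertiaDeg _ w.asIdeal (Z ≃ₐ[K] Z)]
  rfl

/-- at a ramified place the whole Galois group is the inertia group -/
theorem sub_mem_of_not_isUnram (hdeg : Module.finrank K Z = p) {v : Pl K} (h : ¬ IsUnram Z v)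
    (w : Pl Z) (hw : below w = v) (σ : Z ≃ₐ[K] Z) (y : 𝓞 Z) : gOZ σ y - y ∈ w.asIdeal := by
  have h1 : w.asIdeal.inertia (Z ≃ₐ[K] Z) = ⊤ := by
    apply Subgroup.eq_top_of_card_eq
    rw [card_inertia, ram_eq_of_not_isUnram hdeg h w hw, IsGalois.card_aut_eq_finrank, hdeg]
  have h2 : σ ∈ w.asIdeal.inertia (Z ≃ₐ[K] Z) := h1 ▸ Subgroup.mem_top σ
  exact h2 y

open Pointwise in
/-- criterion: trivial decomposition group implies split -/
theorem isSplit_of_stabilizer (hdeg : Module.finrank K Z = p) (w : Pl Z)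
    (h : ∀ σ : Z ≃ₐ[K] Z, gPl σ w = w → σ = 1) : IsSplit Z (below (K := K) w) := by
  have hp : p.Prime := Fact.out
  have h1 : MulAction.stabilizer (Z ≃ₐ[K] Z) w.asIdeal = ⊥ := by
    rw [eq_bot_iff]
    intro σ hσ
    rw [MulAction.mem_stabilizer_iff] at hσ
    exact h σ (HeightOneSpectrum.ext (by rw [gPl_asIdeal_eq_smul, hσ]))
  have h2 := card_stabilizer (K := K) w
  rw [h1, Subgroup.card_bot] at h2
  unfold IsSplit
  rw [hdeg]
  rcases efg_cases (K := K) hdeg w with h3 | h3 | h3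
  · exact h3.1
  · rw [h3.2.1, h3.2.2, mul_one] at h2
    exact absurd h2 hp.one_lt.ne
  · rw [h3.2.1, h3.2.2, one_mul] at h2
    exact absurd h2 hp.one_lt.ne

/-- criterion: trivial inertia group implies unramified -/
theorem isUnram_of_inertia (hdeg : Module.finrank K Z = p) (w : Pl Z)
    (h : ∀ σ : Z ≃ₐ[K] Z, (∀ y : 𝓞 Z, gOZ σ y - y ∈ w.asIdeal) → σ = 1) :
    IsUnram Z (below (K := K) w) := by
  have h1 : w.asIdeal.inertia (Z ≃ₐ[K] Z) = ⊥ := by
    rw [eq_bot_iff]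
    intro σ hσ
    exact h σ hσ
  have h2 := card_inertia (K := K) w
  rw [h1, Subgroup.card_bot] at h2
  intro w' hw'
  obtain ⟨σ, rfl⟩ := exists_gPl_eq (K := K) w w' hw'.symm
  rw [ram_gPl, ← h2]

/-- number of places of `Z` above a finite set `S` -/
theorem card_above (hdeg : Module.finrank K Z = p) (S : Finset (Pl K)) (SZ : Finset (Pl Z))
    (hSZ : ∀ w, w ∈ SZ ↔ below w ∈ S) (NS : Finset (Pl K))
    (hNS : ∀ v, v ∈ NS ↔ v ∈ S ∧ ¬ IsSplit Z v) :
    SZ.card + (p - 1) * NS.card = p * S.card := by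
  classical
  have hp : p.Prime := Fact.out
  have h1 : SZ.card = ∑ v ∈ S, (SZ.filter fun w => below w = v).card :=
    Finset.card_eq_sum_card_fiberwise fun w hw => (hSZ w).mp hw
  have h2 : ∀ v ∈ S, (SZ.filter fun w => below w = v).card = if IsSplit Z v then p else 1 := by
    intro v hv
    have e : ((SZ.filter fun w => below w = v : Finset (Pl Z)) : Set (Pl Z)) =
        {w : Pl Z | below w = v} := by
      ext w
      simp only [Finset.coe_filter, Set.mem_ofPred_eq, hSZ]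
      constructor
      · exact fun h => h.2
      · intro h
        exact ⟨h ▸ hv, h⟩
    rw [← Set.ncard_coe_finset, e]
    obtain ⟨w, rfl⟩ := fiber_nonempty (Z := Z) v
    split_ifs with hs
    · exact hs.trans hdeg
    · rcases efg_cases (K := K) hdeg w with h3 | h3 | h3
      · exact absurd (h3.1.trans hdeg.symm) hs
      · exact h3.1
      · exact h3.1
  have h3 : NS = S.filter fun v => ¬ IsSplit Z v := by
    ext v
    rw [hNS, Finset.mem_filter]
  rw [h1, Finset.sum_congr rfl h2, h3, Finset.card_filter, Finset.mul_sum, ← Finset.sum_add_distrib,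
    Finset.card_eq_sum_ones, Finset.mul_sum]
  refine Finset.sum_congr rfl fun v _ => ?_
  have := hp.one_lt
  split_ifs with hs <;> simp <;> omega

end Prime

end Fermat.Agent.S14
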