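import Fermat.Agent.S14.Basic

/-!
# S14: the `p`-th power residue character of a tame place, as a `MulChar` with values in `𝓞 K`.
-/

set_option autoImplicit false
set_option linter.unusedSectionVars false

namespace Fermat.Agent.S14.GaussAux

open IsDedekindDomain NumberField

variable {K : Type*} [Field K] [NumberField K] {p : ℕ} [Fact p.Prime] {ζ : 𝓞 K}

attribute [local instance] Ideal.Quotient.field

omit [NumberField K] in
theorem zeta_pow_add (hζ : IsPrimitiveRoot ζ p) (i j : ZMod p) :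
    ζ ^ (i + j).val = ζ ^ i.val * ζ ^ j.val := by
  rw [ZMod.val_add, ← pow_add, ← pow_eq_pow_mod _ hζ.pow_eq_one]

/-- The power residue character. -/
structure IsChi (p : ℕ) (ζ : 𝓞 K) (v : Pl K) (χ : MulChar (𝓞 K ⧸ v.asIdeal) (𝓞 K)) : Prop where
  mk_apply : ∀ u, Ideal.Quotient.mk v.asIdeal (χ u) = u ^ ((Ideal.absNorm v.asIdeal - 1) / p)
  exists_pow : ∀ u, u ≠ 0 → ∃ j : ZMod p, χ u = ζ ^ j.val

theorem exists_chi (hζ : IsPrimitiveRoot ζ p) {v : Pl K} (hv : Tame p v) :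
    ∃ χ : MulChar (𝓞 K ⧸ v.asIdeal) (𝓞 K), IsChi p ζ v χ := by
  classical
  have hp := (Fact.out : p.Prime)
  choose dl hdl using fun u : (𝓞 K ⧸ v.asIdeal)ˣ => resaux_exists_dlog hζ hv (u : 𝓞 K ⧸ v.asIdeal)
    u.ne_zero
  have hadd : ∀ u u', dl (u * u') = dl u + dl u' := by
    intro u u'
    apply resaux_dlog_inj hζ hv
    rw [resaux_pow_add hζ, ← hdl, ← hdl, ← hdl, Units.val_mul, mul_pow]
  let ζu : (𝓞 K)ˣ := (hζ.isUnit hp.ne_zero).unit
  have hζu : (ζu : 𝓞 K) = ζ := rfl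
  let f : (𝓞 K ⧸ v.asIdeal)ˣ →* (𝓞 K)ˣ := MonoidHom.mk' (fun u => ζu ^ (dl u).val) (by
    intro u u'
    ext
    simp only [Units.val_mul, Units.val_pow_eq_pow_val, hζu, hadd, zeta_pow_add hζ])
  have hf : ∀ u, ((f u : (𝓞 K)ˣ) : 𝓞 K) = ζ ^ (dl u).val := by
    intro u
    simp [f, hζu]
  refine ⟨MulChar.ofUnitHom f, ?_, ?_⟩
  · intro u
    by_cases hu : u = 0
    · subst hu
      have he : (Ideal.absNorm v.asIdeal - 1) / p ≠ 0 := by
        have h4 := resaux_one_lt_absNorm v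
        exact (Nat.div_pos (Nat.le_of_dvd (by omega) (dvd_absNorm_sub_one hζ hv)) hp.pos).ne'
      rw [MulChar.map_zero, map_zero, zero_pow he]
    · have : u = ((Units.mk0 u hu : (𝓞 K ⧸ v.asIdeal)ˣ) : 𝓞 K ⧸ v.asIdeal) := rfl
      rw [this, MulChar.ofUnitHom_coe, hf, map_pow, ← hdl]
  · intro u hu
    exact ⟨dl (Units.mk0 u hu), (MulChar.ofUnitHom_coe f (Units.mk0 u hu)).trans (hf _)⟩

namespace IsChi

variable {v : Pl K} {χ : MulChar (𝓞 K ⧸ v.asIdeal) (𝓞 K)}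

theorem pow_p (hζ : IsPrimitiveRoot ζ p) (h : IsChi p ζ v χ) : χ ^ p = 1 := by
  ext u
  obtain ⟨j, hj⟩ := h.exists_pow u u.ne_zero
  rw [MulChar.pow_apply_coe, hj, MulChar.one_apply_coe, ← pow_mul, mul_comm, pow_mul,
    hζ.pow_eq_one, one_pow]

theorem apply_pow_p (hζ : IsPrimitiveRoot ζ p) (h : IsChi p ζ v χ) {u : 𝓞 K ⧸ v.asIdeal}
    (hu : u ≠ 0) : χ u ^ p = 1 := by
  obtain ⟨j, hj⟩ := h.exists_pow u hu
  rw [hj, ← pow_mul, mul_comm, pow_mul, hζ.pow_eq_one, one_pow]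

theorem ne_one (hζ : IsPrimitiveRoot ζ p) (hv : Tame p v) (h : IsChi p ζ v χ) : χ ≠ 1 := by
  have hp := (Fact.out : p.Prime)
  intro h1
  obtain ⟨g, hg, hord⟩ := resaux_exists_gen v
  have h2 := h.mk_apply g
  rw [h1, MulChar.one_apply_coe, map_one] at h2
  have h2' : g ^ ((Ideal.absNorm v.asIdeal - 1) / p) = 1 := by
    ext; simpa using h2.symm
  have h3 := orderOf_dvd_of_pow_eq_one h2'
  rw [hord] at h3
  have h4 := resaux_one_lt_absNorm v
  have h5 : 0 < (Ideal.absNorm v.asIdeal - 1) / p :=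
    Nat.div_pos (Nat.le_of_dvd (by omega) (dvd_absNorm_sub_one hζ hv)) hp.pos
  have h6 := Nat.le_of_dvd h5 h3
  have h7 : (Ideal.absNorm v.asIdeal - 1) / p < Ideal.absNorm v.asIdeal - 1 :=
    Nat.div_lt_self (by omega) hp.one_lt
  omega

theorem orderOf_eq (hζ : IsPrimitiveRoot ζ p) (hv : Tame p v) (h : IsChi p ζ v χ) :
    orderOf χ = p :=
  orderOf_eq_prime (h.pow_p hζ) (h.ne_one hζ hv)

theorem pow_ne_one (hζ : IsPrimitiveRoot ζ p) (hv : Tame p v) (h : IsChi p ζ v χ) {n : ℕ}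
    (hn : ¬ p ∣ n) : χ ^ n ≠ 1 := by
  intro h1
  apply hn
  rw [← h.orderOf_eq hζ hv]
  exact orderOf_dvd_of_pow_eq_one h1

/-- relation with the symbol `res` -/
theorem apply_mk (hζ : IsPrimitiveRoot ζ p) (hv : Tame p v) (h : IsChi p ζ v χ) (x : Kˣ) (a : 𝓞 K)
    (hx : (x : K) = a) (ha : a ∉ v.asIdeal) :
    χ (Ideal.Quotient.mk v.asIdeal a) = ζ ^ (res p ζ v x).val := by
  have ha' : Ideal.Quotient.mk v.asIdeal a ≠ 0 := by rwa [Ne, Ideal.Quotient.eq_zero_iff_mem]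
  obtain ⟨j, hj⟩ := h.exists_pow _ ha'
  have h1 := h.mk_apply (Ideal.Quotient.mk v.asIdeal a)
  rw [hj]
  congr 2
  symm
  apply res_eq_of_congr hζ hv x a hx ha
  rw [← Ideal.Quotient.eq_zero_iff_mem, map_sub, map_pow, ← h1, hj, sub_self]

end IsChi

end Fermat.Agent.S14.GaussAux
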