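import Fermat.Agent.S14.Kummer
import Fermat.Agent.S14.Dens

/-!
# S14: density of the primes splitting in a Kummer extension `K(u^(1/p))`.
-/

set_option autoImplicit false

namespace Fermat.Agent.S14

open IsDedekindDomain NumberField Filter Topology

namespace KDaux

open Dens

variable {K Z : Type*} [Field K] [NumberField K] [Field Z] [NumberField Z] [Algebra K Z]

/-- the sum of the weights over the fibre of `v` -/
noncomputable def fib (Z : Type*) [Field Z] [NumberField Z] [Algebra K Z] (s : ℝ) (v : Pl K) : ℝ :=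
  ∑' w : (below (K := K) (Z := Z)) ⁻¹' {v}, wt s w.1

theorem hasSum_fib {s : ℝ} (hs : 1 < s) :
    HasSum (fib Z s : Pl K → ℝ) (DS (Set.univ : Set (Pl Z)) s) := by
  have h : HasSum (wt s : Pl Z → ℝ) (DS (Set.univ : Set (Pl Z)) s) := by
    have := (summable_wt (K := Z) hs).hasSum
    rw [DS_univ]
    exact this
  exact h.tsum_fiberwise (below (K := K) (Z := Z))

theorem fib_eq_of_const (s : ℝ) (v : Pl K) (c : ℝ)
    (h : ∀ w : Pl Z, below w = v → wt s w = c) :
    fib Z s v = ({w : Pl Z | below w = v}.ncard : ℝ) * c := by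
  unfold fib
  have h1 : ∀ w : (below (K := K) (Z := Z)) ⁻¹' {v}, wt s w.1 = c := fun w ↦ h w.1 w.2
  rw [tsum_congr h1, tsum_const, nsmul_eq_mul]
  rfl

variable [IsGalois K Z] {p : ℕ} [Fact p.Prime]

theorem fib_split (hdeg : Module.finrank K Z = p) (s : ℝ) {v : Pl K} (h : IsSplit Z v) :
    fib Z s v = (p : ℝ) * wt s v := by
  rw [fib_eq_of_const s v (wt s v), h, hdeg]
  intro w hw
  unfold wt
  rw [h.absNorm_eq hdeg w hw]

theorem ncard_of_not_isSplit (hdeg : Module.finrank K Z = p) {v : Pl K} (h : ¬ IsSplit Z v) :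
    {w : Pl Z | below w = v}.ncard = 1 := by
  obtain ⟨w0, hw0⟩ := fiber_nonempty (Z := Z) v
  rw [Set.ncard_eq_one]
  refine ⟨w0, ?_⟩
  ext w
  simp only [Set.mem_ofPred_eq, Set.mem_singleton_iff]
  constructor
  · intro hw
    exact unique_of_not_isSplit hdeg v h w w0 hw hw0
  · rintro rfl
    exact hw0

theorem fib_inert (hdeg : Module.finrank K Z = p) (s : ℝ) {v : Pl K} (h : ¬ IsSplit Z v)
    (h' : IsUnram Z v) : fib Z s v = wt (p * s) v := by
  rw [fib_eq_of_const s v (wt (p * s) v), ncard_of_not_isSplit hdeg h, Nat.cast_one, one_mul]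
  intro w hw
  unfold wt
  rw [absNorm_of_inert hdeg h h' w hw, Nat.cast_pow, ← Real.rpow_natCast,
    ← Real.rpow_mul (Nat.cast_nonneg _)]
  congr 1
  ring

theorem fib_ram (hdeg : Module.finrank K Z = p) (s : ℝ) {v : Pl K} (h : ¬ IsUnram Z v) :
    fib Z s v = wt s v := by
  rw [fib_eq_of_const s v (wt s v),
    ncard_of_not_isSplit hdeg (not_isSplit_of_not_isUnram hdeg h), Nat.cast_one, one_mul]
  intro w hw
  unfold wt
  rw [absNorm_of_not_isUnram hdeg h w hw]

theorem wt_mul_le {s : ℝ} (hs : 1 < s) (v : Pl K) : wt (p * s) v ≤ wt 2 v := by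
  have h2 : (2 : ℝ) ≤ (Ideal.absNorm v.asIdeal : ℝ) := by
    exact_mod_cast Analytic.two_le_absNorm K v
  have hp2 : (2 : ℝ) ≤ p := by exact_mod_cast (Fact.out : p.Prime).two_le
  unfold wt
  refine Real.rpow_le_rpow_of_exponent_le (by linarith) ?_
  nlinarith

/-- the error term -/
theorem err_bounds (hdeg : Module.finrank K Z = p) {s : ℝ} (hs : 1 < s) (v : Pl K) :
    0 ≤ fib Z s v - (p : ℝ) * {v : Pl K | IsSplit Z v}.indicator (wt s) v ∧
    fib Z s v - (p : ℝ) * {v : Pl K | IsSplit Z v}.indicator (wt s) v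
      ≤ wt 2 v + {v : Pl K | ¬ IsUnram Z v}.indicator (wt s) v := by
  by_cases h : IsSplit Z v
  · rw [fib_split hdeg s h, Set.indicator_of_mem (show v ∈ {v : Pl K | IsSplit Z v} from h),
      sub_self]
    exact ⟨le_rfl, add_nonneg (wt_nonneg 2 v)
      (Set.indicator_nonneg (fun v _ ↦ wt_nonneg s v) v)⟩
  · rw [Set.indicator_of_notMem (show v ∉ {v : Pl K | IsSplit Z v} from h), mul_zero, sub_zero]
    by_cases h' : IsUnram Z v
    · rw [fib_inert hdeg s h h',
        Set.indicator_of_notMem (show v ∉ {v : Pl K | ¬ IsUnram Z v} from fun hh ↦ hh h'),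
        add_zero]
      exact ⟨wt_nonneg _ v, wt_mul_le hs v⟩
    · rw [fib_ram hdeg s h', Set.indicator_of_mem (show v ∈ {v : Pl K | ¬ IsUnram Z v} from h')]
      exact ⟨wt_nonneg _ v, le_add_of_nonneg_left (wt_nonneg 2 v)⟩

theorem bdd_split (hdeg : Module.finrank K Z = p) :
    Bdd (fun s ↦ DS (Set.univ : Set (Pl Z)) s - (p : ℝ) * DS {v : Pl K | IsSplit Z v} s) := by
  have hram : {v : Pl K | ¬ IsUnram Z v}.Finite := finite_not_isUnram
  refine bdd_of_bounds (DS (Set.univ : Set (Pl K)) 2 + hram.toFinset.card) fun s hs ↦ ?_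
  have h1 := hasSum_fib (K := K) (Z := Z) hs
  have h2 : HasSum (fun v : Pl K ↦ (p : ℝ) * {v : Pl K | IsSplit Z v}.indicator (wt s) v)
      ((p : ℝ) * DS {v : Pl K | IsSplit Z v} s) := (summable_ind hs _).hasSum.mul_left _
  have h3 := h1.sub h2
  have h4 : HasSum (fun v : Pl K ↦ wt 2 v + {v : Pl K | ¬ IsUnram Z v}.indicator (wt s) v)
      (DS (Set.univ : Set (Pl K)) 2 + DS {v : Pl K | ¬ IsUnram Z v} s) := by
    refine HasSum.add ?_ (summable_ind hs _).hasSum
    rw [DS_univ]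
    exact (summable_wt (K := K) (by norm_num : (1 : ℝ) < 2)).hasSum
  have h5 : 0 ≤ DS (Set.univ : Set (Pl Z)) s - (p : ℝ) * DS {v : Pl K | IsSplit Z v} s :=
    h3.nonneg fun v ↦ (err_bounds hdeg hs v).1
  have h6 := hasSum_le (fun v ↦ (err_bounds hdeg hs v).2) h3 h4
  rw [abs_of_nonneg h5]
  have h7 := DS_finite_le hs hram
  linarith

end KDaux

variable {K : Type*} [Field K] [NumberField K] {p : ℕ} [Fact p.Prime]
  [IsCyclotomicExtension {p} ℚ K] {ζ : 𝓞 K}

/-- the good primes at which `u` is a `p`-th power residue -/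
def splitSet (p : ℕ) (ζ : 𝓞 K) (u : Kˣ) : Set (Pl K) :=
  {v | Tame p v ∧ ord v u = 0 ∧ res p ζ v u = 0}

open Dens KDaux Polynomial in
/-- **Kummer density**: `p * ∑_{v ∈ splitSet u} Nv^{-s} = ∑_v Nv^{-s} + O(1)` as `s → 1+`. -/
theorem KD (hp : p ≠ 2) (hζ : IsPrimitiveRoot ζ p) (u : Kˣ) (hu : u ∉ pows K p) :
    ∃ C : ℝ, ∀ᶠ s in 𝓝[>] (1 : ℝ),
      |(p : ℝ) * (∑' v : splitSet p ζ u, (Ideal.absNorm v.1.asIdeal : ℝ) ^ (-s))
        - ∑' v : Pl K, (Ideal.absNorm v.asIdeal : ℝ) ^ (-s)| ≤ C := by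
  let Z := (X ^ p - C (u : K)).SplittingField
  have : NumberField Z := NumberField.of_module_finite K Z
  have : IsSplittingField K Z (X ^ p - C (u : K)) := IsSplittingField.splittingField _
  have : IsGalois K Z := kummer_isGalois u hζ
  have hdeg : Module.finrank K Z = p := kummer_finrank u hζ hu
  have h1 := bdd_split (K := K) (Z := Z) hdeg
  -- compare the two full series
  have hK : Bdd (fun s ↦ DS (Set.univ : Set (Pl K)) s - Real.log (1 / (s - 1))) := by
    obtain ⟨C, hC⟩ := primeZeta_asymp K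
    rw [bdd_iff]
    refine ⟨C, ?_⟩
    filter_upwards [hC] with s hs
    rw [DS_univ]; exact hs
  have hZ : Bdd (fun s ↦ DS (Set.univ : Set (Pl Z)) s - Real.log (1 / (s - 1))) := by
    obtain ⟨C, hC⟩ := primeZeta_asymp Z
    rw [bdd_iff]
    refine ⟨C, ?_⟩
    filter_upwards [hC] with s hs
    rw [DS_univ]; exact hs
  -- compare the split sets
  have hsub : splitSet p ζ u ⊆ {v : Pl K | IsSplit Z v} := fun v hv ↦
    D2 u hζ hu v hv.1 ⟨by rw [hv.2.1]; exact dvd_zero _, hv.2.2⟩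
  have hfin : ({v : Pl K | IsSplit Z v} \ splitSet p ζ u).Finite := by
    refine ((finite_not_tame p).union (ord_support_finite u)).subset fun v hv ↦ ?_
    by_contra hh
    rw [Set.mem_union, not_or] at hh
    have ht : Tame p v := by
      by_contra h0
      exact hh.1 h0
    have h0 : ord v u = 0 := by
      by_contra h0
      exact hh.2 h0
    exact hv.2 ⟨ht, h0, D2' u hζ hu v ht h0 hv.1⟩
  have h2 := (bdd_DS_sub hsub hfin).const_mul p
  have h3 : Bdd (fun s ↦ (p : ℝ) * DS (splitSet p ζ u) s - DS (Set.univ : Set (Pl K)) s) :=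
    (((hZ.sub hK).sub h1).sub h2).congr' fun s _ ↦ by ring
  rw [bdd_iff] at h3
  obtain ⟨C, hC⟩ := h3
  refine ⟨C, ?_⟩
  filter_upwards [hC] with s hs
  rw [DS_subtype, ← DS_univ]
  exact hs

end Fermat.Agent.S14
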