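import Fermat.Agent.S14.Ext

/-!
# S14: splitting of places in `Z = K(z^(1/p))`, `K = ℚ(ζ_p)`.  Piece S14/D.
-/

set_option autoImplicit false

namespace Fermat.Agent.S14

open IsDedekindDomain NumberField Polynomial

theorem kumaux_exists_natCast {F : Type*} [CommRing F] [IsDomain F] (p : ℕ) [Fact p.Prime]
    (hp0 : (p : F) = 0) (y : F) (hy : y ^ p = y) : ∃ j : ℕ, y = j := by
  classical
  have hp := (Fact.out : p.Prime)
  have : CharP F p := (CharP.charP_iff_prime_eq_zero hp).mpr hp0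
  by_contra hne
  have hne' : ∀ j : ℕ, y ≠ j := fun j hj => hne ⟨j, hj⟩
  have hdeg : (X ^ p - X : F[X]).natDegree = p := by
    have h1 : (X : F[X]).degree < (X ^ p : F[X]).degree := by
      rw [degree_X_pow, degree_X]
      exact mod_cast hp.one_lt
    rw [natDegree_eq_of_degree_eq (degree_sub_eq_left_of_degree_lt h1), natDegree_X_pow]
  have hf0 : (X ^ p - X : F[X]) ≠ 0 := by
    intro h0
    rw [h0, natDegree_zero] at hdeg
    exact hp.ne_zero hdeg.symm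
  have hS : insert y ((Finset.range p).image (fun j : ℕ => (j : F))) ⊆
      (X ^ p - X : F[X]).roots.toFinset := by
    intro x hx
    rw [Multiset.mem_toFinset, mem_roots hf0, IsRoot.def]
    simp only [eval_sub, eval_pow, eval_X]
    rcases Finset.mem_insert.mp hx with rfl | hx
    · rw [hy, sub_self]
    · obtain ⟨j, -, rfl⟩ := Finset.mem_image.mp hx
      have h3 := map_natCast (frobenius F p) j
      rw [frobenius_def] at h3
      rw [h3, sub_self]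
  have hcard : (insert y ((Finset.range p).image (fun j : ℕ => (j : F)))).card = p + 1 := by
    rw [Finset.card_insert_of_notMem, Finset.card_image_of_injOn, Finset.card_range]
    · intro a ha b hb hab
      exact CharP.natCast_injOn_Iio F p (by simpa using ha) (by simpa using hb) hab
    · intro hmem
      obtain ⟨j, -, hj⟩ := Finset.mem_image.mp hmem
      exact hne' j hj.symm
  have h1 := Finset.card_le_card hS
  have h2 := (Multiset.toFinset_card_le _).trans (card_roots' (X ^ p - X : F[X]))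
  rw [hcard] at h1
  rw [hdeg] at h2
  omega

theorem kumaux_poly (p : ℕ) [Fact p.Prime] :
    ∃ r : ℤ[X], (1 + X) ^ p = 1 + X ^ p + (p : ℤ[X]) * X * r ∧ r.coeff 0 = 1 := by
  have hp := (Fact.out : p.Prime)
  obtain ⟨r, hr⟩ := exists_add_pow_prime_eq hp (1 : ℤ[X]) X
  refine ⟨r, by rw [hr]; ring, ?_⟩
  have e : (p : ℤ[X]) * 1 * X * r = C (p : ℤ) * (X * r) := by
    simp only [map_natCast]; ring
  rw [e] at hr
  have h1 := congrArg (fun f => coeff f (0 + 1)) hr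
  simp only [coeff_one_add_X_pow, one_pow, coeff_add, coeff_C_mul, coeff_X_pow, coeff_X_mul] at h1
  have hp1 : ¬ (0 + 1 = p) := by have := hp.one_lt; omega
  simp [hp1, coeff_one] at h1
  have hp0 : (p : ℤ) ≠ 0 := by exact_mod_cast hp.ne_zero
  have : (p : ℤ) * 1 = p * r.coeff 0 := by simpa using h1
  exact (mul_left_cancel₀ hp0 this).symm

theorem kumaux_one_add_pow (p : ℕ) [Fact p.Prime] {R : Type*} [CommRing R] (x : R) :
    ∃ u : R, (1 + x) ^ p = 1 + x ^ p + (p : R) * x * u ∧ x ∣ u - 1 := by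
  obtain ⟨r, hr, hr0⟩ := kumaux_poly p
  refine ⟨aeval x r, ?_, ?_⟩
  · have := congrArg (aeval x) hr
    simpa using this
  · have : (X : ℤ[X]) ∣ r - 1 := by rw [X_dvd_iff]; simp [hr0]
    obtain ⟨s, hs⟩ := this
    exact ⟨aeval x s, by have := congrArg (aeval x) hs; simpa using this⟩

variable {K Z : Type*} [Field K] [NumberField K] [Field Z] [NumberField Z] [Algebra K Z]
  {p : ℕ} [Fact p.Prime] {ζ : 𝓞 K} (z : Kˣ) [IsSplittingField K Z (X ^ p - C (z : K))]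

include z in
theorem kummer_isGalois (_hζ : IsPrimitiveRoot ζ p) : IsGalois K Z := by
  have hp := (Fact.out : p.Prime)
  refine IsGalois.of_separable_splitting_field (p := X ^ p - C (z : K)) ?_
  exact separable_X_pow_sub_C (z : K) (by exact_mod_cast hp.ne_zero) z.ne_zero

theorem kum_prim (hζ : IsPrimitiveRoot ζ p) : IsPrimitiveRoot (ζ : K) p :=
  hζ.map_of_injective (f := algebraMap (𝓞 K) K) (IsFractionRing.injective (𝓞 K) K)

theorem kum_nonempty (hζ : IsPrimitiveRoot ζ p) : (primitiveRoots p K).Nonempty :=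
  ⟨(ζ : K), (mem_primitiveRoots (Fact.out : p.Prime).pos).mpr (kum_prim hζ)⟩

theorem kum_irred (hz : z ∉ pows K p) : Irreducible (X ^ p - C (z : K)) := by
  refine X_pow_sub_C_irreducible_of_prime (Fact.out : p.Prime) fun b hb => hz ?_
  have hb0 : b ≠ 0 := by
    rintro rfl
    rw [zero_pow (Fact.out : p.Prime).ne_zero] at hb
    exact z.ne_zero hb.symm
  exact ⟨Units.mk0 b hb0, by ext; simpa using hb⟩

include z in
theorem kummer_finrank (hζ : IsPrimitiveRoot ζ p) (hz : z ∉ pows K p) :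
    Module.finrank K Z = p :=
  finrank_of_isSplittingField_X_pow_sub_C (kum_nonempty hζ) (kum_irred z hz) Z

/-- a `p`-th root of `z` in `Z` -/
theorem kum_exists_root : ∃ b : Zˣ, b ^ p = upU z := by
  have : NeZero p := ⟨(Fact.out : p.Prime).ne_zero⟩
  have h := rootOfSplitsXPowSubC_pow (n := p) (z : K) Z
  have h0 : rootOfSplitsXPowSubC (NeZero.pos p) (z : K) Z ≠ 0 := by
    intro h0
    rw [h0, zero_pow (Fact.out : p.Prime).ne_zero] at h
    exact z.ne_zero ((map_eq_zero _).mp h.symm)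
  exact ⟨Units.mk0 _ h0, by ext; simpa using h⟩

/-- an automorphism fixing a `p`-th root of `z * c ^ p` is trivial -/
theorem kum_eq_one (hζ : IsPrimitiveRoot ζ p) (hz : z ∉ pows K p) (c : Kˣ) (β : Z)
    (hβ : β ^ p = algebraMap K Z ((z : K) * (c : K) ^ p)) (σ : Z ≃ₐ[K] Z) (h : σ β = β) :
    σ = 1 := by
  have hc : algebraMap K Z (c : K) ≠ 0 := (_root_.map_ne_zero _).mpr c.ne_zero
  have hα : (β / algebraMap K Z (c : K)) ^ p = algebraMap K Z (z : K) := by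
    rw [div_pow, hβ, map_mul, map_pow, mul_div_assoc, div_self (pow_ne_zero _ hc), mul_one]
  have htop := Algebra.adjoin_root_eq_top_of_isSplittingField (kum_nonempty hζ) (kum_irred z hz) hα
  have hfix : σ (β / algebraMap K Z (c : K)) = β / algebraMap K Z (c : K) := by
    rw [map_div₀, h, AlgEquiv.commutes]
  apply AlgEquiv.coe_toAlgHom_injective
  apply AlgHom.ext_of_adjoin_eq_top htop
  intro x hx
  rw [Set.mem_singleton_iff] at hx
  subst hx
  simpa using hfix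

/-- an automorphism multiplies a `p`-th root of an element of `K` by a power of `ζ` -/
theorem kum_exists_pow (hζ : IsPrimitiveRoot ζ p) (a : K) (β : Z) (hβ0 : β ≠ 0)
    (hβ : β ^ p = algebraMap K Z a) (σ : Z ≃ₐ[K] Z) :
    ∃ k : ℕ, σ β = algebraMap K Z ((ζ : K) ^ k) * β := by
  have hζZ : IsPrimitiveRoot (algebraMap K Z (ζ : K)) p :=
    (kum_prim hζ).map_of_injective (algebraMap K Z).injective
  have h1 : (σ β / β) ^ p = 1 := by
    rw [div_pow, ← map_pow, hβ, AlgEquiv.commutes, div_self]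
    rw [← hβ]; exact pow_ne_zero _ hβ0
  obtain ⟨k, -, hk⟩ := hζZ.eq_pow_of_pow_eq_one h1
  refine ⟨k, ?_⟩
  rw [map_pow, hk, div_mul_cancel₀ _ hβ0]


/-- scaling `z` by a `p`-th power to an integer prime to `v` -/
theorem kum_exists_scale (v : Pl K) (h : (p : ℤ) ∣ ord v z) :
    ∃ (c : Kˣ) (a : 𝓞 K), a ∉ v.asIdeal ∧ (z : K) * (c : K) ^ p = a := by
  classical
  obtain ⟨m, hm⟩ := h
  obtain ⟨c₀, hc₀⟩ := exists_ord_eq {v} (fun _ => -m)
  have hc₀' : ord v c₀ = -m := hc₀ v (by simp)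
  have h0 : ord v (z * c₀ ^ p) = 0 := by
    rw [ord_mul, ord_pow, hc₀', hm]; ring
  obtain ⟨a, d, ha, hd, had⟩ := exists_frac v _ h0
  have hd0 : (d : K) ≠ 0 := by
    intro h0
    apply hd
    have : d = 0 := by exact_mod_cast h0
    rw [this]; exact zero_mem _
  refine ⟨c₀ * Units.mk0 (d : K) hd0, a * d ^ (p - 1), ?_, ?_⟩
  · intro hmem
    rcases v.isPrime.mem_or_mem hmem with h1 | h1
    · exact ha h1
    · exact hd (v.isPrime.mem_of_pow_mem _ h1)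
  · have hp1 : p = (p - 1) + 1 := by have := (Fact.out : p.Prime).pos; omega
    push_cast at had ⊢
    rw [mul_pow, ← mul_assoc, had]
    conv_lhs => rw [hp1, pow_succ]
    rw [Units.val_mk0]
    field_simp

/-- the integral Kummer generator attached to a scaling -/
theorem kum_exists_gen (hζ : IsPrimitiveRoot ζ p) (hz : z ∉ pows K p) (c : Kˣ) (a : 𝓞 K)
    (hca : (z : K) * (c : K) ^ p = a) :
    ∃ B : 𝓞 Z, B ^ p = algebraMap (𝓞 K) (𝓞 Z) a ∧ (∀ σ : Z ≃ₐ[K] Z, gOZ σ B = B → σ = 1) ∧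
      ∀ σ : Z ≃ₐ[K] Z, ∃ k : ℕ, gOZ σ B = algebraMap (𝓞 K) (𝓞 Z) (ζ ^ k) * B := by
  have hp := (Fact.out : p.Prime)
  obtain ⟨b, hb⟩ := kum_exists_root (Z := Z) (p := p) z
  have hb' : (b : Z) ^ p = algebraMap K Z (z : K) := by
    have := congrArg (fun u : Zˣ => (u : Z)) hb
    simpa using this
  set β : Z := (b : Z) * algebraMap K Z (c : K) with hβdef
  have hβ : β ^ p = algebraMap K Z ((z : K) * (c : K) ^ p) := by
    rw [hβdef, mul_pow, hb', map_mul, map_pow]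
  have hβ0 : β ≠ 0 := mul_ne_zero b.ne_zero ((_root_.map_ne_zero _).mpr c.ne_zero)
  have hint : IsIntegral ℤ β := by
    refine IsIntegral.of_pow hp.pos ?_
    rw [hβ, hca]
    exact (RingOfIntegers.isIntegral_coe a).map (IsScalarTower.toAlgHom ℤ K Z)
  refine ⟨⟨β, hint⟩, ?_, ?_, ?_⟩
  · apply RingOfIntegers.ext
    change β ^ p = algebraMap K Z (a : K)
    rw [hβ, hca]
  · intro σ hσ
    refine kum_eq_one z hζ hz c β hβ σ ?_
    exact congrArg (fun u : 𝓞 Z => (u : Z)) hσ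
  · intro σ
    obtain ⟨k, hk⟩ := kum_exists_pow hζ _ β hβ0 hβ σ
    refine ⟨k, ?_⟩
    apply RingOfIntegers.ext
    change σ β = algebraMap K Z (((ζ ^ k : 𝓞 K)) : K) * β
    rw [hk]; simp

theorem kum_mem_below (w : Pl Z) (a : 𝓞 K) :
    a ∈ (below (K := K) w).asIdeal ↔ algebraMap (𝓞 K) (𝓞 Z) a ∈ w.asIdeal := Iff.rfl

/-- tame core: an automorphism with `σ B ≡ B mod w` is trivial -/
theorem kum_core (hζ : IsPrimitiveRoot ζ p) (w : Pl Z) (hv : Tame p (below (K := K) w))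
    (a : 𝓞 K) (ha : a ∉ (below (K := K) w).asIdeal) (B : 𝓞 Z)
    (hB : B ^ p = algebraMap (𝓞 K) (𝓞 Z) a) (h1 : ∀ σ : Z ≃ₐ[K] Z, gOZ σ B = B → σ = 1)
    (h2 : ∀ σ : Z ≃ₐ[K] Z, ∃ k : ℕ, gOZ σ B = algebraMap (𝓞 K) (𝓞 Z) (ζ ^ k) * B)
    (σ : Z ≃ₐ[K] Z) (h : gOZ σ B - B ∈ w.asIdeal) : σ = 1 := by
  obtain ⟨k, hk⟩ := h2 σ
  have hBw : B ∉ w.asIdeal := by
    intro hBw
    apply ha
    rw [kum_mem_below, ← hB]
    exact Ideal.pow_mem_of_mem _ hBw _ (Fact.out : p.Prime).pos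
  have h3 : algebraMap (𝓞 K) (𝓞 Z) (ζ ^ k - 1) * B ∈ w.asIdeal := by
    have : algebraMap (𝓞 K) (𝓞 Z) (ζ ^ k - 1) * B = gOZ σ B - B := by
      rw [hk, map_sub, map_one]; ring
    rw [this]; exact h
  have h4 : ζ ^ k - 1 ∈ (below (K := K) w).asIdeal := by
    rw [kum_mem_below]
    exact (w.isPrime.mem_or_mem h3).resolve_right hBw
  have h5 : (Ideal.Quotient.mk (below (K := K) w).asIdeal ζ) ^ k = 1 := by
    rw [← map_pow, ← sub_eq_zero, ← map_one (Ideal.Quotient.mk _), ← map_sub,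
      Ideal.Quotient.eq_zero_iff_mem]
    exact h4
  have h6 : p ∣ k := (resaux_prim hζ hv).dvd_of_pow_eq_one _ h5
  apply h1
  rw [hk, (hζ.pow_eq_one_iff_dvd k).mpr h6, map_one, one_mul]

/-- tame, `p ∣ ord v z`: unramified -/
theorem D1 (hζ : IsPrimitiveRoot ζ p) (hz : z ∉ pows K p) (v : Pl K) (hv : Tame p v)
    (h : (p : ℤ) ∣ ord v z) : IsUnram Z v := by
  have := kummer_isGalois (Z := Z) z hζ
  obtain ⟨w, rfl⟩ := fiber_nonempty (Z := Z) v
  obtain ⟨c, a, ha, hca⟩ := kum_exists_scale z _ h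
  obtain ⟨B, hB, h1, h2⟩ := kum_exists_gen (Z := Z) z hζ hz c a hca
  refine isUnram_of_inertia (kummer_finrank z hζ hz) w fun σ hσ => ?_
  exact kum_core hζ w hv a ha B hB h1 h2 σ (hσ B)


theorem kum_res_scale (v : Pl K) (c : Kˣ) : res p ζ v (z * c ^ p) = res p ζ v z := by
  rw [res_mul, res_pow_p, add_zero]

/-- tame, `z` a local `p`-th power: split -/
theorem D2 (hζ : IsPrimitiveRoot ζ p) (hz : z ∉ pows K p) (v : Pl K) (hv : Tame p v)
    (h : z ∈ tamePow p ζ v) : IsSplit Z v := by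
  have hp := (Fact.out : p.Prime)
  have := kummer_isGalois (Z := Z) z hζ
  obtain ⟨w, rfl⟩ := fiber_nonempty (Z := Z) v
  obtain ⟨c, a, ha, hca⟩ := kum_exists_scale z _ h.1
  obtain ⟨B, hB, h1, h2⟩ := kum_exists_gen (Z := Z) z hζ hz c a hca
  have hres : res p ζ (below (K := K) w) (z * c ^ p) = 0 := by
    rw [kum_res_scale]; exact h.2
  obtain ⟨c₀, hc₀⟩ := (res_eq_zero_iff hζ hv (z * c ^ p) a (by simpa using hca) ha).mp hres
  -- `B ^ p - c₀ ^ p ∈ w`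
  have h3 : B ^ p - (algebraMap (𝓞 K) (𝓞 Z) c₀) ^ p ∈ w.asIdeal := by
    rw [hB, ← map_pow, ← map_sub]; exact hc₀
  have hζZ : IsPrimitiveRoot (algebraMap (𝓞 K) (𝓞 Z) ζ) p :=
    hζ.map_of_injective (RingOfIntegers.algebraMap.injective K Z)
  rw [hζZ.pow_sub_pow_eq_prod_sub_mul _ _ hp.pos] at h3
  obtain ⟨μ, hμ, h4⟩ := (w.isPrime.prod_mem_iff).mp h3
  obtain ⟨i, -, rfl⟩ := hζZ.eq_pow_of_pow_eq_one
    ((Polynomial.mem_nthRootsFinset hp.pos _).mp hμ)
  refine isSplit_of_stabilizer (kummer_finrank z hζ hz) w fun σ hσ => ?_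
  refine kum_core hζ w hv a ha B hB h1 h2 σ ?_
  set a' : 𝓞 K := ζ ^ i * c₀ with ha'
  have h5 : B - algebraMap (𝓞 K) (𝓞 Z) a' ∈ w.asIdeal := by
    rw [ha', map_mul, map_pow]; exact h4
  have h6 : gOZ σ (B - algebraMap (𝓞 K) (𝓞 Z) a') ∈ (gPl σ w).asIdeal := by
    have : gOZ σ.symm (gOZ σ (B - algebraMap (𝓞 K) (𝓞 Z) a')) = B - algebraMap (𝓞 K) (𝓞 Z) a' := by
      apply RingOfIntegers.ext
      simp
    rw [mem_gPl, this]; exact h5
  rw [hσ] at h6
  have h7 : gOZ σ (algebraMap (𝓞 K) (𝓞 Z) a') = algebraMap (𝓞 K) (𝓞 Z) a' := by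
    apply RingOfIntegers.ext
    change σ (algebraMap K Z (a' : K)) = algebraMap K Z (a' : K)
    exact σ.commutes _
  rw [map_sub, h7] at h6
  have := sub_mem h6 h5
  simpa using this

/-- converse of `D2` for units -/
theorem D2' (hζ : IsPrimitiveRoot ζ p) (hz : z ∉ pows K p) (v : Pl K) (hv : Tame p v)
    (h0 : ord v z = 0) (hs : IsSplit Z v) : res p ζ v z = 0 := by
  have hp := (Fact.out : p.Prime)
  have := kummer_isGalois (Z := Z) z hζ
  obtain ⟨w, rfl⟩ := fiber_nonempty (Z := Z) v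
  obtain ⟨c, a, ha, hca⟩ := kum_exists_scale (p := p) z (below (K := K) w) (by rw [h0]; exact dvd_zero _)
  obtain ⟨B, hB, -, -⟩ := kum_exists_gen (Z := Z) z hζ hz c a hca
  have hN := hs.absNorm_eq (kummer_finrank z hζ hz) w rfl
  obtain ⟨a₀, ha₀⟩ := exists_congr_of_absNorm_eq w hN B
  rw [← kum_res_scale z _ c, res_eq_zero_iff hζ hv (z * c ^ p) a (by simpa using hca) ha]
  refine ⟨a₀, ?_⟩
  rw [kum_mem_below, map_sub, map_pow, ← hB]
  exact Ideal.mem_of_dvd _ (sub_dvd_pow_sub_pow _ _ _) ha₀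

/-- `p ∤ ord v z`: ramified -/
theorem D4 (_hζ : IsPrimitiveRoot ζ p) (_hz : z ∉ pows K p) (v : Pl K)
    (h : ¬ (p : ℤ) ∣ ord v z) : ¬ IsUnram Z v := by
  intro hu
  obtain ⟨w, rfl⟩ := fiber_nonempty (Z := Z) v
  obtain ⟨b, hb⟩ := kum_exists_root (Z := Z) (p := p) z
  apply h
  have h1 := ord_upU w z
  rw [hu w rfl, ← hb, ord_pow] at h1
  exact ⟨ord w b, by simpa using h1.symm⟩

theorem kum_toInteger (hζ : IsPrimitiveRoot ζ p) : (kum_prim hζ).toInteger = ζ :=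
  RingOfIntegers.ext rfl

theorem kum_lam_ne_zero (hζ : IsPrimitiveRoot ζ p) : ζ - 1 ≠ 0 :=
  sub_ne_zero.mpr (hζ.ne_one (Fact.out : p.Prime).one_lt)

/-- `p = (ζ - 1)^(p-1) ε` with `ε ≡ -1 mod (ζ - 1)` -/
theorem kum_eps (hζ : IsPrimitiveRoot ζ p) :
    ∃ ε : 𝓞 K, (p : 𝓞 K) = (ζ - 1) ^ (p - 1) * ε ∧ (ζ - 1) ∣ ε + 1 := by
  have hp := (Fact.out : p.Prime)
  have hass := IsCyclotomicExtension.Rat.associated_zeta_sub_one_pow_prime p (kum_prim hζ)
  rw [kum_toInteger hζ] at hass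
  obtain ⟨ε, hε⟩ := hass
  obtain ⟨r, h1, s, hs⟩ := kumaux_one_add_pow p (ζ - 1)
  refine ⟨ε, hε.symm, ?_⟩
  have hp1 : p = (p - 1) + 1 := by have := hp.pos; omega
  have h2 : (ζ - 1) ^ p * (1 + ε * r) = 0 := by
    have e : (1 + (ζ - 1)) ^ p = 1 := by rw [add_sub_cancel, hζ.pow_eq_one]
    rw [e, ← hε] at h1
    have e2 : (ζ - 1) ^ p = (ζ - 1) ^ (p - 1) * (ζ - 1) := by
      conv_lhs => rw [hp1, pow_succ]
    rw [e2] at h1 ⊢
    linear_combination -h1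
  have h3 : 1 + (ε : 𝓞 K) * r = 0 :=
    (mul_eq_zero.mp h2).resolve_left (pow_ne_zero _ (kum_lam_ne_zero hζ))
  refine ⟨-ε * s, ?_⟩
  have : r = 1 + (ζ - 1) * s := by rw [← hs]; ring
  rw [this] at h3
  linear_combination h3

section Wild

variable [IsCyclotomicExtension {p} ℚ K]

theorem kum_wild_ideal (hζ : IsPrimitiveRoot ζ p) (v : Pl K) (hv : ¬ Tame p v) :
    v.asIdeal = Ideal.span {ζ - 1} := by
  have hp := (Fact.out : p.Prime)
  have hprime : Prime (ζ - 1) := by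
    have := (kum_prim hζ).zeta_sub_one_prime'
    rwa [kum_toInteger hζ] at this
  have hpv : (p : 𝓞 K) ∈ v.asIdeal := not_not.mp hv
  have hass := IsCyclotomicExtension.Rat.associated_zeta_sub_one_pow_prime p (kum_prim hζ)
  rw [kum_toInteger hζ] at hass
  have h1 : (ζ - 1) ^ (p - 1) ∈ v.asIdeal := Ideal.mem_of_dvd _ hass.symm.dvd hpv
  have h2 : ζ - 1 ∈ v.asIdeal := v.isPrime.mem_of_pow_mem _ h1
  have hP : (Ideal.span {ζ - 1}).IsPrime :=
    (Ideal.span_singleton_prime hprime.ne_zero).mpr hprime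
  have hmax : (Ideal.span {ζ - 1}).IsMaximal :=
    hP.isMaximal (by simpa using hprime.ne_zero)
  exact (hmax.eq_of_le v.isPrime.ne_top ((Ideal.span_singleton_le_iff_mem _).mpr h2)).symm

end Wild

/-- scaling `z` by a `p`-th power to an integer `≡ 1 mod v ^ n` -/
theorem kum_exists_scale_wild (v : Pl K) (n : ℕ) (hn : n ≠ 0) (h : z ∈ pows K p ⊔ Ulev v n) :
    ∃ (c : Kˣ) (a : 𝓞 K), a - 1 ∈ v.asIdeal ^ n ∧ (z : K) * (c : K) ^ p = a := by
  have hp := (Fact.out : p.Prime)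
  obtain ⟨y, ⟨c₁, rfl⟩, u, hu, rfl⟩ := Subgroup.mem_sup.mp h
  have hu0 := ord_eq_zero_of_mem_Ulev hu
  obtain ⟨a₁, d, ha₁, hd, had⟩ := exists_frac v u hu0
  have hd0 : (d : K) ≠ 0 := by
    intro h0
    apply hd
    have : d = 0 := by exact_mod_cast h0
    rw [this]; exact zero_mem _
  -- `a₁ - d ∈ v ^ n`
  have h1 : a₁ - d ∈ v.asIdeal ^ n := by
    have h2 := hu.2
    have hvd : v.valuation K (d : K) = 1 := by
      have := (valuation_eq_one_iff v (Units.mk0 (d : K) hd0)).mpr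
        ((ord_eq_zero_iff v _ d rfl).mpr hd)
      simpa using this
    have e : (u : K) - 1 = ((a₁ - d : 𝓞 K) : K) / (d : K) := by
      rw [had]; push_cast; field_simp
    rw [e, map_div₀, hvd, div_one] at h2
    rw [← HeightOneSpectrum.intValuation_le_pow_iff_mem, ← HeightOneSpectrum.valuation_of_algebraMap (K := K)]
    exact h2
  -- inverse of `d` modulo `v ^ n`
  obtain ⟨d', hd'⟩ : ∃ d' : 𝓞 K, d * d' - 1 ∈ v.asIdeal ^ n := by
    have hmax : v.asIdeal.IsMaximal := v.isMaximal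
    obtain ⟨e, i, hi, hei⟩ := hmax.exists_inv hd
    refine ⟨e * ∑ j ∈ Finset.range n, (1 - e * d) ^ j, ?_⟩
    have h3 : (1 - e * d) ^ n ∈ v.asIdeal ^ n := by
      apply Ideal.pow_mem_pow
      have : 1 - e * d = i := by rw [← hei]; ring
      rw [this]; exact hi
    have h4 := mul_neg_geom_sum (1 - e * d) n
    have : d * (e * ∑ j ∈ Finset.range n, (1 - e * d) ^ j) - 1 = - (1 - e * d) ^ n := by
      linear_combination h4
    rw [this]; exact neg_mem h3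
  have hle : v.asIdeal ^ n ≤ v.asIdeal := Ideal.pow_le_self hn
  have hdd : d * d' ∉ v.asIdeal := by
    intro hmem
    have := sub_mem hmem (hle hd')
    rw [sub_sub_cancel] at this
    exact v.isPrime.ne_top ((Ideal.eq_top_iff_one _).mpr this)
  have hdd0 : ((d * d' : 𝓞 K) : K) ≠ 0 := by
    intro h0
    apply hdd
    have : d * d' = 0 := by exact_mod_cast h0
    rw [this]; exact zero_mem _
  refine ⟨c₁⁻¹ * Units.mk0 _ hdd0, a₁ * d' * (d * d') ^ (p - 1), ?_, ?_⟩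
  · rw [← Ideal.Quotient.eq_zero_iff_mem, map_sub, sub_eq_zero] at h1 hd' ⊢
    rw [map_mul, map_mul, map_pow, h1, ← map_mul, hd', map_one, one_pow, mul_one]
  · have hp1 : p = (p - 1) + 1 := by have := hp.pos; omega
    have hc1 : (c₁ : K) ≠ 0 := c₁.ne_zero
    simp only [powMonoidHom_apply, Units.val_mul, Units.val_pow_eq_pow_val, Units.val_inv_eq_inv_val,
      Units.val_mk0, had]
    push_cast
    rw [mul_pow, inv_pow]
    conv_lhs => rw [hp1, pow_succ ((d : K) * (d' : K))]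
    rw [← hp1]
    field_simp


/-- integrality of `Θ = (B - 1)/(ζ - 1)` and its equation -/
theorem kum_exists_theta (hζ : IsPrimitiveRoot ζ p) (ε t a : 𝓞 K)
    (hε : (p : 𝓞 K) = (ζ - 1) ^ (p - 1) * ε) (ha : a = 1 + (ζ - 1) ^ p * t) (B : 𝓞 Z)
    (hB : B ^ p = algebraMap (𝓞 K) (𝓞 Z) a) :
    ∃ Θ u : 𝓞 Z, B = 1 + algebraMap (𝓞 K) (𝓞 Z) (ζ - 1) * Θ ∧
      Θ ^ p + algebraMap (𝓞 K) (𝓞 Z) ε * u * Θ = algebraMap (𝓞 K) (𝓞 Z) t ∧
      algebraMap (𝓞 K) (𝓞 Z) (ζ - 1) ∣ u - 1 := by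
  have hp := (Fact.out : p.Prime)
  set φ := algebraMap (𝓞 K) (𝓞 Z) with hφ
  have hφinj : Function.Injective φ := RingOfIntegers.algebraMap.injective K Z
  set l : 𝓞 Z := φ (ζ - 1) with hl
  have hl0 : l ≠ 0 := by
    rw [hl, Ne, map_eq_zero_iff φ hφinj]; exact kum_lam_ne_zero hζ
  have hp1 : p = (p - 1) + 1 := by have := hp.pos; omega
  obtain ⟨u, hu, hux⟩ := kumaux_one_add_pow p (B - 1)
  rw [add_sub_cancel, hB, ha] at hu
  have hpZ : (p : 𝓞 Z) = l ^ (p - 1) * φ ε := by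
    rw [hl, ← map_pow, ← map_mul, ← hε, map_natCast]
  -- the equation `x ^ p + l ^ p * (ε u) * (x / l) = l ^ p t`
  have hlp : l ^ p = l ^ (p - 1) * l := by conv_lhs => rw [hp1, pow_succ]
  have h1 : (B - 1) ^ p + l ^ (p - 1) * (φ ε * u) * (B - 1) = l ^ p * φ t := by
    rw [map_add, map_one, map_mul, map_pow, ← hl, hpZ] at hu
    linear_combination -hu
  -- integrality
  set ι := algebraMap (𝓞 Z) Z with hι
  have hιinj : Function.Injective ι := IsFractionRing.injective (𝓞 Z) Z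
  have hlZ : ι l ≠ 0 := by
    rw [Ne, map_eq_zero_iff ι hιinj]; exact hl0
  have hX : ι (B - 1) = ι l * (ι (B - 1) / ι l) := by field_simp
  have hint : IsIntegral (𝓞 Z) (ι (B - 1) / ι l) := by
    refine ⟨X ^ p + (C (φ ε * u) * X - C (φ t)), ?_, ?_⟩
    · apply monic_X_pow_add
      refine lt_of_le_of_lt (degree_sub_le _ _) (max_lt ?_ ?_)
      · refine lt_of_le_of_lt (degree_C_mul_X_le _) ?_
        exact_mod_cast hp.one_lt
      · refine lt_of_le_of_lt degree_C_le ?_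
        exact_mod_cast hp.pos
    · have h2 := congrArg ι h1
      simp only [map_add, map_mul, map_pow] at h2
      have hlp' := congrArg ι hlp
      simp only [map_mul, map_pow] at hlp'
      simp only [eval₂_add, eval₂_sub, eval₂_mul, eval₂_pow, eval₂_X, eval₂_C, ← hι, map_mul]
      generalize ι (B - 1) / ι l = θ at hX ⊢
      rw [hX] at h2
      apply mul_left_cancel₀ (pow_ne_zero p hlZ)
      rw [mul_zero]
      linear_combination h2 + (ι (φ ε) * ι u * θ) * hlp'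
  obtain ⟨Θ, hΘ⟩ := IsIntegrallyClosed.isIntegral_iff.mp hint
  have hBΘ : B - 1 = l * Θ := by
    apply hιinj
    rw [map_mul, hΘ]
    exact hX
  refine ⟨Θ, u, by rw [← hBΘ]; ring, ?_, ?_⟩
  · rw [hBΘ, mul_pow] at h1
    apply mul_left_cancel₀ (pow_ne_zero p hl0)
    rw [← h1, hlp]; ring
  · rw [hBΘ] at hux
    exact (Dvd.intro _ rfl).trans hux


theorem kum_gOZ_algebraMap (σ : Z ≃ₐ[K] Z) (a : 𝓞 K) :
    gOZ σ (algebraMap (𝓞 K) (𝓞 Z) a) = algebraMap (𝓞 K) (𝓞 Z) a := by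
  apply RingOfIntegers.ext
  change σ (algebraMap K Z (a : K)) = algebraMap K Z (a : K)
  exact σ.commutes _

theorem kum_gOZ_mem (σ : Z ≃ₐ[K] Z) (w : Pl Z) (hσ : gPl σ w = w) (y : 𝓞 Z)
    (hy : y ∈ w.asIdeal) : gOZ σ y ∈ w.asIdeal := by
  have h6 : gOZ σ y ∈ (gPl σ w).asIdeal := by
    have : gOZ σ.symm (gOZ σ y) = y := by
      apply RingOfIntegers.ext
      simp
    rw [mem_gPl, this]; exact hy
  rwa [hσ] at h6

/-- action of an automorphism on `Θ` modulo a prime containing `ζ - 1` -/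
theorem kum_sigma_theta (hζ : IsPrimitiveRoot ζ p) (w : Pl Z)
    (hw : algebraMap (𝓞 K) (𝓞 Z) (ζ - 1) ∈ w.asIdeal) (B Θ : 𝓞 Z)
    (hBΘ : B = 1 + algebraMap (𝓞 K) (𝓞 Z) (ζ - 1) * Θ) (σ : Z ≃ₐ[K] Z) (k : ℕ)
    (hk : gOZ σ B = algebraMap (𝓞 K) (𝓞 Z) (ζ ^ k) * B) :
    gOZ σ Θ - Θ - (k : 𝓞 Z) ∈ w.asIdeal := by
  set φ := algebraMap (𝓞 K) (𝓞 Z) with hφ
  have hφinj : Function.Injective φ := RingOfIntegers.algebraMap.injective K Z
  have hl0 : φ (ζ - 1) ≠ 0 := by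
    rw [Ne, map_eq_zero_iff φ hφinj]; exact kum_lam_ne_zero hζ
  have h1 : gOZ σ B = 1 + φ (ζ - 1) * gOZ σ Θ := by
    conv_lhs => rw [hBΘ]
    rw [map_add, map_one, map_mul, kum_gOZ_algebraMap]
  have h2 := mul_geom_sum (φ ζ) k
  have h3 : gOZ σ Θ = ∑ i ∈ Finset.range k, φ ζ ^ i + φ ζ ^ k * Θ := by
    apply mul_left_cancel₀ hl0
    rw [h1, hBΘ, map_pow] at hk
    rw [map_sub, map_one] at hk ⊢
    linear_combination hk - h2
  have h4 : Ideal.Quotient.mk w.asIdeal (φ ζ) = 1 := by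
    rw [← sub_eq_zero, ← map_one (Ideal.Quotient.mk w.asIdeal), ← map_sub,
      Ideal.Quotient.eq_zero_iff_mem]
    rw [map_sub, map_one] at hw
    exact hw
  rw [← Ideal.Quotient.eq_zero_iff_mem, h3]
  simp [h4]

theorem kum_dvd_of_mem (w : Pl Z) (hpw : (p : 𝓞 Z) ∈ w.asIdeal) (k : ℕ)
    (hk : (k : 𝓞 Z) ∈ w.asIdeal) : p ∣ k := by
  have hp := (Fact.out : p.Prime)
  by_contra h
  have hcop : Nat.Coprime p k := (Nat.Prime.coprime_iff_not_dvd hp).mpr h
  obtain ⟨a, b, hab⟩ := Nat.isCoprime_iff_coprime.mpr hcop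
  have : (1 : 𝓞 Z) ∈ w.asIdeal := by
    have e : (1 : 𝓞 Z) = (a : 𝓞 Z) * p + (b : 𝓞 Z) * k := by
      exact_mod_cast congrArg (Int.cast : ℤ → 𝓞 Z) hab.symm
    rw [e]; exact add_mem (Ideal.mul_mem_left _ _ hpw) (Ideal.mul_mem_left _ _ hk)
  exact w.isPrime.ne_top ((Ideal.eq_top_iff_one _).mpr this)

/-- wild core: an automorphism with `σ Θ ≡ Θ mod w` is trivial -/
theorem kum_wild_core (hζ : IsPrimitiveRoot ζ p) (w : Pl Z)
    (hw : algebraMap (𝓞 K) (𝓞 Z) (ζ - 1) ∈ w.asIdeal) (hpw : (p : 𝓞 Z) ∈ w.asIdeal) (B Θ : 𝓞 Z)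
    (hBΘ : B = 1 + algebraMap (𝓞 K) (𝓞 Z) (ζ - 1) * Θ)
    (h1 : ∀ σ : Z ≃ₐ[K] Z, gOZ σ B = B → σ = 1)
    (h2 : ∀ σ : Z ≃ₐ[K] Z, ∃ k : ℕ, gOZ σ B = algebraMap (𝓞 K) (𝓞 Z) (ζ ^ k) * B)
    (σ : Z ≃ₐ[K] Z) (h : gOZ σ Θ - Θ ∈ w.asIdeal) : σ = 1 := by
  obtain ⟨k, hk⟩ := h2 σ
  have h3 := kum_sigma_theta hζ w hw B Θ hBΘ σ k hk
  have h4 : (k : 𝓞 Z) ∈ w.asIdeal := by
    have := sub_mem h h3
    rwa [sub_sub_cancel] at this
  have h6 : p ∣ k := kum_dvd_of_mem w hpw k h4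
  apply h1
  rw [hk, (hζ.pow_eq_one_iff_dvd k).mpr h6, map_one, one_mul]

section Wild

variable [IsCyclotomicExtension {p} ℚ K]

/-- wild place of `ℚ(ζ_p)`, `z ≡ x^p mod (1-ζ)^p`: unramified -/
theorem D3' (_hp : p ≠ 2) (hζ : IsPrimitiveRoot ζ p) (hz : z ∉ pows K p) (v : Pl K)
    (hv : ¬ Tame p v) (h : z ∈ primaryAt p v) : IsUnram Z v := by
  have hp := (Fact.out : p.Prime)
  have := kummer_isGalois (Z := Z) z hζ
  obtain ⟨w, rfl⟩ := fiber_nonempty (Z := Z) v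
  have hideal := kum_wild_ideal hζ _ hv
  obtain ⟨c, a, ha, hca⟩ := kum_exists_scale_wild z _ p hp.ne_zero h
  rw [hideal, Ideal.span_singleton_pow, Ideal.mem_span_singleton] at ha
  obtain ⟨t, ht⟩ := ha
  obtain ⟨B, hB, h1, h2⟩ := kum_exists_gen (Z := Z) z hζ hz c a hca
  obtain ⟨ε, hε, -⟩ := kum_eps hζ
  obtain ⟨Θ, u, hBΘ, -, -⟩ := kum_exists_theta hζ ε t a hε (by rw [← ht]; ring) B hB
  have hlw : algebraMap (𝓞 K) (𝓞 Z) (ζ - 1) ∈ w.asIdeal := by
    rw [← kum_mem_below, hideal]; exact Ideal.mem_span_singleton_self _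
  have hpw : (p : 𝓞 Z) ∈ w.asIdeal := by
    have := (kum_mem_below w (p : 𝓞 K)).mp (not_not.mp hv)
    rwa [map_natCast] at this
  refine isUnram_of_inertia (kummer_finrank z hζ hz) w fun σ hσ => ?_
  exact kum_wild_core hζ w hlw hpw B Θ hBΘ h1 h2 σ (hσ Θ)

/-- wild place of `ℚ(ζ_p)`, `z ≡ x^p mod (1-ζ)^(p+1)`: split -/
theorem D3 (_hp : p ≠ 2) (hζ : IsPrimitiveRoot ζ p) (hz : z ∉ pows K p) (v : Pl K)
    (hv : ¬ Tame p v) (h : z ∈ wildPow p v) : IsSplit Z v := by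
  have hp := (Fact.out : p.Prime)
  have := kummer_isGalois (Z := Z) z hζ
  obtain ⟨w, rfl⟩ := fiber_nonempty (Z := Z) v
  have hideal := kum_wild_ideal hζ _ hv
  obtain ⟨c, a, ha, hca⟩ := kum_exists_scale_wild z _ (p + 1) (Nat.succ_ne_zero p) h
  rw [hideal, Ideal.span_singleton_pow, Ideal.mem_span_singleton] at ha
  obtain ⟨t, ht⟩ := ha
  obtain ⟨B, hB, h1, h2⟩ := kum_exists_gen (Z := Z) z hζ hz c a hca
  obtain ⟨ε, hε, hε1⟩ := kum_eps hζ
  obtain ⟨Θ, u, hBΘ, hΘ, hu⟩ := kum_exists_theta hζ ε ((ζ - 1) * t) a hε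
    (by rw [← mul_assoc, ← pow_succ, ← ht]; ring) B hB
  have hlw : algebraMap (𝓞 K) (𝓞 Z) (ζ - 1) ∈ w.asIdeal := by
    rw [← kum_mem_below, hideal]; exact Ideal.mem_span_singleton_self _
  have hpw : (p : 𝓞 Z) ∈ w.asIdeal := by
    have := (kum_mem_below w (p : 𝓞 K)).mp (not_not.mp hv)
    rwa [map_natCast] at this
  -- `Θ ≡ j mod w`
  have := w.isPrime
  have e1 : Ideal.Quotient.mk w.asIdeal (algebraMap (𝓞 K) (𝓞 Z) ε) = -1 := by
    rw [eq_neg_iff_add_eq_zero, ← map_one (Ideal.Quotient.mk w.asIdeal),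
      ← map_one (algebraMap (𝓞 K) (𝓞 Z)), ← map_add, ← map_add, Ideal.Quotient.eq_zero_iff_mem]
    exact Ideal.mem_of_dvd _ (map_dvd _ hε1) hlw
  have e2 : Ideal.Quotient.mk w.asIdeal u = 1 := by
    rw [← sub_eq_zero, ← map_one (Ideal.Quotient.mk w.asIdeal), ← map_sub,
      Ideal.Quotient.eq_zero_iff_mem]
    exact Ideal.mem_of_dvd _ hu hlw
  have e3 : Ideal.Quotient.mk w.asIdeal (algebraMap (𝓞 K) (𝓞 Z) ((ζ - 1) * t)) = 0 := by
    rw [Ideal.Quotient.eq_zero_iff_mem, map_mul]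
    exact Ideal.mul_mem_right _ _ hlw
  have e4 : (Ideal.Quotient.mk w.asIdeal Θ) ^ p = Ideal.Quotient.mk w.asIdeal Θ := by
    have := congrArg (Ideal.Quotient.mk w.asIdeal) hΘ
    rw [map_add, map_mul, map_mul, map_pow, e1, e2, e3] at this
    linear_combination this
  obtain ⟨j, hj⟩ := kumaux_exists_natCast p
    (by rw [← map_natCast (Ideal.Quotient.mk w.asIdeal), Ideal.Quotient.eq_zero_iff_mem]; exact hpw)
    _ e4
  have hj' : Θ - (j : 𝓞 Z) ∈ w.asIdeal := by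
    rw [← Ideal.Quotient.eq_zero_iff_mem, map_sub, hj, map_natCast, sub_self]
  refine isSplit_of_stabilizer (kummer_finrank z hζ hz) w fun σ hσ => ?_
  refine kum_wild_core hζ w hlw hpw B Θ hBΘ h1 h2 σ ?_
  have h6 := kum_gOZ_mem σ w hσ _ hj'
  rw [map_sub, map_natCast] at h6
  have := sub_mem h6 hj'
  simpa using this

end Wild

end Fermat.Agent.S14
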