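import Fermat.Agent.S14.T1
import Fermat.Agent.S14.Kummer

/-!
# S14: the first inequality for Kummer extensions of `K = ℚ(ζ_p)`, in character form.
-/

set_option autoImplicit false

namespace Fermat.Agent.S14

open IsDedekindDomain NumberField

variable {K : Type*} [Field K] [NumberField K] {p : ℕ} [Fact p.Prime]
  [IsCyclotomicExtension {p} ℚ K] {ζ : 𝓞 K}

/-- **First inequality** for `Z = K(z^(1/p))`, `z` not a `p`-th power and primary at the prime
above `p` (so that `Z/K` is ramified exactly at the places with `p ∤ ord v z`).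
There is a nonzero "idele class character" `(c, φ)` which is trivial on principal ideles:
`c` lives on the ramified places (residue symbols), `φ` on the unramified ones (valuations),
and `φ` vanishes at the places which split in `Z`. -/
theorem KT1 (hp : p ≠ 2) (hζ : IsPrimitiveRoot ζ p) (z : Kˣ) (hz : z ∉ pows K p)
    (hprim : ∀ v : Pl K, ¬ Tame p v → z ∈ primaryAt p v) :
    ∃ c φ : Pl K → ZMod p,
      (∀ v, (p : ℤ) ∣ ord v z → c v = 0) ∧
      (∀ v, ¬ (p : ℤ) ∣ ord v z → φ v = 0) ∧
      (∀ v, z ∈ locPow p ζ v → φ v = 0) ∧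
      (c ≠ 0 ∨ φ ≠ 0) ∧
      ∀ x : Kˣ, (∀ v, ¬ (p : ℤ) ∣ ord v z → ord v x = 0) → rpair p ζ c x + pair p φ x = 0 := by
  let Z := (Polynomial.X ^ p - Polynomial.C (z : K) : Polynomial K).SplittingField
  haveI : CharZero Z := charZero_of_injective_algebraMap (algebraMap K Z).injective
  haveI : NumberField Z := NumberField.of_module_finite K Z
  haveI : IsGalois K Z := kummer_isGalois z hζ
  have hdeg : Module.finrank K Z = p := kummer_finrank z hζ hz
  have hunr : ∀ v : Pl K, IsUnram Z v ↔ (p : ℤ) ∣ ord v z := by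
    intro v
    constructor
    · intro h
      by_contra hn
      exact D4 z hζ hz v hn h
    · intro h
      by_cases hv : Tame p v
      · exact D1 z hζ hz v hv h
      · exact D3' z hp hζ hz v hv (hprim v hv)
  have htame : ∀ v : Pl K, ¬ IsUnram Z v → Tame p v := by
    intro v hv
    by_contra ht
    exact hv (D3' z hp hζ hz v ht (hprim v ht))
  obtain ⟨c, φ, h1, h2, h3, h4, h5⟩ := T1char (Z := Z) hp hζ hdeg htame
  refine ⟨c, φ, fun v hv => h1 v ((hunr v).mpr hv), fun v hv => h2 v (fun h => hv ((hunr v).mp h)),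
    fun v hv => h3 v ?_, h4, fun x hx => h5 x fun v hv => hx v (fun h => hv ((hunr v).mpr h))⟩
  by_cases ht : Tame p v
  · exact D2 z hζ hz v ht ((mem_locPow_tame ht z).mp hv)
  · exact D3 z hp hζ hz v ht ((mem_locPow_wild ht z).mp hv)

end Fermat.Agent.S14
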