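import Fermat.Agent.S14.Ext
import Fermat.Agent.S14.Herbrand
set_option autoImplicit false
set_option linter.unusedSectionVars false
namespace Fermat.Agent.S14.T1Index
open IsDedekindDomain NumberField Finset

theorem two_mul_card_infinitePlace (F : Type*) [Field F] [NumberField F] {p : ℕ} [hpp : Fact p.Prime]
    (hp : p ≠ 2) (ζ : F) (hζ : IsPrimitiveRoot ζ p) :
    2 * Fintype.card (InfinitePlace F) = Module.finrank ℚ F := by
  have h2 : 2 < p := lt_of_le_of_ne hpp.out.two_le (Ne.symm hp)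
  have h0 : InfinitePlace.nrRealPlaces F = 0 :=
    InfinitePlace.IsPrimitiveRoot.nrRealPlaces_eq_zero_of_two_lt h2 hζ
  rw [InfinitePlace.card_eq_nrRealPlaces_add_nrComplexPlaces, h0, zero_add,
    ← InfinitePlace.card_add_two_mul_card_eq_rank, h0, zero_add]

variable {K Z : Type*} [Field K] [NumberField K] [Field Z] [NumberField Z] [Algebra K Z]

theorem gUZ_one (y : Zˣ) : gUZ (1 : Z ≃ₐ[K] Z) y = y := by
  ext; simp

theorem gUZ_mul (σ τ : Z ≃ₐ[K] Z) (y : Zˣ) : gUZ (σ * τ) y = gUZ σ (gUZ τ y) := by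
  ext; simp

theorem gUZ_upU (σ : Z ≃ₐ[K] Z) (x : Kˣ) : gUZ σ (upU x) = upU x := by
  ext; simp

theorem upU_injective : Function.Injective (upU : Kˣ →* Zˣ) := by
  intro x y h
  have := congrArg (fun u : Zˣ => (u : Z)) h
  simp only [coe_upU] at this
  exact Units.ext ((algebraMap K Z).injective this)

variable {S : Finset (Pl K)} {SZ : Finset (Pl Z)}

theorem gPl_mem_iff (hSZ : ∀ w, w ∈ SZ ↔ below w ∈ S) (σ : Z ≃ₐ[K] Z) (w : Pl Z) :
    gPl σ w ∈ SZ ↔ w ∈ SZ := by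
  rw [hSZ, hSZ, below_gPl]

theorem gUZ_mem (hSZ : ∀ w, w ∈ SZ ↔ below w ∈ S) (σ : Z ≃ₐ[K] Z) {y : Zˣ}
    (hy : y ∈ SUnit Z SZ) : gUZ σ y ∈ SUnit Z SZ := by
  rw [mem_SUnit_iff] at hy ⊢
  intro w hw
  have h1 : w = gPl σ (gPl σ⁻¹ w) := by rw [← gPl_mul, mul_inv_cancel, gPl_one]
  rw [h1, ord_gPl]
  apply hy
  rwa [gPl_mem_iff hSZ]

theorem upU_mem_iff (hSZ : ∀ w, w ∈ SZ ↔ below w ∈ S) (x : Kˣ) :
    upU x ∈ SUnit Z SZ ↔ x ∈ SUnit K S := by
  rw [mem_SUnit_iff, mem_SUnit_iff]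
  constructor
  · intro h v hv
    obtain ⟨w, hw⟩ := fiber_nonempty (Z := Z) v
    have h1 := h w (by rw [hSZ, hw]; exact hv)
    rw [ord_upU, hw] at h1
    have h2 : (ram K w : ℤ) ≠ 0 := by exact_mod_cast (ram_pos w).ne'
    exact (mul_eq_zero.1 h1).resolve_left h2
  · intro h w hw
    rw [ord_upU, h _ (by rwa [← hSZ]), mul_zero]

/-- the action of the Galois group on `S`-units -/
noncomputable def actS (hSZ : ∀ w, w ∈ SZ ↔ below w ∈ S) (σ : Z ≃ₐ[K] Z) :
    SUnit Z SZ →* SUnit Z SZ :=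
  ((gUZ σ).comp (SUnit Z SZ).subtype).codRestrict (SUnit Z SZ) (fun y => gUZ_mem hSZ σ y.2)

/-- the action of the Galois group on `S`-units, additively -/
noncomputable def T (hSZ : ∀ w, w ∈ SZ ↔ below w ∈ S) (σ : Z ≃ₐ[K] Z) :
    Module.End ℤ (Additive (SUnit Z SZ)) :=
  (MonoidHom.toAdditive (actS hSZ σ)).toIntLinearMap

/-- underlying unit -/
def val (a : Additive (SUnit Z SZ)) : Zˣ := ((Additive.toMul a : SUnit Z SZ) : Zˣ)

theorem val_injective : Function.Injective (val : Additive (SUnit Z SZ) → Zˣ) := by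
  intro a b h
  exact Additive.toMul.injective (Subtype.ext h)

theorem val_mem (a : Additive (SUnit Z SZ)) : val a ∈ SUnit Z SZ := (Additive.toMul a).2

@[simp] theorem val_zero : val (0 : Additive (SUnit Z SZ)) = 1 := rfl
@[simp] theorem val_add (a b : Additive (SUnit Z SZ)) : val (a + b) = val a * val b := rfl
@[simp] theorem val_neg (a : Additive (SUnit Z SZ)) : val (-a) = (val a)⁻¹ := rfl
@[simp] theorem val_sub (a b : Additive (SUnit Z SZ)) : val (a - b) = val a / val b := rfl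
@[simp] theorem val_ofMul (y : SUnit Z SZ) : val (Additive.ofMul y) = y := rfl

theorem val_sum {ι : Type*} (s : Finset ι) (f : ι → Additive (SUnit Z SZ)) :
    val (∑ i ∈ s, f i) = ∏ i ∈ s, val (f i) := by
  classical
  induction s using Finset.induction_on with
  | empty => simp
  | insert a s ha ih => rw [Finset.sum_insert ha, Finset.prod_insert ha, val_add, ih]

@[simp] theorem val_T (hSZ : ∀ w, w ∈ SZ ↔ below w ∈ S) (σ : Z ≃ₐ[K] Z)
    (a : Additive (SUnit Z SZ)) : val (T hSZ σ a) = gUZ σ (val a) := rfl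

theorem T_one (hSZ : ∀ w, w ∈ SZ ↔ below w ∈ S) : T hSZ (1 : Z ≃ₐ[K] Z) = 1 := by
  refine LinearMap.ext fun a => val_injective ?_
  rw [val_T, gUZ_one]; rfl

theorem T_mul (hSZ : ∀ w, w ∈ SZ ↔ below w ∈ S) (σ τ : Z ≃ₐ[K] Z) :
    T hSZ (σ * τ) = T hSZ σ * T hSZ τ := by
  refine LinearMap.ext fun a => val_injective ?_
  rw [val_T, gUZ_mul, Module.End.mul_apply, val_T, val_T]

theorem T_pow (hSZ : ∀ w, w ∈ SZ ↔ below w ∈ S) (σ : Z ≃ₐ[K] Z) (n : ℕ) :
    T hSZ σ ^ n = T hSZ (σ ^ n) := by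
  induction n with
  | zero => rw [pow_zero, pow_zero, T_one]
  | succ n ih => rw [pow_succ, pow_succ, T_mul, ih]


/-- Hilbert 90 for a cyclic group of automorphisms (universe polymorphic, elementary proof). -/
theorem hilbert90_aux {K Z : Type*} [Field K] [Field Z] [Algebra K Z] (n : ℕ) (hn : 0 < n)
    (τ : Z ≃ₐ[K] Z) (hord : orderOf τ = n) (y : Z)
    (hy : ∏ i ∈ range n, (τ ^ i) y = 1) : ∃ W : Z, W ≠ 0 ∧ y * τ W = W := by
  set c : ℕ → Z := fun i => ∏ j ∈ range i, (τ ^ j) y with hc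
  have hc0 : c 0 = 1 := by simp [hc]
  have hcs : ∀ i, c (i + 1) = y * τ (c i) := by
    intro i
    simp only [hc]
    rw [prod_range_succ', map_prod, mul_comm]
    simp [pow_succ']
  have hcn : c n = 1 := hy
  have hτn : τ ^ n = 1 := by rw [← hord]; exact pow_orderOf_eq_one τ
  have key : ∀ θ : Z, y * τ (∑ i ∈ range n, c i * (τ ^ i) θ) = ∑ i ∈ range n, c i * (τ ^ i) θ := by
    intro θ
    have h1 : y * τ (∑ i ∈ range n, c i * (τ ^ i) θ) =
        ∑ i ∈ range n, c (i + 1) * (τ ^ (i + 1)) θ := by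
      rw [map_sum, mul_sum]
      apply sum_congr rfl
      intro i _
      rw [hcs, map_mul, pow_succ', mul_assoc]
      rfl
    have h2 := sum_range_succ' (fun i => c i * (τ ^ i) θ) n
    have h3 := sum_range_succ (fun i => c i * (τ ^ i) θ) n
    rw [h1]
    simp only [hcn, hτn, hc0, pow_zero, one_mul, AlgEquiv.one_apply] at h2 h3
    rw [h3] at h2
    exact (add_right_cancel h2).symm
  by_contra hcon
  have hW : ∀ θ : Z, ∑ i ∈ range n, c i * (τ ^ i) θ = 0 := by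
    intro θ
    by_contra h
    exact hcon ⟨_, h, key θ⟩
  have hli : LinearIndependent Z (fun i : Fin n => (((τ ^ (i : ℕ) : Z ≃ₐ[K] Z) : Z →* Z) : Z → Z)) := by
    apply LinearIndependent.comp (linearIndependent_monoidHom Z Z)
      (fun i : Fin n => ((τ ^ (i : ℕ) : Z ≃ₐ[K] Z) : Z →* Z))
    intro i j hij
    have h1 : τ ^ (i : ℕ) = τ ^ (j : ℕ) := by
      ext x
      exact DFunLike.congr_fun hij x
    apply Fin.ext
    apply pow_injOn_Iio_orderOf _ _ h1
    · rw [hord]; exact i.2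
    · rw [hord]; exact j.2
  have h0 := Fintype.linearIndependent_iff.1 hli (fun i => c i) (by
    funext θ
    have := hW θ
    rw [Finset.sum_range] at this
    simpa using this) ⟨0, hn⟩
  simp only [hc0] at h0
  exact one_ne_zero h0

section Galois

variable [IsGalois K Z] {p : ℕ} [Fact p.Prime]

theorem prod_pow_eq_norm (hdeg : Module.finrank K Z = p) (τ : Z ≃ₐ[K] Z)
    (hτ : ∀ σ, σ ∈ Subgroup.zpowers τ) (y : Zˣ) :
    ∏ i ∈ range p, gUZ (τ ^ i) y = upU (normU (K := K) y) := by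
  classical
  have hcard : Nat.card (Z ≃ₐ[K] Z) = p := by rw [IsGalois.card_aut_eq_finrank, hdeg]
  ext
  rw [coe_upU, coe_normU, Algebra.norm_eq_prod_automorphisms, Units.coe_prod]
  have h1 := IsCyclic.image_range_card hτ
  rw [hcard] at h1
  rw [← h1, Finset.prod_image]
  · rfl
  · have ho : orderOf τ = p := by rw [orderOf_eq_card_of_forall_mem_zpowers hτ, hcard]
    intro i hi j hj hij
    apply pow_injOn_Iio_orderOf _ _ hij
    · rw [ho]; simpa using hi
    · rw [ho]; simpa using hj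

theorem forall_fixed_of_gen (τ : Z ≃ₐ[K] Z) (hτ : ∀ σ, σ ∈ Subgroup.zpowers τ) (y : Zˣ)
    (hy : gUZ τ y = y) (σ : Z ≃ₐ[K] Z) : gUZ σ y = y := by
  let H : Subgroup (Z ≃ₐ[K] Z) :=
    { carrier := {σ | gUZ σ y = y}
      one_mem' := gUZ_one y
      mul_mem' := by
        intro a b ha hb
        show gUZ (a * b) y = y
        rw [gUZ_mul, hb, ha]
      inv_mem' := by
        intro a ha
        show gUZ a⁻¹ y = y
        have h1 : gUZ a⁻¹ (gUZ a y) = y := by rw [← gUZ_mul, inv_mul_cancel, gUZ_one]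
        rwa [ha] at h1 }
  have : Subgroup.zpowers τ ≤ H := (Subgroup.zpowers_le).2 hy
  exact this (hτ σ)

theorem exists_upU_of_fixed (τ : Z ≃ₐ[K] Z) (hτ : ∀ σ, σ ∈ Subgroup.zpowers τ) (y : Zˣ)
    (hy : gUZ τ y = y) : ∃ x : Kˣ, upU x = y := by
  have h1 : (y : Z) ∈ Set.range (algebraMap K Z) := by
    rw [IsGalois.mem_range_algebraMap_iff_fixed]
    intro σ
    have := congrArg (fun u : Zˣ => (u : Z)) (forall_fixed_of_gen τ hτ y hy σ)
    simpa using this
  obtain ⟨x0, hx0⟩ := h1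
  have hne : x0 ≠ 0 := by
    rintro rfl
    rw [map_zero] at hx0
    exact y.ne_zero hx0.symm
  exact ⟨Units.mk0 x0 hne, by ext; simpa using hx0⟩

theorem hilbert90 (hdeg : Module.finrank K Z = p) (τ : Z ≃ₐ[K] Z)
    (hτ : ∀ σ, σ ∈ Subgroup.zpowers τ) (y : Zˣ)
    (hy : normU (K := K) y = 1) : ∃ W : Zˣ, y = gUZ τ W / W := by
  have hcard : Nat.card (Z ≃ₐ[K] Z) = p := by rw [IsGalois.card_aut_eq_finrank, hdeg]
  have ho : orderOf τ = p := by rw [orderOf_eq_card_of_forall_mem_zpowers hτ, hcard]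
  have h1 : ∏ i ∈ range p, (τ ^ i) (y : Z) = 1 := by
    have h2 := congrArg (fun u : Zˣ => (u : Z)) (prod_pow_eq_norm hdeg τ hτ y)
    simp only [hy, map_one, Units.val_one, Units.coe_prod, coe_gUZ] at h2
    exact h2
  obtain ⟨W, hW0, hW⟩ := hilbert90_aux p (Fact.out : p.Prime).pos τ ho (y : Z) h1
  refine ⟨(Units.mk0 W hW0)⁻¹, ?_⟩
  rw [map_inv, inv_div_inv, eq_div_iff_mul_eq']
  ext
  simpa [mul_comm] using hW

theorem val_sum_T (hSZ : ∀ w, w ∈ SZ ↔ below w ∈ S) (hdeg : Module.finrank K Z = p)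
    (τ : Z ≃ₐ[K] Z) (hτ : ∀ σ, σ ∈ Subgroup.zpowers τ) (a : Additive (SUnit Z SZ)) :
    val ((∑ i ∈ range p, T hSZ τ ^ i) a) = upU (normU (K := K) (val a)) := by
  rw [LinearMap.sum_apply, val_sum, ← prod_pow_eq_norm hdeg τ hτ]
  apply Finset.prod_congr rfl
  intro i _
  rw [T_pow, val_T]

theorem ord_gPl_eq_of_gen (hSZ : ∀ w, w ∈ SZ ↔ below w ∈ S)
    (τ : Z ≃ₐ[K] Z) (hτ : ∀ σ, σ ∈ Subgroup.zpowers τ) (W : Zˣ)
    (h : ∀ w ∉ SZ, ord (gPl τ w) W = ord w W) (σ : Z ≃ₐ[K] Z) :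
    ∀ w ∉ SZ, ord (gPl σ w) W = ord w W := by
  let H : Subgroup (Z ≃ₐ[K] Z) :=
    { carrier := {σ | ∀ w ∉ SZ, ord (gPl σ w) W = ord w W}
      one_mem' := by
        intro w _
        rw [gPl_one]
      mul_mem' := by
        intro a b ha hb w hw
        rw [gPl_mul, ha _ (by rwa [gPl_mem_iff hSZ]), hb w hw]
      inv_mem' := by
        intro a ha w hw
        have h1 := ha (gPl a⁻¹ w) (by rwa [gPl_mem_iff hSZ])
        rw [← gPl_mul, mul_inv_cancel, gPl_one] at h1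
        exact h1.symm }
  have : Subgroup.zpowers τ ≤ H := (Subgroup.zpowers_le).2 h
  exact this (hτ σ)

theorem hminus (hSZ : ∀ w, w ∈ SZ ↔ below w ∈ S) (hdeg : Module.finrank K Z = p)
    (hunr : ∀ v ∉ S, IsUnram Z v) (hgen : Gen S)
    (τ : Z ≃ₐ[K] Z) (hτ : ∀ σ, σ ∈ Subgroup.zpowers τ) (a : Additive (SUnit Z SZ))
    (ha : (∑ i ∈ range p, T hSZ τ ^ i) a = 0) :
    ∃ b : Additive (SUnit Z SZ), a = T hSZ τ b - b := by
  classical
  have h1 : normU (K := K) (val a) = 1 := by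
    apply upU_injective (Z := Z)
    rw [← val_sum_T hSZ hdeg τ hτ, ha, val_zero, map_one]
  obtain ⟨W, hW⟩ := hilbert90 hdeg τ hτ (val a) h1
  have hinv : ∀ w ∉ SZ, ord (gPl τ w) W = ord w W := by
    intro w hw
    have h2 := (mem_SUnit_iff SZ (val a)).1 (val_mem a) (gPl τ w) (by rwa [gPl_mem_iff hSZ])
    rw [hW, ord_div, ord_gPl] at h2
    omega
  have hinv' := ord_gPl_eq_of_gen hSZ τ hτ W hinv
  choose w0 hw0 using fun v : Pl K => fiber_nonempty (Z := Z) v
  have hfin : (Function.support (fun v : Pl K => ord (w0 v) W)).Finite := by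
    apply Set.Finite.subset ((ord_support_finite W).image (below (K := K)))
    intro v hv
    exact ⟨w0 v, hv, hw0 v⟩
  obtain ⟨c, hc⟩ := hgen (Finsupp.ofSupportFinite (fun v => ord (w0 v) W) hfin)
  have hmem : W / upU c ∈ SUnit Z SZ := by
    rw [mem_SUnit_iff]
    intro w hw
    have hv : below (K := K) w ∉ S := by rwa [← hSZ]
    rw [ord_div, ord_upU, hc _ hv, hunr _ hv w rfl]
    obtain ⟨σ, hσ⟩ := exists_gPl_eq (K := K) w (w0 (below w)) (hw0 _).symm
    rw [Finsupp.ofSupportFinite_coe, Nat.cast_one, one_mul, ← hσ, hinv' σ w hw, sub_self]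
  refine ⟨Additive.ofMul ⟨W / upU c, hmem⟩, val_injective ?_⟩
  rw [val_sub, val_T, val_ofMul, hW]
  simp only [map_div, gUZ_upU]
  rw [div_div_div_cancel_right]

/-- `c_Z = p * c_K` for the numbers of infinite places. -/
theorem card_infinitePlace_up (hp : p ≠ 2) (ζ : 𝓞 K) (hζ : IsPrimitiveRoot ζ p)
    (hdeg : Module.finrank K Z = p) :
    Fintype.card (InfinitePlace Z) = p * Fintype.card (InfinitePlace K) := by
  have hK : IsPrimitiveRoot (ζ : K) p :=
    hζ.map_of_injective (RingOfIntegers.coe_injective)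
  have hZ : IsPrimitiveRoot (algebraMap K Z (ζ : K)) p :=
    hK.map_of_injective (algebraMap K Z).injective
  have h1 := two_mul_card_infinitePlace K hp _ hK
  have h2 := two_mul_card_infinitePlace Z hp _ hZ
  have h3 := Module.finrank_mul_finrank ℚ K Z
  rw [hdeg, ← h1, ← h2] at h3
  have : 2 * (p * Fintype.card (InfinitePlace K)) = 2 * Fintype.card (InfinitePlace Z) := by
    rw [← h3]; ring
  omega

/-- the inclusion of `S`-units -/
noncomputable def incl (hSZ : ∀ w, w ∈ SZ ↔ below w ∈ S) :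
    Additive (SUnit K S) →ₗ[ℤ] Additive (SUnit Z SZ) :=
  (MonoidHom.toAdditive ((upU.comp (SUnit K S).subtype).codRestrict (SUnit Z SZ)
    (fun x => (upU_mem_iff hSZ _).2 x.2))).toIntLinearMap

theorem val_incl (hSZ : ∀ w, w ∈ SZ ↔ below w ∈ S) (x : Additive (SUnit K S)) :
    val (incl hSZ x) = upU ((Additive.toMul x : SUnit K S) : Kˣ) := rfl

theorem incl_injective (hSZ : ∀ w, w ∈ SZ ↔ below w ∈ S) : Function.Injective (incl hSZ) := by
  intro x y h
  have h1 := congrArg val h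
  rw [val_incl, val_incl] at h1
  exact Additive.toMul.injective (Subtype.ext (upU_injective h1))

theorem range_incl (hSZ : ∀ w, w ∈ SZ ↔ below w ∈ S)
    (τ : Z ≃ₐ[K] Z) (hτ : ∀ σ, σ ∈ Subgroup.zpowers τ) :
    LinearMap.range (incl hSZ) = LinearMap.ker (T hSZ τ - 1) := by
  apply le_antisymm
  · rintro _ ⟨x, rfl⟩
    rw [LinearMap.mem_ker, LinearMap.sub_apply, Module.End.one_apply, sub_eq_zero]
    apply val_injective
    rw [val_T, val_incl, gUZ_upU]
  · intro a ha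
    rw [LinearMap.mem_ker, LinearMap.sub_apply, Module.End.one_apply, sub_eq_zero] at ha
    have h1 := congrArg val ha
    rw [val_T] at h1
    obtain ⟨x, hx⟩ := exists_upU_of_fixed τ hτ (val a) h1
    have hx' : x ∈ SUnit K S := by
      rw [← upU_mem_iff hSZ, hx]
      exact val_mem a
    exact ⟨Additive.ofMul ⟨x, hx'⟩, val_injective (by rw [val_incl]; exact hx)⟩

theorem map_incl (hSZ : ∀ w, w ∈ SZ ↔ below w ∈ S) (hdeg : Module.finrank K Z = p)
    (τ : Z ≃ₐ[K] Z) (hτ : ∀ σ, σ ∈ Subgroup.zpowers τ) :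
    (Subgroup.toAddSubgroup (((SUnit Z SZ).map normU).subgroupOf (SUnit K S))).map
      (incl hSZ).toAddMonoidHom =
    (LinearMap.range (∑ i ∈ range p, T hSZ τ ^ i)).toAddSubgroup := by
  ext a
  constructor
  · rintro ⟨x, hx, rfl⟩
    obtain ⟨y, hy, hyx⟩ := hx
    refine ⟨Additive.ofMul ⟨y, hy⟩, val_injective ?_⟩
    rw [val_sum_T hSZ hdeg τ hτ, val_ofMul]
    show upU (normU y) = upU _
    rw [hyx]
  · rintro ⟨b, rfl⟩
    have h1 := val_sum_T hSZ hdeg τ hτ b
    have h2 : normU (K := K) (val b) ∈ SUnit K S := by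
      rw [← upU_mem_iff hSZ, ← h1]
      exact val_mem _
    refine ⟨Additive.ofMul ⟨normU (val b), h2⟩, ⟨val b, val_mem b, rfl⟩, val_injective ?_⟩
    rw [h1]
    rfl

theorem relIndex_eq (hSZ : ∀ w, w ∈ SZ ↔ below w ∈ S) (hdeg : Module.finrank K Z = p)
    (τ : Z ≃ₐ[K] Z) (hτ : ∀ σ, σ ∈ Subgroup.zpowers τ) :
    (LinearMap.range (∑ i ∈ range p, T hSZ τ ^ i)).toAddSubgroup.relIndex
        (LinearMap.ker (T hSZ τ - 1)).toAddSubgroup =
      ((SUnit Z SZ).map normU).relIndex (SUnit K S) := by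
  rw [← map_incl hSZ hdeg τ hτ, ← range_incl hSZ τ hτ, LinearMap.range_toAddSubgroup,
    AddMonoidHom.range_eq_map,
    AddSubgroup.relIndex_map_map_of_injective (f := (incl hSZ).toAddMonoidHom) _ _
      (incl_injective hSZ),
    AddSubgroup.relIndex_top_right]
  rfl

theorem main (hp : p ≠ 2) {ζ : 𝓞 K} (hζ : IsPrimitiveRoot ζ p) (hdeg : Module.finrank K Z = p)
    (S : Finset (Pl K)) (SZ : Finset (Pl Z)) (hSZ : ∀ w, w ∈ SZ ↔ below w ∈ S)
    (hunr : ∀ v ∉ S, IsUnram Z v) (hgen : Gen S)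
    (NS : Finset (Pl K)) (hNS : ∀ v, v ∈ NS ↔ v ∈ S ∧ ¬ IsSplit Z v) :
    ((SUnit Z SZ).map normU).relIndex (SUnit K S) * p = p ^ NS.card := by
  have hpp : p.Prime := Fact.out
  have hcard : Nat.card (Z ≃ₐ[K] Z) = p := by rw [IsGalois.card_aut_eq_finrank, hdeg]
  have hcyc : IsCyclic (Z ≃ₐ[K] Z) := isCyclic_of_prime_card hcard
  obtain ⟨τ, hτ⟩ := hcyc.exists_generator
  have ho : orderOf τ = p := by rw [orderOf_eq_card_of_forall_mem_zpowers hτ, hcard]
  have hTp : T hSZ τ ^ p = 1 := by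
    rw [T_pow, ← ho, pow_orderOf_eq_one, T_one]
  have hmain := herbrand_index p (T hSZ τ) hTp (hminus hSZ hdeg hunr hgen τ hτ)
  rw [relIndex_eq hSZ hdeg τ hτ, ← range_incl hSZ τ hτ,
    LinearMap.finrank_range_of_inj (incl_injective hSZ), sunit_finrank, sunit_finrank] at hmain
  have hca := card_above hdeg S SZ hSZ NS hNS
  have hinf := card_infinitePlace_up (Z := Z) hp ζ hζ hdeg
  have hpos : 0 < Fintype.card (InfinitePlace K) := Fintype.card_pos
  unfold NumberField.Units.rank at hmain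
  rw [hinf] at hmain
  set cK := Fintype.card (InfinitePlace K) with hcK
  set h := ((SUnit Z SZ).map normU).relIndex (SUnit K S) with hh
  set n := NS.card with hn
  obtain ⟨q, rfl⟩ : ∃ q, p = q + 1 := ⟨p - 1, (Nat.sub_add_cancel hpp.one_le).symm⟩
  obtain ⟨c', hc'⟩ : ∃ c', cK = c' + 1 := ⟨cK - 1, (Nat.sub_add_cancel hpos).symm⟩
  have hq : q ≠ 0 := by
    rintro rfl
    exact hpp.one_lt.ne' rfl
  simp only [Nat.add_sub_cancel] at hmain hca
  have e1 : (q + 1) * (cK - 1 + S.card) + q = ((q + 1) * cK - 1 + SZ.card) + q * n := by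
    rw [hc']
    have : (q + 1) * (c' + 1) - 1 = (q + 1) * c' + q := by
      have : (q + 1) * (c' + 1) = (q + 1) * c' + q + 1 := by ring
      omega
    rw [this, Nat.add_sub_cancel]
    have h2 : (q + 1) * (c' + S.card) = (q + 1) * c' + (q + 1) * S.card := by ring
    rw [h2, ← hca]
    ring
  have e2 : (h * (q + 1)) ^ q = ((q + 1) ^ n) ^ q := by
    apply Nat.eq_of_mul_eq_mul_right
      (Nat.pos_of_ne_zero (pow_ne_zero ((q + 1) * cK - 1 + SZ.card) (Nat.succ_ne_zero q)))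
    calc (h * (q + 1)) ^ q * (q + 1) ^ ((q + 1) * cK - 1 + SZ.card)
        = (h ^ q * (q + 1) ^ ((q + 1) * cK - 1 + SZ.card)) * (q + 1) ^ q := by
          rw [mul_pow]; ring
      _ = (q + 1) ^ ((q + 1) * (cK - 1 + S.card) + q) := by rw [hmain, pow_add]
      _ = ((q + 1) ^ n) ^ q * (q + 1) ^ ((q + 1) * cK - 1 + SZ.card) := by
          rw [e1, pow_add, ← pow_mul, mul_comm, mul_comm n q]
  exact Nat.pow_left_injective (n := q) hq e2

end Galois

end Fermat.Agent.S14.T1Index
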