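import Fermat.Agent.S14.Ext
import Fermat.Agent.S14.Herbrand
import Fermat.Agent.S14.T1IndexAux

/-!
# S14: the first inequality for a cyclic extension `Z/K` of prime degree `p`, `ζ_p ∈ K`.
-/

set_option autoImplicit false

namespace Fermat.Agent.S14

open IsDedekindDomain NumberField

variable {K Z : Type*} [Field K] [NumberField K] [Field Z] [NumberField Z] [Algebra K Z]
  [IsGalois K Z] {p : ℕ} [Fact p.Prime] {ζ : 𝓞 K}

/-- piece S14/T1-index.  `[K_S : N Z_S] = p ^ (n - 1)`, `n` the number of non-split places in `S`,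
if `S` contains the ramified places and generates the class group of `K`. -/
theorem T1_index (hp : p ≠ 2) (hζ : IsPrimitiveRoot ζ p) (hdeg : Module.finrank K Z = p)
    (S : Finset (Pl K)) (SZ : Finset (Pl Z)) (hSZ : ∀ w, w ∈ SZ ↔ below w ∈ S)
    (hunr : ∀ v ∉ S, IsUnram Z v) (hgen : Gen S)
    (NS : Finset (Pl K)) (hNS : ∀ v, v ∈ NS ↔ v ∈ S ∧ ¬ IsSplit Z v) :
    ((SUnit Z SZ).map normU).relIndex (SUnit K S) * p = p ^ NS.card :=
  T1Index.main hp hζ hdeg S SZ hSZ hunr hgen NS hNS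

namespace T1aux

omit [IsGalois K Z] [Algebra K Z] [Field Z] [NumberField Z] in
theorem ord_prod {ι : Type*} (v : Pl K) (s : Finset ι) (f : ι → Kˣ) :
    ord v (∏ i ∈ s, f i) = ∑ i ∈ s, ord v (f i) := by
  classical
  induction s using Finset.induction_on with
  | empty => simp [ord_one]
  | insert a s ha ih => rw [Finset.prod_insert ha, Finset.sum_insert ha, ord_mul, ih]

theorem upU_normU (y : Zˣ) : upU (normU (K := K) y) = ∏ σ : Z ≃ₐ[K] Z, gUZ σ y := by
  ext
  rw [coe_upU, coe_normU, Algebra.norm_eq_prod_automorphisms, Units.coe_prod]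
  rfl

theorem ord_gUZ (σ : Z ≃ₐ[K] Z) (w : Pl Z) (y : Zˣ) : ord w (gUZ σ y) = ord (gPl σ⁻¹ w) y := by
  have h := ord_gPl σ (gPl σ⁻¹ w) y
  rwa [← gPl_mul, mul_inv_cancel, gPl_one] at h

/-- at a non-split place, `e * ord_v (N y) = p * ord_w y` -/
theorem ram_mul_ord_normU (hdeg : Module.finrank K Z = p) (v : Pl K) (h : ¬ IsSplit Z v)
    (w : Pl Z) (hw : below w = v) (y : Zˣ) :
    (ram K w : ℤ) * ord v (normU y) = p * ord w y := by
  have h1 := ord_upU w (normU (K := K) y)
  rw [hw, upU_normU, ord_prod] at h1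
  rw [← h1]
  have h2 : ∀ σ ∈ (Finset.univ : Finset (Z ≃ₐ[K] Z)), ord w (gUZ σ y) = ord w y := by
    intro σ _
    rw [ord_gUZ]
    congr 1
    exact unique_of_not_isSplit hdeg v h _ _ (by rw [below_gPl, hw]) hw
  rw [Finset.sum_congr rfl h2, Finset.sum_const, Finset.card_univ, ← Nat.card_eq_fintype_card,
    IsGalois.card_aut_eq_finrank, hdeg]
  simp

/-- the norm of an integer of `Z`, as a product of conjugates -/
theorem algebraMap_norm_eq_prod (a : 𝓞 Z) :
    algebraMap (𝓞 K) (𝓞 Z) (RingOfIntegers.norm K a) = ∏ σ : Z ≃ₐ[K] Z, gOZ σ a := by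
  apply RingOfIntegers.ext
  rw [RingOfIntegers.coe_algebraMap_norm, Algebra.norm_eq_prod_automorphisms]
  exact (map_prod (algebraMap (𝓞 Z) Z) (fun σ : Z ≃ₐ[K] Z => gOZ σ a) Finset.univ).symm

/-- integral case -/
theorem res_normU_of_ram_integer (hζ : IsPrimitiveRoot ζ p) (hdeg : Module.finrank K Z = p)
    (v : Pl K) (hv : Tame p v) (h : ¬ IsUnram Z v) (w : Pl Z) (hw : below w = v)
    (y : Zˣ) (a : 𝓞 Z) (hya : (y : Z) = a) (ha : a ∉ w.asIdeal) :
    res p ζ v (normU y) = 0 := by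
  subst hw
  obtain ⟨c, hc⟩ := exists_congr_of_absNorm_eq (K := K) w
    (absNorm_of_not_isUnram hdeg h w rfl) a
  have hn : ((normU (K := K) y : Kˣ) : K) = (RingOfIntegers.norm K a : 𝓞 K) := by
    rw [coe_normU, hya, RingOfIntegers.coe_norm]
  -- the norm is congruent to `c ^ p`
  have key : algebraMap (𝓞 K) (𝓞 Z) (RingOfIntegers.norm K a - c ^ p) ∈ w.asIdeal := by
    rw [map_sub, map_pow, algebraMap_norm_eq_prod, ← Ideal.Quotient.eq_zero_iff_mem, map_sub,
      map_prod, map_pow, sub_eq_zero]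
    have h1 : ∀ σ ∈ (Finset.univ : Finset (Z ≃ₐ[K] Z)), Ideal.Quotient.mk w.asIdeal (gOZ σ a) =
        Ideal.Quotient.mk w.asIdeal (algebraMap (𝓞 K) (𝓞 Z) c) := by
      intro σ _
      have h2 := sub_mem_of_not_isUnram hdeg h w rfl σ a
      have h3 := add_mem h2 hc
      rw [sub_add_sub_cancel] at h3
      rwa [← sub_eq_zero, ← map_sub, Ideal.Quotient.eq_zero_iff_mem]
    rw [Finset.prod_congr rfl h1, Finset.prod_const, Finset.card_univ, ← Nat.card_eq_fintype_card,
      IsGalois.card_aut_eq_finrank, hdeg]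
  have key' : RingOfIntegers.norm K a - c ^ p ∈ (below (K := K) w).asIdeal := key
  have hcv : c ∉ (below (K := K) w).asIdeal := by
    intro hcv
    have hcv' : algebraMap (𝓞 K) (𝓞 Z) c ∈ w.asIdeal := hcv
    apply ha
    have := add_mem hc hcv'
    rwa [sub_add_cancel] at this
  have hnv : RingOfIntegers.norm K a ∉ (below (K := K) w).asIdeal := by
    intro hnv
    have h4 := sub_mem hnv key'
    rw [sub_sub_cancel] at h4
    exact hcv ((below (K := K) w).isPrime.mem_of_pow_mem _ h4)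
  exact (res_eq_zero_iff hζ hv _ _ hn hnv).mpr ⟨c, key'⟩

end T1aux

open T1aux

/-- piece S14/T1-norm -/
theorem dvd_ord_normU_of_inert (hdeg : Module.finrank K Z = p) (v : Pl K) (h : ¬ IsSplit Z v)
    (h' : IsUnram Z v) (y : Zˣ) : (p : ℤ) ∣ ord v (normU y) := by
  obtain ⟨w, hw⟩ := fiber_nonempty (Z := Z) v
  have h1 := ram_mul_ord_normU hdeg v h w hw y
  rw [h' w hw] at h1
  exact ⟨ord w y, by simpa using h1⟩

/-- piece S14/T1-norm -/
theorem res_normU_of_ram (hζ : IsPrimitiveRoot ζ p) (hdeg : Module.finrank K Z = p) (v : Pl K)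
    (hv : Tame p v) (h : ¬ IsUnram Z v) (y : Zˣ) (hy : ord v (normU y) = 0) :
    res p ζ v (normU y) = 0 := by
  obtain ⟨w, hw⟩ := fiber_nonempty (Z := Z) v
  have h1 := ram_mul_ord_normU hdeg v (not_isSplit_of_not_isUnram hdeg h) w hw y
  rw [hy, mul_zero] at h1
  have hp0 : (p : ℤ) ≠ 0 := by exact_mod_cast (Fact.out : p.Prime).ne_zero
  have h2 : ord w y = 0 := by
    rcases mul_eq_zero.mp h1.symm with h3 | h3
    · exact absurd h3 hp0
    · exact h3
  obtain ⟨a, b, ha, hb, hab⟩ := exists_frac w y h2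
  have ha0 : (a : Z) ≠ 0 := by
    intro h0
    apply ha
    have : a = 0 := by exact_mod_cast h0
    rw [this]; exact zero_mem _
  have hb0 : (b : Z) ≠ 0 := by
    intro h0
    apply hb
    have : b = 0 := by exact_mod_cast h0
    rw [this]; exact zero_mem _
  have hy' : y = Units.mk0 (a : Z) ha0 / Units.mk0 (b : Z) hb0 := by
    ext
    rw [hab]
    simp
  rw [hy', map_div, div_eq_mul_inv, res_mul, res_inv,
    res_normU_of_ram_integer hζ hdeg v hv h w hw _ a rfl ha,
    res_normU_of_ram_integer hζ hdeg v hv h w hw _ b rfl hb]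
  simp

/-- piece S14/T1-fin.  Finite level form of the first inequality: the map
`K_{S \ R} → ∏_{v ∈ R} ZMod p × ∏_{v ∈ S inert} ZMod p` (residue symbols, valuations) is not
surjective.  (`R` = ramified places, all tame, `R ⊆ S`, `I` = inert places in `S`.) -/
theorem T1_fin (hp : p ≠ 2) (hζ : IsPrimitiveRoot ζ p) (hdeg : Module.finrank K Z = p)
    (htame : ∀ v : Pl K, ¬ IsUnram Z v → Tame p v)
    (S : Finset (Pl K)) (hunr : ∀ v ∉ S, IsUnram Z v) (hgen : Gen S) :
    ¬ ∀ ρ : Pl K → ZMod p, ∃ x ∈ SUnit K S, ∀ v ∈ S,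
      (¬ IsUnram Z v → ord v x = 0 ∧ res p ζ v x = ρ v) ∧
      (IsUnram Z v → ¬ IsSplit Z v → (ord v x : ZMod p) = ρ v) := by
  classical
  intro hsurj
  have hpp := (Fact.out : p.Prime)
  -- the places above `S`
  let SZ : Finset (Pl Z) := S.biUnion fun v => (fiber_finite (Z := Z) v).toFinset
  have hSZ : ∀ w : Pl Z, w ∈ SZ ↔ below w ∈ S := by
    intro w
    simp only [SZ, Finset.mem_biUnion, Set.Finite.mem_toFinset, Set.mem_ofPred_eq]
    constructor
    · rintro ⟨v, hv, rfl⟩; exact hv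
    · intro h; exact ⟨_, h, rfl⟩
  let NS : Finset (Pl K) := S.filter fun v => ¬ IsSplit Z v
  have hNS : ∀ v, v ∈ NS ↔ v ∈ S ∧ ¬ IsSplit Z v := fun v => by simp [NS]
  have hidx := T1_index hp hζ hdeg S SZ hSZ hunr hgen NS hNS
  set H : Subgroup Kˣ := (SUnit Z SZ).map normU with hH
  choose X hX1 hX2 using hsurj
  -- extension by zero
  let ext0 : (NS → ZMod p) → (Pl K → ZMod p) := fun ρ v => if h : v ∈ NS then ρ ⟨v, h⟩ else 0
  let F : (NS → ZMod p) → (SUnit K S ⧸ H.subgroupOf (SUnit K S)) :=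
    fun ρ => QuotientGroup.mk ⟨X (ext0 ρ), hX1 _⟩
  have hinj : Function.Injective F := by
    intro ρ ρ' hF
    rw [QuotientGroup.eq, Subgroup.mem_subgroupOf] at hF
    obtain ⟨y, -, hy⟩ := hF
    have hy' : normU y = (X (ext0 ρ))⁻¹ * X (ext0 ρ') := hy
    funext ⟨v, hv⟩
    have hvS := ((hNS v).mp hv).1
    have hvns := ((hNS v).mp hv).2
    have e1 : ext0 ρ v = ρ ⟨v, hv⟩ := by simp [ext0, hv]
    have e2 : ext0 ρ' v = ρ' ⟨v, hv⟩ := by simp [ext0, hv]
    by_cases hu : IsUnram Z v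
    · have h1 := (hX2 (ext0 ρ) v hvS).2 hu hvns
      have h2 := (hX2 (ext0 ρ') v hvS).2 hu hvns
      have h3 := dvd_ord_normU_of_inert hdeg v hvns hu y
      rw [hy', ord_mul, ord_inv] at h3
      have h4 := (ZMod.intCast_zmod_eq_zero_iff_dvd _ p).mpr h3
      push_cast at h4
      rw [h1, h2, e1, e2] at h4
      exact (neg_add_eq_zero.mp h4)
    · have h1 := (hX2 (ext0 ρ) v hvS).1 hu
      have h2 := (hX2 (ext0 ρ') v hvS).1 hu
      have h0 : ord v (normU y) = 0 := by rw [hy', ord_mul, ord_inv, h1.1, h2.1]; simp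
      have h3 := res_normU_of_ram hζ hdeg v (htame v hu) hu y h0
      rw [hy', res_mul, res_inv, h1.2, h2.2, e1, e2] at h3
      exact (neg_add_eq_zero.mp h3)
  have hidx0 : H.relIndex (SUnit K S) ≠ 0 := by
    intro h0
    rw [h0, zero_mul] at hidx
    exact (pow_pos hpp.pos _).ne hidx
  have hfi : (H.subgroupOf (SUnit K S)).FiniteIndex := ⟨hidx0⟩
  have hfin : Finite (SUnit K S ⧸ H.subgroupOf (SUnit K S)) :=
    Subgroup.finite_quotient_of_finiteIndex
  have hle := Nat.card_le_card_of_injective F hinj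
  have hc : Nat.card (NS → ZMod p) = p ^ NS.card := by
    rw [Nat.card_fun, Nat.card_zmod, Nat.card_eq_fintype_card, Fintype.card_coe]
  have hc2 : Nat.card (SUnit K S ⧸ H.subgroupOf (SUnit K S)) = H.relIndex (SUnit K S) := rfl
  rw [hc, hc2, ← hidx] at hle
  have : H.relIndex (SUnit K S) * 2 ≤ H.relIndex (SUnit K S) * p :=
    Nat.mul_le_mul_left _ hpp.two_le
  have h00 := Nat.pos_of_ne_zero hidx0
  omega

set_option linter.unusedSectionVars false

namespace T1aux

open Classical in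
/-- the local components: valuation at unramified places, residue symbol at ramified places -/
noncomputable def lam (Z : Type*) [Field Z] [NumberField Z] [Algebra K Z] (p : ℕ) (ζ : 𝓞 K)
    (x : Kˣ) (v : Pl K) : ZMod p :=
  if IsUnram Z v then (ord v x : ZMod p) else res p ζ v x

theorem lam_mul (x y : Kˣ) (v : Pl K) : lam Z p ζ (x * y) v = lam Z p ζ x v + lam Z p ζ y v := by
  unfold lam
  split_ifs
  · rw [ord_mul]; push_cast; rfl
  · rw [res_mul]

theorem lam_one (v : Pl K) : lam Z p ζ (1 : Kˣ) v = 0 := by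
  unfold lam
  split_ifs
  · rw [ord_one]; simp
  · rw [res_one]

theorem lam_pow (x : Kˣ) (n : ℕ) (v : Pl K) : lam Z p ζ (x ^ n) v = n * lam Z p ζ x v := by
  induction n with
  | zero => simp [lam_one]
  | succ n ih => rw [pow_succ, lam_mul, ih]; push_cast; ring

theorem lam_support_finite (x : Kˣ) : (Function.support (lam Z p ζ x)).Finite := by
  refine ((finite_not_isUnram (K := K) (Z := Z)).union (ord_support_finite x)).subset ?_
  intro v hv
  by_cases hu : IsUnram Z v
  · right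
    intro h0
    apply hv
    have h0' : ord v x = 0 := h0
    simp [lam, hu, h0']
  · left; exact hu

/-- `lam x` as a finitely supported function -/
noncomputable def Lam (Z : Type*) [Field Z] [NumberField Z] [Algebra K Z] [IsGalois K Z] (p : ℕ)
    [Fact p.Prime] (ζ : 𝓞 K) (x : Kˣ) : Pl K →₀ ZMod p :=
  Finsupp.ofSupportFinite (lam Z p ζ x) (lam_support_finite x)

theorem Lam_apply (x : Kˣ) (v : Pl K) : Lam Z p ζ x v = lam Z p ζ x v := rfl

/-- the subspace of the "idele class group mod norms" generated by principal ideles and split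
places -/
noncomputable def Msub (Z : Type*) [Field Z] [NumberField Z] [Algebra K Z] [IsGalois K Z] (p : ℕ)
    [Fact p.Prime] (ζ : 𝓞 K) : Submodule (ZMod p) (Pl K →₀ ZMod p) where
  carrier := {m | ∃ x : Kˣ, (∀ v, ¬ IsUnram Z v → ord v x = 0) ∧
    ∀ v, ¬ IsSplit Z v → m v = lam Z p ζ x v}
  add_mem' := by
    rintro m m' ⟨x, hx1, hx2⟩ ⟨x', hx1', hx2'⟩
    refine ⟨x * x', fun v hv => by rw [ord_mul, hx1 v hv, hx1' v hv, add_zero], fun v hv => ?_⟩
    rw [Finsupp.add_apply, hx2 v hv, hx2' v hv, lam_mul]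
  zero_mem' := ⟨1, fun v _ => ord_one v, fun v _ => by rw [lam_one]; rfl⟩
  smul_mem' := by
    rintro k m ⟨x, hx1, hx2⟩
    refine ⟨x ^ k.val, fun v hv => by rw [ord_pow, hx1 v hv, mul_zero], fun v hv => ?_⟩
    rw [Finsupp.smul_apply, hx2 v hv, lam_pow, ZMod.natCast_zmod_val, smul_eq_mul]

theorem mem_Msub (m : Pl K →₀ ZMod p) : m ∈ Msub Z p ζ ↔
    ∃ x : Kˣ, (∀ v, ¬ IsUnram Z v → ord v x = 0) ∧ ∀ v, ¬ IsSplit Z v → m v = lam Z p ζ x v :=
  Iff.rfl

/-- improving a representative: outside `S = S₀ ∪ R` it is a unit at all non-split places -/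
theorem exists_improve (S₀ S : Finset (Pl K)) (hgen : Gen S₀)
    (hS₀ : S₀ ⊆ S) (hdisj : ∀ v ∈ S₀, IsUnram Z v) (hR : ∀ v, ¬ IsUnram Z v → v ∈ S)
    (m : Pl K →₀ ZMod p) (hm : ∀ v ∉ S, m v = 0) (hmem : m ∈ Msub Z p ζ) :
    ∃ x : Kˣ, (∀ v, ¬ IsUnram Z v → ord v x = 0) ∧ (∀ v, ¬ IsSplit Z v → m v = lam Z p ζ x v) ∧
      ∀ v ∉ S, ¬ IsSplit Z v → ord v x = 0 := by
  classical
  obtain ⟨x, hx1, hx2⟩ := hmem
  -- the correction divisor
  let nf : Pl K → ℤ := fun v => if v ∉ S ∧ ¬ IsSplit Z v then ord v x / p else 0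
  have hnf : (Function.support nf).Finite := by
    refine (ord_support_finite x).subset ?_
    intro v hv h0
    apply hv
    have h0' : ord v x = 0 := h0
    simp [nf, h0']
  obtain ⟨c, hc⟩ := hgen (Finsupp.ofSupportFinite nf hnf)
  have hc' : ∀ v ∉ S₀, ord v c = nf v := hc
  have hlam : ∀ v, lam Z p ζ (x * (c ^ p)⁻¹) v = lam Z p ζ x v := by
    intro v
    unfold lam
    split_ifs
    · rw [ord_mul, ord_inv, ord_pow]; push_cast; simp
    · rw [res_mul, res_inv, res_pow_p]; simp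
  refine ⟨x * (c ^ p)⁻¹, fun v hv => ?_, fun v hv => by rw [hlam, hx2 v hv], fun v hvS hv => ?_⟩
  · have h1 : v ∉ S₀ := fun h => hv (hdisj v h)
    have h2 : nf v = 0 := by simp [nf, hR v hv]
    rw [ord_mul, ord_inv, ord_pow, hx1 v hv, hc' v h1, h2]; simp
  · have h1 : v ∉ S₀ := fun h => hvS (hS₀ h)
    have h2 : nf v = ord v x / p := by simp [nf, hvS, hv]
    have hu : IsUnram Z v := by
      by_contra hu; exact hvS (hR v hu)
    have h3 := hx2 v hv
    rw [hm v hvS] at h3
    have h4 : ((ord v x : ℤ) : ZMod p) = 0 := by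
      rw [h3]; simp [lam, hu]
    have h5 : (p : ℤ) ∣ ord v x := (ZMod.intCast_zmod_eq_zero_iff_dvd _ p).mp h4
    rw [ord_mul, ord_inv, ord_pow, hc' v h1, h2, Int.mul_ediv_cancel' h5]; simp

theorem Msub_ne_top (hp : p ≠ 2) (hζ : IsPrimitiveRoot ζ p) (hdeg : Module.finrank K Z = p)
    (htame : ∀ v : Pl K, ¬ IsUnram Z v → Tame p v) : Msub Z p ζ ≠ ⊤ := by
  classical
  intro htop
  let R : Finset (Pl K) := (finite_not_isUnram (K := K) (Z := Z)).toFinset
  have hR : ∀ v, v ∈ R ↔ ¬ IsUnram Z v := fun v => by simp [R]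
  obtain ⟨S₀, hdisj, hgen⟩ := exists_gen_disjoint R
  let S : Finset (Pl K) := S₀ ∪ R
  -- targets
  let tgt : (S → ZMod p) → (Pl K →₀ ZMod p) := fun ρ =>
    Finsupp.onFinset S (fun v => if h : v ∈ S then ρ ⟨v, h⟩ else 0) (by
      intro v hv
      by_contra h
      exact hv (by simp [h]))
  have htgt : ∀ ρ v (h : v ∈ S), tgt ρ v = ρ ⟨v, h⟩ := fun ρ v h => by simp [tgt, h]
  have htgt0 : ∀ ρ, ∀ v ∉ S, tgt ρ v = 0 := fun ρ v h => by simp [tgt, h]
  have hex : ∀ ρ : S → ZMod p, ∃ x : Kˣ, (∀ v, ¬ IsUnram Z v → ord v x = 0) ∧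
      (∀ v, ¬ IsSplit Z v → tgt ρ v = lam Z p ζ x v) ∧ ∀ v ∉ S, ¬ IsSplit Z v → ord v x = 0 := by
    intro ρ
    refine exists_improve S₀ S hgen Finset.subset_union_left ?_ ?_ (tgt ρ) (htgt0 ρ)
      (htop ▸ Submodule.mem_top)
    · intro v hv
      by_contra hu
      exact (Finset.disjoint_left.mp hdisj hv) ((hR v).mpr hu)
    · intro v hv
      exact Finset.mem_union_right _ ((hR v).mpr hv)
  choose X hX1 hX2 hX3 using hex
  let S' : Finset (Pl K) := S ∪ Finset.univ.biUnion fun ρ => (ord_support_finite (X ρ)).toFinset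
  have hS'split : ∀ v ∈ S', v ∉ S → IsSplit Z v := by
    intro v hv hvS
    by_contra hns
    rcases Finset.mem_union.mp hv with h | h
    · exact hvS h
    · obtain ⟨ρ, -, hρ⟩ := Finset.mem_biUnion.mp h
      rw [Set.Finite.mem_toFinset] at hρ
      exact hρ (hX3 ρ v hvS hns)
  refine T1_fin hp hζ hdeg htame S' ?_ (hgen.mono
    (Finset.subset_union_left.trans Finset.subset_union_left)) ?_
  · intro v hv
    by_contra hu
    exact hv (Finset.mem_union_left _ (Finset.mem_union_right _ ((hR v).mpr hu)))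
  · intro ρ
    let ρ' : S → ZMod p := fun v => ρ v
    refine ⟨X ρ', ?_, ?_⟩
    · rw [mem_SUnit_iff]
      intro v hv
      by_contra h0
      apply hv
      refine Finset.mem_union_right _ (Finset.mem_biUnion.mpr ⟨ρ', Finset.mem_univ _, ?_⟩)
      rw [Set.Finite.mem_toFinset]
      exact h0
    · intro v hv
      constructor
      · intro hu
        have hvS : v ∈ S := Finset.mem_union_right _ ((hR v).mpr hu)
        refine ⟨hX1 ρ' v hu, ?_⟩
        have h1 := hX2 ρ' v (not_isSplit_of_not_isUnram hdeg hu)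
        rw [htgt ρ' v hvS] at h1
        simp only [lam, hu, if_false] at h1
        exact h1.symm
      · intro hu hns
        have hvS : v ∈ S := by
          by_contra hvS
          exact hns (hS'split v hv hvS)
        have h1 := hX2 ρ' v hns
        rw [htgt ρ' v hvS] at h1
        simp only [lam, hu, if_true] at h1
        exact h1.symm

end T1aux

/-- piece S14/T1-char.  Character form of the first inequality. -/
theorem T1char (hp : p ≠ 2) (hζ : IsPrimitiveRoot ζ p) (hdeg : Module.finrank K Z = p)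
    (htame : ∀ v : Pl K, ¬ IsUnram Z v → Tame p v) :
    ∃ c φ : Pl K → ZMod p,
      (∀ v, IsUnram Z v → c v = 0) ∧
      (∀ v, ¬ IsUnram Z v → φ v = 0) ∧
      (∀ v, IsSplit Z v → φ v = 0) ∧
      (c ≠ 0 ∨ φ ≠ 0) ∧
      ∀ x : Kˣ, (∀ v, ¬ IsUnram Z v → ord v x = 0) → rpair p ζ c x + pair p φ x = 0 := by
  classical
  obtain ⟨f, hf0, hf⟩ := Submodule.exists_le_ker_of_lt_top (Msub Z p ζ)
    (lt_top_iff_ne_top.mpr (Msub_ne_top hp hζ hdeg htame))
  refine ⟨fun v => if IsUnram Z v then 0 else f (Finsupp.single v 1),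
    fun v => if IsUnram Z v then f (Finsupp.single v 1) else 0, ?_, ?_, ?_, ?_, ?_⟩
  · intro v hv; simp [hv]
  · intro v hv; simp [hv]
  · intro v hv
    have h1 : Finsupp.single v (1 : ZMod p) ∈ Msub Z p ζ := by
      refine ⟨1, fun u _ => ord_one u, fun u hu => ?_⟩
      have : u ≠ v := by rintro rfl; exact hu hv
      rw [lam_one, Finsupp.single_apply, if_neg this.symm]
    have h2 : f (Finsupp.single v 1) = 0 := hf h1
    simp [h2]
  · by_contra hcon
    push Not at hcon
    apply hf0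
    apply Finsupp.lhom_ext'
    intro v
    apply LinearMap.ext_ring
    have h1 := congrFun hcon.1 v
    have h2 := congrFun hcon.2 v
    simp only [Pi.zero_apply] at h1 h2
    by_cases hu : IsUnram Z v
    · simpa [hu] using h2
    · simpa [hu] using h1
  · intro x hx
    have h1 : Lam Z p ζ x ∈ Msub Z p ζ := ⟨x, hx, fun v _ => rfl⟩
    have h2 : f (Lam Z p ζ x) = 0 := hf h1
    let T : Finset (Pl K) := (finite_not_isUnram (K := K) (Z := Z)).toFinset ∪
      (ord_support_finite x).toFinset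
    have hT1 : ∀ v ∉ T, IsUnram Z v := by
      intro v hv
      by_contra hu
      exact hv (Finset.mem_union_left _ (by simpa using hu))
    have hT2 : ∀ v ∉ T, ord v x = 0 := by
      intro v hv
      by_contra hu
      exact hv (Finset.mem_union_right _ (by simpa using hu))
    rw [rpair_eq_sum _ x T (fun v hv => by simp [hT1 v hv]), pair_eq_sum _ x T (fun v hv => Or.inr (hT2 v hv)),
      ← Finset.sum_add_distrib]
    have h3 : Lam Z p ζ x = ∑ v ∈ T, Finsupp.single v (lam Z p ζ x v) := by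
      ext u
      rw [Finsupp.finsetSum_apply, Lam_apply]
      simp only [Finsupp.single_apply]
      rw [Finset.sum_ite_eq' T u]
      split_ifs with hu
      · rfl
      · simp [lam, hT1 u hu, hT2 u hu]
    rw [h3, map_sum] at h2
    refine Eq.trans (Finset.sum_congr rfl fun v _ => ?_) h2
    have h4 : Finsupp.single v (lam Z p ζ x v) = lam Z p ζ x v • Finsupp.single v (1 : ZMod p) := by
      rw [Finsupp.smul_single, smul_eq_mul, mul_one]
    rw [h4, map_smul, smul_eq_mul]
    by_cases hu : IsUnram Z v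
    · simp [lam, hu, mul_comm]
    · simp [lam, hu, mul_comm]

end Fermat.Agent.S14
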