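import Fermat.Agent.S14.Basic

/-!
# S14/T2a: the index of the local `p`-th powers
-/

set_option autoImplicit false

namespace Fermat.Agent.S14.T2a

open IsDedekindDomain NumberField

section Group

variable {G : Type*} [CommGroup G]

/-- a subgroup with finitely many coset representatives has small index -/
theorem index_le_of_reps (H : Subgroup G) {n : ℕ} (f : Fin n → G)
    (h : ∀ x, ∃ i, (f i)⁻¹ * x ∈ H) : H.index ≠ 0 ∧ H.index ≤ n := by
  have hsurj : Function.Surjective (fun i : Fin n => (QuotientGroup.mk (f i) : G ⧸ H)) := by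
    intro q
    obtain ⟨x, rfl⟩ := QuotientGroup.mk_surjective q
    obtain ⟨i, hi⟩ := h x
    exact ⟨i, QuotientGroup.eq.mpr hi⟩
  have hfin : Finite (G ⧸ H) := Finite.of_surjective _ hsurj
  refine ⟨Subgroup.index_ne_zero_of_finite, ?_⟩
  have := Nat.card_le_card_of_surjective _ hsurj
  rwa [Nat.card_fin] at this

theorem relIndex_le_of_reps (H B : Subgroup G) {n : ℕ} (f : Fin n → G) (hf : ∀ i, f i ∈ B)
    (h : ∀ x ∈ B, ∃ i, (f i)⁻¹ * x ∈ H) : H.relIndex B ≠ 0 ∧ H.relIndex B ≤ n := by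
  refine index_le_of_reps (H.subgroupOf B) (fun i => (⟨f i, hf i⟩ : B)) ?_
  rintro ⟨x, hx⟩
  obtain ⟨i, hi⟩ := h x hx
  exact ⟨i, Subgroup.mem_subgroupOf.mpr hi⟩

/-- one step of a filtration -/
theorem index_sup_step (A B C : Subgroup G) (hCB : C ≤ B) {n m : ℕ}
    (h1 : C.relIndex B ≠ 0 ∧ C.relIndex B ≤ n) (h2 : (A ⊔ B).index ≠ 0 ∧ (A ⊔ B).index ≤ m) :
    (A ⊔ C).index ≠ 0 ∧ (A ⊔ C).index ≤ n * m := by
  have hle : A ⊔ C ≤ A ⊔ B := sup_le_sup_left hCB A
  have e1 : A ⊔ B = B ⊔ (A ⊔ C) := by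
    apply le_antisymm
    · exact sup_le (le_sup_left.trans le_sup_right) le_sup_left
    · exact sup_le le_sup_right hle
  have e2 : (A ⊔ C).relIndex (A ⊔ B) = (A ⊔ C).relIndex B := by
    rw [e1, Subgroup.relIndex_sup_right]
  have e3 : (A ⊔ C).relIndex B ≤ C.relIndex B :=
    Subgroup.relIndex_le_of_le_left le_sup_right h1.1
  have e4 : (A ⊔ C).relIndex B ≠ 0 := by
    intro h0
    have := Subgroup.relIndex_dvd_of_le_left B (le_sup_right : C ≤ A ⊔ C)
    rw [h0, zero_dvd_iff] at this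
    exact h1.1 this
  rw [← Subgroup.relIndex_mul_index hle, e2]
  exact ⟨mul_ne_zero e4 h2.1, Nat.mul_le_mul (e3.trans h1.2) h2.2⟩

end Group

section Tame

variable {K : Type*} [Field K] [NumberField K] (p : ℕ) [Fact p.Prime] (ζ : 𝓞 K)

/-- the homomorphism whose kernel is `tamePow` -/
noncomputable def tameHom (v : Pl K) : Kˣ →* Multiplicative (ZMod p × ZMod p) where
  toFun x := Multiplicative.ofAdd ((ord v x : ZMod p), res p ζ v x)
  map_one' := by
    rw [ord_one, res_one]; simp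
  map_mul' x y := by
    rw [ord_mul, res_mul, ← ofAdd_add]
    congr 1
    ext <;> simp

theorem tameHom_ker (v : Pl K) : (tameHom p ζ v).ker = tamePow p ζ v := by
  ext x
  rw [MonoidHom.mem_ker]
  show Multiplicative.ofAdd ((ord v x : ZMod p), res p ζ v x) = 1 ↔
    ((p : ℤ) ∣ ord v x ∧ res p ζ v x = 0)
  rw [ofAdd_eq_one, Prod.mk_eq_zero, ZMod.intCast_zmod_eq_zero_iff_dvd]

theorem index_tamePow (v : Pl K) :
    (tamePow p ζ v).index ≠ 0 ∧ (tamePow p ζ v).index ≤ p ^ 2 := by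
  rw [← tameHom_ker, Subgroup.index_ker]
  constructor
  · exact Nat.card_pos.ne'
  · calc Nat.card (tameHom p ζ v).range ≤ Nat.card (Multiplicative (ZMod p × ZMod p)) :=
          Nat.card_le_card_of_injective _ Subtype.val_injective
      _ = p ^ 2 := by
          rw [Nat.card_congr Multiplicative.toAdd, Nat.card_prod, Nat.card_zmod, sq]

end Tame

section Wild

variable {K : Type*} [Field K] [NumberField K] {p : ℕ} [Fact p.Prime]
  [IsCyclotomicExtension {p} ℚ K] {ζ : 𝓞 K}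

omit [NumberField K] [Fact p.Prime] [IsCyclotomicExtension {p} ℚ K] in
theorem coe_prim (hζ : IsPrimitiveRoot ζ p) : IsPrimitiveRoot (ζ : K) p :=
  hζ.map_of_injective (f := algebraMap (𝓞 K) K) RingOfIntegers.coe_injective

theorem prime_zeta_sub_one (hζ : IsPrimitiveRoot ζ p) : Prime (ζ - 1) := by
  have := (coe_prim hζ).zeta_sub_one_prime'
  have e : (coe_prim hζ).toInteger = ζ := RingOfIntegers.ext rfl
  rwa [e] at this

theorem wild_asIdeal (hζ : IsPrimitiveRoot ζ p) {v : Pl K} (hv : ¬ Tame p v) :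
    v.asIdeal = Ideal.span {ζ - 1} := by
  have hp : (p : 𝓞 K) ∈ v.asIdeal := not_not.mp hv
  have hass := IsCyclotomicExtension.Rat.associated_zeta_sub_one_pow_prime p (coe_prim hζ)
  have e : (coe_prim hζ).toInteger = ζ := RingOfIntegers.ext rfl
  rw [e] at hass
  have h1 : (ζ - 1) ^ (p - 1) ∈ v.asIdeal := Ideal.mem_of_dvd _ hass.symm.dvd hp
  have h2 : ζ - 1 ∈ v.asIdeal := v.isPrime.mem_of_pow_mem _ h1
  have hprime : (Ideal.span {ζ - 1} : Ideal (𝓞 K)).IsPrime :=
    (Ideal.span_singleton_prime (prime_zeta_sub_one hζ).ne_zero).mpr (prime_zeta_sub_one hζ)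
  have hmax : (Ideal.span {ζ - 1} : Ideal (𝓞 K)).IsMaximal :=
    hprime.isMaximal (by
      rw [Ne, Ideal.span_singleton_eq_bot]; exact (prime_zeta_sub_one hζ).ne_zero)
  exact (hmax.eq_of_le v.isPrime.ne_top ((Ideal.span_singleton_le_iff_mem _).mpr h2)).symm

theorem wild_unique (hζ : IsPrimitiveRoot ζ p) {v w : Pl K} (hv : ¬ Tame p v) (hw : ¬ Tame p w) :
    v = w :=
  HeightOneSpectrum.ext (by rw [wild_asIdeal hζ hv, wild_asIdeal hζ hw])

theorem wild_absNorm (hζ : IsPrimitiveRoot ζ p) {v : Pl K} (hv : ¬ Tame p v) :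
    Ideal.absNorm v.asIdeal = p := by
  rw [wild_asIdeal hζ hv]
  have hK : IsCyclotomicExtension {p ^ (0 + 1)} ℚ K := by rwa [zero_add, pow_one]
  have hζ' : IsPrimitiveRoot (ζ : K) (p ^ (0 + 1)) := by
    rw [zero_add, pow_one]; exact coe_prim hζ
  have := IsCyclotomicExtension.Rat.absNorm_span_zeta_sub_one p 0 hζ'
  have e : hζ'.toInteger = ζ := RingOfIntegers.ext rfl
  rwa [e] at this

/-- the residue field at the wild place is the prime field -/
theorem wild_exists_nat (hζ : IsPrimitiveRoot ζ p) {v : Pl K} (hv : ¬ Tame p v)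
    (u : 𝓞 K ⧸ v.asIdeal) : ∃ c : Fin p, u = ((c : ℕ) : 𝓞 K ⧸ v.asIdeal) := by
  have hfin := resaux_finite v
  have hcard : Nat.card (𝓞 K ⧸ v.asIdeal) = p := by rw [resaux_card, wild_absNorm hζ hv]
  have hnt : Nontrivial (𝓞 K ⧸ v.asIdeal) := Ideal.Quotient.nontrivial_iff.mpr v.isPrime.ne_top
  have hchar : CharP (𝓞 K ⧸ v.asIdeal) p := by
    rw [CharP.charP_iff_prime_eq_zero Fact.out]
    have : (Ideal.Quotient.mk v.asIdeal (p : 𝓞 K)) = 0 :=
      Ideal.Quotient.eq_zero_iff_mem.mpr (not_not.mp hv)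
    simpa using this
  have hinj : Function.Injective (fun c : Fin p => ((c : ℕ) : 𝓞 K ⧸ v.asIdeal)) := by
    intro c d hcd
    exact Fin.ext (CharP.natCast_injOn_Iio (𝓞 K ⧸ v.asIdeal) p c.2 d.2 hcd)
  have hbij := hinj.bijective_of_nat_card_le (by rw [hcard, Nat.card_fin])
  obtain ⟨c, hc⟩ := hbij.2 u
  exact ⟨c, hc.symm⟩

/-- valuation of an integer of `K` in terms of ideal membership -/
theorem val_le_exp_iff (v : Pl K) (a : 𝓞 K) (n : ℕ) :
    v.valuation K (a : K) ≤ WithZero.exp (-(n : ℤ)) ↔ a ∈ v.asIdeal ^ n := by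
  rw [HeightOneSpectrum.valuation_of_algebraMap, HeightOneSpectrum.intValuation_le_pow_iff_mem]

theorem val_eq_one_iff (v : Pl K) (a : 𝓞 K) : v.valuation K (a : K) = 1 ↔ a ∉ v.asIdeal := by
  rw [HeightOneSpectrum.valuation_of_algebraMap, HeightOneSpectrum.intValuation_eq_one_iff]

theorem val_pi (hζ : IsPrimitiveRoot ζ p) {v : Pl K} (hv : ¬ Tame p v) :
    v.valuation K ((ζ : K) - 1) = WithZero.exp (-1 : ℤ) := by
  have h := v.intValuation_singleton (prime_zeta_sub_one hζ).ne_zero (wild_asIdeal hζ hv)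
  rw [← HeightOneSpectrum.valuation_of_algebraMap (K := K)] at h
  rw [← h]
  simp

theorem val_pi_pow (hζ : IsPrimitiveRoot ζ p) {v : Pl K} (hv : ¬ Tame p v) (i : ℕ) :
    v.valuation K (((ζ : K) - 1) ^ i) = WithZero.exp (-(i : ℤ)) := by
  rw [map_pow, val_pi hζ hv, ← WithZero.exp_nsmul]
  congr 1
  simp

/-- a `v`-integral element is congruent to one of `0, …, p - 1` -/
theorem wild_approx (hζ : IsPrimitiveRoot ζ p) {v : Pl K} (hv : ¬ Tame p v) (w : K)
    (hw : v.valuation K w ≤ 1) :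
    ∃ c : Fin p, v.valuation K (w - ((c : ℕ) : K)) ≤ WithZero.exp (-1 : ℤ) := by
  obtain ⟨a, ⟨b, hb⟩, hab⟩ := HeightOneSpectrum.exists_primeCompl_mul_eq_of_integer v w hw
  have hb' : b ∉ v.asIdeal := hb
  have hmax : v.asIdeal.IsMaximal := v.isMaximal
  let _ := Ideal.Quotient.field v.asIdeal
  have hb0 : Ideal.Quotient.mk v.asIdeal b ≠ 0 := by
    rwa [Ne, Ideal.Quotient.eq_zero_iff_mem]
  obtain ⟨c, hc⟩ := wild_exists_nat hζ hv
    (Ideal.Quotient.mk v.asIdeal a * (Ideal.Quotient.mk v.asIdeal b)⁻¹)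
  refine ⟨c, ?_⟩
  have hmem : a - ((c : ℕ) : 𝓞 K) * b ∈ v.asIdeal := by
    rw [← Ideal.Quotient.eq_zero_iff_mem, map_sub, map_mul, map_natCast, ← hc,
      inv_mul_cancel_right₀ hb0, sub_self]
  have hbK : (algebraMap (𝓞 K) K b) ≠ 0 := by
    rw [Ne, map_eq_zero_iff _ (IsFractionRing.injective (𝓞 K) K)]
    rintro rfl
    exact hb' (zero_mem _)
  have hvb : v.valuation K (algebraMap (𝓞 K) K b) = 1 := (val_eq_one_iff v b).mpr hb'
  have e : (w - ((c : ℕ) : K)) * algebraMap (𝓞 K) K b =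
      algebraMap (𝓞 K) K (a - ((c : ℕ) : 𝓞 K) * b) := by
    have hab' : w * algebraMap (𝓞 K) K b = algebraMap (𝓞 K) K a := hab
    rw [sub_mul, hab', map_sub, map_mul, map_natCast]
  have h1 : v.valuation K (w - ((c : ℕ) : K)) =
      v.valuation K (algebraMap (𝓞 K) K (a - ((c : ℕ) : 𝓞 K) * b)) := by
    rw [← e, map_mul, hvb, mul_one]
  rw [h1]
  have := (val_le_exp_iff v (a - ((c : ℕ) : 𝓞 K) * b) 1).mpr (by rwa [pow_one])
  simpa using this

theorem val_natCast_le_one (v : Pl K) (c : ℕ) : v.valuation K (c : K) ≤ 1 := by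
  have := v.valuation_le_one (K := K) (c : 𝓞 K)
  simpa using this

/-- one step of the unit filtration at the wild place -/
theorem wild_step (hζ : IsPrimitiveRoot ζ p) {v : Pl K} (hv : ¬ Tame p v) (i : ℕ) (hi : 1 ≤ i) :
    (Ulev v (i + 1)).relIndex (Ulev v i) ≠ 0 ∧ (Ulev v (i + 1)).relIndex (Ulev v i) ≤ p := by
  set π : K := (ζ : K) - 1 with hπ
  have hπi : v.valuation K (π ^ i) = WithZero.exp (-(i : ℤ)) := val_pi_pow hζ hv i
  have hπ0 : π ^ i ≠ 0 := by
    intro h
    rw [h, map_zero] at hπi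
    exact WithZero.exp_ne_zero hπi.symm
  have hsmall : ∀ c : ℕ, v.valuation K ((c : K) * π ^ i) ≤ WithZero.exp (-(i : ℤ)) := by
    intro c
    rw [map_mul, hπi]
    exact mul_le_of_le_one_left' (val_natCast_le_one v c)
  have hlt : WithZero.exp (-(i : ℤ)) < (1 : WithZero (Multiplicative ℤ)) := by
    rw [← WithZero.exp_zero, WithZero.exp_lt_exp]; omega
  have hone : ∀ c : ℕ, v.valuation K (1 + (c : K) * π ^ i) = 1 := fun c =>
    Valuation.map_one_add_of_lt _ ((hsmall c).trans_lt hlt)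
  have hne : ∀ c : ℕ, (1 + (c : K) * π ^ i) ≠ 0 := by
    intro c h
    have := hone c
    rw [h, map_zero] at this
    exact zero_ne_one this
  refine relIndex_le_of_reps _ _ (fun c : Fin p => Units.mk0 _ (hne c)) ?_ ?_
  · intro c
    refine ⟨hone c, ?_⟩
    show v.valuation K (1 + ((c : ℕ) : K) * π ^ i - 1) ≤ _
    rw [add_sub_cancel_left]
    exact hsmall c
  · intro u hu
    obtain ⟨hu1, hu2⟩ := hu
    have hw : v.valuation K (((u : K) - 1) / π ^ i) ≤ 1 := by
      rw [map_div₀, hπi]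
      exact div_le_one_of_le₀ hu2 zero_le
    obtain ⟨c, hc⟩ := wild_approx hζ hv _ hw
    refine ⟨c, ?_, ?_⟩
    · show v.valuation K (((Units.mk0 _ (hne c))⁻¹ * u : Kˣ) : K) = 1
      push_cast
      rw [map_mul, map_inv₀, Units.val_mk0, hone, hu1]
      simp
    · show v.valuation K ((((Units.mk0 _ (hne c))⁻¹ * u : Kˣ) : K) - 1) ≤ _
      have e : (((Units.mk0 _ (hne c))⁻¹ * u : Kˣ) : K) - 1 =
          (1 + ((c : ℕ) : K) * π ^ i)⁻¹ * (π ^ i * (((u : K) - 1) / π ^ i - ((c : ℕ) : K))) := by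
        push_cast
        rw [Units.val_mk0]
        have := hne c
        field_simp
        ring
      rw [e, map_mul, map_inv₀, hone, inv_one, one_mul, map_mul, hπi]
      calc WithZero.exp (-(i : ℤ)) * v.valuation K (((u : K) - 1) / π ^ i - ((c : ℕ) : K))
          ≤ WithZero.exp (-(i : ℤ)) * WithZero.exp (-1 : ℤ) := by gcongr
        _ = WithZero.exp (-((i + 1 : ℕ) : ℤ)) := by
            rw [← WithZero.exp_add]; congr 1; push_cast; ring

/-- `(p-1)`-st powers of `v`-units are principal units at the wild place -/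
theorem wild_pow_mem_Ulev (hζ : IsPrimitiveRoot ζ p) {v : Pl K} (hv : ¬ Tame p v) (z : Kˣ)
    (hz : ord v z = 0) : z ^ (p - 1) ∈ Ulev v 1 := by
  obtain ⟨a, b, ha, hb, hab⟩ := exists_frac v z hz
  have hN := wild_absNorm hζ hv
  have key : ∀ c : 𝓞 K, c ∉ v.asIdeal → c ^ (p - 1) - 1 ∈ v.asIdeal := by
    intro c hc
    have := resaux_pow_card v (Ideal.Quotient.mk v.asIdeal c)
      (by rwa [Ne, Ideal.Quotient.eq_zero_iff_mem])
    rw [hN] at this
    rw [← Ideal.Quotient.eq_zero_iff_mem, map_sub, map_pow, this, map_one, sub_self]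
  have hmem : a ^ (p - 1) - b ^ (p - 1) ∈ v.asIdeal := by
    have := v.asIdeal.sub_mem (key a ha) (key b hb)
    rwa [sub_sub_sub_cancel_right] at this
  have hvb : v.valuation K (algebraMap (𝓞 K) K b) = 1 := (val_eq_one_iff v b).mpr hb
  have hbK : (algebraMap (𝓞 K) K b) ≠ 0 := by
    intro h
    rw [h, map_zero] at hvb
    exact zero_ne_one hvb
  refine ⟨?_, ?_⟩
  · rw [valuation_eq_one_iff, ord_pow, hz, mul_zero]
  · have e : ((z ^ (p - 1) : Kˣ) : K) - 1 =
        algebraMap (𝓞 K) K (a ^ (p - 1) - b ^ (p - 1)) / (algebraMap (𝓞 K) K b) ^ (p - 1) := by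
      rw [Units.val_pow_eq_pow_val, hab, div_pow, map_sub, map_pow, map_pow, sub_div,
        div_self (pow_ne_zero _ hbK)]
    rw [e, map_div₀, map_pow, hvb, one_pow, div_one]
    exact (val_le_exp_iff v _ 1).mpr (by rwa [pow_one])

theorem wild_base (hζ : IsPrimitiveRoot ζ p) {v : Pl K} (hv : ¬ Tame p v) :
    (pows K p ⊔ Ulev v 1).index ≠ 0 ∧ (pows K p ⊔ Ulev v 1).index ≤ p := by
  have hπ0 : (ζ : K) - 1 ≠ 0 := by
    intro h
    have := val_pi hζ hv
    rw [h, map_zero] at this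
    exact WithZero.exp_ne_zero this.symm
  set P : Kˣ := Units.mk0 _ hπ0 with hP
  have hordP : ord v P = 1 := by
    have h1 := valuation_eq_exp v P
    rw [hP, Units.val_mk0, val_pi hζ hv, WithZero.exp_inj] at h1
    rw [hP]; omega
  have hp0 : (p : ℤ) ≠ 0 := by exact_mod_cast (Fact.out : p.Prime).ne_zero
  have hppos : (0 : ℤ) < p := by exact_mod_cast (Fact.out : p.Prime).pos
  refine index_le_of_reps _ (fun a : Fin p => P ^ (a : ℕ)) ?_
  intro x
  set n := ord v x with hn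
  have ha0 : 0 ≤ n % p := Int.emod_nonneg _ hp0
  have ha1 : n % p < p := Int.emod_lt_of_pos _ hppos
  refine ⟨⟨(n % p).toNat, by omega⟩, ?_⟩
  set Q : Kˣ := (P ^ (n / p)) ^ p with hQ
  set w : Kˣ := (P ^ (n % p).toNat)⁻¹ * x with hw
  set z : Kˣ := w * Q⁻¹ with hz
  have hordz : ord v z = 0 := by
    rw [hz, hw, hQ, ord_mul, ord_mul, ord_inv, ord_inv, ord_pow, ord_pow, ord_zpow, hordP, ← hn]
    have := Int.emod_add_mul_ediv n p
    have h2 : (((n % p).toNat : ℕ) : ℤ) = n % p := Int.toNat_of_nonneg ha0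
    rw [h2]
    linarith
  have e1 : w = Q * z := by rw [hz, mul_comm, inv_mul_cancel_right]
  have e2 : z = z ^ p * (z ^ (p - 1))⁻¹ := by
    have hp1 : p = (p - 1) + 1 := by have := (Fact.out : p.Prime).pos; omega
    conv_rhs => rw [hp1, pow_succ]
    simp
  show w ∈ _
  rw [e1, e2]
  refine Subgroup.mul_mem _ (Subgroup.mem_sup_left ⟨_, rfl⟩)
    (Subgroup.mul_mem_sup ⟨_, rfl⟩ (Subgroup.inv_mem _ (wild_pow_mem_Ulev hζ hv z hordz)))

/-- the filtration bound -/
theorem wild_level (hζ : IsPrimitiveRoot ζ p) {v : Pl K} (hv : ¬ Tame p v) (i : ℕ) :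
    (pows K p ⊔ Ulev v (i + 1)).index ≠ 0 ∧ (pows K p ⊔ Ulev v (i + 1)).index ≤ p ^ (i + 1) := by
  induction i with
  | zero => simpa using wild_base hζ hv
  | succ i ih =>
    have := index_sup_step (pows K p) (Ulev v (i + 1)) (Ulev v (i + 1 + 1))
      (Ulev_anti v (Nat.le_succ _)) (wild_step hζ hv (i + 1) (by omega)) ih
    rwa [← pow_succ'] at this

theorem index_wildPow (hζ : IsPrimitiveRoot ζ p) {v : Pl K} (hv : ¬ Tame p v) :
    (wildPow p v).index ≠ 0 ∧ (wildPow p v).index ≤ p ^ (p + 1) :=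
  wild_level hζ hv p

theorem index_locPow (hζ : IsPrimitiveRoot ζ p) (v : Pl K) [Decidable (Tame p v)] :
    (locPow p ζ v).index ≠ 0 ∧
      (locPow p ζ v).index ≤ p ^ (2 + if Tame p v then 0 else p - 1) := by
  by_cases hv : Tame p v
  · have e : locPow p ζ v = tamePow p ζ v := by unfold locPow; rw [if_pos hv]
    rw [e, if_pos hv]
    exact index_tamePow p ζ v
  · have e : locPow p ζ v = wildPow p v := by unfold locPow; rw [if_neg hv]
    rw [e, if_neg hv]
    have hp1 : 2 + (p - 1) = p + 1 := by have := (Fact.out : p.Prime).pos; omega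
    rw [hp1]
    exact index_wildPow hζ hv

open Classical in
theorem index_locPowS_aux (hζ : IsPrimitiveRoot ζ p) (S : Finset (Pl K)) :
    (locPowS p ζ S).index ≠ 0 ∧
      (locPowS p ζ S).index ≤ p ^ (∑ v ∈ S, (2 + if Tame p v then 0 else p - 1)) := by
  induction S using Finset.induction_on with
  | empty => simp [locPowS]
  | insert a S ha ih =>
    have e : locPowS p ζ (insert a S) = locPow p ζ a ⊓ locPowS p ζ S := by
      unfold locPowS
      rw [Finset.iInf_insert]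
    rw [e, Finset.sum_insert ha, pow_add]
    have h1 := index_locPow (ζ := ζ) hζ a
    exact ⟨Subgroup.index_inf_ne_zero h1.1 ih.1,
      Subgroup.index_inf_le.trans (Nat.mul_le_mul h1.2 ih.2)⟩

theorem index_locPowS_le' (hζ : IsPrimitiveRoot ζ p) (S : Finset (Pl K)) :
    (locPowS p ζ S).index ≠ 0 ∧ (locPowS p ζ S).index ≤ p ^ (2 * S.card + (p - 1)) := by
  classical
  obtain ⟨h1, h2⟩ := index_locPowS_aux (ζ := ζ) hζ S
  refine ⟨h1, h2.trans (Nat.pow_le_pow_right (Fact.out : p.Prime).pos ?_)⟩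
  rw [Finset.sum_add_distrib, Finset.sum_const, smul_eq_mul, mul_comm, Finset.sum_ite,
    Finset.sum_const_zero, zero_add, Finset.sum_const, smul_eq_mul]
  have hc : (S.filter (fun v => ¬ Tame p v)).card ≤ 1 := by
    rw [Finset.card_le_one]
    intro a ha b hb
    exact wild_unique hζ (Finset.mem_filter.mp ha).2 (Finset.mem_filter.mp hb).2
  have := Nat.mul_le_mul_right (p - 1) hc
  omega

end Wild

end Fermat.Agent.S14.T2a
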