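import Fermat.Agent.S14.KT1
import Fermat.Agent.S14.UP
import Fermat.Agent.S14.T2aAux

/-!
# S14: the second inequality (Chevalley's count) for exponent `p` Kummer extensions of `ℚ(ζ_p)`.
-/

set_option autoImplicit false

namespace Fermat.Agent.S14

open IsDedekindDomain NumberField

variable {K : Type*} [Field K] [NumberField K] {p : ℕ} [Fact p.Prime]
  [IsCyclotomicExtension {p} ℚ K] {ζ : 𝓞 K}

/-- index of the local `p`-th powers: `[Kˣ : W_S] ≤ p ^ (2 #S + p - 1)` if `S` contains the wild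
place. -/
theorem index_locPowS_le (hp : p ≠ 2) (hζ : IsPrimitiveRoot ζ p) (S : Finset (Pl K))
    (hwild : ∀ v : Pl K, ¬ Tame p v → v ∈ S) :
    (locPowS p ζ S).index ≠ 0 ∧ (locPowS p ζ S).index ≤ p ^ (2 * S.card + (p - 1)) :=
  T2a.index_locPowS_le' hζ S

/-- an `S ∪ T`-unit which is a local `p`-th power at all places of `S` is a `p`-th power, provided
the `S`-units surject onto the residue symbols at `T`. -/
theorem mem_pows_of_mem_locPowS (hp : p ≠ 2) (hζ : IsPrimitiveRoot ζ p) (S T ST : Finset (Pl K))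
    (hST : ∀ v, v ∈ ST ↔ v ∈ S ∨ v ∈ T)
    (hwild : ∀ v : Pl K, ¬ Tame p v → v ∈ S) (hgen : Gen S) (hdisj : Disjoint S T)
    (hsurj : ∀ ρ : Pl K → ZMod p, ∃ x ∈ SUnit K S, ∀ t ∈ T, res p ζ t x = ρ t)
    (a : Kˣ) (ha : a ∈ SUnit K ST) (ha' : a ∈ locPowS p ζ S) : a ∈ pows K p := by
  classical
  by_contra hz
  rw [mem_locPowS_iff] at ha'
  rw [mem_SUnit_iff] at ha
  have hprim : ∀ v : Pl K, ¬ Tame p v → a ∈ primaryAt p v := fun v hv =>
    wildPow_le_primaryAt v ((mem_locPow_wild hv a).mp (ha' v (hwild v hv)))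
  obtain ⟨c, φ, hc, hφ, hφ', hne, hrec⟩ := KT1 hp hζ a hz hprim
  -- ramified places lie in `T`
  have hR : ∀ v, ¬ (p : ℤ) ∣ ord v a → v ∈ T ∧ v ∉ S := by
    intro v hv
    have h1 : v ∉ S := fun h => hv (dvd_ord_of_mem_locPow v a (ha' v h))
    have h2 : v ∈ ST := by
      by_contra h
      exact hv (by rw [ha v h]; exact dvd_zero _)
    exact ⟨((hST v).mp h2).resolve_left h1, h1⟩
  have hφS : ∀ v ∈ S, φ v = 0 := fun v hv => hφ' v (ha' v hv)
  have hcT : ∀ v ∉ T, c v = 0 := fun v hv => hc v (by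
    by_contra h
    exact hv (hR v h).1)
  -- `c = 0`
  have hc0 : c = 0 := by
    funext t0
    by_cases ht0 : t0 ∈ T
    · obtain ⟨x, hx, hxT⟩ := hsurj (fun t => if t = t0 then 1 else 0)
      rw [mem_SUnit_iff] at hx
      have h1 := hrec x (fun v hv => hx v (hR v hv).2)
      have h2 : pair p φ x = 0 := by
        rw [pair_eq_sum φ x ∅ (fun v _ => by
          by_cases hvS : v ∈ S
          · exact Or.inl (hφS v hvS)
          · exact Or.inr (hx v hvS))]
        simp
      rw [h2, add_zero, rpair_eq_sum c x T hcT] at h1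
      rw [Finset.sum_congr rfl (fun t ht => by rw [hxT t ht])] at h1
      simpa [ht0] using h1
    · exact hcT t0 ht0
  have hφ0 : φ = 0 := by
    funext v
    by_cases hvS : v ∈ S
    · exact hφS v hvS
    by_cases hva : (p : ℤ) ∣ ord v a
    · obtain ⟨x, hx⟩ := hgen (Finsupp.single v 1)
      have h1 := hrec x (fun w hw => by
        rw [hx w (hR w hw).2, Finsupp.single_apply, if_neg]
        rintro rfl
        exact hw hva)
      have h2 : rpair p ζ c x = 0 := by
        rw [rpair_eq_sum c x ∅ (fun v _ => by rw [hc0]; rfl)]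
        simp
      rw [h2, zero_add, pair_eq_sum φ x {v} (fun w hw => by
        by_cases hwS : w ∈ S
        · exact Or.inl (hφS w hwS)
        · right
          rw [hx w hwS, Finsupp.single_apply, if_neg]
          rintro rfl
          exact hw (Finset.mem_singleton_self _))] at h1
      rw [Finset.sum_singleton, hx v hvS] at h1
      simpa using h1
    · exact hφ v hva
  rcases hne with h | h
  · exact h hc0
  · exact h hφ0

/-- **Second inequality.** -/
theorem T2 (hp : p ≠ 2) (hζ : IsPrimitiveRoot ζ p) (S T ST : Finset (Pl K))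
    (hST : ∀ v, v ∈ ST ↔ v ∈ S ∨ v ∈ T)
    (hwild : ∀ v : Pl K, ¬ Tame p v → v ∈ S) (hgen : Gen S) (hdisj : Disjoint S T)
    (hsurj : ∀ ρ : Pl K → ZMod p, ∃ x ∈ SUnit K S, ∀ t ∈ T, res p ζ t x = ρ t) :
    (locPowS p ζ S ⊔ SUnit K ST).index ≠ 0 ∧
      (locPowS p ζ S ⊔ SUnit K ST).index * p ^ T.card ≤ p ^ (S.card + (p - 1) / 2) := by
  classical
  have hp' : p.Prime := Fact.out
  obtain ⟨h0, hle⟩ := index_locPowS_le hp hζ S hwild
  set W := locPowS p ζ S with hW
  set U := SUnit K ST with hU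
  have hcard : ST.card = S.card + T.card := by
    rw [← Finset.card_union_of_disjoint hdisj]
    congr 1
    ext v
    rw [hST, Finset.mem_union]
  have h1 : W.relIndex (W ⊔ U) * (W ⊔ U).index = W.index :=
    Subgroup.relIndex_mul_index le_sup_left
  have h2 : W.relIndex (W ⊔ U) = W.relIndex U := by
    exact Subgroup.relIndex_sup_left U W
  have h3 : W.relIndex U = (pows K p).relIndex U := by
    rw [← Subgroup.inf_relIndex_right, ← Subgroup.inf_relIndex_right (pows K p)]
    congr 1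
    ext a
    simp only [Subgroup.mem_inf]
    constructor
    · rintro ⟨ha', ha⟩
      exact ⟨mem_pows_of_mem_locPowS hp hζ S T ST hST hwild hgen hdisj hsurj a ha ha', ha⟩
    · rintro ⟨ha', ha⟩
      exact ⟨pows_le_locPowS S ha', ha⟩
  rw [h2, h3, relIndex_pows_SUnit hp ST, hcard] at h1
  refine ⟨fun h => h0 (by rw [← h1, h, mul_zero]), ?_⟩
  rw [← h1] at hle
  have hodd : (p - 1) = (p - 1) / 2 + (p - 1) / 2 := by
    have := hp'.eq_two_or_odd
    omega
  have e1 : p ^ (S.card + T.card + (p - 1) / 2) * (W ⊔ U).index =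
      p ^ (S.card + (p - 1) / 2) * ((W ⊔ U).index * p ^ T.card) := by
    rw [pow_add, pow_add, pow_add]; ring
  have e2 : p ^ (2 * S.card + (p - 1)) = p ^ (S.card + (p - 1) / 2) * p ^ (S.card + (p - 1) / 2) := by
    rw [← pow_add]
    congr 1
    omega
  rw [e1, e2] at hle
  exact Nat.le_of_mul_le_mul_left hle (pow_pos hp'.pos _)

/-- linear algebra: three characters of a group of order `≤ p^2` are linearly dependent -/
theorem exists_lin_dep {G : Type*} [CommGroup G] (H : Subgroup G) (hH : H.index ≠ 0)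
    (hH' : H.index ≤ p ^ 2) (f₁ f₂ f₃ : G → ZMod p)
    (h₁ : ∀ x y, f₁ (x * y) = f₁ x + f₁ y) (h₂ : ∀ x y, f₂ (x * y) = f₂ x + f₂ y)
    (h₃ : ∀ x y, f₃ (x * y) = f₃ x + f₃ y)
    (k₁ : ∀ x ∈ H, f₁ x = 0) (k₂ : ∀ x ∈ H, f₂ x = 0) (k₃ : ∀ x ∈ H, f₃ x = 0) :
    ∃ c₁ c₂ c₃ : ZMod p, (c₁ ≠ 0 ∨ c₂ ≠ 0 ∨ c₃ ≠ 0) ∧
      ∀ x, c₁ * f₁ x + c₂ * f₂ x + c₃ * f₃ x = 0 := by
  classical
  have hp' : p.Prime := Fact.out
  let F : G →* Multiplicative (Fin 3 → ZMod p) := MonoidHom.mk' (fun x => Multiplicative.ofAdd ![f₁ x, f₂ x, f₃ x])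
    (by
      intro x y
      rw [← ofAdd_add]
      congr 1
      ext i
      fin_cases i
      · exact h₁ x y
      · exact h₂ x y
      · exact h₃ x y)
  have hker : H ≤ F.ker := by
    intro x hx
    rw [MonoidHom.mem_ker]
    change Multiplicative.ofAdd ![f₁ x, f₂ x, f₃ x] = 1
    rw [k₁ x hx, k₂ x hx, k₃ x hx, ← ofAdd_zero]
    congr 1
    ext i
    fin_cases i <;> simp
  have hcard : Nat.card F.range ≤ p ^ 2 := by
    rw [← Subgroup.index_ker]
    exact (Nat.le_of_dvd (Nat.pos_of_ne_zero hH) (Subgroup.index_dvd_of_le hker)).trans hH'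
  let M : Submodule (ZMod p) (Fin 3 → ZMod p) := AddSubgroup.toZModSubmodule p (Subgroup.toAddSubgroup' F.range)
  have hM : M < ⊤ := by
    rw [lt_top_iff_ne_top]
    intro htop
    have h1 : Nat.card M = Nat.card F.range := rfl
    rw [htop] at h1
    have h2 : Nat.card (⊤ : Submodule (ZMod p) (Fin 3 → ZMod p)) = p ^ 3 := by
      rw [Nat.card_congr (Submodule.topEquiv (R := ZMod p) (M := (Fin 3 → ZMod p))).toEquiv]
      simp [Nat.card_eq_fintype_card, ZMod.card]
    rw [h2] at h1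
    rw [← h1] at hcard
    exact absurd hcard (not_le.mpr (Nat.pow_lt_pow_right hp'.one_lt (by norm_num)))
  obtain ⟨g, hg0, hg⟩ := Submodule.exists_le_ker_of_lt_top M hM
  have hgv : ∀ v : (Fin 3 → ZMod p), g v = g (Pi.single 0 1) * v 0 + g (Pi.single 1 1) * v 1 +
      g (Pi.single 2 1) * v 2 := by
    intro v
    have hv : v = v 0 • Pi.single 0 1 + v 1 • Pi.single 1 1 + v 2 • Pi.single 2 1 := by
      ext i
      fin_cases i <;> simp
    conv_lhs => rw [hv]
    simp only [map_add, map_smul, smul_eq_mul]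
    ring
  refine ⟨g (Pi.single 0 1), g (Pi.single 1 1), g (Pi.single 2 1), ?_, ?_⟩
  · by_contra hcon
    push Not at hcon
    apply hg0
    ext v
    rw [LinearMap.comp_apply, hgv]
    simp [hcon.1, hcon.2.1, hcon.2.2]
  · intro x
    have hx : (![f₁ x, f₂ x, f₃ x] : (Fin 3 → ZMod p)) ∈ M := ⟨x, rfl⟩
    have := hg hx
    rw [LinearMap.mem_ker, hgv] at this
    simpa using this

end Fermat.Agent.S14
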